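import Fermat.Agent.Galois.FrobeniusDensity
import Mathlib.RingTheory.Filtration

/-!
# The trace operator lies in the algebra of the Frobenius trace operators

`ρ : Γℚ →* B` and `e : Γℚ →* O` have finite level modulo every power of `ϖ`, and
`ρ σ + e σ • ρ σ⁻¹ ∈ T` at the Frobenius elements outside a finite set.  Then this holds for every
element.
-/

set_option autoImplicit false

noncomputable section

namespace FermatLib.MLT.LGC

local notation "Qbar" => AlgebraicClosure ℚ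
local notation "Γℚ" => (AlgebraicClosure ℚ ≃ₐ[ℚ] AlgebraicClosure ℚ)

variable {O : Type*} [CommRing O] {B : Type*} [Ring B] [Algebra O B]

/-- `g + e g • g⁻¹`. -/
def traceOp (ρ : Γℚ →* B) (e : Γℚ →* O) (g : Γℚ) : B := ρ g + e g • ρ g⁻¹

theorem traceOp_mul_pow_succ (ρ : Γℚ →* B) (e : Γℚ →* O) (f : Γℚ) (b : ℕ) :
    traceOp ρ e f * traceOp ρ e (f ^ (b + 1)) =
      traceOp ρ e (f ^ (b + 2)) + e f • traceOp ρ e (f ^ b) := by
  have h1 : ρ f * ρ (f ^ (b + 1)) = ρ (f ^ (b + 2)) := by rw [← map_mul, ← pow_succ']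
  have h2 : ρ f * ρ (f ^ (b + 1))⁻¹ = ρ (f ^ b)⁻¹ := by
    rw [← map_mul, pow_succ, mul_inv_rev, mul_inv_cancel_left]
  have h3 : ρ f⁻¹ * ρ (f ^ (b + 1)) = ρ (f ^ b) := by
    rw [← map_mul, pow_succ', inv_mul_cancel_left]
  have h4 : ρ f⁻¹ * ρ (f ^ (b + 1))⁻¹ = ρ (f ^ (b + 2))⁻¹ := by
    rw [← map_mul, ← mul_inv_rev, ← pow_succ]
  simp only [traceOp, add_mul, mul_add, smul_add, smul_mul_assoc, mul_smul_comm, smul_smul,
    h1, h2, h3, h4]
  rw [show (e (f ^ (b + 2)) : O) = e f * (e f * e (f ^ b)) by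
      rw [← map_mul, ← map_mul, pow_succ', pow_succ'],
    show (e (f ^ (b + 1)) : O) = e f * e (f ^ b) by rw [← map_mul, ← pow_succ']]
  module

/-- A power of an element with trace operator in `T` has trace operator in `T`. -/
theorem traceOp_pow_mem {ρ : Γℚ →* B} {e : Γℚ →* O} {T : Subalgebra O B} {f : Γℚ}
    (h : traceOp ρ e f ∈ T) (b : ℕ) : traceOp ρ e (f ^ b) ∈ T := by
  induction b using Nat.twoStepInduction with
  | zero => simpa [traceOp] using T.add_mem T.one_mem T.one_mem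
  | one => simpa using h
  | more n h0 h1 =>
    have e1 := traceOp_mul_pow_succ ρ e f n
    rw [← sub_eq_iff_eq_add] at e1
    rw [← e1]
    exact T.sub_mem (T.mul_mem h h1) (T.smul_mem h0 _)

variable [IsNoetherianRing O] [IsLocalRing O] [Module.Finite O B]

/-- **The trace operators of all elements lie in `T`.** -/
theorem traceOp_mem {ϖ : O} (hϖ : ϖ ∈ IsLocalRing.maximalIdeal O) (ρ : Γℚ →* B) (e : Γℚ →* O)
    (hfin : ∀ n : ℕ, ∃ H : Subgroup Γℚ, IsOpen (H : Set Γℚ) ∧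
      ∀ h ∈ H, (∃ c : O, e h - 1 = ϖ ^ n * c) ∧ ∃ b : B, ρ h - 1 = ϖ ^ n • b)
    (T : Subalgebra O B) (S : Finset ℕ)
    (hfrob : ∀ ℓ : ℕ, ℓ.Prime → ℓ ∉ S → ∀ A : ValuationSubring Qbar, A.LiesOverPrime ℓ →
      ∀ σ : Γℚ, A.IsFrobeniusAt σ ℓ → traceOp ρ e σ ∈ T) (g : Γℚ) :
    traceOp ρ e g ∈ T := by
  suffices h : ∀ n : ℕ, ∃ t ∈ T, ∃ b : B, traceOp ρ e g - t = ϖ ^ n • b by
    rw [← Subalgebra.mem_toSubmodule, ← Submodule.Quotient.mk_eq_zero,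
      ← Submodule.mem_bot (R := O), ← Ideal.iInf_pow_smul_eq_bot_of_isLocalRing
        (IsLocalRing.maximalIdeal O) (IsLocalRing.maximalIdeal.isMaximal O).ne_top,
      Submodule.mem_iInf]
    intro n
    obtain ⟨t, ht, b, hb⟩ := h n
    have h0 : (Submodule.Quotient.mk (traceOp ρ e g) : B ⧸ Subalgebra.toSubmodule T) =
        ϖ ^ n • Submodule.Quotient.mk b := by
      rw [← Submodule.Quotient.mk_smul, ← hb, Submodule.Quotient.mk_sub,
        (Submodule.Quotient.mk_eq_zero _).mpr ((Subalgebra.mem_toSubmodule _).mpr ht), sub_zero]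
    rw [h0]
    exact Submodule.smul_mem_smul (Ideal.pow_mem_pow hϖ n) Submodule.mem_top
  intro n
  obtain ⟨H, hH, hHn⟩ := hfin n
  obtain ⟨ℓ, hℓ, hℓS, A, hA, σ, hσ, a, b, -, hb⟩ :=
    FermatLib.Galois.exists_isFrobeniusAt_pow_mem H hH g S
  refine ⟨traceOp ρ e (σ ^ b), traceOp_pow_mem (hfrob ℓ hℓ hℓS A hA σ hσ) b, ?_⟩
  obtain ⟨⟨c, hc⟩, b1, hb1⟩ := hHn _ hb
  obtain ⟨-, b2, hb2⟩ := hHn _ (H.inv_mem hb)
  have hgi : (σ ^ b)⁻¹ = (g⁻¹ * σ ^ b)⁻¹ * g⁻¹ := by group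
  have hρ : ρ (σ ^ b) = ρ g * ρ (g⁻¹ * σ ^ b) := by rw [← map_mul, mul_inv_cancel_left]
  have he : e (σ ^ b) = e g * e (g⁻¹ * σ ^ b) := by rw [← map_mul, mul_inv_cancel_left]
  rw [sub_eq_iff_eq_add'] at hc hb1 hb2
  refine ⟨-(ρ g * b1) - (e g * c) • (ρ (g⁻¹ * σ ^ b)⁻¹ * ρ g⁻¹) - e g • (b2 * ρ g⁻¹), ?_⟩
  simp only [traceOp]
  rw [hgi, map_mul ρ ((g⁻¹ * σ ^ b)⁻¹), hρ, he, hb1, hb2, hc]
  simp only [mul_add, mul_one, add_mul, one_mul, mul_smul_comm, smul_mul_assoc]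
  module

end FermatLib.MLT.LGC

end
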