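import Fermat.Agent.Galois.FrobeniusDensity
import Fermat.Agent.Galois.CyclotomicFrobenius
import Fermat.Agent.Galois.NewformRepDet
import Fermat.Prelude.Def_GaloisRep_Adic
import Mathlib.RingTheory.Filtration

/-!
# The determinant on inertia at `q`

A representation with determinant `χ ℓ • ℓ` at the Frobenius elements over almost every `ℓ` has
determinant `χ u` at an element of inertia at `q ≠ p` acting on the `q`-th roots of unity by `u`.
-/

set_option autoImplicit false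

noncomputable section

namespace FermatLib.MLT.LGC

open IsLocalRing FermatLib.Galois

local notation "Qbar" => AlgebraicClosure ℚ
local notation "Γℚ" => (AlgebraicClosure ℚ ≃ₐ[ℚ] AlgebraicClosure ℚ)

variable {O : Type} [CommRing O] [IsLocalRing O] [IsNoetherianRing O]

/-- Homomorphisms to a monoid with finite level which agree at Frobenius elements are equal. -/
theorem monoidHom_eq_of_frobenius {X : Type*} [Monoid X] (f f' : Γℚ →* X) (S : Finset ℕ)
    (L : IntermediateField ℚ Qbar) [FiniteDimensional ℚ L]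
    (hf : ∀ σ : Γℚ, (∀ x ∈ L, σ x = x) → f σ = 1 ∧ f' σ = 1)
    (h : ∀ ℓ : ℕ, ℓ.Prime → ℓ ∉ S → ∀ A : ValuationSubring Qbar, A.LiesOverPrime ℓ →
      ∀ σ : Γℚ, A.IsFrobeniusAt σ ℓ → f σ = f' σ) (g : Γℚ) : f g = f' g := by
  refine forall_of_forall_isFrobeniusAt (P := fun g => f g = f' g) S L (fun a b hab ha => ?_)
    (fun σ b hσ => by show f _ = f' _; rw [map_pow, map_pow, hσ]) h g
  have hfix : ∀ x ∈ L, (a⁻¹ * b) x = x := fun x hx => by
    rw [AlgEquiv.mul_apply, ← hab x hx, ← AlgEquiv.mul_apply, inv_mul_cancel, AlgEquiv.one_apply]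
  show f b = f' b
  obtain ⟨h1, h2⟩ := hf _ hfix
  have hb : b = a * (a⁻¹ * b) := by group
  rw [hb, map_mul f a, map_mul f' a, h1, h2, ha]

variable {p q : ℕ} [Fact p.Prime] [Fact q.Prime] (χ : (ZMod q)ˣ →* Oˣ) (ρ : GaloisRepAdic O)

/-- **The determinant on inertia at `q`.** -/
theorem det_eq_of_mem_inertia (hp : (p : O) ∈ maximalIdeal O) (hqp : q ≠ p) (S : Finset ℕ)
    (h : ∀ (ℓ : ℕ), ℓ.Prime → ℓ ∉ S → ∀ hlq : Nat.Coprime ℓ q, ∀ P : ValuationSubring Qbar,
      P.LiesOverPrime ℓ → ∀ σ : Γℚ, P.IsFrobeniusAt σ ℓ →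
        LinearMap.det (ρ.ρ σ) = (χ (ZMod.unitOfCoprime ℓ hlq) : O) * (ℓ : O))
    {A : ValuationSubring Qbar} (hA : A.LiesOverPrime q) {τ : Γℚ}
    (hτ : τ ∈ A.inertiaSubgroupIn ℚ) :
    LinearMap.det (ρ.ρ τ) = (χ (modCycloChar q τ) : O) := by
  classical
  have hpp : p.Prime := Fact.out
  have hqq : q.Prime := Fact.out
  rw [← sub_eq_zero, ← Submodule.mem_bot (R := O), ← Ideal.iInf_pow_eq_bot_of_isLocalRing
    (maximalIdeal O) (IsLocalRing.maximalIdeal.isMaximal O).ne_top, Submodule.mem_iInf]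
  intro n
  set I := maximalIdeal O ^ n
  have hpn : ((p ^ n : ℕ) : O ⧸ I) = 0 := by
    rw [← map_natCast (Ideal.Quotient.mk I), Ideal.Quotient.eq_zero_iff_mem, Nat.cast_pow]
    exact Ideal.pow_mem_pow hp n
  have : NeZero (p ^ n) := ⟨pow_ne_zero n hpp.ne_zero⟩
  let c : ZMod (p ^ n) →+* O ⧸ I := ZMod.castHom ((ringChar.spec (O ⧸ I) _).mp hpn) (O ⧸ I)
  have hq0 : NeZero q := ⟨hqq.ne_zero⟩
  let f : Γℚ →* O ⧸ I := (Ideal.Quotient.mk I).toMonoidHom.comp (LinearMap.det.comp ρ.ρ)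
  let f' : Γℚ →* O ⧸ I := (((Ideal.Quotient.mk I).toMonoidHom.comp (Units.coeHom O)).comp
    (χ.comp (modCycloChar q))) *
      ((c.toMonoidHom.comp (Units.coeHom _)).comp (modCycloChar (p ^ n)))
  obtain ⟨L, hL, hLc⟩ := ρ.isAdicContinuous n
  obtain ⟨ζ, hζ⟩ := HasEnoughRootsOfUnity.exists_primitiveRoot Qbar q
  obtain ⟨ξ, hξ⟩ := HasEnoughRootsOfUnity.exists_primitiveRoot Qbar (p ^ n)
  have hadj : ∀ z : Qbar, FiniteDimensional ℚ (IntermediateField.adjoin ℚ {z}) := fun z =>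
    IntermediateField.adjoin.finiteDimensional
      ((AlgebraicClosure.isAlgebraic ℚ).isAlgebraic z).isIntegral
  have := hL
  have := hadj ζ
  have := hadj ξ
  have hff : ∀ g, f g = f' g := monoidHom_eq_of_frobenius f f' (insert p (insert q S))
    (L ⊔ (IntermediateField.adjoin ℚ {ζ} ⊔ IntermediateField.adjoin ℚ {ξ})) (fun σ hσ => ⟨?_, ?_⟩) ?_
  · have h1 := hff τ
    have hpq : ¬ q ∣ p ^ n := fun hdvd =>
      hqp ((Nat.prime_dvd_prime_iff_eq hqq hpp).mp (hqq.dvd_of_dvd_pow hdvd))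
    rw [← Ideal.Quotient.eq_zero_iff_mem, map_sub, sub_eq_zero]
    simpa [f, f', modCycloChar_inertia hqq hpq hA hτ] using h1
  · have h2 := s35_det_sub_one_mem I (ρ.ρ σ) (hLc σ fun x hx => hσ x ((le_sup_left : L ≤ L ⊔ (_ : IntermediateField ℚ Qbar)) hx))
    show Ideal.Quotient.mk I (LinearMap.det (ρ.ρ σ)) = 1
    rw [← sub_eq_zero, ← map_one (Ideal.Quotient.mk I), ← map_sub,
      Ideal.Quotient.eq_zero_iff_mem]
    exact h2
  · have h3 : modCycloChar q σ = 1 := modCycloChar_eq_one_of_mem_fixingSubgroup hζ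
      ((IntermediateField.mem_fixingSubgroup_iff _ σ).mpr fun x hx =>
        hσ x (le_sup_of_le_right (a := L) le_sup_left hx))
    have h4 : modCycloChar (p ^ n) σ = 1 := modCycloChar_eq_one_of_mem_fixingSubgroup hξ
      ((IntermediateField.mem_fixingSubgroup_iff _ σ).mpr fun x hx =>
        hσ x (le_sup_of_le_right (a := L) le_sup_right hx))
    simp [f', h3, h4]
  · intro ℓ hℓ hℓS P hP σ hσ
    simp only [Finset.mem_insert, not_or] at hℓS
    have hlq : Nat.Coprime ℓ q := (Nat.coprime_primes hℓ hqq).mpr hℓS.2.1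
    have hℓq : ¬ ℓ ∣ q := fun hd => hℓS.2.1 ((Nat.prime_dvd_prime_iff_eq hℓ hqq).mp hd)
    have hℓp : ¬ ℓ ∣ p ^ n := fun hd =>
      hℓS.1 ((Nat.prime_dvd_prime_iff_eq hℓ hpp).mp (hℓ.dvd_of_dvd_pow hd))
    have hu : modCycloChar q σ = ZMod.unitOfCoprime ℓ hlq := Units.ext (by
      rw [modCycloChar_frobenius hℓ hℓq hP hσ, ZMod.coe_unitOfCoprime])
    show Ideal.Quotient.mk I (LinearMap.det (ρ.ρ σ)) = _
    rw [h ℓ hℓ hℓS.2.2 hlq P hP σ hσ]
    simp [f', hu, modCycloChar_frobenius hℓ hℓp hP hσ]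

end FermatLib.MLT.LGC

end
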