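import Fermat.Agent.Galois.TransferSpan
import Mathlib.RingTheory.LocalRing.ResidueField.Basic

/-!
# What the count takes from the representation

Its matrix over `K` spans, and residually its trace is not the sum of two characters with product
the determinant.
-/

set_option autoImplicit false

noncomputable section

namespace FermatLib.MLT.LGC

open FermatLib.Galois Matrix

local notation "Γℚ" => (AlgebraicClosure ℚ ≃ₐ[ℚ] AlgebraicClosure ℚ)

variable {O : Type} [CommRing O] [IsLocalRing O] (ρ : GaloisRepAdic O)

/-- A basis. -/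
def lgcBasis : Module.Basis (Fin 2) O ρ.V :=
  (Module.Free.chooseBasis O ρ.V).reindex (Fintype.equivFinOfCardEq (by
    rw [← Module.finrank_eq_card_chooseBasisIndex, ρ.finrank_eq]))

/-- The matrix over `K`. -/
def lgcMat (K : Type*) [Field K] [Algebra O K] : Γℚ →* Matrix (Fin 2) (Fin 2) K :=
  repMap (algebraMap O K) (transferRepMatrix ρ (lgcBasis ρ))

theorem trace_lgcMat (K : Type*) [Field K] [Algebra O K] (g : Γℚ) :
    (lgcMat ρ K g).trace = algebraMap O K (LinearMap.trace O ρ.V (ρ.ρ g)) := by
  rw [lgcMat, trace_repMap, transferRepMatrix_apply, ← LinearMap.trace_eq_matrix_trace]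

theorem det_lgcMat (K : Type*) [Field K] [Algebra O K] (g : Γℚ) :
    (lgcMat ρ K g).det = algebraMap O K (LinearMap.det (ρ.ρ g)) := by
  rw [lgcMat, repMap_apply, transferRepMatrix_apply, ← LinearMap.det_toMatrix (lgcBasis ρ),
    RingHom.map_det]
  rfl

theorem span_lgcMat (K : Type*) [Field K] [Algebra O K] (h : ρ.residual.IsAbsolutelyIrreducible) :
    Submodule.span K (Set.range (lgcMat ρ K)) = ⊤ :=
  ((hasFullSpan_repMatrix_of_residual ρ (lgcBasis ρ) h).repMap (algebraMap O K)).span_range_eq_top

/-- **No splitting of the residual trace.** -/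
theorem residual_not_split (h : ρ.residual.IsAbsolutelyIrreducible) {k : Type*} [Field k]
    (f : O →+* k) (ψ : Γℚ →* k) :
    ∃ g, f (LinearMap.trace O ρ.V (ρ.ρ g)) ≠ ψ g + f (LinearMap.det (ρ.ρ g)) * ψ g⁻¹ := by
  by_contra! hall
  let e : Γℚ →* k := f.toMonoidHom.comp (LinearMap.det.comp ρ.ρ)
  let ψ' : Γℚ →* k :=
    { toFun := fun g => e g * ψ g⁻¹
      map_one' := by simp
      map_mul' := fun a b => by rw [_root_.mul_inv_rev, map_mul, map_mul]; ring }
  let D : Γℚ →* Matrix (Fin 2) (Fin 2) k :=
    { toFun := fun g => Matrix.diagonal ![ψ g, ψ' g]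
      map_one' := by
        rw [map_one, map_one]
        ext i j
        fin_cases i <;> fin_cases j <;> simp
      map_mul' := fun a b => by
        rw [Matrix.diagonal_mul_diagonal, map_mul, map_mul]
        congr 1
        funext i
        fin_cases i <;> simp }
  have hfull : HasFullSpan D := by
    refine ((hasFullSpan_repMatrix_of_residual ρ (lgcBasis ρ) h).repMap f).of_trace_eq fun g => ?_
    rw [trace_repMap, transferRepMatrix_apply, ← LinearMap.trace_eq_matrix_trace, hall g]
    simp [D, ψ', e]
  obtain ⟨g, hg⟩ := hfull.noStableLine (Pi.single 0 1) (by simp)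
  refine hg (ψ g) ?_
  funext i
  fin_cases i <;> simp [D, Matrix.mulVec, dotProduct, Matrix.diagonal]

end FermatLib.MLT.LGC

end
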