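import Fermat.Agent.MLT.LGC.CountCore
import Fermat.Agent.MLT.LGC.Closure
import Fermat.Agent.MLT.LGC.DetInputs
import Fermat.Agent.MLT.LGC.RepInputs

/-!
# From a lattice with Galois action to the characteristic polynomials at `q`

`Λ` is an `O`-lattice spanning `V`, with commuting actions of a local algebra `R` and of Galois,
`χ₀ : R → O` a point with an eigenvector `x`, and at good Frobenius elements
`σ + det ρ σ • σ⁻¹ = t` in `R` with `χ₀ t = tr ρ σ`.  If a subspace `Kr` of at most half the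
dimension contains the images of `τ - 1` on inertia at `q` and of `F - U`, then
`charpoly ρ τ = (X - 1) (X - χ τ)` and the eigenvalue of `U` at `x` is a root of `charpoly ρ F`.
-/

set_option autoImplicit false

noncomputable section

open IsLocalRing Polynomial
open FermatLib.Galois

namespace FermatLib.MLT.LGC

local notation "Qbar" => AlgebraicClosure ℚ
local notation "Γℚ" => (AlgebraicClosure ℚ ≃ₐ[ℚ] AlgebraicClosure ℚ)

variable {O : Type} [CommRing O] [IsDomain O] [IsDiscreteValuationRing O]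
  {K : Type} [Field K] [IsAlgClosed K] [CharZero K] [Algebra O K]

/-- The determinant as a homomorphism. -/
def detHom (ρ : GaloisRepAdic O) : Γℚ →* O := LinearMap.det.comp ρ.ρ

theorem charpoly_eq_of_rank_two (ρ : GaloisRepAdic O) (g : Γℚ) :
    LinearMap.charpoly (ρ.ρ g) =
      X ^ 2 - C (LinearMap.trace O ρ.V (ρ.ρ g)) * X + C (LinearMap.det (ρ.ρ g)) := by
  rw [← LinearMap.charpoly_toMatrix (ρ.ρ g) (lgcBasis ρ), Matrix.charpoly_fin_two,
    ← LinearMap.trace_eq_matrix_trace, LinearMap.det_toMatrix]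

theorem traceOp_rep (ρ : GaloisRepAdic O) (g : Γℚ) :
    traceOp ρ.ρ (detHom ρ) g = LinearMap.trace O ρ.V (ρ.ρ g) • 1 := by
  have h := LinearMap.aeval_self_charpoly (ρ.ρ g)
  rw [charpoly_eq_of_rank_two] at h
  simp only [map_add, map_sub, map_mul, map_pow, aeval_X, aeval_C] at h
  have h2 := congrArg (fun f => f * ρ.ρ g⁻¹) h
  have hinv : ρ.ρ g * ρ.ρ g⁻¹ = 1 := by rw [← map_mul, mul_inv_cancel, map_one]
  simp only [add_mul, sub_mul, pow_two, mul_assoc, hinv, mul_one, zero_mul,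
    Algebra.algebraMap_eq_smul_one, smul_mul_assoc, one_mul] at h2
  show ρ.ρ g + LinearMap.det (ρ.ρ g) • ρ.ρ g⁻¹ = _
  rw [← sub_eq_zero, ← h2]
  abel

/-- Continuity as congruences between endomorphisms. -/
theorem exists_fixing_level (ρ : GaloisRepAdic O) {ϖ : O}
    (hϖ : maximalIdeal O = Ideal.span {ϖ}) (n : ℕ) :
    ∃ L : IntermediateField ℚ Qbar, FiniteDimensional ℚ L ∧ ∀ σ : Γℚ, (∀ x ∈ L, σ x = x) →
      (∃ c : O, detHom ρ σ - 1 = ϖ ^ n * c) ∧
        ∃ b : Module.End O ρ.V, ρ.ρ σ - 1 = ϖ ^ n • b := by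
  obtain ⟨L, hL, hLc⟩ := ρ.isAdicContinuous n
  refine ⟨L, hL, fun σ hσ => ⟨?_, ?_⟩⟩
  · have h := s35_det_sub_one_mem _ _ (hLc σ hσ)
    rw [hϖ, Ideal.span_singleton_pow, Ideal.mem_span_singleton] at h
    exact h
  · have h : ∀ v, ∃ w, ρ.ρ σ v - v = ϖ ^ n • w := fun v => by
      have h1 := hLc σ hσ v
      rw [hϖ, Ideal.span_singleton_pow, Submodule.ideal_span_singleton_smul] at h1
      obtain ⟨w, -, hw⟩ := h1
      exact ⟨w, hw.symm⟩
    choose w hw using h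
    refine ⟨(lgcBasis ρ).constr O fun i => w (lgcBasis ρ i), (lgcBasis ρ).ext fun i => ?_⟩
    simpa using hw (lgcBasis ρ i)

variable {p q M : ℕ} [Fact p.Prime] [Fact q.Prime] (χ : (ZMod q)ˣ →* Oˣ)
  {V : Type*} [AddCommGroup V] [Module K V] [FiniteDimensional K V] [Module O V]
  [IsScalarTower O K V]
  {Λ : Type*} [AddCommGroup Λ] [Module O Λ] [Module.Finite O Λ]
  {R : Type*} [CommRing R] [IsLocalRing R] [Algebra O R] [Module.Finite O R]

/-- **The characteristic polynomials at `q` from the half count.** -/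
theorem charpoly_at_q_of_lattice (hO : Function.Injective (algebraMap O K))
    (hp : (p : O) ∈ maximalIdeal O) (hqp : q ≠ p) (ρ : GaloisRepAdic O)
    (hirr : ρ.residual.IsAbsolutelyIrreducible) (S : Finset ℕ)
    (hdet : ∀ (ℓ : ℕ), ℓ.Prime → ℓ ∉ S → ∀ hlq : Nat.Coprime ℓ q, ∀ P : ValuationSubring Qbar,
      P.LiesOverPrime ℓ → ∀ σ : Γℚ, P.IsFrobeniusAt σ ℓ →
        LinearMap.det (ρ.ρ σ) = (χ (ZMod.unitOfCoprime ℓ hlq) : O) * (ℓ : O))
    (ι : Λ →ₗ[O] V) (hspanι : Submodule.span K (Set.range ι) = ⊤)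
    (ρΛ : Γℚ →* Module.End O Λ) (ρV : Γℚ →* Module.End K V)
    (hρι : ∀ g a, ι (ρΛ g a) = ρV g (ι a))
    (hfin : ∀ n : ℕ, ∃ L : IntermediateField ℚ Qbar, FiniteDimensional ℚ L ∧
      ∀ σ : Γℚ, (∀ x ∈ L, σ x = x) → ∃ b : Module.End O Λ, ρΛ σ - 1 = (p : O) ^ n • b)
    (actΛ : R →ₐ[O] Module.End O Λ) (hcomm : ∀ r g, Commute (actΛ r) (ρΛ g))
    (act : R →ₐ[O] Module.End K V) (hactι : ∀ r a, ι (actΛ r a) = act r (ι a))
    (χ₀ : R →ₐ[O] O) (T : ℕ → R)
    (hfrob : ∀ ℓ : ℕ, ℓ.Prime → ℓ ∉ S → ∀ A : ValuationSubring Qbar, A.LiesOverPrime ℓ →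
      ∀ σ : Γℚ, A.IsFrobeniusAt σ ℓ → ρΛ σ + detHom ρ σ • ρΛ σ⁻¹ = actΛ (T ℓ) ∧
        LinearMap.trace O ρ.V (ρ.ρ σ) = χ₀ (T ℓ))
    {x : V} (hx0 : x ≠ 0) (hx : ∀ r, act r x = algebraMap O K (χ₀ r) • x)
    (U : Module.End K V) (hUρ : ∀ g, Commute U (ρV g)) {u : K} (hux : U x = u • x)
    {A : ValuationSubring Qbar} (hA : A.LiesOverPrime q) {F : Γℚ} (hF : A.IsFrobeniusAt F q)
    {τ₀ : Γℚ} (hτ₀ : τ₀ ∈ A.inertiaSubgroupIn ℚ) (hne : χ (modCycloChar q τ₀) ≠ 1)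
    (hconj : F * τ₀ * F⁻¹ ∈ A.inertiaSubgroupIn ℚ)
    {Kr : Submodule K V} (hKI : ∀ τ ∈ A.inertiaSubgroupIn ℚ, ∀ y, ρV τ y - y ∈ Kr)
    (hKF : ∀ y, ρV F y - U y ∈ Kr) (hhalf : 2 * Module.finrank K Kr ≤ Module.finrank K V) :
    (∀ τ ∈ A.inertiaSubgroupIn ℚ, LinearMap.charpoly (ρ.ρ τ) =
      (X - 1) * (X - C (χ (modCycloChar q τ) : O))) ∧
      ((LinearMap.charpoly (ρ.ρ F)).map (algebraMap O K)).eval u = 0 := by
  obtain ⟨ϖ, hϖ⟩ : ∃ ϖ : O, maximalIdeal O = Ideal.span {ϖ} := by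
    obtain ⟨ϖ, hirr'⟩ := IsDiscreteValuationRing.exists_irreducible O
    exact ⟨ϖ, hirr'.maximalIdeal_eq⟩
  obtain ⟨c, hc⟩ : ϖ ∣ (p : O) := Ideal.mem_span_singleton.mp (hϖ ▸ hp)
  let B := Module.End O Λ × Module.End O ρ.V
  let ρB : Γℚ →* B := ρΛ.prod ρ.ρ
  let scal : R →ₐ[O] Module.End O ρ.V := (Algebra.ofId O (Module.End O ρ.V)).comp χ₀
  let Talg : Subalgebra O B := (actΛ.prod scal).range
  have hmem : ∀ g, traceOp ρB (detHom ρ) g ∈ Talg := by
    refine traceOp_mem (ϖ := ϖ) (hϖ ▸ Ideal.mem_span_singleton_self ϖ) ρB (detHom ρ) (fun n => ?_)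
      Talg S fun ℓ hℓ hℓS A hA σ hσ => ⟨T ℓ, ?_⟩
    · obtain ⟨L₁, hL₁, h1⟩ := hfin n
      obtain ⟨L₂, hL₂, h2⟩ := exists_fixing_level ρ hϖ n
      have := hL₁
      have := hL₂
      refine ⟨(L₁ ⊔ L₂).fixingSubgroup, IntermediateField.fixingSubgroup_isOpen _, fun h hh => ?_⟩
      have hfix : ∀ y ∈ L₁ ⊔ L₂, h y = y := (IntermediateField.mem_fixingSubgroup_iff _ h).mp hh
      obtain ⟨b₁, hb₁⟩ := h1 h fun y hy => hfix y (le_sup_left (b := L₂) hy)
      obtain ⟨hd, b₂, hb₂⟩ := h2 h fun y hy => hfix y (le_sup_right (a := L₁) hy)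
      refine ⟨hd, (c ^ n • b₁, b₂), Prod.ext ?_ hb₂⟩
      show ρΛ h - 1 = ϖ ^ n • (c ^ n • b₁)
      rw [hb₁, smul_smul, ← mul_pow, ← hc]
    · obtain ⟨hl, htr⟩ := hfrob ℓ hℓ hℓS A hA σ hσ
      refine Prod.ext hl.symm ?_
      show algebraMap O (Module.End O ρ.V) (χ₀ (T ℓ)) = traceOp ρ.ρ (detHom ρ) σ
      rw [traceOp_rep, htr, Algebra.algebraMap_eq_smul_one]
  choose t ht using hmem
  have htΛ : ∀ g, ρΛ g + detHom ρ g • ρΛ g⁻¹ = actΛ (t g) := fun g =>
    (congrArg Prod.fst (ht g)).symm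
  have htr : ∀ g, LinearMap.trace O ρ.V (ρ.ρ g) = χ₀ (t g) := by
    intro g
    have h : algebraMap O (Module.End O ρ.V) (χ₀ (t g)) = traceOp ρ.ρ (detHom ρ) g :=
      congrArg Prod.snd (ht g)
    rw [traceOp_rep, Algebra.algebraMap_eq_smul_one] at h
    have h2 := congrArg (fun f : Module.End O ρ.V => (lgcBasis ρ).repr (f (lgcBasis ρ 0)) 0) h
    simpa using h2.symm
  let χK : R →ₐ[O] K := (Algebra.ofId O K).comp χ₀
  let e := detHom ρ
  have hext : ∀ f g : Module.End K V, (∀ a, f (ι a) = g (ι a)) → f = g := fun f g h =>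
    LinearMap.ext_on_range hspanι h
  have htrV : ∀ g, ρV g + algebraMap O K (e g) • ρV g⁻¹ = act (t g) := fun g =>
    hext _ _ fun a => by
      rw [LinearMap.add_apply, LinearMap.smul_apply, ← hρι, ← hρι, algebraMap_smul, ← map_smul,
        ← map_add, ← hactι, ← htΛ g]
      rfl
  have hρact : ∀ r g, Commute (act r) (ρV g) := fun r g => hext _ _ fun a => by
    rw [Module.End.mul_apply, Module.End.mul_apply, ← hρι, ← hactι, ← hactι, ← hρι,
      ← Module.End.mul_apply, (hcomm r g).eq, Module.End.mul_apply]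
  have hres : ResNoSplit e t := by
    intro ψ
    let f : O →+* AlgebraicClosure (ResidueField R) :=
      ((algebraMap (ResidueField R) _).comp (residue R)).comp (algebraMap O R)
    obtain ⟨g, hg⟩ := residual_not_split ρ hirr f ψ
    refine ⟨g, fun h => hg ?_⟩
    have hker : t g - algebraMap O R (χ₀ (t g)) ∈ maximalIdeal R :=
      le_maximalIdeal (RingHom.ker_ne_top χ₀.toRingHom) (by
        show χ₀.toRingHom _ = 0
        simp)
    rw [← residue_eq_zero_iff, map_sub, sub_eq_zero] at hker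
    show (algebraMap (ResidueField R) _) (residue R (algebraMap O R (LinearMap.trace O ρ.V (ρ.ρ g))))
      = _
    rw [htr, ← hker]
    exact h
  have hdet' : ∀ τ ∈ A.inertiaSubgroupIn ℚ, e τ = (χ (modCycloChar q τ) : O) := fun τ hτ =>
    det_eq_of_mem_inertia χ ρ hp hqp S hdet hA hτ
  obtain ⟨h1, h2⟩ := conclusion_of_half act ρV e t hO hres hρact htrV hUρ
    (A.inertiaSubgroupIn ℚ : Set Γℚ) (τ₀ := τ₀) hτ₀ (by
      rw [hdet' τ₀ hτ₀, ← map_one (algebraMap O K)]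
      exact fun h => hne (Units.ext (hO h))) (F := F) hconj hKI hKF hhalf
    (lgcMat ρ K) (span_lgcMat ρ K hirr) (χ₀ := χK)
    (fun g => by rw [trace_lgcMat, htr]; rfl) (fun g => det_lgcMat ρ K g) hx0 (fun r => hx r) hux
  constructor
  · intro τ hτ
    have ht1 : LinearMap.trace O ρ.V (ρ.ρ τ) = 1 + LinearMap.det (ρ.ρ τ) := hO (by
      rw [htr, map_add, map_one]
      exact h1 τ hτ)
    have hd : LinearMap.det (ρ.ρ τ) = (χ (modCycloChar q τ) : O) := hdet' τ hτ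
    rw [charpoly_eq_of_rank_two, ht1, hd, map_add, map_one]
    ring
  · rw [charpoly_eq_of_rank_two, htr]
    simp only [Polynomial.map_add, Polynomial.map_sub, Polynomial.map_mul, Polynomial.map_pow,
      Polynomial.map_X, Polynomial.map_C, eval_add, eval_sub, eval_mul, eval_pow, eval_X, eval_C]
    exact h2

end FermatLib.MLT.LGC

end
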