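import Fermat.Agent.MLT.LGC.DictionaryRep

/-!
# Naturality of the Galois action on classes

In the group, in the order `n`, and under conjugation by normalising elements: `σ` carries the
action of `γ'` to the action of `γ` when `γ' ≡ diag(1, s) γ diag(1, s)⁻¹` modulo `M`, where
`σ ζ_M = ζ_M ^ s`.
-/

set_option autoImplicit false
set_option linter.unusedSectionVars false

noncomputable section

open UpperHalfPlane hiding I
open CongruenceSubgroup ModularCurve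
open scoped MatrixGroups Manifold

namespace FermatLib.MLT.LGC

open FermatLib.Modular FermatLib.Galois.DS

local notation "Γℚ" => (AlgebraicClosure ℚ ≃ₐ[ℚ] AlgebraicClosure ℚ)

variable {Γ Γ' : Subgroup SL(2, ℤ)} {n m : ℕ} {g g' : ℍ → ℂ}

section Restrict

/-- Restriction to a subgroup. -/
def restrictRoot (h : Γ' ≤ Γ) : RootHom Γ n →+ RootHom Γ' n where
  toFun φ := ⟨φ.1.comp (MonoidHom.toAdditive (Subgroup.inclusion h)),
    Period.mem_parabolicHoms_iff.mpr fun γ hγ =>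
      Period.mem_parabolicHoms_iff.mp φ.2 (Subgroup.inclusion h γ) hγ⟩
  map_zero' := Subtype.ext (AddMonoidHom.ext fun _ => rfl)
  map_add' _ _ := Subtype.ext (AddMonoidHom.ext fun _ => rfl)

theorem IsRootClass.restrict (h : Γ' ≤ Γ) {φ : RootHom Γ n} (hg : IsRootClass Γ n g φ.1) :
    IsRootClass Γ' n g (restrictRoot h φ).1 := by
  obtain ⟨hm, h0, r, hr, hrt, hrp⟩ := hg
  exact ⟨weakMod_mono h hm, h0, r, hr, fun γ τ => hrt (Subgroup.inclusion h γ) τ, hrp⟩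

variable {M M' : ℕ} [NeZero M] [NeZero M'] (hC : ConjStable Γ M) (hC' : ConjStable Γ' M')
  [NeZero n]
include hC hC'

theorem galRoot_restrictRoot (h : Γ' ≤ Γ) (σ : ℂ ≃+* ℂ) (φ : RootHom Γ n) :
    galRoot hC' σ (restrictRoot h φ) = restrictRoot h (galRoot hC σ φ) := by
  obtain ⟨a, ha, -⟩ := exists_isRootClass_bounded hC.neg_one_mem φ
  obtain ⟨a', ha', hca⟩ := exists_isConjSeries hC σ ha.mem
  exact galRoot_eq hC' (ha.restrict h) hca ((ha.galRoot hC ha' hca).restrict h)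

theorem rootRep_restrictRoot (h : Γ' ≤ Γ) (σ : Γℚ) (φ : RootHom Γ n) :
    rootRep hC' n σ (restrictRoot h φ) = restrictRoot h (rootRep hC n σ φ) :=
  galRoot_restrictRoot hC hC' h _ φ

end Restrict

section Order

/-- The `d`-th power map `μ_{d n} → μₙ`. -/
def powMu (hnm : n ∣ m) : Additive (rootsOfUnity m ℂ) →+ Additive (rootsOfUnity n ℂ) :=
  MonoidHom.toAdditive (((powMonoidHom (m / n)).comp (rootsOfUnity m ℂ).subtype).codRestrict _
    fun x => (mem_rootsOfUnity n _).mpr (by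
      show ((x : ℂˣ) ^ (m / n)) ^ n = 1
      rw [← pow_mul, Nat.div_mul_cancel hnm]
      exact (mem_rootsOfUnity m _).mp x.2))

/-- The inclusion `μₙ → μ_m`. -/
def inclMu (hnm : n ∣ m) : Additive (rootsOfUnity n ℂ) →+ Additive (rootsOfUnity m ℂ) :=
  MonoidHom.toAdditive (Subgroup.inclusion (rootsOfUnity_le_of_dvd hnm))

/-- Composition with `μ_m → μₙ`. -/
def powRoot (hnm : n ∣ m) : RootHom Γ m →+ RootHom Γ n where
  toFun φ := ⟨(powMu hnm).comp φ.1, Period.mem_parabolicHoms_iff.mpr fun γ hγ => by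
    rw [AddMonoidHom.comp_apply, Period.mem_parabolicHoms_iff.mp φ.2 γ hγ, map_zero]⟩
  map_zero' := Subtype.ext (AddMonoidHom.ext fun _ => map_zero (powMu hnm))
  map_add' _ _ := Subtype.ext (AddMonoidHom.ext fun _ => map_add (powMu hnm) _ _)

/-- Composition with `μₙ → μ_m`. -/
def inclRoot (hnm : n ∣ m) : RootHom Γ n →+ RootHom Γ m where
  toFun φ := ⟨(inclMu hnm).comp φ.1, Period.mem_parabolicHoms_iff.mpr fun γ hγ => by
    rw [AddMonoidHom.comp_apply, Period.mem_parabolicHoms_iff.mp φ.2 γ hγ, map_zero]⟩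
  map_zero' := Subtype.ext (AddMonoidHom.ext fun _ => map_zero (inclMu hnm))
  map_add' _ _ := Subtype.ext (AddMonoidHom.ext fun _ => map_add (inclMu hnm) _ _)

theorem rootChar_powRoot (hnm : n ∣ m) (φ : RootHom Γ m) (γ : Γ) :
    rootChar (powRoot hnm φ).1 γ = rootChar φ.1 γ ^ (m / n) := rfl

/-- The same function, with the smaller root. -/
theorem IsRootClass.powRoot (hnm : n ∣ m) {φ : RootHom Γ m} (hg : IsRootClass Γ m g φ.1) :
    IsRootClass Γ n g (LGC.powRoot hnm φ).1 := by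
  obtain ⟨hm', h0, r, hr, hrt, hrp⟩ := hg
  refine ⟨hm', h0, fun τ => r τ ^ (m / n), hr.pow _, fun γ τ => ?_, fun τ => ?_⟩
  · show r ((γ : SL(2, ℤ)) • τ) ^ (m / n) = _
    rw [hrt, rootChar_powRoot, Units.val_pow_eq_pow_val, mul_pow]
  · rw [← pow_mul, Nat.div_mul_cancel hnm, hrp]

/-- The power of the function, with the same root. -/
theorem IsRootClass.inclRoot [NeZero m] (hnm : n ∣ m) {φ : RootHom Γ n}
    (hg : IsRootClass Γ n g φ.1) : IsRootClass Γ m (g ^ (m / n)) (LGC.inclRoot hnm φ).1 := by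
  obtain ⟨hm', h0, r, hr, hrt, hrp⟩ := hg
  have hd : m / n ≠ 0 := fun h => NeZero.ne m (by rw [← Nat.div_mul_cancel hnm, h, zero_mul])
  refine ⟨pow_mem hm' _, fun h => h0 (funext fun τ => ?_), r, hr, hrt, fun τ => ?_⟩
  · exact (pow_eq_zero_iff hd).mp (congrFun h τ)
  · rw [Pi.pow_apply, ← hrp, ← pow_mul, Nat.mul_div_cancel' hnm]

variable {M : ℕ} [NeZero M] (hC : ConjStable Γ M) [NeZero n] [NeZero m]
include hC

theorem galRoot_inclRoot (hnm : n ∣ m) (σ : ℂ ≃+* ℂ) (φ : RootHom Γ n) :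
    galRoot hC σ (inclRoot hnm φ) = inclRoot hnm (galRoot hC σ φ) := by
  obtain ⟨a, ha, -⟩ := exists_isRootClass_bounded hC.neg_one_mem φ
  obtain ⟨a', ha', hca⟩ := exists_isConjSeries hC σ ha.mem
  exact galRoot_eq hC (ha.inclRoot hnm) (IsConjSeries.pow_weakMod hC ha.mem ha' hca _)
    ((ha.galRoot hC ha' hca).inclRoot hnm)

theorem rootRep_inclRoot (hnm : n ∣ m) (σ : Γℚ) (φ : RootHom Γ n) :
    rootRep hC m σ (inclRoot hnm φ) = inclRoot hnm (rootRep hC n σ φ) :=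
  galRoot_inclRoot hC hnm _ φ

end Order

section Conjugation

/-- `x ↦ γ₀ x γ₀⁻¹` on `Γ`. -/
def normConj {γ₀ : SL(2, ℤ)} (hn : ∀ x ∈ Γ, γ₀ * x * γ₀⁻¹ ∈ Γ) : Γ →* Γ where
  toFun x := ⟨γ₀ * x * γ₀⁻¹, hn x x.2⟩
  map_one' := Subtype.ext (by simp)
  map_mul' x y := Subtype.ext (by simp [mul_assoc])

/-- The action `φ ↦ (x ↦ φ (γ₀ x γ₀⁻¹))` of a normalising element. -/
def conjRoot {γ₀ : SL(2, ℤ)} (hn : ∀ x ∈ Γ, γ₀ * x * γ₀⁻¹ ∈ Γ) :
    RootHom Γ n →+ RootHom Γ n where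
  toFun φ := ⟨φ.1.comp (MonoidHom.toAdditive (normConj hn)),
    Period.mem_parabolicHoms_iff.mpr fun γ hγ => by
      refine Period.mem_parabolicHoms_iff.mp φ.2 (normConj hn γ) ?_
      have h : ((γ₀⁻¹ : SL(2, ℤ)) : Matrix (Fin 2) (Fin 2) ℤ) *
          (γ₀ : Matrix (Fin 2) (Fin 2) ℤ) = 1 :=
        congrArg Subtype.val (inv_mul_cancel γ₀)
      show ((γ₀ : Matrix (Fin 2) (Fin 2) ℤ) * ((γ : SL(2, ℤ)) : Matrix (Fin 2) (Fin 2) ℤ) *
        ((γ₀⁻¹ : SL(2, ℤ)) : Matrix (Fin 2) (Fin 2) ℤ)).trace ^ 2 = 4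
      rw [Matrix.trace_mul_comm, ← Matrix.mul_assoc, h, Matrix.one_mul]
      exact hγ⟩
  map_zero' := Subtype.ext (AddMonoidHom.ext fun _ => rfl)
  map_add' _ _ := Subtype.ext (AddMonoidHom.ext fun _ => rfl)

theorem rootChar_conjRoot {γ₀ : SL(2, ℤ)} (hn : ∀ x ∈ Γ, γ₀ * x * γ₀⁻¹ ∈ Γ) (φ : RootHom Γ n)
    (γ : Γ) : rootChar (conjRoot hn φ).1 γ = rootChar φ.1 (normConj hn γ) := rfl

/-- The translated function. -/
theorem comp_mem_weakMod {γ₀ : SL(2, ℤ)} (hn : ∀ x ∈ Γ, γ₀ * x * γ₀⁻¹ ∈ Γ)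
    (hg : g ∈ weakMod Γ) : (fun τ => g (γ₀ • τ)) ∈ weakMod Γ := by
  obtain ⟨hd, hinv, hc⟩ := mem_weakMod.mp hg
  refine mem_weakMod.mpr ⟨?_, fun δ hδ τ => ?_, fun δ => ?_⟩
  · have h := hd.comp (UpperHalfPlane.mdifferentiable_smul (g := (γ₀ : GL (Fin 2) ℝ)) (by simp))
    exact h
  · rw [← hinv _ (hn δ hδ) (γ₀ • τ), ← mul_smul, ← mul_smul, inv_mul_cancel_right]
  · obtain ⟨k, hk⟩ := hc (γ₀ * δ)
    exact ⟨k, by simpa only [mul_smul] using hk⟩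

theorem IsRootClass.conjRoot {γ₀ : SL(2, ℤ)} (hn : ∀ x ∈ Γ, γ₀ * x * γ₀⁻¹ ∈ Γ)
    {φ : RootHom Γ n} (hg : IsRootClass Γ n g φ.1) :
    IsRootClass Γ n (fun τ => g (γ₀ • τ)) (LGC.conjRoot hn φ).1 := by
  obtain ⟨hm', h0, r, hr, hrt, hrp⟩ := hg
  refine ⟨comp_mem_weakMod hn hm', fun h => h0 (funext fun τ => ?_), fun τ => r (γ₀ • τ), ?_,
    fun γ τ => ?_, fun τ => hrp _⟩
  · simpa [← mul_smul] using congrFun h (γ₀⁻¹ • τ)
  · have h := hr.comp (UpperHalfPlane.mdifferentiable_smul (g := (γ₀ : GL (Fin 2) ℝ)) (by simp))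
    exact h
  · show r (γ₀ • ((γ : SL(2, ℤ)) • τ)) = _
    rw [rootChar_conjRoot, ← hrt, ← mul_smul, ← mul_smul]
    show r _ = r ((γ₀ * (γ : SL(2, ℤ)) * γ₀⁻¹ * γ₀) • τ)
    rw [inv_mul_cancel_right]

variable {M : ℕ} [NeZero M] (hC : ConjStable Γ M) [NeZero n]
include hC

/-- Conjugation of expansions and translation by `γ`, `γ'`. -/
theorem IsConjSeries.comp_smul {σ : ℂ ≃+* ℂ} {s : ℤ}
    (hs : (σ : ℂ →+* ℂ) (Igusa.zetaU M) = Igusa.zetaU M ^ s) (hu : IsUnit (s : ZMod M))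
    {γ γ' : SL(2, ℤ)} (h : IsConjMat M s γ γ') (hn : ∀ x ∈ Γ, γ * x * γ⁻¹ ∈ Γ)
    (hn' : ∀ x ∈ Γ, γ' * x * γ'⁻¹ ∈ Γ) (hg : g ∈ weakMod Γ) (hg' : g' ∈ weakMod Γ)
    (hc : IsConjSeries σ g g') :
    IsConjSeries σ (fun τ => g (γ' • τ)) (fun τ => g' (γ • τ)) := by
  obtain ⟨b, hb, D, hbM, -⟩ := exists_baseData hC.base
  set G : modRing M := toLevel hC ⟨g, hg⟩
  set G' : modRing M := toLevel hC ⟨g', hg'⟩
  set H : modRing M := toLevel hC ⟨_, comp_mem_weakMod hn' hg⟩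
  set H' : modRing M := toLevel hC ⟨_, comp_mem_weakMod hn hg'⟩
  have hGG : IsConjFn M σ G G' := hc
  have hall := conjAll_of_isConjFn D hbM (by have := hC.five_le; omega) hs hu hGG γ γ' h
  show IsConjFn M σ H H'
  refine isConjFn_of_cuspExp_one ?_
  rw [show cuspExp M 1 H' = cuspExp M γ G' from
      cuspExp_eq_of_forall_apply_eq M fun τ => by rw [one_smul]; rfl,
    show cuspExp M 1 H = cuspExp M γ' G from
      cuspExp_eq_of_forall_apply_eq M fun τ => by rw [one_smul]; rfl, hall]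

/-- **`σ` and the action of normalising elements.** -/
theorem galRoot_conjRoot {σ : ℂ ≃+* ℂ} {s : ℤ}
    (hs : (σ : ℂ →+* ℂ) (Igusa.zetaU M) = Igusa.zetaU M ^ s) (hu : IsUnit (s : ZMod M))
    {γ γ' : SL(2, ℤ)} (h : IsConjMat M s γ γ') (hn : ∀ x ∈ Γ, γ * x * γ⁻¹ ∈ Γ)
    (hn' : ∀ x ∈ Γ, γ' * x * γ'⁻¹ ∈ Γ) (φ : RootHom Γ n) :
    galRoot hC σ (conjRoot hn' φ) = conjRoot hn (galRoot hC σ φ) := by
  obtain ⟨a, ha, -⟩ := exists_isRootClass_bounded hC.neg_one_mem φ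
  obtain ⟨a', ha', hca⟩ := exists_isConjSeries hC σ ha.mem
  exact galRoot_eq hC (ha.conjRoot hn') (IsConjSeries.comp_smul hC hs hu h hn hn' ha.mem ha' hca)
    ((ha.galRoot hC ha' hca).conjRoot hn)

end Conjugation

section Diamond

variable {L : ℕ} {Δ : Type} [CommGroup Δ] {δ : (ZMod L)ˣ →* Δ}

/-- `Γ₀(L)` normalises `Γ_H`. -/
theorem conj_mem_deltaKer {γ x : SL(2, ℤ)} (hγ : γ ∈ Gamma0 L) (hx : x ∈ deltaKer δ) :
    γ * x * γ⁻¹ ∈ deltaKer δ := by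
  obtain ⟨hx0, hx1⟩ := mem_deltaKer.mp hx
  refine mem_deltaKer.mpr ⟨(Gamma0 L).mul_mem ((Gamma0 L).mul_mem hγ hx0) ((Gamma0 L).inv_mem hγ),
    ?_⟩
  show δ (gamma0UnitsHom L ((⟨γ, hγ⟩ : Gamma0 L) * ⟨x, hx0⟩ * (⟨γ, hγ⟩ : Gamma0 L)⁻¹)) = 1
  rw [map_mul, map_mul, map_mul, map_mul, hx1, map_inv, map_inv, mul_one, mul_inv_cancel]

/-- Diamond elements stay in their coset. -/
theorem twist_mem_deltaKer {γ : SL(2, ℤ)} (hγ : γ ∈ Gamma0 L) {M : ℕ} (hLM : L ∣ M) {s : ℤ}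
    {γ' : SL(2, ℤ)} (h : IsConjMat M s γ γ') : γ' * γ⁻¹ ∈ deltaKer δ := by
  have h0 : γ' ∈ Gamma0 L := by
    rw [Gamma0_mem]
    have := congrArg (ZMod.castHom hLM (ZMod L)) h.2.2.1
    rw [map_mul, map_intCast, map_intCast, map_intCast, Gamma0_mem.mp hγ, mul_zero] at this
    exact this
  refine mem_deltaKer.mpr ⟨(Gamma0 L).mul_mem h0 ((Gamma0 L).inv_mem hγ), ?_⟩
  show δ (gamma0UnitsHom L ((⟨γ', h0⟩ : Gamma0 L) * (⟨γ, hγ⟩ : Gamma0 L)⁻¹)) = 1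
  rw [map_mul, show gamma0UnitsHom L ⟨γ', h0⟩ = gamma0UnitsHom L ⟨γ, hγ⟩ from Units.ext (by
      simpa [coe_gamma0UnitsHom] using congrArg (ZMod.castHom hLM (ZMod L)) h.2.2.2),
    map_inv, mul_inv_cancel, map_one]

end Diamond

end FermatLib.MLT.LGC

end
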