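import Mathlib.Analysis.Complex.Polynomial.Basic
import Mathlib.GroupTheory.FiniteAbelian.Duality
import Mathlib.RingTheory.AdicCompletion.Noetherian
import Mathlib.RingTheory.DiscreteValuationRing.Basic
import Mathlib.RingTheory.Ideal.Quotient.Index
import Mathlib.RingTheory.RootsOfUnity.AlgebraicallyClosed
import Mathlib.RingTheory.RootsOfUnity.Complex
import Fermat.Agent.MLT.LGC.DictionaryNat

/-!
# A complete valuation ring through its characters with values in roots of unity

`muVal m` identifies `ℤ/m` with `μ_m(ℂ)` by `exp (2πi/m)`.  For a complete discrete valuation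
ring `O` with finite residue field and `p` in the maximal ideal, an element of `O` is the same
thing as a compatible family, in `n`, of values on the additive maps `O → ℤ/pⁿ`.
-/

set_option autoImplicit false
set_option linter.unusedSectionVars false

noncomputable section

namespace FermatLib.MLT.LGC

section MuVal

variable (m : ℕ) [NeZero m]

/-- `exp (2πi/m)` as a unit. -/
def muValRoot : ℂˣ :=
  Units.mk0 (Complex.exp (2 * Real.pi * Complex.I / m)) (Complex.exp_ne_zero _)

theorem isPrimitiveRoot_muValRoot : IsPrimitiveRoot (muValRoot m) m :=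
  IsPrimitiveRoot.coe_units_iff.mp (Complex.isPrimitiveRoot_exp m (NeZero.ne m))

/-- `ℤ/m ≅ μ_m(ℂ)`, `1 ↦ exp (2πi/m)`. -/
def muVal : ZMod m ≃+ Additive (rootsOfUnity m ℂ) :=
  (isPrimitiveRoot_muValRoot m).zmodEquivZPowers.trans
    (MulEquiv.toAdditive (MulEquiv.subgroupCongr (isPrimitiveRoot_muValRoot m).zpowers_eq))

theorem coe_muVal_intCast (k : ℤ) :
    ((Additive.toMul (muVal m (k : ZMod m)) : rootsOfUnity m ℂ) : ℂˣ) = muValRoot m ^ k := by
  rw [muVal, AddEquiv.trans_apply, IsPrimitiveRoot.zmodEquivZPowers_apply_coe_int]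
  rfl

theorem coe_muVal_natCast (k : ℕ) :
    ((Additive.toMul (muVal m (k : ZMod m)) : rootsOfUnity m ℂ) : ℂˣ) = muValRoot m ^ k := by
  have h := coe_muVal_intCast m k
  rwa [Int.cast_natCast, zpow_natCast] at h

variable {m} {n : ℕ} [NeZero n]

theorem muValRoot_pow_div (hnm : n ∣ m) : muValRoot m ^ (m / n) = muValRoot n := by
  refine Units.ext ?_
  rw [Units.val_pow_eq_pow_val, muValRoot, muValRoot, Units.val_mk0, Units.val_mk0,
    ← Complex.exp_nat_mul, Nat.cast_div hnm (NeZero.ne _)]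
  congr 1
  have hn : (n : ℂ) ≠ 0 := NeZero.ne _
  have hm : (m : ℂ) ≠ 0 := NeZero.ne _
  field_simp

/-- `muVal` turns the power map into reduction. -/
theorem powMu_muVal (hnm : n ∣ m) (a : ZMod m) :
    powMu hnm (muVal m a) = muVal n (ZMod.castHom hnm (ZMod n) a) := by
  obtain ⟨k, rfl⟩ : ∃ k : ℕ, (k : ZMod m) = a := ⟨a.val, ZMod.natCast_zmod_val a⟩
  refine Additive.toMul.injective (Subtype.ext ?_)
  rw [show ZMod.castHom hnm (ZMod n) (k : ZMod m) = (k : ZMod n) from map_natCast _ k,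
    coe_muVal_natCast]
  show ((Additive.toMul (muVal m (k : ZMod m)) : rootsOfUnity m ℂ) : ℂˣ) ^ (m / n) = _
  rw [coe_muVal_natCast, pow_right_comm, muValRoot_pow_div hnm]

omit [NeZero m] [NeZero n] in
theorem inclMu_injective (hnm : n ∣ m) : Function.Injective (inclMu hnm) := fun _ _ h =>
  Additive.toMul.injective
    (Subgroup.inclusion_injective (rootsOfUnity_le_of_dvd hnm) (Additive.ofMul.injective h))

end MuVal

section Dual

variable {O : Type*} [CommRing O] [IsDomain O] [IsDiscreteValuationRing O] [CharZero O]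
  [Finite (IsLocalRing.ResidueField O)] {p : ℕ} [Fact p.Prime]

omit [IsDomain O] [IsDiscreteValuationRing O] [CharZero O]
  [Finite (IsLocalRing.ResidueField O)] [Fact p.Prime] in
/-- Maps to `ℤ/N` kill the multiples of `N`. -/
theorem map_natCast_mul_eq_zero {N : ℕ} (f : O →+ ZMod N) (a : O) : f ((N : O) * a) = 0 := by
  rw [← nsmul_eq_mul, map_nsmul, ZModModule.char_nsmul_eq_zero]

omit [Finite (IsLocalRing.ResidueField O)] in
/-- The ideal of `p` is a positive power of the maximal ideal. -/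
theorem exists_span_natCast_eq_pow (hp : (p : O) ∈ IsLocalRing.maximalIdeal O) :
    ∃ e : ℕ, 0 < e ∧ Ideal.span {(p : O)} = IsLocalRing.maximalIdeal O ^ e := by
  obtain ⟨ϖ, hϖ⟩ := IsDiscreteValuationRing.exists_irreducible O
  have hp0 : (p : O) ≠ 0 := Nat.cast_ne_zero.mpr (NeZero.ne p)
  obtain ⟨e, u, he⟩ := IsDiscreteValuationRing.eq_unit_mul_pow_irreducible hp0 hϖ
  refine ⟨e, Nat.pos_of_ne_zero fun h => ?_, ?_⟩
  · rw [h, pow_zero, mul_one] at he
    exact (IsLocalRing.mem_maximalIdeal _).mp hp (he ▸ u.isUnit)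
  · rw [hϖ.maximalIdeal_eq, Ideal.span_singleton_pow, he, Ideal.span_singleton_mul_left_unit
      u.isUnit]

/-- `O/pⁿ` is finite. -/
theorem finite_quotient_span_natCast_pow (hp : (p : O) ∈ IsLocalRing.maximalIdeal O) (n : ℕ) :
    Finite (O ⧸ Ideal.span {((p ^ n : ℕ) : O)}) := by
  obtain ⟨e, -, he⟩ := exists_span_natCast_eq_pow hp
  rw [Nat.cast_pow, ← Ideal.span_singleton_pow, he, ← pow_mul]
  have : Finite (O ⧸ IsLocalRing.maximalIdeal O) :=
    inferInstanceAs (Finite (IsLocalRing.ResidueField O))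
  exact Ideal.finite_quotient_pow (I := IsLocalRing.maximalIdeal O) (IsNoetherian.noetherian _) _

/-- The maps `O → ℤ/pⁿ` separate `O` modulo `pⁿ`. -/
theorem dvd_of_forall_apply_eq_zero (hp : (p : O) ∈ IsLocalRing.maximalIdeal O) (n : ℕ) {a : O}
    (h : ∀ f : O →+ ZMod (p ^ n), f a = 0) : ((p ^ n : ℕ) : O) ∣ a := by
  have := finite_quotient_span_natCast_pow hp n
  set I : Ideal O := Ideal.span {((p ^ n : ℕ) : O)} with hI
  by_contra ha
  rw [← Ideal.mem_span_singleton, ← hI, ← Ideal.Quotient.eq_zero_iff_mem] at ha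
  have : NeZero (Monoid.exponent (Multiplicative (O ⧸ I))) :=
    ⟨Monoid.exponent_ne_zero_of_finite⟩
  obtain ⟨φ, hφ⟩ := CommGroup.exists_apply_ne_one_of_hasEnoughRootsOfUnity
    (Multiplicative (O ⧸ I)) ℂ (a := Multiplicative.ofAdd (Ideal.Quotient.mk I a))
    (fun h' => ha (Multiplicative.ofAdd.injective h'))
  have hroot : ∀ x : Multiplicative (O ⧸ I), φ x ^ (p ^ n) = 1 := fun x => by
    obtain ⟨x, rfl⟩ := Multiplicative.ofAdd.surjective x
    obtain ⟨b, rfl⟩ := Ideal.Quotient.mk_surjective x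
    rw [← map_pow, ← ofAdd_nsmul, ← map_nsmul, Ideal.Quotient.eq_zero_iff_mem.mpr
      (Ideal.mem_span_singleton.mpr ⟨b, nsmul_eq_mul _ b⟩), ofAdd_zero, map_one]
  let f : O →+ ZMod (p ^ n) := (muVal (p ^ n)).symm.toAddMonoidHom.comp
    ((MonoidHom.toAdditive (φ.codRestrict (rootsOfUnity (p ^ n) ℂ)
      fun x => (mem_rootsOfUnity _ _).mpr (hroot x))).comp (Ideal.Quotient.mk I).toAddMonoidHom)
  have h' := congrArg (muVal (p ^ n)) (h f)
  simp only [f, AddMonoidHom.comp_apply, AddEquiv.coe_toAddMonoidHom, AddEquiv.apply_symm_apply,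
    map_zero] at h'
  exact hφ (congrArg (fun z => ((Additive.toMul z : rootsOfUnity (p ^ n) ℂ) : ℂˣ)) h')

/-- Every functional on the maps `O → ℤ/pⁿ` is evaluation at an element. -/
theorem exists_forall_apply_eq (hp : (p : O) ∈ IsLocalRing.maximalIdeal O) (n : ℕ)
    (c : (O →+ ZMod (p ^ n)) →+ ZMod (p ^ n)) : ∃ b : O, ∀ f, f b = c f := by
  have := finite_quotient_span_natCast_pow hp n
  set I : Ideal O := Ideal.span {((p ^ n : ℕ) : O)} with hI
  let G := Multiplicative (O ⧸ I)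
  have : NeZero (Monoid.exponent G) := ⟨Monoid.exponent_ne_zero_of_finite⟩
  have hroot : ∀ (φ : G →* ℂˣ) (x : G), φ x ^ (p ^ n) = 1 := fun φ x => by
    obtain ⟨x, rfl⟩ := Multiplicative.ofAdd.surjective x
    obtain ⟨b, rfl⟩ := Ideal.Quotient.mk_surjective x
    rw [← map_pow, ← ofAdd_nsmul, ← map_nsmul, Ideal.Quotient.eq_zero_iff_mem.mpr
      (Ideal.mem_span_singleton.mpr ⟨b, nsmul_eq_mul _ b⟩), ofAdd_zero, map_one]
  let F : (G →* ℂˣ) → (O →+ ZMod (p ^ n)) := fun φ => (muVal (p ^ n)).symm.toAddMonoidHom.comp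
    ((MonoidHom.toAdditive (φ.codRestrict (rootsOfUnity (p ^ n) ℂ)
      fun x => (mem_rootsOfUnity _ _).mpr (hroot φ x))).comp (Ideal.Quotient.mk I).toAddMonoidHom)
  have hF : ∀ φ ψ, F (φ * ψ) = F φ + F ψ := fun φ ψ => AddMonoidHom.ext fun a => by
    refine (muVal (p ^ n)).injective ?_
    simp only [F, AddMonoidHom.add_apply, AddMonoidHom.comp_apply, AddEquiv.coe_toAddMonoidHom,
      map_add, AddEquiv.apply_symm_apply]
    exact Additive.toMul.injective (Subtype.ext rfl)
  let η : (G →* ℂˣ) →* ℂˣ := MonoidHom.mk'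
    (fun φ => ((Additive.toMul (muVal (p ^ n) (c (F φ))) : rootsOfUnity (p ^ n) ℂ) : ℂˣ))
    (fun φ ψ => by simp only [hF, map_add, toMul_add, Subgroup.coe_mul])
  set g := CommGroup.monoidHomMonoidHomEquiv G ℂ η with hg
  obtain ⟨b, hb⟩ := Ideal.Quotient.mk_surjective (Multiplicative.toAdd g)
  refine ⟨b, fun f => ?_⟩
  let fbar : O ⧸ I →+ ZMod (p ^ n) := QuotientAddGroup.lift I.toAddSubgroup f fun x hx => by
    obtain ⟨y, rfl⟩ := Ideal.mem_span_singleton.mp hx
    exact map_natCast_mul_eq_zero f y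
  let φ : G →* ℂˣ := MonoidHom.mk'
    (fun x => ((Additive.toMul (muVal (p ^ n) (fbar (Multiplicative.toAdd x))) :
      rootsOfUnity (p ^ n) ℂ) : ℂˣ))
    (fun x y => by
      rw [show Multiplicative.toAdd (x * y) = Multiplicative.toAdd x + Multiplicative.toAdd y
        from rfl, map_add, map_add]
      rfl)
  have hFφ : F φ = f := AddMonoidHom.ext fun a => by
    refine (muVal (p ^ n)).injective ?_
    simp only [F, AddMonoidHom.comp_apply, AddEquiv.coe_toAddMonoidHom, AddEquiv.apply_symm_apply]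
    exact Additive.toMul.injective (Subtype.ext rfl)
  have key : φ g = η φ := CommGroup.apply_monoidHomMonoidHomEquiv ℂ φ η
  refine (muVal (p ^ n)).injective (Additive.toMul.injective (Subtype.ext ?_))
  have : φ g = ((Additive.toMul (muVal (p ^ n) (f b)) : rootsOfUnity (p ^ n) ℂ) : ℂˣ) := by
    show ((Additive.toMul (muVal (p ^ n) (fbar (Multiplicative.toAdd g))) :
      rootsOfUnity (p ^ n) ℂ) : ℂˣ) = _
    rw [← hb]
    rfl
  rw [← this, key]
  show _ = ((Additive.toMul (muVal (p ^ n) (c f)) : rootsOfUnity (p ^ n) ℂ) : ℂˣ)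
  rw [← hFφ]
  rfl

omit [Finite (IsLocalRing.ResidueField O)] in
/-- An element divisible by every `pⁿ` vanishes. -/
theorem eq_zero_of_forall_natCast_pow_dvd (hp : (p : O) ∈ IsLocalRing.maximalIdeal O) {a : O}
    (h : ∀ n : ℕ, ((p ^ n : ℕ) : O) ∣ a) : a = 0 := by
  have ha : a ∈ ⨅ n : ℕ, IsLocalRing.maximalIdeal O ^ n := by
    refine Submodule.mem_iInf _ |>.mpr fun n => ?_
    obtain ⟨y, rfl⟩ := h n
    rw [Nat.cast_pow]
    exact Ideal.mul_mem_right _ _ (Ideal.pow_mem_pow hp n)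
  rw [Ideal.iInf_pow_eq_bot_of_isDomain _ (IsLocalRing.maximalIdeal.isMaximal O).ne_top] at ha
  exact ha

variable [IsAdicComplete (IsLocalRing.maximalIdeal O) O]

omit [Finite (IsLocalRing.ResidueField O)] in
/-- Compatible residues modulo the `pⁿ` come from an element. -/
theorem exists_forall_natCast_pow_dvd_sub (hp : (p : O) ∈ IsLocalRing.maximalIdeal O) {b : ℕ → O}
    (h : ∀ n, ((p ^ n : ℕ) : O) ∣ b (n + 1) - b n) :
    ∃ L : O, ∀ n, ((p ^ n : ℕ) : O) ∣ L - b n := by
  obtain ⟨e, he0, he⟩ := exists_span_natCast_eq_pow hp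
  have hle : ∀ m n, m ≤ n → ((p ^ m : ℕ) : O) ∣ b n - b m := by
    intro m n hmn
    induction n, hmn using Nat.le_induction with
    | base => simp
    | succ n hmn ih =>
      have := ((Nat.cast_dvd_cast (α := O) (pow_dvd_pow p hmn)).trans (h n)).add ih
      simpa using this
  obtain ⟨L, hL⟩ := IsPrecomplete.prec' (I := IsLocalRing.maximalIdeal O) b fun {m n} hmn => by
    rw [SModEq.sub_mem, smul_eq_mul, Ideal.mul_top, ← neg_sub, neg_mem_iff]
    obtain ⟨y, hy⟩ := hle m n hmn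
    rw [hy, Nat.cast_pow]
    exact Ideal.mul_mem_right _ _ (Ideal.pow_mem_pow hp m)
  refine ⟨L, fun n => ?_⟩
  have h1 := hL (e * n)
  rw [SModEq.sub_mem, smul_eq_mul, Ideal.mul_top, pow_mul, ← he, Ideal.span_singleton_pow,
    Ideal.mem_span_singleton, ← Nat.cast_pow, ← dvd_neg, neg_sub] at h1
  have := h1.add (hle n (e * n) (Nat.le_mul_of_pos_left n he0))
  simpa using this

/-- **An element of `O` is a compatible family of values on the maps `O → ℤ/pⁿ`.** -/
theorem existsUnique_forall_apply_eq (hp : (p : O) ∈ IsLocalRing.maximalIdeal O)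
    (c : ∀ n : ℕ, (O →+ ZMod (p ^ n)) →+ ZMod (p ^ n))
    (hc : ∀ (n : ℕ) (f : O →+ ZMod (p ^ n)),
      inclMu (pow_dvd_pow p n.le_succ) (muVal (p ^ n) (c n f)) =
        muVal (p ^ (n + 1)) (c (n + 1) ((muVal (p ^ (n + 1))).symm.toAddMonoidHom.comp
          ((inclMu (pow_dvd_pow p n.le_succ)).comp ((muVal (p ^ n)).toAddMonoidHom.comp f))))) :
    ∃! b : O, ∀ (n : ℕ) (f : O →+ ZMod (p ^ n)), f b = c n f := by
  choose b hb using fun n => exists_forall_apply_eq hp n (c n)
  have hcompat : ∀ n, ((p ^ n : ℕ) : O) ∣ b (n + 1) - b n := fun n =>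
    dvd_of_forall_apply_eq_zero hp n fun f => by
      rw [map_sub, sub_eq_zero, hb n]
      refine (muVal (p ^ n)).injective (inclMu_injective (pow_dvd_pow p n.le_succ) ?_)
      rw [hc n f, ← hb (n + 1)]
      simp
  obtain ⟨L, hL⟩ := exists_forall_natCast_pow_dvd_sub hp hcompat
  have hval : ∀ (n : ℕ) (f : O →+ ZMod (p ^ n)), f L = c n f := fun n f => by
    obtain ⟨y, hy⟩ := hL n
    rw [← sub_add_cancel L (b n), map_add, hb, hy, map_natCast_mul_eq_zero, zero_add]
  refine ⟨L, hval, fun L' hL' => sub_eq_zero.mp ?_⟩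
  exact eq_zero_of_forall_natCast_pow_dvd hp fun n => dvd_of_forall_apply_eq_zero hp n fun f => by
    rw [map_sub, hval, hL', sub_self]

omit [IsAdicComplete (IsLocalRing.maximalIdeal O) O] in
/-- The maps to all `ℤ/pⁿ` separate `O`. -/
theorem eq_of_forall_apply_eq (hp : (p : O) ∈ IsLocalRing.maximalIdeal O) {a b : O}
    (h : ∀ (n : ℕ) (f : O →+ ZMod (p ^ n)), f a = f b) : a = b :=
  sub_eq_zero.mp <| eq_zero_of_forall_natCast_pow_dvd hp fun n =>
    dvd_of_forall_apply_eq_zero hp n fun f => by rw [map_sub, h, sub_self]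

end Dual

end FermatLib.MLT.LGC

end
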