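import Fermat.Agent.MLT.LGC.LatticeBasis
import Fermat.Agent.MLT.LGC.LatticeDual

/-!
# The `p`-adic lattice of parabolic homomorphisms with its Galois action

For `hC : ConjStable Γ M` and a complete discrete valuation ring `O` with finite residue field and
`p` in its maximal ideal, `galO` is the action of `Gal(ℚ̄/ℚ)` on `Hom_par(Γ, O)` which every
additive map `O → ℤ/pⁿ ≅ μ_{pⁿ}` carries to `rootRep`.  `galK` is its extension to `Hom_par(Γ, K)`.

* `valRoot_galO`, `galO_eq`: the characterisation;
* `finite_parLattice`, `span_range_latK`: the lattice;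
* `galO_finiteLevel`: modulo `pⁿ` the action factors through a number field;
* `galO_natural`, `galK_natural`: operators natural in the coefficients that commute (or commute
  up to a twist) with `rootRep` at every level `pⁿ` do the same with `galO` and `galK`;
* `galO_parRes`: restriction.
-/

set_option autoImplicit false
set_option linter.unusedSectionVars false

noncomputable section

open CongruenceSubgroup ModularCurve FermatLib.Galois.DS
open scoped MatrixGroups

namespace FermatLib.MLT.LGC

local notation "Γℚ" => (AlgebraicClosure ℚ ≃ₐ[ℚ] AlgebraicClosure ℚ)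

variable {Γ Γ' : Subgroup SL(2, ℤ)} {M M' : ℕ} [NeZero M] [NeZero M']

/-- The groups of the dictionary are finitely generated. -/
theorem fg_of_conjStable (hC : ConjStable Γ M) : Group.FG Γ := by
  have hfg : Group.FG SL(2, ℤ) := ⟨⟨{ModularGroup.S, ModularGroup.T}, by
    rw [Finset.coe_insert, Finset.coe_singleton]
    exact SpecialLinearGroup.SL2Z_generators⟩⟩
  have : Γ.FiniteIndex := Subgroup.finiteIndex_of_le hC.gamma1_le
  infer_instance

section ValRoot

variable {R : Type*} [Semiring R] {A : Type*} [AddCommGroup A] [Module R A] {m : ℕ} [NeZero m]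

/-- A parabolic homomorphism pushed to `μ_m` by a map of its values to `ℤ/m`. -/
def valRoot (f : A →+ ZMod m) : Period.parabolicHoms R Γ A →+ RootHom Γ m :=
  parPush ((muVal m).toAddMonoidHom.comp f)

theorem valRoot_apply (f : A →+ ZMod m) (x : Period.parabolicHoms R Γ A) (γ : Additive Γ) :
    (valRoot f x).1 γ = muVal m (f (x.1 γ)) := rfl

theorem valRoot_add (f g : A →+ ZMod m) (x : Period.parabolicHoms R Γ A) :
    valRoot (f + g) x = valRoot f x + valRoot g x :=
  Subtype.ext (AddMonoidHom.ext fun _ => map_add (muVal m) _ _)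

variable {n : ℕ} [NeZero n]

theorem inclRoot_valRoot (hnm : n ∣ m) (f : A →+ ZMod n) (x : Period.parabolicHoms R Γ A) :
    inclRoot hnm (valRoot f x) = valRoot ((muVal m).symm.toAddMonoidHom.comp
      ((inclMu hnm).comp ((muVal n).toAddMonoidHom.comp f))) x :=
  Subtype.ext (AddMonoidHom.ext fun _ => ((muVal m).apply_symm_apply _).symm)

theorem inclRoot_apply (hnm : n ∣ m) (φ : RootHom Γ n) (γ : Additive Γ) :
    (inclRoot hnm φ).1 γ = inclMu hnm (φ.1 γ) := rfl

theorem valRoot_map_add (f : A →+ ZMod m) (x y : Period.parabolicHoms R Γ A) :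
    valRoot f (x + y) = valRoot f x + valRoot f y := map_add _ x y

theorem rootHom_add_apply (φ ψ : RootHom Γ m) (γ : Additive Γ) :
    (φ + ψ).1 γ = φ.1 γ + ψ.1 γ := rfl

theorem rootEnd_add (e : AddMonoid.End (RootHom Γ m)) (φ ψ : RootHom Γ m) :
    e (φ + ψ) = e φ + e ψ := AddMonoidHom.map_add e φ ψ

theorem rootEnd_one_apply (φ : RootHom Γ m) : (1 : AddMonoid.End (RootHom Γ m)) φ = φ := rfl

theorem rootEnd_mul_apply (e e' : AddMonoid.End (RootHom Γ m)) (φ : RootHom Γ m) :
    (e * e') φ = e (e' φ) := rfl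

theorem rootHom_apply_add (φ : RootHom Γ m) (γ δ : Additive Γ) :
    φ.1 (γ + δ) = φ.1 γ + φ.1 δ := AddMonoidHom.map_add φ.1 γ δ

theorem valRoot_smul {A : Type*} [CommRing A] (c : A) (x : Period.parabolicHoms A Γ A)
    (f : A →+ ZMod m) :
    valRoot f (c • x) = valRoot (f.comp (AddMonoidHom.mulLeft c)) x := rfl

end ValRoot

variable {O : Type} [CommRing O] [IsDomain O] [IsDiscreteValuationRing O]
  [IsAdicComplete (IsLocalRing.maximalIdeal O) O] [Finite (IsLocalRing.ResidueField O)]
  [CharZero O] {p : ℕ} [Fact p.Prime]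

/-- The maps to `μ_{pⁿ}` separate the lattice. -/
theorem eq_of_valRoot_eq (hp : (p : O) ∈ IsLocalRing.maximalIdeal O)
    {x y : Period.parabolicHoms O Γ O}
    (h : ∀ (n : ℕ) (f : O →+ ZMod (p ^ n)), valRoot f x = valRoot f y) : x = y :=
  Subtype.ext (AddMonoidHom.ext fun γ => eq_of_forall_apply_eq hp fun n f =>
    (muVal (p ^ n)).injective (DFunLike.congr_fun (congrArg Subtype.val (h n f)) γ))

section Family

variable {G : Type} [Monoid G] (hp : (p : O) ∈ IsLocalRing.maximalIdeal O)
  (ρ : ∀ n : ℕ, G →* AddMonoid.End (RootHom Γ (p ^ n)))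
  (hρ : ∀ (n : ℕ) (g : G) (φ : RootHom Γ (p ^ n)),
    ρ (n + 1) g (inclRoot (pow_dvd_pow p n.le_succ) φ) =
      inclRoot (pow_dvd_pow p n.le_succ) (ρ n g φ))
include hp hρ

/-- The value at `γ` of the conjugate of `x` under a compatible family of actions. -/
theorem existsUnique_famValue (g : G) (x : Period.parabolicHoms O Γ O) (γ : Additive Γ) :
    ∃! b : O, ∀ (n : ℕ) (f : O →+ ZMod (p ^ n)),
      f b = (muVal (p ^ n)).symm ((ρ n g (valRoot f x)).1 γ) :=
  existsUnique_forall_apply_eq hp
    (fun n => AddMonoidHom.mk'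
      (fun f => (muVal (p ^ n)).symm ((ρ n g (valRoot f x)).1 γ))
      fun f g' =>
        (congrArg (fun φ => (muVal (p ^ n)).symm ((ρ n g φ).1 γ)) (valRoot_add f g' x)).trans <|
          (congrArg (fun φ : RootHom Γ (p ^ n) => (muVal (p ^ n)).symm (φ.1 γ))
            (rootEnd_add (ρ n g) _ _)).trans (map_add (muVal (p ^ n)).symm _ _))
    fun n f => by
      simp only [AddMonoidHom.mk'_apply, AddEquiv.apply_symm_apply]
      rw [← inclRoot_valRoot (pow_dvd_pow p n.le_succ) f x, hρ, inclRoot_apply]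

/-- The conjugate of a parabolic homomorphism with values in `O`, pointwise. -/
def famValue (g : G) (x : Period.parabolicHoms O Γ O) (γ : Additive Γ) : O :=
  (existsUnique_famValue hp ρ hρ g x γ).choose

theorem muVal_apply_famValue (g : G) (x : Period.parabolicHoms O Γ O) (γ : Additive Γ) (n : ℕ)
    (f : O →+ ZMod (p ^ n)) :
    muVal (p ^ n) (f (famValue hp ρ hρ g x γ)) = (ρ n g (valRoot f x)).1 γ := by
  rw [famValue, (existsUnique_famValue hp ρ hρ g x γ).choose_spec.1 n f,
    AddEquiv.apply_symm_apply]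

/-- The conjugate of a parabolic homomorphism with values in `O`. -/
def famLattice (g : G) (x : Period.parabolicHoms O Γ O) : Period.parabolicHoms O Γ O :=
  ⟨AddMonoidHom.mk' (famValue hp ρ hρ g x) fun γ δ => eq_of_forall_apply_eq hp fun n f =>
      (muVal (p ^ n)).injective <|
        (muVal_apply_famValue hp ρ hρ g x (γ + δ) n f).trans <|
          (rootHom_apply_add _ γ δ).trans <|
            (congrArg₂ (· + ·) (muVal_apply_famValue hp ρ hρ g x γ n f).symm
              (muVal_apply_famValue hp ρ hρ g x δ n f).symm).trans <|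
              (map_add (muVal (p ^ n)) _ _).symm.trans
                (congrArg (muVal (p ^ n)) (map_add f _ _).symm),
    Period.mem_parabolicHoms_iff.mpr fun γ hγ => eq_of_forall_apply_eq hp fun n f =>
      (muVal (p ^ n)).injective <|
        (muVal_apply_famValue hp ρ hρ g x γ n f).trans <|
          (Period.mem_parabolicHoms_iff.mp (ρ n g (valRoot f x)).2 γ hγ).trans
            ((congrArg (muVal (p ^ n)) (map_zero f)).trans (map_zero _)).symm⟩

theorem valRoot_famLattice (g : G) (x : Period.parabolicHoms O Γ O) (n : ℕ)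
    (f : O →+ ZMod (p ^ n)) :
    valRoot f (famLattice hp ρ hρ g x) = ρ n g (valRoot f x) :=
  Subtype.ext (AddMonoidHom.ext fun γ => muVal_apply_famValue hp ρ hρ g x γ n f)

/-- The conjugation is linear. -/
def famLinear (g : G) : Module.End O (Period.parabolicHoms O Γ O) where
  toFun := famLattice hp ρ hρ g
  map_add' x y := eq_of_valRoot_eq hp fun n f =>
    (valRoot_famLattice hp ρ hρ g (x + y) n f).trans <|
      (congrArg (ρ n g) (valRoot_map_add f x y)).trans <| (rootEnd_add (ρ n g) _ _).trans <|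
        (congrArg₂ (· + ·) (valRoot_famLattice hp ρ hρ g x n f).symm
          (valRoot_famLattice hp ρ hρ g y n f).symm).trans (valRoot_map_add f _ _).symm
  map_smul' c x := eq_of_valRoot_eq hp fun n f =>
    (valRoot_famLattice hp ρ hρ g (c • x) n f).trans <|
      (congrArg (ρ n g) (valRoot_smul c x f)).trans <|
        (valRoot_famLattice hp ρ hρ g x n (f.comp (AddMonoidHom.mulLeft c))).symm.trans
          (valRoot_smul c (famLattice hp ρ hρ g x) f).symm

theorem valRoot_famLinear (g : G) (x : Period.parabolicHoms O Γ O) (n : ℕ)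
    (f : O →+ ZMod (p ^ n)) :
    valRoot f (famLinear hp ρ hρ g x) = ρ n g (valRoot f x) :=
  valRoot_famLattice hp ρ hρ g x n f

theorem famLinear_one_apply (x : Period.parabolicHoms O Γ O) : famLinear hp ρ hρ 1 x = x :=
  eq_of_valRoot_eq hp fun n f => by
    rw [valRoot_famLinear, MonoidHom.map_one (ρ n)]
    exact rootEnd_one_apply _

theorem famLinear_mul_apply (g g' : G) (x : Period.parabolicHoms O Γ O) :
    famLinear hp ρ hρ (g * g') x = famLinear hp ρ hρ g (famLinear hp ρ hρ g' x) :=
  eq_of_valRoot_eq hp fun n f =>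
    (valRoot_famLinear hp ρ hρ (g * g') x n f).trans <|
      (congrArg (fun e : AddMonoid.End (RootHom Γ (p ^ n)) => e (valRoot f x))
        (MonoidHom.map_mul (ρ n) g g')).trans <|
        (congrArg (ρ n g) (valRoot_famLinear hp ρ hρ g' x n f).symm).trans
          (valRoot_famLinear hp ρ hρ g (famLinear hp ρ hρ g' x) n f).symm

/-- A compatible family of actions acts on the lattice. -/
def famRep : G →* Module.End O (Period.parabolicHoms O Γ O) where
  toFun := famLinear hp ρ hρ
  map_one' := LinearMap.ext fun x => famLinear_one_apply hp ρ hρ x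
  map_mul' g g' := LinearMap.ext fun x => famLinear_mul_apply hp ρ hρ g g' x

theorem valRoot_famRep (g : G) (x : Period.parabolicHoms O Γ O) (n : ℕ)
    (f : O →+ ZMod (p ^ n)) :
    valRoot f (famRep hp ρ hρ g x) = ρ n g (valRoot f x) :=
  valRoot_famLinear hp ρ hρ g x n f

end Family

section Galois

variable (hC : ConjStable Γ M) (hp : (p : O) ∈ IsLocalRing.maximalIdeal O)
include hC hp

/-- **The Galois action on the lattice.** -/
def galO : Γℚ →* Module.End O (Period.parabolicHoms O Γ O) :=
  famRep hp (fun n => rootRep hC (p ^ n)) fun n σ φ =>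
    rootRep_inclRoot hC (pow_dvd_pow p n.le_succ) σ φ

/-- **The characterisation.** -/
theorem valRoot_galO (σ : Γℚ) (x : Period.parabolicHoms O Γ O) (n : ℕ) (f : O →+ ZMod (p ^ n)) :
    valRoot f (galO hC hp σ x) = rootRep hC (p ^ n) σ (valRoot f x) :=
  valRoot_famRep hp _ _ σ x n f

theorem galO_eq (σ : Γℚ) {x y : Period.parabolicHoms O Γ O}
    (h : ∀ (n : ℕ) (f : O →+ ZMod (p ^ n)),
      rootRep hC (p ^ n) σ (valRoot f x) = valRoot f y) : galO hC hp σ x = y :=
  eq_of_valRoot_eq hp fun n f => (valRoot_galO hC hp σ x n f).trans (h n f)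

/-- The lattice is finitely generated. -/
theorem finite_parLattice : Module.Finite O (Period.parabolicHoms O Γ O) :=
  have := fg_of_conjStable hC
  Module.Finite.of_basis (latBasis O Γ)

/-- **Modulo `pⁿ` the action factors through a number field.** -/
theorem galO_finiteLevel (n : ℕ) :
    ∃ L : IntermediateField ℚ (AlgebraicClosure ℚ), FiniteDimensional ℚ L ∧
      ∀ σ : Γℚ, (∀ a ∈ L, σ a = a) → ∀ x : Period.parabolicHoms O Γ O,
        ∃ y : Period.parabolicHoms O Γ O, galO hC hp σ x - x = ((p ^ n : ℕ) : O) • y := by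
  have := fg_of_conjStable hC
  obtain ⟨L, hL, hfix⟩ := rootRep_factors (n := p ^ n) hC
  refine ⟨L, hL, fun σ hσ x => ?_⟩
  have hdvd : ∀ i, ((p ^ n : ℕ) : O) ∣ parEquiv Γ O O (galO hC hp σ x - x) i := fun i =>
    dvd_of_forall_apply_eq_zero hp n fun f => by
      have h : valRoot f (galO hC hp σ x - x) = 0 := by
        rw [map_sub, valRoot_galO, hfix σ hσ]
        exact sub_self _
      have h' := DFunLike.congr_fun (congrArg Subtype.val h) (Additive.ofMul (parElt Γ i))
      rw [valRoot_apply] at h'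
      exact (muVal (p ^ n)).map_eq_zero_iff.mp h'
  choose w hw using hdvd
  refine ⟨(parEquiv Γ O O).symm w, (parEquiv Γ O O).injective ?_⟩
  rw [map_smul, LinearEquiv.apply_symm_apply]
  exact funext fun i => (hw i)

variable (hC' : ConjStable Γ' M')
include hC'

/-- **Naturality.**  `T` and `U` are induced at every level `pⁿ` by operators intertwining
`rootRep hC σ` with `rootRep hC' σ'`. -/
theorem galO_natural {σ σ' : Γℚ}
    {T U : Period.parabolicHoms O Γ O →ₗ[O] Period.parabolicHoms O Γ' O}
    (t u : ∀ n : ℕ, RootHom Γ (p ^ n) →+ RootHom Γ' (p ^ n))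
    (ht : ∀ (n : ℕ) (f : O →+ ZMod (p ^ n)) x, valRoot f (T x) = t n (valRoot f x))
    (hu : ∀ (n : ℕ) (f : O →+ ZMod (p ^ n)) x, valRoot f (U x) = u n (valRoot f x))
    (h : ∀ (n : ℕ) (φ : RootHom Γ (p ^ n)),
      rootRep hC' (p ^ n) σ' (t n φ) = u n (rootRep hC (p ^ n) σ φ))
    (x : Period.parabolicHoms O Γ O) :
    galO hC' hp σ' (T x) = U (galO hC hp σ x) :=
  galO_eq hC' hp σ' fun n f => by rw [ht, h, hu, valRoot_galO]

end Galois

section GaloisK

variable {K : Type} [Field K] [CharZero K] [Algebra O K] (hC : ConjStable Γ M)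
  (hp : (p : O) ∈ IsLocalRing.maximalIdeal O)
include hC hp

variable (K) in
/-- **The Galois action on `Hom_par(Γ, K)`.** -/
def galK : Γℚ →* Module.End K (Period.parabolicHoms K Γ K) :=
  have := fg_of_conjStable hC
  { toFun := fun σ => latExt K (galO hC hp σ)
    map_one' := ext_latK fun x => by
      rw [latExt_latK, map_one]
      rfl
    map_mul' := fun σ τ => ext_latK fun x => by
      rw [Module.End.mul_apply, latExt_latK, latExt_latK, latExt_latK, map_mul]
      rfl }

theorem galK_latK (σ : Γℚ) (x : Period.parabolicHoms O Γ O) :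
    galK K hC hp σ (latK O K Γ x) = latK O K Γ (galO hC hp σ x) :=
  have := fg_of_conjStable hC
  latExt_latK (galO hC hp σ) x

theorem galK_eq_of_latK {σ : Γℚ} {T : Module.End K (Period.parabolicHoms K Γ K)}
    (h : ∀ x, T (latK O K Γ x) = latK O K Γ (galO hC hp σ x)) : galK K hC hp σ = T :=
  have := fg_of_conjStable hC
  ext_latK fun x => by rw [galK_latK, h]

variable (hC' : ConjStable Γ' M')
include hC'

/-- Naturality on `Hom_par(Γ, K)`. -/
theorem galK_natural {σ σ' : Γℚ}
    {T U : Period.parabolicHoms O Γ O →ₗ[O] Period.parabolicHoms O Γ' O}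
    {TK UK : Period.parabolicHoms K Γ K →ₗ[K] Period.parabolicHoms K Γ' K}
    (hT : ∀ x, TK (latK O K Γ x) = latK O K Γ' (T x))
    (hU : ∀ x, UK (latK O K Γ x) = latK O K Γ' (U x))
    (h : ∀ x, galO hC' hp σ' (T x) = U (galO hC hp σ x))
    (y : Period.parabolicHoms K Γ K) :
    galK K hC' hp σ' (TK y) = UK (galK K hC hp σ y) := by
  have := fg_of_conjStable hC
  have : (galK K hC' hp σ').comp TK = UK.comp (galK K hC hp σ) := ext_latK fun x => by
    rw [LinearMap.comp_apply, LinearMap.comp_apply, hT, galK_latK, galK_latK, hU, h]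
  exact LinearMap.congr_fun this y

end GaloisK

section Operators

variable (R : Type*) [Semiring R] (A : Type*) [AddCommGroup A] [Module R A]

/-- Restriction of parabolic homomorphisms to a subgroup. -/
def parRes (h : Γ' ≤ Γ) : Period.parabolicHoms R Γ A →ₗ[R] Period.parabolicHoms R Γ' A where
  toFun φ := ⟨φ.1.comp (MonoidHom.toAdditive (Subgroup.inclusion h)),
    Period.mem_parabolicHoms_iff.mpr fun γ hγ =>
      Period.mem_parabolicHoms_iff.mp φ.2 (Subgroup.inclusion h γ) hγ⟩
  map_add' _ _ := rfl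
  map_smul' _ _ := rfl

/-- The action of a normalising element. -/
def parConj {γ₀ : SL(2, ℤ)} (hn : ∀ x ∈ Γ, γ₀ * x * γ₀⁻¹ ∈ Γ) :
    Period.parabolicHoms R Γ A →ₗ[R] Period.parabolicHoms R Γ A where
  toFun φ := ⟨φ.1.comp (MonoidHom.toAdditive (normConj hn)),
    Period.mem_parabolicHoms_iff.mpr fun γ hγ => by
      refine Period.mem_parabolicHoms_iff.mp φ.2 (normConj hn γ) ?_
      have h : ((γ₀⁻¹ : SL(2, ℤ)) : Matrix (Fin 2) (Fin 2) ℤ) *
          (γ₀ : Matrix (Fin 2) (Fin 2) ℤ) = 1 :=
        congrArg Subtype.val (inv_mul_cancel γ₀)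
      show ((γ₀ : Matrix (Fin 2) (Fin 2) ℤ) * ((γ : SL(2, ℤ)) : Matrix (Fin 2) (Fin 2) ℤ) *
        ((γ₀⁻¹ : SL(2, ℤ)) : Matrix (Fin 2) (Fin 2) ℤ)).trace ^ 2 = 4
      rw [Matrix.trace_mul_comm, ← Matrix.mul_assoc, h, Matrix.one_mul]
      exact hγ⟩
  map_add' _ _ := rfl
  map_smul' _ _ := rfl

variable {R A} {m : ℕ} [NeZero m] (f : A →+ ZMod m)

theorem valRoot_parRes (h : Γ' ≤ Γ) (x : Period.parabolicHoms R Γ A) :
    valRoot f (parRes R A h x) = restrictRoot h (valRoot f x) := rfl

theorem valRoot_parConj {γ₀ : SL(2, ℤ)} (hn : ∀ x ∈ Γ, γ₀ * x * γ₀⁻¹ ∈ Γ)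
    (x : Period.parabolicHoms R Γ A) :
    valRoot f (parConj R A hn x) = conjRoot hn (valRoot f x) := rfl

variable (hC : ConjStable Γ M) (hC' : ConjStable Γ' M')
  (hp : (p : O) ∈ IsLocalRing.maximalIdeal O) {K : Type} [Field K] [CharZero K] [Algebra O K]

include hC hC' hp in
theorem galO_parRes (h : Γ' ≤ Γ) (σ : Γℚ) (x : Period.parabolicHoms O Γ O) :
    galO hC' hp σ (parRes O O h x) = parRes O O h (galO hC hp σ x) :=
  galO_natural hC hp hC' (fun _ => restrictRoot h) (fun _ => restrictRoot h)
    (fun _ f x => valRoot_parRes f h x) (fun _ f x => valRoot_parRes f h x)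
    (fun _ φ => rootRep_restrictRoot hC hC' h σ φ) x

include hC hC' hp in
theorem galK_parRes (h : Γ' ≤ Γ) (σ : Γℚ) (y : Period.parabolicHoms K Γ K) :
    galK K hC' hp σ (parRes K K h y) = parRes K K h (galK K hC hp σ y) :=
  galK_natural hC hp hC' (T := parRes O O h) (U := parRes O O h) (fun _ => rfl) (fun _ => rfl)
    (galO_parRes hC hC' hp h σ) y

end Operators

end FermatLib.MLT.LGC

end
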