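import Fermat.Agent.MLT.LGC.TwistLgc
import Fermat.Agent.MLT.LGC.LatticeGalois

/-!
# The relation at good Frobenius elements for the lattice Galois action
-/

set_option autoImplicit false
set_option linter.unusedSectionVars false

noncomputable section

open CongruenceSubgroup ModularCurve ModularCurve.Period
open scoped MatrixGroups

namespace FermatLib.MLT.LGC

open FermatLib.Modular FermatLib.Modular.Kummer

local notation "Qbar" => AlgebraicClosure ℚ
local notation "Γℚ" => (AlgebraicClosure ℚ ≃ₐ[ℚ] AlgebraicClosure ℚ)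

variable {O : Type} [CommRing O] [IsDomain O] [IsDiscreteValuationRing O]
  [IsAdicComplete (IsLocalRing.maximalIdeal O) O] [Finite (IsLocalRing.ResidueField O)]
  [CharZero O] {p : ℕ} [Fact p.Prime]

/-- The lattice action is compatible with the action on root classes. -/
theorem isRootGalois_galO {Γ : Subgroup SL(2, ℤ)} {M : ℕ} [NeZero M] (hC : ConjStable Γ M)
    (hp : (p : O) ∈ IsLocalRing.maximalIdeal O) : IsRootGalois hC p (galO hC hp) := by
  intro n f σ x
  set f' : O →+ ZMod (p ^ n) := (muVal (p ^ n)).symm.toAddMonoidHom.comp f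
  have h : ∀ y : parabolicHoms O Γ O, compRoot f y = valRoot f' y := fun y =>
    Subtype.ext (AddMonoidHom.ext fun γ => ((muVal (p ^ n)).apply_symm_apply (f (y.1 γ))).symm)
  rw [h, h]
  exact valRoot_galO hC hp σ x n f'

variable {q M : ℕ} [Fact q.Prime] [NeZero M] {χ : (ZMod q)ˣ →* Oˣ}

/-- **The relation at good Frobenius elements for `galO` on restricted cocycles.** -/
theorem galO_add_galO_inv_eq_lgc (hqM : ¬ q ∣ M) (hp : (p : O) ∈ IsLocalRing.maximalIdeal O)
    (hχ : χ ≠ 1) (hsq : ∃ ψ : (ZMod q)ˣ →* Oˣ, ∀ u, ψ u ^ 2 = χ u) (l : Nat.Primes)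
    (hl : ¬ (l : ℕ) ∣ q * M * p) (hlq : Nat.Coprime (l : ℕ) q) {P : ValuationSubring Qbar}
    (hP : P.LiesOverPrime l) {σ : Γℚ} (hσ : P.IsFrobeniusAt σ l)
    (c : bettiCocycles (Gamma0 (q * M)) (nebenChar (χ.comp (ZMod.unitsMap (dvd_mul_right q M)))) O)
    {x tx : parabolicHoms O (lgcGroup q M) O}
    (hx : ∀ γ : lgcGroup q M, x.1 (Additive.ofMul γ) =
      (c : Gamma0 (q * M) → O) (Subgroup.inclusion lgcGroup_le_gamma0 γ))
    (htx : ∀ γ : lgcGroup q M, tx.1 (Additive.ofMul γ) =
      ((bettiHeckeSystem (q * M) l).transferCocycles O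
        (isWeight_heckeWeight (χ.comp (ZMod.unitsMap (dvd_mul_right q M))) l) c :
          Gamma0 (q * M) → O) (Subgroup.inclusion lgcGroup_le_gamma0 γ)) :
    galO (conjStable_lgcGroup q M) hp σ x +
      ((χ (ZMod.unitOfCoprime (l : ℕ) hlq) : O) * (l : O)) •
        galO (conjStable_lgcGroup q M) hp σ⁻¹ x = tx :=
  gal_add_gal_inv_eq_lgc hqM hp hχ hsq (isRootGalois_galO _ hp) l hl hlq hP hσ c hx htx

end FermatLib.MLT.LGC

end
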