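import Fermat.Agent.MLT.LGC.ChiPartSpace
import Fermat.Agent.MLT.LGC.TwistLgcGal

/-!
# The relation at good Frobenius elements on the Betti part

`galO σ a + χ(l) l • galO σ⁻¹ a = T l a` on the image of the localised cohomology, and the same
for `galK` on `lgcVm`.
-/

set_option autoImplicit false
set_option linter.unusedSectionVars false

noncomputable section

open CongruenceSubgroup ModularCurve.Period
open scoped MatrixGroups

namespace FermatLib.MLT.LGC

local notation "Qbar" => AlgebraicClosure ℚ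
local notation "Γℚ" => (AlgebraicClosure ℚ ≃ₐ[ℚ] AlgebraicClosure ℚ)

variable {O : Type} [CommRing O] [IsDomain O] [IsDiscreteValuationRing O]
  [IsAdicComplete (IsLocalRing.maximalIdeal O) O] [Finite (IsLocalRing.ResidueField O)]
  [CharZero O] {p q M : ℕ} [Fact p.Prime] [Fact q.Prime] [NeZero M] {χ : (ZMod q)ˣ →* Oˣ}
  {lam : Nat.Primes → O}

/-- **The relation at good Frobenius elements on the image of the localised cohomology.** -/
theorem galO_frobenius_lgcIota (hp : (p : O) ∈ IsLocalRing.maximalIdeal O) (hqM : ¬ q ∣ M)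
    (hχ : χ ≠ 1) (hsq : ∃ ψ : (ZMod q)ˣ →* Oˣ, ∀ u, ψ u ^ 2 = χ u)
    (hd : IsChiPartData p q M χ lam) (l : Nat.Primes) (hl : l ∈ goodPrimes q M p)
    (hlq : Nat.Coprime (l : ℕ) q) {P : ValuationSubring Qbar} (hP : P.LiesOverPrime l) {σ : Γℚ}
    (hσ : P.IsFrobeniusAt σ l) (a : LgcLoc p q M χ lam) :
    galO (conjStable_lgcGroup q M) hp σ (lgcIota hd a) +
      ((χ (ZMod.unitOfCoprime (l : ℕ) hlq) : O) * (l : O)) •
        galO (conjStable_lgcGroup q M) hp σ⁻¹ (lgcIota hd a) =
      lgcParOp q M O O l (lgcIota hd a) := by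
  obtain ⟨c, hc⟩ := BettiMod.mk_surjective (lgcSection p q M χ lam a)
  refine galO_add_galO_inv_eq_lgc hqM hp hχ hsq l hl hlq hP hσ c (fun γ => ?_) fun γ => ?_
  · rw [coe_lgcIota hd, ← hc, resBetti_mk]
    rfl
  · rw [lgcParOp_lgcIota, coe_lgcIota hd, map_smul, ← hc, BettiMod.X_smul]
    rfl

variable {K : Type} [Field K] [CharZero K] [Algebra O K]

/-- **The relation at good Frobenius elements on the Betti part over `K`.** -/
theorem galK_frobenius_lgcVm (hp : (p : O) ∈ IsLocalRing.maximalIdeal O) (hqM : ¬ q ∣ M)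
    (hχ : χ ≠ 1) (hsq : ∃ ψ : (ZMod q)ˣ →* Oˣ, ∀ u, ψ u ^ 2 = χ u)
    (hd : IsChiPartData p q M χ lam) (l : Nat.Primes) (hl : l ∈ goodPrimes q M p)
    (hlq : Nat.Coprime (l : ℕ) q) {P : ValuationSubring Qbar} (hP : P.LiesOverPrime l) {σ : Γℚ}
    (hσ : P.IsFrobeniusAt σ l) {v : parabolicHoms K (lgcGroup q M) K} (hv : v ∈ lgcVm K hd) :
    galK K (conjStable_lgcGroup q M) hp σ v +
      ((χ (ZMod.unitOfCoprime (l : ℕ) hlq) : O) * (l : O)) •
        galK K (conjStable_lgcGroup q M) hp σ⁻¹ v = lgcParOp q M K K l v := by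
  set c : O := (χ (ZMod.unitOfCoprime (l : ℕ) hlq) : O) * (l : O)
  rw [← algebraMap_smul K c]
  induction hv using Submodule.span_induction with
  | mem y hy =>
    obtain ⟨a, rfl⟩ := hy
    have hL : lgcIotaK K hd a = latK O K (lgcGroup q M) (lgcIota hd a) := rfl
    have hT : lgcParOp q M K K l (lgcIotaK K hd a) =
        latK O K (lgcGroup q M) (lgcParOp q M O O l (lgcIota hd a)) :=
      lgcParOp_lgcIncl K l (lgcIota hd a)
    rw [hT, hL, galK_latK, galK_latK, ← LinearMap.map_smulₛₗ, ← map_add,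
      galO_frobenius_lgcIota hp hqM hχ hsq hd l hl hlq hP hσ a]
  | zero => simp
  | add y z _ _ hy hz => rw [map_add, map_add, map_add, smul_add, add_add_add_comm, hy, hz]
  | smul r y _ hy => rw [map_smul, map_smul, map_smul, smul_comm _ r, ← smul_add, hy]

end FermatLib.MLT.LGC

end
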