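import Fermat.Agent.MLT.LGC.ChiPartSpace

/-!
# The Betti bridge of the count

The Hecke algebra of the localised cohomology acts on `lgcVm`; `lgcVm` is stable under every
operator commuting with the good Hecke operators and preserving the `χ`-eigenspace; an eigenclass
gives a nonzero vector of `lgcVm` with the same eigenvalues.
-/

set_option autoImplicit false

noncomputable section

open CongruenceSubgroup ModularCurve.Period
open scoped MatrixGroups

namespace FermatLib.MLT.LGC

open FermatLib.Modular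

/-- The eigenvalues on a common eigenvector form a character. -/
theorem exists_algHom_of_common_eigen {O K R V : Type*} [CommRing O] [Field K] [Algebra O K]
    [Semiring R] [Algebra O R] [AddCommGroup V] [Module K V] [Module O V] [IsScalarTower O K V]
    [SMulCommClass K O V] (act : R →ₐ[O] Module.End K V) {v : V} (hv : v ≠ 0) {k : R → K}
    (h : ∀ r, act r v = k r • v) : ∃ f : R →ₐ[O] K, ∀ r, f r = k r := by
  have key : ∀ {a b : K}, a • v = b • v → a = b := fun hab => smul_left_injective K hv hab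
  refine ⟨
    { toFun := k
      map_one' := key (by rw [← h, map_one, Module.End.one_apply, one_smul])
      map_mul' := fun r s => key (by
        rw [← h, map_mul, Module.End.mul_apply, h s, map_smul, h r, smul_smul, mul_comm])
      map_zero' := key (by rw [← h, map_zero, LinearMap.zero_apply, zero_smul])
      map_add' := fun r s => key (by
        rw [← h, map_add, LinearMap.add_apply, h r, h s, add_smul])
      commutes' := fun c => key (by
        rw [← h, AlgHom.commutes, Module.algebraMap_end_apply, algebraMap_smul]) }, fun r => rfl⟩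

variable {O : Type} [CommRing O] [IsDomain O] [IsDiscreteValuationRing O]
  [IsAdicComplete (IsLocalRing.maximalIdeal O) O] [CharZero O]
  {p q M : ℕ} [NeZero q] [NeZero M] {χ : (ZMod q)ˣ →* Oˣ} {lam : Nat.Primes → O}
  {K : Type} [Field K] [Algebra O K]

theorem IsLgcSystem.chiPartData
    {x : bettiH1 (Gamma0 (q * M)) (nebenChar (lgcChiK q M K χ)) K} {ρ : GaloisRepAdic O}
    (h : IsLgcSystem p q M χ K lam x ρ) : IsChiPartData p q M χ lam where
  neg_one := by
    obtain ⟨ψ, hψ⟩ := h.exists_sqrt
    rw [← hψ, ← map_pow, neg_one_sq, map_one]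
  nonEisenstein := h.nonEisenstein
  elliptic := h.elliptic

/-- The class of a system as an element of the Hecke module. -/
abbrev sysClass (x : bettiH1 (Gamma0 (q * M)) (nebenChar (lgcChiK q M K χ)) K) :
    BettiMod (q * M) (lgcChiK q M K χ) K := x

theorem lgcIotaK_X_smul (hd : IsChiPartData p q M χ lam) (l : Nat.Primes)
    (a : LgcLoc p q M χ lam) :
    lgcParOp q M K K l (lgcIotaK K hd a) =
      lgcIotaK K hd ((MvPolynomial.X l : BettiHeckeAlg O) • a) := by
  show lgcParOp q M K K l (lgcIncl q M K (lgcIota hd a)) = _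
  rw [lgcParOp_lgcIncl, lgcParOp_lgcIota]
  rfl

theorem lgcParOp_mem_lgcVm (hd : IsChiPartData p q M χ lam) (l : Nat.Primes)
    {v : parabolicHoms K (lgcGroup q M) K} (hv : v ∈ lgcVm K hd) :
    lgcParOp q M K K l v ∈ lgcVm K hd := by
  suffices h : lgcVm K hd ≤ (lgcVm K hd).comap (lgcParOp q M K K l) from h hv
  refine Submodule.span_le.mpr ?_
  rintro _ ⟨a, rfl⟩
  show lgcParOp q M K K l (lgcIotaK K hd a) ∈ lgcVm K hd
  rw [lgcIotaK_X_smul]
  exact lgcIotaK_mem hd _

/-- `T l` or `U l` on the Betti part. -/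
def lgcVmOp (K : Type) [Field K] [Algebra O K] (hd : IsChiPartData p q M χ lam) (l : Nat.Primes) :
    Module.End K (lgcVm K hd) :=
  (lgcParOp q M K K l).restrict fun _ hv => lgcParOp_mem_lgcVm hd l hv

theorem coe_lgcVmOp (hd : IsChiPartData p q M χ lam) (l : Nat.Primes) (v : lgcVm K hd) :
    (lgcVmOp K hd l v : parabolicHoms K (lgcGroup q M) K) = lgcParOp q M K K l v.1 := rfl

/-! ### The action of the Hecke algebra -/

/-- The embedding with values in the Betti part. -/
def lgcIotaVm (K : Type) [Field K] [Algebra O K] (hd : IsChiPartData p q M χ lam) :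
    LgcLoc p q M χ lam →ₗ[O] lgcVm K hd where
  toFun a := ⟨lgcIotaK K hd a, lgcIotaK_mem hd a⟩
  map_add' a b := Subtype.ext (map_add (lgcIotaK K hd) a b)
  map_smul' c a := Subtype.ext (map_smul (lgcIotaK K hd) c a)

theorem lgcVm_ext (hd : IsChiPartData p q M χ lam)
    {f g : Module.End K (lgcVm K hd)} (h : ∀ a, f (lgcIotaVm K hd a) = g (lgcIotaVm K hd a)) : f = g := by
  refine LinearMap.ext_on (s := Set.range (lgcIotaVm K hd)) ?_ (by rintro _ ⟨a, rfl⟩; exact h a)
  refine Submodule.map_injective_of_injective (lgcVm K hd).injective_subtype ?_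
  rw [Submodule.map_span, ← Set.range_comp, Submodule.map_subtype_top]
  rfl

variable (hO : Function.Injective (algebraMap O K)) (hd : IsChiPartData p q M χ lam)

include hO hd in
theorem exists_lgcExtend (E : Module.End O (LgcLoc p q M χ lam)) :
    ∃ F : Module.End K (lgcVm K hd), ∀ a, F (lgcIotaVm K hd a) = lgcIotaVm K hd (E a) := by
  have := (lgcLoc_free hd).1
  let b := Module.Free.chooseBasis O (LgcLoc p q M χ lam)
  let w := lgcVmBasis hO hd b
  refine ⟨w.constr K fun i => lgcIotaVm K hd (E (b i)), fun a => ?_⟩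
  have hb : ∀ i, w i = lgcIotaVm K hd (b i) := fun i => Subtype.ext (coe_lgcVmBasis hO hd b i)
  have h : ((w.constr K fun i => lgcIotaVm K hd (E (b i))).restrictScalars O).comp
      (lgcIotaVm K hd) = (lgcIotaVm K hd).comp E := by
    refine b.ext fun i => ?_
    rw [LinearMap.comp_apply, LinearMap.coe_restrictScalars, LinearMap.comp_apply, ← hb,
      Module.Basis.constr_basis]
  exact LinearMap.congr_fun h a

/-- The extension of an endomorphism of the localised cohomology to the Betti part. -/
def lgcExtendFun (E : Module.End O (LgcLoc p q M χ lam)) : Module.End K (lgcVm K hd) :=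
  (exists_lgcExtend hO hd E).choose

theorem lgcExtendFun_apply (E : Module.End O (LgcLoc p q M χ lam)) (a : LgcLoc p q M χ lam) :
    lgcExtendFun hO hd E (lgcIotaVm K hd a) = lgcIotaVm K hd (E a) :=
  (exists_lgcExtend hO hd E).choose_spec a

theorem lgcExtendFun_add (E E' : Module.End O (LgcLoc p q M χ lam)) :
    lgcExtendFun hO hd (E + E') = lgcExtendFun hO hd E + lgcExtendFun hO hd E' := by
  apply lgcVm_ext hd; intro a
  rw [LinearMap.add_apply, lgcExtendFun_apply, lgcExtendFun_apply, lgcExtendFun_apply,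
    LinearMap.add_apply, map_add]

theorem lgcExtendFun_one : lgcExtendFun hO hd 1 = (1 : Module.End K (lgcVm K hd)) := by
  apply lgcVm_ext hd; intro a
  rw [lgcExtendFun_apply, Module.End.one_apply, Module.End.one_apply]

theorem lgcExtendFun_zero : lgcExtendFun hO hd 0 = (0 : Module.End K (lgcVm K hd)) := by
  apply lgcVm_ext hd; intro a
  rw [lgcExtendFun_apply, LinearMap.zero_apply, LinearMap.zero_apply, map_zero]

theorem lgcExtendFun_mul (E E' : Module.End O (LgcLoc p q M χ lam)) :
    lgcExtendFun hO hd (E * E') = lgcExtendFun hO hd E * lgcExtendFun hO hd E' := by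
  apply lgcVm_ext hd; intro a
  rw [Module.End.mul_apply, lgcExtendFun_apply, lgcExtendFun_apply, lgcExtendFun_apply,
    Module.End.mul_apply]

theorem lgcExtendFun_algebraMap (c : O) :
    lgcExtendFun hO hd (algebraMap O (Module.End O (LgcLoc p q M χ lam)) c) =
      algebraMap O (Module.End K (lgcVm K hd)) c := by
  apply lgcVm_ext hd; intro a
  rw [lgcExtendFun_apply, Module.algebraMap_end_apply, Module.algebraMap_end_apply, map_smul]

/-- The extension as a homomorphism of algebras. -/
def lgcExtend : Module.End O (LgcLoc p q M χ lam) →ₐ[O] Module.End K (lgcVm K hd) where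
  toFun := lgcExtendFun hO hd
  map_one' := lgcExtendFun_one hO hd
  map_mul' := lgcExtendFun_mul hO hd
  map_zero' := lgcExtendFun_zero hO hd
  map_add' := lgcExtendFun_add hO hd
  commutes' := lgcExtendFun_algebraMap hO hd

/-- **The action of the Hecke algebra on the Betti part.** -/
def lgcAct : lgcHecke p q M χ lam →ₐ[O] Module.End K (lgcVm K hd) :=
  (lgcExtend hO hd).comp (lgcHecke p q M χ lam).val

theorem lgcAct_apply (r : lgcHecke p q M χ lam) (a : LgcLoc p q M χ lam) :
    lgcAct hO hd r (lgcIotaVm K hd a) = lgcIotaVm K hd (r.1 a) :=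
  lgcExtendFun_apply hO hd r.1 a

attribute [irreducible] lgcAct

/-- The generators act as the Hecke operators on homomorphisms. -/
theorem lgcAct_gen (l : goodPrimes q M p) :
    lgcAct hO hd (bettiResGen (lgcChi q M χ) (goodPrimes q M p) (sysTheta lam) l) =
      lgcVmOp K hd l := by
  apply lgcVm_ext hd; intro a
  refine Subtype.ext ?_
  rw [lgcAct_apply]
  exact (lgcIotaK_X_smul hd l a).symm

theorem lgcVmOp_lgcIotaVm (l : Nat.Primes) (a : LgcLoc p q M χ lam) :
    lgcVmOp K hd l (lgcIotaVm K hd a) = lgcIotaVm K hd ((MvPolynomial.X l : BettiHeckeAlg O) • a) :=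
  Subtype.ext (lgcIotaK_X_smul hd l a)

theorem lgcHecke_apply_smul (r : lgcHecke p q M χ lam) (P : BettiHeckeAlg O)
    (a : LgcLoc p q M χ lam) : r.1 (P • a) = P • r.1 a := by
  obtain ⟨_, Q, rfl⟩ := r
  exact smul_comm (Q : BettiHeckeAlg O) P a

/-- The operators `T l` and `U q` commute with the action. -/
theorem commute_lgcAct_lgcVmOp (r : lgcHecke p q M χ lam) (l : Nat.Primes) :
    Commute (lgcAct hO hd r) (lgcVmOp K hd l) := by
  apply lgcVm_ext hd; intro a
  calc lgcAct hO hd r (lgcVmOp K hd l (lgcIotaVm K hd a))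
      = lgcAct hO hd r (lgcIotaVm K hd ((MvPolynomial.X l : BettiHeckeAlg O) • a)) :=
        congrArg _ (lgcVmOp_lgcIotaVm hd l a)
    _ = lgcIotaVm K hd (r.1 ((MvPolynomial.X l : BettiHeckeAlg O) • a)) := lgcAct_apply hO hd r _
    _ = lgcIotaVm K hd ((MvPolynomial.X l : BettiHeckeAlg O) • r.1 a) :=
        congrArg _ (lgcHecke_apply_smul r _ a)
    _ = lgcVmOp K hd l (lgcIotaVm K hd (r.1 a)) := (lgcVmOp_lgcIotaVm hd l _).symm
    _ = lgcVmOp K hd l (lgcAct hO hd r (lgcIotaVm K hd a)) :=
        congrArg _ (lgcAct_apply hO hd r a).symm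

/-! ### Stability -/

/-- Values in `K` of the restriction of an integral class. -/
def lgcResK (K : Type) [Field K] [Algebra O K] (hχ : χ (-1) = 1) :
    BettiMod (q * M) (lgcChi q M χ) O →ₗ[O] (Additive (lgcGroup q M) →+ K) :=
  (lgcInclHom q M K).comp (resBetti (isCharKer_lgcGroup hχ) O)

theorem lgcResK_X_smul (hχ : χ (-1) = 1) (l : Nat.Primes)
    (m : BettiMod (q * M) (lgcChi q M χ) O) :
    lgcResK K hχ ((MvPolynomial.X l : BettiHeckeAlg O) • m) =
      lgcHomOp q M K K l (lgcResK K hχ m) := by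
  show lgcInclHom q M K _ = lgcHomOp q M K K l (lgcInclHom q M K _)
  rw [lgcHomOp_lgcInclHom]
  exact congrArg _ (resBetti_lgcHomOp (isCharKer_lgcGroup hχ) l m)

theorem lgcResK_lgcIdem_mem (m : BettiMod (q * M) (lgcChi q M χ) O) :
    lgcResK K hd.neg_one (lgcIdem p q M χ lam • m) ∈
      (lgcVm K hd).map (parabolicHoms K (lgcGroup q M) K).subtype := by
  rw [← lgcSection_mk]
  exact ⟨_, lgcIotaK_mem hd _, rfl⟩

theorem C_smul_bettiMod (c : O) (m : BettiMod (q * M) (lgcChi q M χ) O) :
    (algebraMap O (BettiHeckeAlg O) c) • m = c • m :=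
  algebraMap_smul (BettiHeckeAlg O) c m

/-- Hecke polynomials pass through an operator commuting with the good Hecke operators. -/
theorem map_polynomial_smul (hχ : χ (-1) = 1)
    (f : Module.End K (parabolicHoms K (lgcGroup q M) K))
    (hT : ∀ l ∈ goodPrimes q M p, Commute f (lgcParOp q M K K l))
    {P : BettiHeckeAlg O} (hP : P ∈ MvPolynomial.supported O (goodPrimes q M p)) :
    ∀ (v : parabolicHoms K (lgcGroup q M) K) (a : BettiMod (q * M) (lgcChi q M χ) O)
      (c : BettiMod (q * M) (lgcChi q M χ) O →₀ K), v.1 = lgcResK K hχ a →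
      (f v).1 = Finsupp.linearCombination K (lgcResK K hχ) c →
      ∃ w : parabolicHoms K (lgcGroup q M) K, w.1 = lgcResK K hχ (P • a) ∧
        (f w).1 = Finsupp.linearCombination K (fun m => lgcResK K hχ (P • m)) c := by
  induction hP using Algebra.adjoin_induction with
  | mem y hy =>
    obtain ⟨l, hl, rfl⟩ := hy
    intro v a c hv hfv
    refine ⟨lgcParOp q M K K l v, ?_, ?_⟩
    · show lgcHomOp q M K K l v.1 = _
      rw [hv, lgcResK_X_smul]
    · rw [show f (lgcParOp q M K K l v) = lgcParOp q M K K l (f v) from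
        LinearMap.congr_fun (hT l hl).eq v]
      show lgcHomOp q M K K l (f v).1 = _
      rw [hfv,
        Finsupp.linearCombination_apply, Finsupp.linearCombination_apply, map_finsuppSum]
      simp only [map_smul, lgcResK_X_smul]
  | algebraMap d =>
    intro v a c hv hfv
    refine ⟨algebraMap O K d • v, ?_, ?_⟩
    · rw [Submodule.coe_smul_of_tower, hv, C_smul_bettiMod, map_smul, algebraMap_smul]
    · rw [map_smul, Submodule.coe_smul_of_tower, hfv, Finsupp.linearCombination_apply,
        Finsupp.linearCombination_apply, Finsupp.smul_sum]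
      refine Finsupp.sum_congr fun m _ => ?_
      rw [C_smul_bettiMod, map_smul (lgcResK K hχ), smul_comm, algebraMap_smul]
  | add y z _ _ hy hz =>
    intro v a c hv hfv
    obtain ⟨w, hw, hfw⟩ := hy v a c hv hfv
    obtain ⟨u, hu, hfu⟩ := hz v a c hv hfv
    refine ⟨w + u, ?_, ?_⟩
    · rw [Submodule.coe_add, hw, hu, add_smul, map_add]
    · rw [map_add, Submodule.coe_add, hfw, hfu, Finsupp.linearCombination_apply,
        Finsupp.linearCombination_apply, Finsupp.linearCombination_apply, ← Finsupp.sum_add]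
      simp only [add_smul, map_add, smul_add]
  | mul y z _ _ hy hz =>
    intro v a c hv hfv
    obtain ⟨u, hu, hfu⟩ := hz v a c hv hfv
    obtain ⟨w, hw, hfw⟩ := hy u (z • a) (c.mapDomain (z • ·)) hu (by
      rw [hfu, Finsupp.linearCombination_mapDomain]
      rfl)
    refine ⟨w, by rw [hw, mul_smul], ?_⟩
    rw [hfw, Finsupp.linearCombination_mapDomain]
    simp only [Function.comp_def, mul_smul]

variable [CharZero K]

include hO in
/-- **Stability**: an operator commuting with the good Hecke operators and preserving the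
`χ`-eigenspace preserves the Betti part. -/
theorem lgcVm_stable (f : Module.End K (parabolicHoms K (lgcGroup q M) K))
    (hT : ∀ l ∈ goodPrimes q M p, Commute f (lgcParOp q M K K l))
    (heig : ∀ v : parabolicHoms K (lgcGroup q M) K,
      IsChiEigen (lgcChiK q M K χ) (lgcGroup q M) v.1 →
        IsChiEigen (lgcChiK q M K χ) (lgcGroup q M) (f v).1)
    {v : parabolicHoms K (lgcGroup q M) K} (hv : v ∈ lgcVm K hd) : f v ∈ lgcVm K hd := by
  suffices h : lgcVm K hd ≤ (lgcVm K hd).comap f from h hv
  refine Submodule.span_le.mpr ?_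
  rintro _ ⟨a, rfl⟩
  show f (lgcIotaK K hd a) ∈ lgcVm K hd
  -- the idempotent is invertible on the localised module
  obtain ⟨a', ha'⟩ := (bettiResLoc_injective_smul (lgcChi q M χ) (goodPrimes q M p) (sysTheta lam)
    (lgcIdem_mem (p := p) (lam := lam) (χ := χ))).2 a
  set v := lgcIotaK K hd a'
  have hspan : (f v).1 ∈ Submodule.span K (Set.range (lgcResK (M := M) K hd.neg_one)) :=
    mem_span_resBetti (isCharKer_lgcGroup hd.neg_one) hO (f v).1 (isChiEigen_lgcChiK_iff.mp
      (heig v (isChiEigen_of_mem_lgcVm hd (lgcIotaK_mem hd a'))))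
  obtain ⟨c, hc⟩ := Finsupp.mem_span_range_iff_exists_finsupp.mp hspan
  obtain ⟨w, hw, hfw⟩ := map_polynomial_smul hd.neg_one f hT (lgcIdem_mem (p := p) (lam := lam)
    (χ := χ)).1 v (lgcSection p q M χ lam a') c rfl
    (by rw [Finsupp.linearCombination_apply]; exact hc.symm)
  have hwa : w = lgcIotaK K hd a := Subtype.ext (by
    rw [hw, ← map_smul]
    show _ = lgcResK K hd.neg_one (lgcSection p q M χ lam a)
    rw [← ha'])
  have hmem : (f w).1 ∈ (lgcVm K hd).map (parabolicHoms K (lgcGroup q M) K).subtype := by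
    rw [hfw, Finsupp.linearCombination_apply]
    exact Submodule.sum_mem _ fun m _ => Submodule.smul_mem _ _ (lgcResK_lgcIdem_mem hd m)
  obtain ⟨u, hu, huw⟩ := hmem
  rw [← hwa, show f w = u from Subtype.ext huw.symm]
  exact hu

/-- Such an operator commutes with the action. -/
theorem commute_lgcAct_restrict (f : Module.End K (parabolicHoms K (lgcGroup q M) K))
    (hT : ∀ l ∈ goodPrimes q M p, Commute f (lgcParOp q M K K l))
    (hf : ∀ v ∈ lgcVm K hd, f v ∈ lgcVm K hd) (r : lgcHecke p q M χ lam) :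
    Commute (lgcAct hO hd r) (f.restrict hf) := by
  have hr : r ∈ Algebra.adjoin O (Set.range
      (bettiResGen (lgcChi q M χ) (goodPrimes q M p) (sysTheta lam))) := by
    rw [adjoin_bettiResGen]
    trivial
  induction hr using Algebra.adjoin_induction with
  | mem y hy =>
    obtain ⟨l, rfl⟩ := hy
    rw [lgcAct_gen]
    exact LinearMap.ext fun v => Subtype.ext (LinearMap.congr_fun (hT l l.2).eq v.1).symm
  | algebraMap d =>
    rw [AlgHom.commutes]
    refine LinearMap.ext fun v => ?_
    rw [Module.End.mul_apply, Module.End.mul_apply, Module.algebraMap_end_apply,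
      Module.algebraMap_end_apply, LinearMap.map_smul_of_tower]
  | add y z _ _ hy hz => rw [map_add]; exact hy.add_left hz
  | mul y z _ _ hy hz => rw [map_mul]; exact hy.mul_left hz

/-! ### Eigenclasses -/

/-- Hecke polynomials on a combination that is an eigenvector. -/
theorem linearCombination_polynomial_smul (hχ : χ (-1) = 1)
    {ψ : Additive (lgcGroup q M) →+ K}
    (hψ : ∀ l ∈ goodPrimes q M p,
      lgcHomOp q M K K l ψ = algebraMap O K (lam l) • ψ)
    {P : BettiHeckeAlg O} (hP : P ∈ MvPolynomial.supported O (goodPrimes q M p)) :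
    ∀ (c : BettiMod (q * M) (lgcChi q M χ) O →₀ K) (k : K),
      Finsupp.linearCombination K (lgcResK K hχ) c = k • ψ →
      Finsupp.linearCombination K (fun m => lgcResK K hχ (P • m)) c =
        (algebraMap O K (MvPolynomial.eval lam P) * k) • ψ := by
  induction hP using Algebra.adjoin_induction with
  | mem y hy =>
    obtain ⟨l, hl, rfl⟩ := hy
    intro c k hc
    rw [MvPolynomial.eval_X, mul_comm (algebraMap O K (lam l)) k, mul_smul, ← hψ l hl, ← map_smul, ← hc,
      Finsupp.linearCombination_apply, Finsupp.linearCombination_apply, map_finsuppSum]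
    simp only [map_smul, lgcResK_X_smul]
  | algebraMap d =>
    intro c k hc
    rw [MvPolynomial.algebraMap_eq, MvPolynomial.eval_C, mul_smul, ← hc,
      Finsupp.linearCombination_apply, Finsupp.linearCombination_apply, Finsupp.smul_sum,
      ← MvPolynomial.algebraMap_eq]
    refine Finsupp.sum_congr fun m _ => ?_
    rw [C_smul_bettiMod, map_smul (lgcResK K hχ), smul_comm, algebraMap_smul]
  | add y z _ _ hy hz =>
    intro c k hc
    rw [map_add, map_add, add_mul, add_smul, ← hy c k hc, ← hz c k hc,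
      Finsupp.linearCombination_apply, Finsupp.linearCombination_apply,
      Finsupp.linearCombination_apply, ← Finsupp.sum_add]
    simp only [add_smul, map_add, smul_add]
  | mul y z _ _ hy hz =>
    intro c k hc
    have h2 := hy (c.mapDomain (z • ·)) (algebraMap O K (MvPolynomial.eval lam z) * k) (by
      rw [Finsupp.linearCombination_mapDomain]
      exact hz c k hc)
    rw [Finsupp.linearCombination_mapDomain] at h2
    rw [map_mul, map_mul, mul_assoc, ← h2]
    simp only [Function.comp_def, mul_smul]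

/-- Restriction over `K` turns Hecke eigenvalues into eigenvalues on homomorphisms. -/
theorem lgcHomOp_resBetti_of_eigen (hχ : χ (-1) = 1) (l : Nat.Primes)
    {x : bettiH1 (Gamma0 (q * M)) (nebenChar (lgcChiK q M K χ)) K} {u : K}
    (hx : bettiHeckeOp (q * M) K (lgcChiK q M K χ) l x = u • x) :
    lgcHomOp q M K K l (resBetti (isCharKer_lgcGroupK K hχ) K (sysClass x)) =
      u • resBetti (isCharKer_lgcGroupK K hχ) K (sysClass x) := by
  rw [← resBetti_lgcHomOp (isCharKer_lgcGroupK K hχ) l, BettiMod.X_smul, ← map_smul]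
  exact congrArg _ hx

include hO in
/-- An eigenhomomorphism for the system lies in the Betti part. -/
theorem mem_lgcVm_of_eigen (ψ : parabolicHoms K (lgcGroup q M) K)
    (heig : IsChiEigen (lgcChiK q M K χ) (lgcGroup q M) ψ.1)
    (hψ : ∀ l ∈ goodPrimes q M p, lgcHomOp q M K K l ψ.1 = algebraMap O K (lam l) • ψ.1) :
    ψ ∈ lgcVm K hd := by
  have hspan : ψ.1 ∈ Submodule.span K (Set.range (lgcResK (M := M) K hd.neg_one)) :=
    mem_span_resBetti (isCharKer_lgcGroup hd.neg_one) hO ψ.1 (isChiEigen_lgcChiK_iff.mp heig)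
  obtain ⟨c, hc⟩ := Finsupp.mem_span_range_iff_exists_finsupp.mp hspan
  have hm := linearCombination_polynomial_smul hd.neg_one hψ
    (lgcIdem_mem (p := p) (q := q) (M := M) (lam := lam) (χ := χ)).1 c 1
    (by rw [one_smul, Finsupp.linearCombination_apply]; exact hc)
  have he : algebraMap O K (MvPolynomial.eval lam (lgcIdem p q M χ lam)) ≠ 0 := fun e => by
    refine (lgcIdem_mem (p := p) (q := q) (M := M) (lam := lam) (χ := χ)).2 ?_
    rw [sysTheta_eval, hO (e.trans (map_zero _).symm), map_zero]
  rw [mul_one] at hm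
  have hmem : ψ.1 ∈ (lgcVm K hd).map (parabolicHoms K (lgcGroup q M) K).subtype := by
    refine (Submodule.smul_mem_iff _ he).mp ?_
    rw [← hm, Finsupp.linearCombination_apply]
    exact Submodule.sum_mem _ fun m _ => Submodule.smul_mem _ _ (lgcResK_lgcIdem_mem hd m)
  obtain ⟨u, hu, huψ⟩ := hmem
  rwa [show ψ = u from Subtype.ext huψ.symm]

/-- An eigenvector of the generators is an eigenvector of the Hecke algebra. -/
theorem exists_smul_of_eigen {v : lgcVm K hd}
    (hT : ∀ l ∈ goodPrimes q M p, lgcVmOp K hd l v = algebraMap O K (lam l) • v)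
    (r : lgcHecke p q M χ lam) : ∃ k : K, lgcAct hO hd r v = k • v := by
  have hr : r ∈ Algebra.adjoin O (Set.range
      (bettiResGen (lgcChi q M χ) (goodPrimes q M p) (sysTheta lam))) := by
    rw [adjoin_bettiResGen]
    trivial
  induction hr using Algebra.adjoin_induction with
  | mem y hy =>
    obtain ⟨l, rfl⟩ := hy
    exact ⟨algebraMap O K (lam l), (LinearMap.congr_fun (lgcAct_gen hO hd l) v).trans (hT l l.2)⟩
  | algebraMap d =>
    refine ⟨algebraMap O K d, ?_⟩
    rw [AlgHom.commutes, Module.algebraMap_end_apply, algebraMap_smul]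
  | add y z _ _ hy hz =>
    obtain ⟨k, hk⟩ := hy
    obtain ⟨k', hk'⟩ := hz
    exact ⟨k + k', by rw [map_add, LinearMap.add_apply, hk, hk', add_smul]⟩
  | mul y z _ _ hy hz =>
    obtain ⟨k, hk⟩ := hy
    obtain ⟨k', hk'⟩ := hz
    exact ⟨k' * k, by rw [map_mul, Module.End.mul_apply, hk', map_smul, hk, smul_smul]⟩

/-- An eigenvector of the generators gives a character of the Hecke algebra. -/
theorem exists_character_of_eigen {v : lgcVm K hd} (hv : v ≠ 0)
    (hT : ∀ l ∈ goodPrimes q M p, lgcVmOp K hd l v = algebraMap O K (lam l) • v) :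
    ∃ χ₀ : lgcHecke p q M χ lam →ₐ[O] K,
      (∀ l, χ₀ (bettiResGen (lgcChi q M χ) (goodPrimes q M p) (sysTheta lam) l) =
        algebraMap O K (lam (l : Nat.Primes))) ∧
      ∀ r, lgcAct hO hd r v = χ₀ r • v := by
  choose k hk using exists_smul_of_eigen hO hd hT
  obtain ⟨χ₀, hχ₀⟩ := exists_algHom_of_common_eigen (lgcAct hO hd) hv hk
  refine ⟨χ₀, fun l => ?_, fun r => (hk r).trans (congrArg (· • v) (hχ₀ r).symm)⟩
  have e : k (bettiResGen (lgcChi q M χ) (goodPrimes q M p) (sysTheta lam) l) • v =
      algebraMap O K (lam (l : Nat.Primes)) • v :=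
    (hk _).symm.trans ((LinearMap.congr_fun (lgcAct_gen hO hd l) v).trans (hT l l.2))
  rw [← sub_eq_zero, ← sub_smul] at e
  rw [hχ₀]
  exact sub_eq_zero.mp ((smul_eq_zero.mp e).resolve_right hv)

include hO in
/-- **The vector of an eigenclass**, with the character of the Hecke algebra. -/
theorem exists_lgcVector
    {x : bettiH1 (Gamma0 (q * M)) (nebenChar (lgcChiK q M K χ)) K} {ρ : GaloisRepAdic O}
    (h : IsLgcSystem p q M χ K lam x ρ) :
    ∃ v : lgcVm K hd,
      (v : parabolicHoms K (lgcGroup q M) K).1 =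
        resBetti (isCharKer_lgcGroupK K hd.neg_one) K (sysClass x) ∧
      v ≠ 0 ∧
      (∀ l ∈ goodPrimes q M p, lgcVmOp K hd l v = algebraMap O K (lam l) • v) ∧
      (∀ (l : Nat.Primes) (u : K), bettiHeckeOp (q * M) K (lgcChiK q M K χ) l x = u • x →
        lgcVmOp K hd l v = u • v) ∧
      ∃ χ₀ : lgcHecke p q M χ lam →ₐ[O] K,
        (∀ l, χ₀ (bettiResGen (lgcChi q M χ) (goodPrimes q M p) (sysTheta lam) l) =
          algebraMap O K (lam (l : Nat.Primes))) ∧
        ∀ r, lgcAct hO hd r v = χ₀ r • v := by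
  have hk := isCharKer_lgcGroupK (q := q) (M := M) K hd.neg_one
  set ψ := resBetti hk K (sysClass x) with hψdef
  have hψ : ∀ l ∈ goodPrimes q M p,
      lgcHomOp q M K K l ψ = algebraMap O K (lam l) • ψ := fun l hl =>
    lgcHomOp_resBetti_of_eigen hd.neg_one l (h.eigen l hl)
  have hψ0 : ψ ≠ 0 := by
    intro h0
    have h1 := index_smul_eq_zero_of_resBetti hk h0
    rw [← Nat.cast_smul_eq_nsmul K] at h1
    exact h.ne_zero ((smul_eq_zero.mp h1).resolve_left
      (Nat.cast_ne_zero.mpr (charKerIndex_ne_zero hk)))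
  have hpar : ψ ∈ parabolicHoms K (lgcGroup q M) K := by
    obtain ⟨l, hl, hl1, hP⟩ := hd.exists_sub_degree
    obtain ⟨hlL, hlN⟩ := not_dvd_of_mem_goodPrimes hl
    have hmem := resBetti_sub_degree_mem_lgc hk l hl1 hlN hlL (sysClass x)
    have hC : resBetti hk K ((MvPolynomial.C (((l : ℕ) + 1 : ℕ) : K) : BettiHeckeAlg K) •
        sysClass x) = (((l : ℕ) + 1 : ℕ) : K) • ψ := by
      rw [← MvPolynomial.algebraMap_eq, algebraMap_smul, map_smul]
    rw [sub_smul, map_sub, resBetti_lgcHomOp hk l, hC, ← hψdef, hψ l hl, ← sub_smul] at hmem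
    refine (Submodule.smul_mem_iff _ (sub_ne_zero.mpr fun e => hP.2 ?_)).mp hmem
    rw [← map_natCast (algebraMap O K)] at e
    rw [map_sub, sub_eq_zero, sysTheta_C, sysTheta_eval, MvPolynomial.eval_X, hO e]
  have hu : (⟨ψ, hpar⟩ : parabolicHoms K (lgcGroup q M) K) ∈ lgcVm K hd :=
    mem_lgcVm_of_eigen hO hd ⟨ψ, hpar⟩ (resBetti_isChiEigen hk _) hψ
  have hne : (⟨⟨ψ, hpar⟩, hu⟩ : lgcVm K hd) ≠ 0 := fun h0 =>
    hψ0 (congrArg (fun v : lgcVm K hd => v.1.1) h0)
  have hT : ∀ l ∈ goodPrimes q M p, lgcVmOp K hd l ⟨⟨ψ, hpar⟩, hu⟩ =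
      algebraMap O K (lam l) • (⟨⟨ψ, hpar⟩, hu⟩ : lgcVm K hd) := fun l hl =>
    Subtype.ext (Subtype.ext (hψ l hl))
  exact ⟨⟨⟨ψ, hpar⟩, hu⟩, rfl, hne, hT,
    fun l w hw => Subtype.ext (Subtype.ext (lgcHomOp_resBetti_of_eigen hd.neg_one l hw)),
    exists_character_of_eigen hO hd hne hT⟩

end FermatLib.MLT.LGC

end
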