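import Fermat.Agent.MLT.LGC.DictionaryDefs
import Fermat.Agent.MLT.BettiHecke
import Fermat.Agent.MLT.Hecke.IharaCusp
import Fermat.Agent.Galois.DS.HeckeGamma1
import Fermat.Agent.Modular.HeckeParabolic

/-!
# Hecke operators on homomorphisms of `Γ_H`

With representatives normalised to upper left entry `1` modulo `N` the cosets of `T p` and `U p`
on `Γ₀(N)` restrict to every `Γ_H = deltaKer δ`.  For `l ≡ 1 (mod N)` a parabolic element sees
`T l` as `l + 1`.
-/

set_option autoImplicit false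

noncomputable section

open CongruenceSubgroup ModularCurve.Period
open scoped MatrixGroups

namespace FermatLib.MLT.LGC

open FermatLib.Modular FermatLib.Galois.DS

local notation "M2Z" => Matrix (Fin 2) (Fin 2) ℤ

section Systems

variable {Γ Γ' : Subgroup SL(2, ℤ)} {ι : Type} (D : HeckeSystem Γ ι)

/-- The same cosets with representatives changed on the left. -/
def unitTwist (u : ι → Γ) : HeckeSystem Γ ι where
  rep i := ((u i : SL(2, ℤ)) : M2Z) * D.rep i
  det_ne_zero i := by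
    rw [Matrix.det_mul, Matrix.SpecialLinearGroup.det_coe, one_mul]
    exact D.det_ne_zero i
  eq_of_mul_rep i j h e := by
    refine D.eq_of_mul_rep i j ((u j : SL(2, ℤ))⁻¹ * (h * (u i : SL(2, ℤ)))) ?_
    rw [Matrix.SpecialLinearGroup.coe_mul, Matrix.SpecialLinearGroup.coe_mul, Matrix.mul_assoc,
      Matrix.mul_assoc, e, ← Matrix.mul_assoc, ← Matrix.SpecialLinearGroup.coe_mul,
      inv_mul_cancel, Matrix.SpecialLinearGroup.coe_one, one_mul]
  exists_mul_eq i γ := ⟨D.next γ i, u i * D.elt γ i * (u (D.next γ i))⁻¹, by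
    simp only [Subgroup.coe_mul, Matrix.SpecialLinearGroup.coe_mul, Matrix.mul_assoc]
    rw [D.rep_mul, ← Matrix.mul_assoc (((u (D.next γ i))⁻¹ : Γ) : SL(2, ℤ)).1,
      ← Matrix.SpecialLinearGroup.coe_mul, ← Subgroup.coe_mul, inv_mul_cancel, Subgroup.coe_one,
      Matrix.SpecialLinearGroup.coe_one, one_mul]⟩

theorem unitTwist_rep (u : ι → Γ) (i : ι) :
    (unitTwist D u).rep i = ((u i : SL(2, ℤ)) : M2Z) * D.rep i := rfl

theorem unitTwist_next_elt (u : ι → Γ) (γ : Γ) (i : ι) :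
    (unitTwist D u).next γ i = D.next γ i ∧
      (unitTwist D u).elt γ i = u i * D.elt γ i * (u (D.next γ i))⁻¹ := by
  refine (unitTwist D u).next_elt_eq_of_eq ?_
  simp only [unitTwist_rep, Subgroup.coe_mul, Matrix.SpecialLinearGroup.coe_mul, Matrix.mul_assoc]
  rw [D.rep_mul, ← Matrix.mul_assoc (((u (D.next γ i))⁻¹ : Γ) : SL(2, ℤ)).1,
    ← Matrix.SpecialLinearGroup.coe_mul, ← Subgroup.coe_mul, inv_mul_cancel, Subgroup.coe_one,
    Matrix.SpecialLinearGroup.coe_one, one_mul]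

/-- A system restricted to a subgroup containing its transition elements. -/
def shrinkSystem (h : Γ' ≤ Γ)
    (hD : ∀ (γ : Γ') (i : ι), (D.elt ⟨γ, h γ.2⟩ i : SL(2, ℤ)) ∈ Γ') : HeckeSystem Γ' ι where
  rep := D.rep
  det_ne_zero := D.det_ne_zero
  eq_of_mul_rep := D.eq_of_mul_rep
  exists_mul_eq i γ := ⟨D.next ⟨γ, h γ.2⟩ i, ⟨_, hD γ i⟩, D.rep_mul ⟨γ, h γ.2⟩ i⟩

theorem shrinkSystem_next_elt (h : Γ' ≤ Γ)
    (hD : ∀ (γ : Γ') (i : ι), (D.elt ⟨γ, h γ.2⟩ i : SL(2, ℤ)) ∈ Γ') (γ : Γ') (i : ι) :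
    (shrinkSystem D h hD).next γ i = D.next ⟨γ, h γ.2⟩ i ∧
      (shrinkSystem D h hD).elt γ i = ⟨_, hD γ i⟩ :=
  (shrinkSystem D h hD).next_elt_eq_of_eq (D.rep_mul ⟨γ, h γ.2⟩ i)

end Systems

variable {N : ℕ}

/-- The element normalising the upper left entry of a representative to `1` modulo `N`. -/
def unitRep (N : ℕ) (p : Nat.Primes) : HeckeIdx N p → Gamma0 N
  | ⟨some _, _⟩ => 1
  | ⟨none, h⟩ => diamondMat N p (p.2.coprime_iff_not_dvd.2 (h rfl))

theorem unitRep_some (p : Nat.Primes) {x : HeckeIdx N p} {j : Fin (p : ℕ)} (hx : x.1 = some j) :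
    unitRep N p x = 1 := by
  obtain ⟨x, h⟩ := x
  obtain rfl : x = some j := hx
  rfl

/-- `T p` or `U p` on `Γ₀(N)` with normalised representatives. -/
def oneRepSystem (N : ℕ) (p : Nat.Primes) : HeckeSystem (Gamma0 N) (HeckeIdx N p) :=
  unitTwist (heckeSystem N p) (unitRep N p)

theorem oneRepSystem_rep_some (p : Nat.Primes) {x : HeckeIdx N p} {j : Fin (p : ℕ)}
    (hx : x.1 = some j) : (oneRepSystem N p).rep x = heckeRepInt p (some j) := by
  rw [oneRepSystem, unitTwist_rep, unitRep_some p hx, heckeSystem_rep, hx]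
  simp

theorem upperUnits_oneRep (N : ℕ) (p : Nat.Primes) :
    UpperUnits N (oneRepSystem N p).rep (fun _ => 1) := by
  rintro ⟨x, hx⟩
  cases x with
  | some j =>
    rw [oneRepSystem_rep_some p (j := j) rfl]
    simp [heckeRepInt]
  | none =>
    obtain ⟨h0, -, h2⟩ := heckeRep1_congr N p (p.2.coprime_iff_not_dvd.2 (hx rfl)) none
    refine ⟨(ZMod.intCast_zmod_eq_zero_iff_dvd _ _).mp h2, ?_⟩
    rw [Units.val_one]
    exact h0

/-- The transition elements have the same lower right entry modulo `N`. -/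
theorem gamma0UnitsHom_oneRep_elt (p : Nat.Primes) (γ : Gamma0 N) (i : HeckeIdx N p) :
    gamma0UnitsHom N ((oneRepSystem N p).elt γ i) = gamma0UnitsHom N γ := by
  have h := isWeight_upperUnits_self (A := ZMod N) (CosetSystem.ofHecke (oneRepSystem N p))
    (upperUnits_oneRep N p) (MonoidHom.id _) γ i
  simp only [MonoidHom.id_apply, Units.val_one, one_mul, mul_one] at h
  exact Units.ext h

variable {Δ : Type} [CommGroup Δ] (δ : (ZMod N)ˣ →* Δ)

theorem coe_mem_deltaKer {γ : Gamma0 N} :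
    (γ : SL(2, ℤ)) ∈ deltaKer δ ↔ δ (gamma0UnitsHom N γ) = 1 :=
  mem_deltaKer.trans ⟨fun ⟨_, h⟩ => h, fun h => ⟨γ.2, h⟩⟩

theorem oneRep_elt_mem (p : Nat.Primes) (γ : deltaKer δ) (i : HeckeIdx N p) :
    ((oneRepSystem N p).elt ⟨γ, deltaKer_le δ γ.2⟩ i : SL(2, ℤ)) ∈ deltaKer δ := by
  rw [coe_mem_deltaKer, gamma0UnitsHom_oneRep_elt]
  exact (coe_mem_deltaKer δ).mp γ.2

/-- `T p` or `U p` on `Γ_H`. -/
def deltaHecke (p : Nat.Primes) : HeckeSystem (deltaKer δ) (HeckeIdx N p) :=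
  shrinkSystem (oneRepSystem N p) (deltaKer_le δ) (oneRep_elt_mem δ p)

theorem deltaHecke_rep (p : Nat.Primes) (x : HeckeIdx N p) :
    (deltaHecke δ p).rep x = ((unitRep N p x : SL(2, ℤ)) : M2Z) * heckeRepInt p x.1 := rfl

theorem deltaHecke_rep_some (p : Nat.Primes) {x : HeckeIdx N p} {j : Fin (p : ℕ)}
    (hx : x.1 = some j) : (deltaHecke δ p).rep x = heckeRepInt p (some j) :=
  oneRepSystem_rep_some p hx

theorem deltaHecke_elt (p : Nat.Primes) (γ : deltaKer δ) (i : HeckeIdx N p) :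
    ((deltaHecke δ p).elt γ i : SL(2, ℤ)) =
      ((unitRep N p i * (heckeSystem N p).elt ⟨γ, deltaKer_le δ γ.2⟩ i *
        (unitRep N p ((heckeSystem N p).next ⟨γ, deltaKer_le δ γ.2⟩ i))⁻¹ : Gamma0 N) :
          SL(2, ℤ)) := by
  rw [deltaHecke, (shrinkSystem_next_elt _ _ _ γ i).2]
  exact congrArg Subtype.val (unitTwist_next_elt _ _ ⟨γ, deltaKer_le δ γ.2⟩ i).2

variable (R : Type*) [CommRing R] (A : Type*) [AddCommGroup A] [Module R A]

/-- `T p` or `U p` on homomorphisms of `Γ_H`. -/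
def deltaHomOp (p : Nat.Primes) : Module.End R (Additive (deltaKer δ) →+ A) :=
  (deltaHecke δ p).op R

/-- `T p` or `U p` on parabolic homomorphisms of `Γ_H`. -/
def deltaParOp (p : Nat.Primes) : Module.End R (parabolicHoms R (deltaKer δ) A) :=
  (deltaHomOp δ R A p).restrict fun _ hφ => op_mem_parabolicHoms _ hφ

variable {R A}

/-- An element of `Γ₀(N)` between two matrices that are upper triangular modulo `N` with upper
left entry `1` has lower right entry `1` modulo `N`. -/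
theorem gamma0UnitsHom_eq_one_of_upper {h : Gamma0 N} {X Y : M2Z}
    (e : X = ((h : SL(2, ℤ)) : M2Z) * Y) (hX : ((X 0 0 : ℤ) : ZMod N) = 1)
    (hY : (N : ℤ) ∣ Y 1 0) (hY0 : ((Y 0 0 : ℤ) : ZMod N) = 1) : gamma0UnitsHom N h = 1 := by
  have := gamma0_unit_mul h 1 1 Y hY (by rw [hY0, Units.val_one])
    (by rw [← e, hX, Units.val_one])
  rwa [one_mul] at this

variable {V : Type*} [AddCommGroup V] [Module R V]

/-- For `l ≡ 1 (mod N)` a parabolic element sees `T l` as `l + 1`. -/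
theorem deltaHomOp_parabolic (hδ : δ (-1) = 1) (l : Nat.Primes) (hl : ((l : ℕ) : ZMod N) = 1)
    (hlN : ¬ (l : ℕ) ∣ N) {φ : Additive (deltaKer δ) →+ V}
    (hneg : ∀ γ : deltaKer δ, (γ : SL(2, ℤ)) = -1 → φ (Additive.ofMul γ) = 0) (γ : deltaKer δ)
    (hγ : Matrix.trace ((γ : SL(2, ℤ)) : Matrix (Fin 2) (Fin 2) ℤ) ^ 2 = 4) :
    deltaHomOp δ R V l φ (Additive.ofMul γ) = ((l : ℕ) + 1) • φ (Additive.ofMul γ) := by
  classical
  have hm1 : (-1 : SL(2, ℤ)) ∈ deltaKer δ := by
    refine mem_deltaKer.mpr ⟨by simp [Gamma0_mem], ?_⟩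
    rw [show gamma0UnitsHom N ⟨-1, by simp [Gamma0_mem]⟩ = -1 from Units.ext (by simp), hδ]
  have hnegmem : ∀ {x : SL(2, ℤ)}, x ∈ deltaKer δ → -x ∈ deltaKer δ := fun {x} hx => by
    rw [show -x = -1 * x by simp]; exact mul_mem hm1 hx
  have hnegmul : ∀ a b : deltaKer δ, (a : SL(2, ℤ)) = -(b : SL(2, ℤ)) →
      φ (Additive.ofMul a) = φ (Additive.ofMul b) := fun a b hab => by
    have h1 : ((a * b⁻¹ : deltaKer δ) : SL(2, ℤ)) = -1 := by
      rw [Subgroup.coe_mul, Subgroup.coe_inv, hab, neg_mul, mul_inv_cancel]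
    have h2 := hneg _ h1
    rwa [ofMul_mul, ofMul_inv, map_add, map_neg, add_neg_eq_zero] at h2
  set D := deltaHecke δ l with hD
  obtain ⟨g, n, hg⟩ := exists_eq_conj_of_trace_sq_eq_four hγ
  have hn : g * ModularGroup.T ^ n * g⁻¹ ∈ deltaKer δ := by
    rcases hg with h | h
    · exact h ▸ γ.2
    · have := hnegmem γ.2
      rwa [h, neg_neg] at this
  suffices main : deltaHomOp δ R V l φ (Additive.ofMul ⟨_, hn⟩) =
      ((l : ℕ) + 1) • φ (Additive.ofMul ⟨_, hn⟩) by
    rcases hg with h | h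
    · rwa [show γ = ⟨_, hn⟩ from Subtype.ext h]
    · have hT : deltaHomOp δ R V l φ (Additive.ofMul γ) =
          deltaHomOp δ R V l φ (Additive.ofMul ⟨_, hn⟩) := by
        rw [deltaHomOp, HeckeSystem.op_apply, HeckeSystem.op_apply, ← hD]
        refine Finset.sum_congr rfl fun x _ => ?_
        have h3 := (D.next_elt_eq_of_eq (γ := γ) (i := x) (j := D.next ⟨_, hn⟩ x)
          (h := ⟨_, hnegmem (D.elt ⟨_, hn⟩ x).2⟩) (by
            show D.rep x * _ = ((-(D.elt ⟨_, hn⟩ x : SL(2, ℤ)) : SL(2, ℤ)) : M2Z) * _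
            rw [h, Matrix.SpecialLinearGroup.coe_neg, Matrix.SpecialLinearGroup.coe_neg,
              Matrix.mul_neg, Matrix.neg_mul]
            exact congrArg Neg.neg (D.rep_mul ⟨_, hn⟩ x))).2
        exact hnegmul _ _ (by rw [h3])
      rw [hT, main, hnegmul γ ⟨_, hn⟩ h]
  set gu : M2Z := (g : M2Z)
  set gi : M2Z := ((g⁻¹ : SL(2, ℤ)) : M2Z)
  have hgi : gu * gi = 1 := by
    rw [← Matrix.SpecialLinearGroup.coe_mul, mul_inv_cancel, Matrix.SpecialLinearGroup.coe_one]
  have hig : gi * gu = 1 := by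
    rw [← Matrix.SpecialLinearGroup.coe_mul, inv_mul_cancel, Matrix.SpecialLinearGroup.coe_one]
  let H : AddSubgroup ℤ :=
    { carrier := {m | g * ModularGroup.T ^ m * g⁻¹ ∈ deltaKer δ}
      zero_mem' := by
        show g * ModularGroup.T ^ (0 : ℤ) * g⁻¹ ∈ deltaKer δ
        rw [zpow_zero, mul_one, mul_inv_cancel]
        exact one_mem _
      add_mem' := fun {a b} ha hb => by
        have := mul_mem (show _ ∈ deltaKer δ from ha) (show _ ∈ deltaKer δ from hb)
        simp only [Set.mem_ofPred_eq, zpow_add]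
        convert this using 1
        group
      neg_mem' := fun {a} ha => by
        have := inv_mem (show _ ∈ deltaKer δ from ha)
        simp only [Set.mem_ofPred_eq, zpow_neg]
        convert this using 1
        group }
  let P : H →+ V :=
    { toFun := fun m => φ (Additive.ofMul ⟨g * ModularGroup.T ^ (m : ℤ) * g⁻¹, m.2⟩)
      map_zero' := by
        rw [← map_zero φ]
        exact congrArg φ (congrArg Additive.ofMul (Subtype.ext (by simp)))
      map_add' := fun a b => by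
        rw [← map_add, ← ofMul_mul]
        refine congrArg φ (congrArg Additive.ofMul (Subtype.ext ?_))
        simp only [AddSubgroup.coe_add, zpow_add, Subgroup.coe_mul]
        group }
  have hcong : ∀ x : SL(2, ℤ), x ∈ Gamma N → x ∈ deltaKer δ := fun x hx => by
    obtain ⟨-, -, h10, h11⟩ := Gamma_mem.1 hx
    refine mem_deltaKer.mpr ⟨Gamma0_mem.2 h10, ?_⟩
    rw [show gamma0UnitsHom N ⟨x, Gamma0_mem.2 h10⟩ = 1 from Units.ext (by simpa using h11), map_one]
  have hH : ∀ m : ℤ, (m : ZMod N) = (n : ZMod N) → m ∈ H := fun m hm => by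
    obtain ⟨k, hk⟩ := (ZMod.intCast_eq_intCast_iff_dvd_sub n m N).1 hm.symm
    have hTN : g * ModularGroup.T ^ ((N : ℤ) * k) * g⁻¹ ∈ deltaKer δ := by
      refine hcong _ ((Gamma_normal N).conj_mem _ ?_ g)
      simp [Gamma_mem, coe_T_zpow']
    show g * ModularGroup.T ^ m * g⁻¹ ∈ deltaKer δ
    rw [show m = n + (N : ℤ) * k by omega, zpow_add]
    convert mul_mem hn hTN using 1
    group
  have hex : ∀ x : Option (Fin (l : ℕ)), ∃ (y : HeckeIdx N l) (u : deltaKer δ),
      gu * cuspRep N l x * gi = ((u : SL(2, ℤ)) : M2Z) * D.rep y := fun x => by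
    have h1 : (gu * cuspRep N l x * gi).map (Int.castRingHom (ZMod N)) = 1 := by
      rw [Matrix.map_mul, Matrix.map_mul]
      show gu.map _ * (cuspRep N l x).map (Int.cast : ℤ → ZMod N) * gi.map _ = 1
      rw [cast_cuspRep hl, mul_one, ← Matrix.map_mul, hgi]
      exact Matrix.map_one _ (map_zero _) (map_one _)
    obtain ⟨y, v, hv⟩ := exists_eq_mul_rep (N := N) l.2 (gu * cuspRep N l x * gi)
      (by rw [Matrix.det_mul, Matrix.det_mul, det_cuspRep, Matrix.SpecialLinearGroup.det_coe,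
        Matrix.SpecialLinearGroup.det_coe, one_mul, mul_one])
      (by
        rw [← ZMod.intCast_zmod_eq_zero_iff_dvd]
        exact congrFun (congrFun h1 1) 0)
      (fun h => absurd h hlN)
    have e : gu * cuspRep N l x * gi =
        (((v * (unitRep N l y)⁻¹ : Gamma0 N) : SL(2, ℤ)) : M2Z) * D.rep y := by
      rw [hv, hD, deltaHecke_rep, ← Matrix.mul_assoc, ← Matrix.SpecialLinearGroup.coe_mul,
        ← Subgroup.coe_mul, inv_mul_cancel_right]
    refine ⟨y, ⟨((v * (unitRep N l y)⁻¹ : Gamma0 N) : SL(2, ℤ)), (coe_mem_deltaKer δ).mpr ?_⟩, e⟩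
    obtain ⟨hY, hY0⟩ := upperUnits_oneRep N l y
    rw [gamma0UnitsHom_eq_one_of_upper e (congrFun (congrFun h1 0) 0) hY
      (by rw [Units.val_one] at hY0; exact hY0), map_one]
  choose π u hu using hex
  have hbij : Function.Bijective π := by
    refine (Fintype.bijective_iff_injective_and_card π).2 ⟨fun x y hxy => ?_, ?_⟩
    · refine cuspRep_eq_of_mul_eq l hlN (g⁻¹ * ((u y * (u x)⁻¹ : deltaKer δ) : SL(2, ℤ)) * g)
        x y ?_
      have h1 := congrArg (fun M => gi * M * gu) (hu y)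
      simp only [← Matrix.mul_assoc, hig, one_mul] at h1
      rw [Matrix.mul_assoc, hig, mul_one] at h1
      rw [h1, ← hxy]
      have h2 := congrArg (fun M => (((u x)⁻¹ : deltaKer δ) : SL(2, ℤ)) * (M * gu) ) (hu x)
      simp only [Matrix.mul_assoc, hig, mul_one] at h2
      simp only [Matrix.SpecialLinearGroup.coe_mul, Subgroup.coe_mul, Matrix.mul_assoc]
      rw [h2]
      simp only [← Matrix.mul_assoc, ← Matrix.SpecialLinearGroup.coe_mul, ← Subgroup.coe_mul]
      simp [mul_assoc, gi]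
    · rw [Fintype.card_congr (Equiv.subtypeUnivEquiv fun x _ => hlN)]
  have hstep : ∀ x : Option (Fin (l : ℕ)), ∃ (y : Option (Fin (l : ℕ))) (m : H),
      cuspRep N l x * !![1, n; 0, 1] = !![1, (m : ℤ); 0, 1] * cuspRep N l y ∧
      (x = none → y = none ∧ (m : ℤ) = (l : ℕ) * n) ∧
      (∀ j, x = some j → ∃ j', y = some j' ∧
        ((l : ℕ) : ℤ) * (m : ℤ) = n + (N : ℤ) * j - (N : ℤ) * j') := by
    intro x
    have : Fact (l : ℕ).Prime := ⟨l.2⟩
    rcases x with _ | j
    · refine ⟨none, ⟨(l : ℕ) * n, hH _ (by push_cast; rw [hl, one_mul])⟩, ?_, fun _ => ⟨rfl, rfl⟩,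
        fun j hj => (Option.some_ne_none j hj.symm).elim⟩
      ext a b
      fin_cases a <;> fin_cases b <;> simp [cuspRep, Matrix.mul_apply, Fin.sum_univ_two]
    · have hN0 : ((N : ℤ) : ZMod (l : ℕ)) ≠ 0 := by
        rw [Ne, Int.cast_natCast, ZMod.natCast_eq_zero_iff]
        exact hlN
      set j' : Fin (l : ℕ) :=
        ⟨(((n + (N : ℤ) * j : ℤ) : ZMod (l : ℕ)) / ((N : ℤ) : ZMod (l : ℕ))).val, ZMod.val_lt _⟩
      obtain ⟨m, hm⟩ : ((l : ℕ) : ℤ) ∣ n + (N : ℤ) * j - (N : ℤ) * j' := by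
        rw [← ZMod.intCast_zmod_eq_zero_iff_dvd, Int.cast_sub, Int.cast_mul (N : ℤ) (j' : ℤ),
          Int.cast_natCast (j' : ℕ), show ((j' : ℕ) : ZMod (l : ℕ)) = _ from ZMod.natCast_zmod_val _,
          mul_div_cancel₀ _ hN0, sub_self]
      refine ⟨some j', ⟨m, hH _ ?_⟩, ?_, fun h => (Option.some_ne_none j h).elim,
        fun i hi => ⟨j', rfl, ?_⟩⟩
      · have := congrArg (Int.cast : ℤ → ZMod N) hm
        push_cast at this
        rw [ZMod.natCast_self, zero_mul, zero_mul, add_zero, sub_zero, hl, one_mul] at this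
        exact this.symm
      · ext a b
        fin_cases a <;> fin_cases b <;> simp [cuspRep, Matrix.mul_apply, Fin.sum_univ_two]
        linear_combination hm
      · cases hi
        exact hm.symm
  choose σ m hσ hnone hsome using hstep
  have helt : ∀ x, (π (σ x) = D.next ⟨_, hn⟩ (π x)) ∧
      D.elt ⟨_, hn⟩ (π x) =
        (u x)⁻¹ * ⟨g * ModularGroup.T ^ (m x : ℤ) * g⁻¹, (m x).2⟩ * u (σ x) := by
    intro x
    refine ((D.next_elt_eq_of_eq (j := π (σ x)) ?_)).imp Eq.symm id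
    have e1 : ((u x : SL(2, ℤ)) : M2Z) * (D.rep (π x) *
        ((g * ModularGroup.T ^ n * g⁻¹ : SL(2, ℤ)) : M2Z)) =
        ((g * ModularGroup.T ^ (m x : ℤ) * g⁻¹ : SL(2, ℤ)) : M2Z) *
          (((u (σ x) : SL(2, ℤ)) : M2Z) * D.rep (π (σ x))) := by
      rw [← Matrix.mul_assoc, ← hu x, ← hu (σ x)]
      simp only [Matrix.SpecialLinearGroup.coe_mul, coe_T_zpow']
      show gu * cuspRep N l x * gi * (gu * !![1, n; 0, 1] * gi) =
        gu * !![1, (m x : ℤ); 0, 1] * gi * (gu * cuspRep N l (σ x) * gi)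
      rw [show gu * cuspRep N l x * gi * (gu * !![1, n; 0, 1] * gi) =
          gu * (cuspRep N l x * (gi * gu) * !![1, n; 0, 1]) * gi by simp only [Matrix.mul_assoc],
        show gu * !![1, (m x : ℤ); 0, 1] * gi * (gu * cuspRep N l (σ x) * gi) =
          gu * (!![1, (m x : ℤ); 0, 1] * (gi * gu) * cuspRep N l (σ x)) * gi by
            simp only [Matrix.mul_assoc],
        hig, mul_one, mul_one, hσ x]
    show D.rep (π x) * _ = _
    calc D.rep (π x) * ((g * ModularGroup.T ^ n * g⁻¹ : SL(2, ℤ)) : M2Z)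
        = ((((u x)⁻¹ : deltaKer δ) : SL(2, ℤ)) : M2Z) * (((u x : SL(2, ℤ)) : M2Z) *
            (D.rep (π x) * ((g * ModularGroup.T ^ n * g⁻¹ : SL(2, ℤ)) : M2Z))) := by
          rw [← Matrix.mul_assoc, ← Matrix.SpecialLinearGroup.coe_mul, ← Subgroup.coe_mul,
            inv_mul_cancel, Subgroup.coe_one, Matrix.SpecialLinearGroup.coe_one, one_mul]
      _ = _ := by
          rw [e1]
          simp only [Subgroup.coe_mul, Matrix.SpecialLinearGroup.coe_mul, Matrix.mul_assoc]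
  have hσbij : Function.Bijective σ := by
    refine Finite.injective_iff_bijective.1 fun x y hxy => hbij.1 ?_
    refine (D.next_bijective ⟨_, hn⟩).1 ?_
    rw [← (helt x).1, ← (helt y).1, hxy]
  rw [deltaHomOp, HeckeSystem.op_apply, ← hD, ← hbij.sum_comp (fun y => φ (Additive.ofMul _))]
  simp only [fun x => (helt x).2, ofMul_mul, ofMul_inv, map_add, map_neg, Finset.sum_add_distrib,
    Finset.sum_neg_distrib]
  rw [hσbij.sum_comp (fun x => φ (Additive.ofMul (u x))), neg_add_cancel_comm]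
  show ∑ x, P (m x) = ((l : ℕ) + 1) • P ⟨n, hn⟩
  rw [← map_sum, ← map_nsmul]
  refine congrArg P (Subtype.ext ?_)
  rw [AddSubgroup.val_finsetSum, AddSubgroup.coe_nsmul, Fintype.sum_option, (hnone none rfl).2]
  choose τ hτ hτm using fun j => hsome (some j) j rfl
  have hτbij : Function.Bijective τ := by
    refine Finite.injective_iff_bijective.1 fun i j hij => Option.some_injective _ (hσbij.1 ?_)
    rw [hτ, hτ, hij]
  have hsum : ((l : ℕ) : ℤ) * ∑ j, (m (some j) : ℤ) = ((l : ℕ) : ℤ) * n := by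
    rw [Finset.mul_sum, Finset.sum_congr rfl fun j _ => hτm j, Finset.sum_sub_distrib,
      Finset.sum_add_distrib, Finset.sum_const, Finset.card_univ, Fintype.card_fin,
      hτbij.sum_comp (fun j => (N : ℤ) * ((j : ℕ) : ℤ)), add_sub_cancel_right, nsmul_eq_mul]
  rw [mul_left_cancel₀ (by exact_mod_cast l.2.ne_zero) hsum]
  simp only [nsmul_eq_mul, Nat.cast_add, Nat.cast_one]
  ring

end FermatLib.MLT.LGC

end
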