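import Fermat.Agent.MLT.LGC.DictionaryDefs

/-!
# The group `{γ ∈ Γ₀(q² M) | d ≡ ±1 (mod q)}`

It contains `-1` and `T`, is `Γ_H` for `(ℤ/q²M)ˣ → (ℤ/q)ˣ/±1`, is normal in `Γ₀(q M)` and is
normalised by the translations `z ↦ z + u / q`.  All Kummer classes of the local-global argument
at `q` live on it.
-/

set_option autoImplicit false

noncomputable section

open CongruenceSubgroup
open scoped MatrixGroups

namespace FermatLib.MLT.LGC

variable (q M : ℕ)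

/-- `(ℤ/q)ˣ/±1`. -/
def LgcSigned : Type := (ZMod q)ˣ ⧸ Subgroup.zpowers (-1 : (ZMod q)ˣ)

instance : CommGroup (LgcSigned q) :=
  inferInstanceAs (CommGroup ((ZMod q)ˣ ⧸ Subgroup.zpowers (-1 : (ZMod q)ˣ)))

/-- The class of a unit modulo `±1`. -/
def signedClass : (ZMod q)ˣ →* LgcSigned q where
  toFun u := QuotientGroup.mk u
  map_one' := rfl
  map_mul' _ _ := rfl

theorem signedClass_eq_one {u : (ZMod q)ˣ} : signedClass q u = 1 ↔ u = 1 ∨ u = -1 := by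
  refine (QuotientGroup.eq_one_iff u).trans ?_
  rw [Subgroup.mem_zpowers_iff]
  constructor
  · rintro ⟨k, rfl⟩
    rcases Int.even_or_odd k with hk | hk
    · exact Or.inl hk.neg_one_zpow
    · exact Or.inr hk.neg_one_zpow
  · rintro (rfl | rfl)
    · exact ⟨0, zpow_zero _⟩
    · exact ⟨1, zpow_one _⟩

/-- `(ℤ/q²M)ˣ → (ℤ/q)ˣ/±1`. -/
def lgcQuot : (ZMod (q ^ 2 * M))ˣ →* LgcSigned q :=
  (signedClass q).comp (ZMod.unitsMap (dvd_mul_of_dvd_left (dvd_pow_self q two_ne_zero) M))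

theorem lgcQuot_neg_one : lgcQuot q M (-1) = 1 := by
  rw [lgcQuot, MonoidHom.comp_apply, signedClass_eq_one]
  exact Or.inr (Units.ext (by simp [ZMod.unitsMap_def]))

/-- `{γ ∈ Γ₀(q² M) | d ≡ ±1 (mod q)}`. -/
def lgcGroup : Subgroup SL(2, ℤ) := deltaKer (lgcQuot q M)

theorem conjStable_lgcGroup [NeZero q] [NeZero M] :
    ConjStable (lgcGroup q M) (20 * (q ^ 2 * M)) :=
  conjStable_deltaKer _ (lgcQuot_neg_one q M)

variable {q M}

theorem mem_lgcGroup {γ : SL(2, ℤ)} :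
    γ ∈ lgcGroup q M ↔ γ ∈ Gamma0 (q ^ 2 * M) ∧
      (((γ 1 1 : ℤ) : ZMod q) = 1 ∨ ((γ 1 1 : ℤ) : ZMod q) = -1) := by
  rw [lgcGroup, mem_deltaKer]
  constructor
  · rintro ⟨h, hγ⟩
    refine ⟨h, ?_⟩
    rw [lgcQuot, MonoidHom.comp_apply, signedClass_eq_one, Units.ext_iff, Units.ext_iff] at hγ
    simpa [ZMod.unitsMap_def] using hγ
  · rintro ⟨h, hd⟩
    refine ⟨h, ?_⟩
    rw [lgcQuot, MonoidHom.comp_apply, signedClass_eq_one, Units.ext_iff, Units.ext_iff]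
    simpa [ZMod.unitsMap_def] using hd

theorem modularGroup_T_mem_lgcGroup : ModularGroup.T ∈ lgcGroup q M :=
  mem_lgcGroup.mpr ⟨by rw [Gamma0_mem]; simp [ModularGroup.T], Or.inl (by simp [ModularGroup.T])⟩

theorem lgcGroup_le_gamma0_sq : lgcGroup q M ≤ Gamma0 (q ^ 2 * M) := deltaKer_le _

theorem lgcGroup_le_gamma0 : lgcGroup q M ≤ Gamma0 (q * M) := fun γ hγ => by
  have h := lgcGroup_le_gamma0_sq hγ
  rw [Gamma0_mem, ZMod.intCast_zmod_eq_zero_iff_dvd] at h ⊢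
  exact dvd_trans ⟨q, by push_cast; ring⟩ h

theorem apply_diag_of_mem {γ : SL(2, ℤ)} (hγ : γ ∈ lgcGroup q M) :
    ((γ 0 0 : ℤ) : ZMod q) = (γ 1 1 : ℤ) := by
  obtain ⟨h0, hd⟩ := mem_lgcGroup.mp hγ
  have hc : ((γ 1 0 : ℤ) : ZMod q) = 0 := by
    rw [ZMod.intCast_zmod_eq_zero_iff_dvd]
    refine dvd_trans ?_ ((ZMod.intCast_zmod_eq_zero_iff_dvd _ _).mp (Gamma0_mem.mp h0))
    exact ⟨q * M, by push_cast; ring⟩
  have h := congrArg (Int.cast : ℤ → ZMod q) (Matrix.SpecialLinearGroup.det_coe γ)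
  rw [Matrix.det_fin_two] at h
  push_cast at h
  rw [hc, mul_zero, sub_zero] at h
  rcases hd with hd | hd <;> rw [hd] at h ⊢
  · simpa using h
  · linear_combination -h

/-- The group is normal in `Γ₀(q M)`. -/
theorem conj_mem_lgcGroup {g γ : SL(2, ℤ)} (hg : g ∈ Gamma0 (q * M)) (hγ : γ ∈ lgcGroup q M) :
    g * γ * g⁻¹ ∈ lgcGroup q M := by
  obtain ⟨c, hc⟩ : ((q * M : ℕ) : ℤ) ∣ g 1 0 :=
    (ZMod.intCast_zmod_eq_zero_iff_dvd _ _).mp (Gamma0_mem.mp hg)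
  obtain ⟨e, he⟩ : ((q ^ 2 * M : ℕ) : ℤ) ∣ γ 1 0 :=
    (ZMod.intCast_zmod_eq_zero_iff_dvd _ _).mp (Gamma0_mem.mp (lgcGroup_le_gamma0_sq hγ))
  have had := apply_diag_of_mem hγ
  obtain ⟨x, hx⟩ : (q : ℤ) ∣ γ 0 0 - γ 1 1 := by
    rw [← ZMod.intCast_zmod_eq_zero_iff_dvd]
    push_cast
    rw [had, sub_self]
  have hdet := Matrix.SpecialLinearGroup.det_coe g
  rw [Matrix.det_fin_two] at hdet
  have hdetq : ((g 0 0 : ℤ) : ZMod q) * (g 1 1 : ℤ) = 1 := by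
    have h := congrArg (Int.cast : ℤ → ZMod q) hdet
    rw [hc] at h
    push_cast at h
    simpa [ZMod.natCast_self] using h
  push_cast at hc he
  refine mem_lgcGroup.mpr ⟨?_, ?_⟩
  · rw [Gamma0_mem, ZMod.intCast_zmod_eq_zero_iff_dvd]
    refine ⟨g 1 1 * c * x + g 1 1 * g 1 1 * e - (M : ℤ) * γ 0 1 * c * c, ?_⟩
    simp [Matrix.SpecialLinearGroup.coe_mul, Matrix.SpecialLinearGroup.coe_inv,
      Matrix.adjugate_fin_two, Matrix.mul_apply, Fin.sum_univ_two]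
    linear_combination (g 1 1 * g 1 1) * he + (q * M : ℤ) * c * g 1 1 * hx +
      (g 1 1 * (γ 0 0 - γ 1 1) - γ 0 1 * (g 1 0 + (q : ℤ) * M * c)) * hc
  · have h10 : ((g 1 0 : ℤ) : ZMod q) = 0 := by rw [hc]; push_cast; simp
    have h10' : ((γ 1 0 : ℤ) : ZMod q) = 0 := by rw [he]; push_cast; simp
    have hd := (mem_lgcGroup.mp hγ).2
    rcases hd with hd | hd
    · left
      simp [Matrix.SpecialLinearGroup.coe_mul, Matrix.SpecialLinearGroup.coe_inv,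
        Matrix.adjugate_fin_two, Matrix.mul_apply, Fin.sum_univ_two, h10, h10', hd, hdetq,
        mul_comm ((g 1 1 : ℤ) : ZMod q)]
    · right
      simp [Matrix.SpecialLinearGroup.coe_mul, Matrix.SpecialLinearGroup.coe_inv,
        Matrix.adjugate_fin_two, Matrix.mul_apply, Fin.sum_univ_two, h10, h10', hd, hdetq,
        mul_comm ((g 1 1 : ℤ) : ZMod q)]

end FermatLib.MLT.LGC

end
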