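import Fermat.Agent.MLT.LGC.NormFn
import Fermat.Agent.MLT.LGC.DictionaryNat
import Fermat.Agent.MLT.LGC.Group
import Fermat.Agent.Galois.DS.HeckeGamma1
import Fermat.Agent.MLT.BettiHecke

/-!
# Hecke operators on the classes of `Γ_H`

`T l` (`l ∤ L`) and `U p` (`p ∣ L`) as Hecke systems on `deltaKer δ ≤ Γ₀(L)`, acting on root
classes by the transfer.  They commute with the Galois action, with the diamonds' naturality in
the order of the roots and with restriction from `Γ₀(L₀)`; on restrictions of cocycles with a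
character trivial on the group they are the Betti Hecke operators.
-/

set_option autoImplicit false
set_option linter.unusedSectionVars false
set_option linter.style.haveILetI false

noncomputable section

open UpperHalfPlane hiding I
open CongruenceSubgroup ModularCurve
open scoped MatrixGroups Manifold

namespace FermatLib.MLT.LGC

open FermatLib.Modular FermatLib.Modular.Corr FermatLib.Galois.DS

local notation "M2Z" => Matrix (Fin 2) (Fin 2) ℤ
local notation "Γℚ" => (AlgebraicClosure ℚ ≃ₐ[ℚ] AlgebraicClosure ℚ)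

/-! ### The systems -/

section Systems

variable {L : ℕ} {Δ : Type} [CommGroup Δ] (δ : (ZMod L)ˣ →* Δ)

theorem deltaKer_of_apply_eq {g γ : SL(2, ℤ)} (hg : g ∈ Gamma0 L) (hγ : γ ∈ deltaKer δ)
    (h : ((g 1 1 : ℤ) : ZMod L) = (γ 1 1 : ℤ)) : g ∈ deltaKer δ := by
  obtain ⟨h0, h1⟩ := mem_deltaKer.mp hγ
  refine mem_deltaKer.mpr ⟨hg, ?_⟩
  rw [show gamma0UnitsHom L ⟨g, hg⟩ = gamma0UnitsHom L ⟨γ, h0⟩ from Units.ext (by simpa using h)]
  exact h1

theorem exists_tRep_mul_eq {l : ℕ} (hl : l.Prime) (h : Nat.Coprime l L) (x : Option (Fin l))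
    (γ : deltaKer δ) : ∃ (y : Option (Fin l)) (g : deltaKer δ),
      heckeRep1 L l h x * ((γ : SL(2, ℤ)) : M2Z) =
        ((g : SL(2, ℤ)) : M2Z) * heckeRep1 L l h y := by
  obtain ⟨-, a1, a2⟩ := heckeRep1_congr L l h x
  have hγ0 : (γ : SL(2, ℤ)) ∈ Gamma0 L := deltaKer_le δ γ.2
  have g2 : (((γ : SL(2, ℤ)) 1 0 : ℤ) : ZMod L) = 0 := Gamma0_mem.mp hγ0
  set X := heckeRep1 L l h x * ((γ : SL(2, ℤ)) : M2Z) with hX
  have X10 : (X 1 0 : ZMod L) = 0 := by simp [hX, Matrix.mul_apply, Fin.sum_univ_two, a2, g2]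
  have X11 : (X 1 1 : ZMod L) = l * (((γ : SL(2, ℤ)) 1 1 : ℤ) : ZMod L) := by
    simp [hX, Matrix.mul_apply, Fin.sum_univ_two, a1, a2]
  have hlL : ¬ l ∣ L := (Nat.Prime.coprime_iff_not_dvd hl).mp h
  obtain ⟨⟨y, hy⟩, g, hg⟩ := exists_eq_mul_rep (N := L) hl X
    (by rw [hX, Matrix.det_mul, det_heckeRep1, Matrix.SpecialLinearGroup.det_coe, mul_one])
    ((ZMod.intCast_zmod_eq_zero_iff_dvd _ _).mp X10) (fun h' => absurd h' hlL)
  set g' : SL(2, ℤ) := (g : SL(2, ℤ)) * (cosetTwist L l h y : SL(2, ℤ))⁻¹ with hg'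
  have hg0 : g' ∈ Gamma0 L := mul_mem g.2 (inv_mem (cosetTwist L l h y).2)
  have heq : X = (g' : M2Z) * heckeRep1 L l h y := by
    rw [hg', Matrix.SpecialLinearGroup.coe_mul, heckeRep1, Matrix.mul_assoc,
      ← Matrix.mul_assoc ((((cosetTwist L l h y : SL(2, ℤ))⁻¹ : SL(2, ℤ))) : M2Z),
      ← Matrix.SpecialLinearGroup.coe_mul, inv_mul_cancel, Matrix.SpecialLinearGroup.coe_one,
      Matrix.one_mul]
    exact hg
  refine ⟨y, ⟨g', deltaKer_of_apply_eq δ hg0 γ.2 ?_⟩, heq⟩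
  obtain ⟨-, b1, b2⟩ := heckeRep1_congr L l h y
  rw [heq] at X11
  simp only [Matrix.mul_apply, Fin.sum_univ_two, Int.cast_add, Int.cast_mul, b1,
    Gamma0_mem.mp hg0, zero_mul, zero_add] at X11
  exact ((ZMod.isUnit_iff_coprime l L).mpr h).mul_left_cancel (by rw [mul_comm]; exact X11)

/-- `T l` on `Γ_H`. -/
def tSystemH {l : ℕ} (hl : l.Prime) (h : Nat.Coprime l L) :
    HeckeSystem (deltaKer δ) (Option (Fin l)) where
  rep := heckeRep1 L l h
  det_ne_zero x := by rw [det_heckeRep1]; exact_mod_cast hl.ne_zero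
  eq_of_mul_rep x y g e := by
    refine heckeRepInt_eq_of_mul_eq hl.one_lt x y
      ((cosetTwist L l h y : SL(2, ℤ))⁻¹ * g * (cosetTwist L l h x : SL(2, ℤ))) ?_
    rw [Matrix.SpecialLinearGroup.coe_mul, Matrix.SpecialLinearGroup.coe_mul, Matrix.mul_assoc,
      Matrix.mul_assoc, show ((g : M2Z) * (((cosetTwist L l h x : SL(2, ℤ)) : M2Z) *
        heckeRepInt l x)) = _ from e, heckeRep1, ← Matrix.mul_assoc,
      ← Matrix.SpecialLinearGroup.coe_mul, inv_mul_cancel, Matrix.SpecialLinearGroup.coe_one,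
      Matrix.one_mul]
  exists_mul_eq := exists_tRep_mul_eq δ hl h

theorem tSystemH_rep {l : ℕ} (hl : l.Prime) (h : Nat.Coprime l L) (x : Option (Fin l)) :
    (tSystemH δ hl h).rep x = heckeRep1 L l h x := rfl

theorem tSystemH_rep_some {l : ℕ} (hl : l.Prime) (h : Nat.Coprime l L) (j : Fin l) :
    (tSystemH δ hl h).rep (some j) = heckeRepInt l (some j) := by
  rw [tSystemH_rep, heckeRep1, cosetTwist, OneMemClass.coe_one,
    Matrix.SpecialLinearGroup.coe_one, Matrix.one_mul]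

theorem tSystemH_det_pos {l : ℕ} (hl : l.Prime) (h : Nat.Coprime l L) (x : Option (Fin l)) :
    0 < ((tSystemH δ hl h).rep x).det := by
  rw [tSystemH_rep, det_heckeRep1]
  exact_mod_cast hl.pos

theorem exists_uRep_mul_eq {p : ℕ} (hp : p.Prime) (hpL : p ∣ L) (j : Fin p) (γ : deltaKer δ) :
    ∃ (k : Fin p) (g : deltaKer δ),
      heckeRepInt p (some j) * ((γ : SL(2, ℤ)) : M2Z) =
        ((g : SL(2, ℤ)) : M2Z) * heckeRepInt p (some k) := by
  have hγ0 : (γ : SL(2, ℤ)) ∈ Gamma0 L := deltaKer_le δ γ.2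
  obtain ⟨⟨y, hy⟩, g, hg⟩ := (heckeSystem L ⟨p, hp⟩).exists_mul_eq
    ⟨some j, fun h => (Option.some_ne_none _ h).elim⟩ ⟨(γ : SL(2, ℤ)), hγ0⟩
  rw [heckeSystem_rep, heckeSystem_rep] at hg
  cases y with
  | none => exact absurd hpL (hy rfl)
  | some k =>
    refine ⟨k, ⟨g, deltaKer_of_apply_eq δ g.2 γ.2 ?_⟩, hg⟩
    have h00 := congrArg (fun X : M2Z => ((X 0 0 : ℤ) : ZMod L)) hg
    simp [heckeRepInt, Matrix.mul_apply, Fin.sum_univ_two, Gamma0_mem.mp hγ0] at h00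
    have key : ∀ x : SL(2, ℤ), x ∈ Gamma0 L →
        ((x 0 0 : ℤ) : ZMod L) * ((x 1 1 : ℤ) : ZMod L) = 1 := fun x hx => by
      have := congrArg (Int.cast : ℤ → ZMod L) (Matrix.SpecialLinearGroup.det_coe x)
      rw [Matrix.det_fin_two] at this
      push_cast at this
      rwa [Gamma0_mem.mp hx, mul_zero, sub_zero] at this
    have h1 := key _ g.2
    have h2 := key _ hγ0
    rw [h00] at h2
    rw [mul_comm] at h1
    exact left_inv_eq_right_inv h1 h2

/-- `U p` on `Γ_H`. -/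
def uSystemH {p : ℕ} (hp : p.Prime) (hpL : p ∣ L) : HeckeSystem (deltaKer δ) (Fin p) where
  rep j := heckeRepInt p (some j)
  det_ne_zero j := by rw [det_heckeRepInt]; exact_mod_cast hp.ne_zero
  eq_of_mul_rep x y g e := Option.some_injective _ (heckeRepInt_eq_of_mul_eq hp.one_lt _ _ g e)
  exists_mul_eq := exists_uRep_mul_eq δ hp hpL

theorem uSystemH_rep {p : ℕ} (hp : p.Prime) (hpL : p ∣ L) (j : Fin p) :
    (uSystemH δ hp hpL).rep j = heckeRepInt p (some j) := rfl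

theorem uSystemH_det_pos {p : ℕ} (hp : p.Prime) (hpL : p ∣ L) (j : Fin p) :
    0 < ((uSystemH δ hp hpL).rep j).det := by
  rw [uSystemH_rep, det_heckeRepInt]
  exact_mod_cast hp.pos

end Systems

/-! ### Naturality -/

/-! ### Galois -/

section Galois

theorem prod_range_pow_eq {M : Type*} [CommMonoid M] {p : ℕ} [NeZero p] {z z' : ℂˣ}
    (hz : IsPrimitiveRoot (z : ℂ) p) (hz' : IsPrimitiveRoot (z' : ℂ) p) (f : ℂˣ → M) :
    ∏ j ∈ Finset.range p, f (z' ^ j) = ∏ j ∈ Finset.range p, f (z ^ j) := by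
  classical
  have hinj : ∀ {w : ℂˣ}, IsPrimitiveRoot (w : ℂ) p →
      Set.InjOn (fun j => w ^ j) ↑(Finset.range p) := fun {w} hw a ha b hb hab =>
    hw.pow_inj (Finset.mem_range.mp ha) (Finset.mem_range.mp hb) (by
      simpa using congrArg (fun x : ℂˣ => (x : ℂ)) hab)
  rw [← Finset.prod_image (f := f) (hinj hz'), ← Finset.prod_image (f := f) (hinj hz)]
  refine Finset.prod_congr (Finset.eq_of_subset_of_card_le (fun x hx => ?_) ?_) fun _ _ => rfl
  · obtain ⟨j, -, rfl⟩ := Finset.mem_image.mp hx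
    obtain ⟨i, hi, hiz⟩ := hz.eq_pow_of_pow_eq_one (ξ := ((z' ^ j : ℂˣ) : ℂ)) (by
      rw [Units.val_pow_eq_pow_val, ← pow_mul, mul_comm, pow_mul, hz'.pow_eq_one, one_pow])
    exact Finset.mem_image.mpr ⟨i, Finset.mem_range.mpr hi, Units.ext (by simpa using hiz)⟩
  · rw [Finset.card_image_of_injOn (hinj hz), Finset.card_image_of_injOn (hinj hz')]

theorem isPrimitiveRoot_zetaQ (p : ℕ) [NeZero p] : IsPrimitiveRoot ((zetaQ p : ℂˣ) : ℂ) p :=
  Complex.isPrimitiveRoot_exp p (NeZero.ne p)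

theorem coeffMap_prod_qTwist {p : ℕ} [NeZero p] (σ : ℂ ≃+* ℂ) (x : LaurentSeries ℂ) :
    coeffMap (σ : ℂ →+* ℂ) (∏ j ∈ Finset.range p, qTwist (zetaQ p ^ j) x) =
      ∏ j ∈ Finset.range p, qTwist (zetaQ p ^ j) (coeffMap (σ : ℂ →+* ℂ) x) := by
  rw [map_prod, ← prod_range_pow_eq (isPrimitiveRoot_zetaQ p)
    (z' := Units.map (σ : ℂ →+* ℂ).toMonoidHom (zetaQ p))
    ((isPrimitiveRoot_zetaQ p).map_of_injective (f := (σ : ℂ →+* ℂ)) σ.injective)
    (fun w => qTwist w (coeffMap (σ : ℂ →+* ℂ) x))]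
  exact Finset.prod_congr rfl fun j _ => by rw [LGC.coeffMap_qTwist, map_pow]

theorem normSeries_zetaQ_eq {p : ℕ} [NeZero p] (y₁ y₂ : LaurentSeries ℂ) :
    Igusa.Mono.normSeries (q := p) (zetaQ p) y₁ y₂ =
      qExpand ℂ p y₁ * ∏ j ∈ Finset.range p, qTwist (zetaQ p ^ j) y₂ := by
  rw [Igusa.Mono.normSeries, Finset.prod_range fun j => qTwist (zetaQ p ^ j) y₂]
  congr 1

variable {L : ℕ} {Δ : Type} [CommGroup Δ] {δ : (ZMod L)ˣ →* Δ}
  {M : ℕ} [NeZero M] (hC : ConjStable (deltaKer δ) M) (hLM : L ∣ M)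
include hC hLM

/-- Elements of `Γ₀(L)` commute with conjugation of expansions. -/
theorem IsConjSeries.comp_gamma0 {σ : ℂ ≃+* ℂ} {γ : SL(2, ℤ)} (hγ : γ ∈ Gamma0 L)
    {g g' : ℍ → ℂ} (hg : g ∈ weakMod (deltaKer δ)) (hg' : g' ∈ weakMod (deltaKer δ))
    (hc : IsConjSeries σ g g') : IsConjSeries σ (fun τ => g (γ • τ)) (fun τ => g' (γ • τ)) := by
  obtain ⟨s, hs, hu⟩ := exists_conj_exponent (M := M) (σ : ℂ →+* ℂ)
  obtain ⟨γ', h⟩ := exists_isConjMat hu γ
  have hst := twist_mem_deltaKer (δ := δ) hγ hLM h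
  have hγ' : γ' ∈ Gamma0 L := by
    have := (Gamma0 L).mul_mem (deltaKer_le δ hst) hγ
    rwa [inv_mul_cancel_right] at this
  have hfun : (fun τ => g (γ' • τ)) = fun τ => g (γ • τ) := funext fun τ => by
    have := (mem_weakMod.mp hg).2.1 _ hst (γ • τ)
    rwa [← mul_smul, inv_mul_cancel_right] at this
  rw [← hfun]
  exact IsConjSeries.comp_smul hC hs hu h (fun x hx => conj_mem_deltaKer hγ hx)
    (fun x hx => conj_mem_deltaKer hγ' hx) hg hg' hc

variable {n : ℕ} [NeZero n]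

omit hLM in
/-- A norm compatible with conjugation of expansions commutes with the Galois action. -/
theorem galRoot_normHom {ι : Type} [Fintype ι] (D : HeckeSystem (deltaKer δ) ι)
    (hdet : ∀ i, 0 < (D.rep i).det) {σ : ℂ ≃+* ℂ}
    (hconj : ∀ g g' : ℍ → ℂ, g ∈ weakMod (deltaKer δ) → g' ∈ weakMod (deltaKer δ) →
      IsConjSeries σ g g' → IsConjSeries σ (normFn D g) (normFn D g'))
    (φ : RootHom (deltaKer δ) n) :
    galRoot hC σ (normHom D φ) = normHom D (galRoot hC σ φ) := by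
  obtain ⟨a, ha, -⟩ := exists_isRootClass_bounded hC.neg_one_mem φ
  obtain ⟨a', ha', hca⟩ := exists_isConjSeries hC σ ha.mem
  exact galRoot_eq hC (ha.norm D hdet) (hconj a a' ha.mem ha' hca)
    ((ha.galRoot hC ha' hca).norm D hdet)

omit hLM in
/-- **`U p` commutes with conjugation of expansions.** -/
theorem IsConjSeries.normFn_uSystemH {p : ℕ} (hp : p.Prime) (hpL : p ∣ L) {σ : ℂ ≃+* ℂ}
    {g g' : ℍ → ℂ} (hg : g ∈ weakMod (deltaKer δ)) (hg' : g' ∈ weakMod (deltaKer δ))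
    (hc : IsConjSeries σ g g') :
    IsConjSeries σ (normFn (uSystemH δ hp hpL) g) (normFn (uSystemH δ hp hpL) g') := by
  haveI : NeZero p := ⟨hp.ne_zero⟩
  have hc' : qExpL g' = coeffMap (σ : ℂ →+* ℂ) (qExpL g) := hc
  refine qExpand_injective p ?_
  rw [← coeffMap_qExpand (σ : ℂ →+* ℂ) p,
    qExpand_qExpL_normFn_U _ (modularGroup_T_mem_deltaKer δ) (Equiv.refl _) (fun j => rfl) hg,
    qExpand_qExpL_normFn_U _ (modularGroup_T_mem_deltaKer δ) (Equiv.refl _) (fun j => rfl) hg',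
    coeffMap_prod_qTwist, hc']

omit hC hLM in
/-- The expansion of the norm of `T l` on `Γ_H`. -/
theorem qExpand_qExpL_normFn_tSystemH {l : ℕ} [NeZero l] (hl : l.Prime) (h : Nat.Coprime l L)
    {g : ℍ → ℂ} (hg : g ∈ weakMod (deltaKer δ)) :
    qExpand ℂ l (qExpL (normFn (tSystemH δ hl h) g)) =
      Igusa.Mono.normSeries (q := l) (zetaQ l)
        (qExpand ℂ l (qExpL fun τ => g ((diamondMat L l h : SL(2, ℤ)) • τ))) (qExpL g) := by
  have hT := modularGroup_T_mem_deltaKer δ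
  have hgq : g ∈ qMero := weakMod_le_qMero hT hg
  set D := tSystemH δ hl h
  set g₁ : ℍ → ℂ := fun τ => g ((diamondMat L l h : SL(2, ℤ)) • τ) with hg₁
  have hg₁q : g₁ ∈ qMero := weakMod_le_qMero hT
    (comp_mem_weakMod (fun x hx => conj_mem_deltaKer (diamondMat L l h).2 hx) hg)
  have hfac : ∀ j : Fin l,
      (fun τ => g (glOfInt (D.rep (some j)) • (ModularForm.heckeDiagMatrix l • τ))) =
        shiftFn l ((j : ℕ) : ℤ) g := fun j => funext fun τ => by
    rw [tSystemH_rep_some, glOfInt_heckeRepInt_some_smul]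
    rfl
  have hnone : (fun τ => g (glOfInt (D.rep none) • (ModularForm.heckeDiagMatrix l • τ))) =
      fun τ => (fun σ => g₁ (ModularForm.heckeDiagMatrix l • σ))
        (ModularForm.heckeDiagMatrix l • τ) := funext fun τ => by
    rw [tSystemH_rep, heckeRep1,
      glOfInt_mul (det_coe_ne_zero _) (by rw [det_heckeRepInt]; exact_mod_cast hl.ne_zero),
      mul_smul, glOfInt_heckeRepInt_none_smul, ← sl_smul_eq_glOfInt]
    rfl
  have hd1 := comp_diag_mem_qMero hg₁q l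
  have hmem : ∀ j : Fin l, shiftFn l ((j : ℕ) : ℤ) g ∈ qMero := fun j => comp_vadd_mem hgq _
  rw [qExpand_qExpL_normFn D hT (tSystemH_det_pos δ hl h) hg, Fintype.prod_option]
  simp only [hfac, hnone]
  rw [qExpL_mul (comp_diag_mem_qMero hd1 l) (Subalgebra.prod_mem _ fun j _ => hmem j),
    qExpL_finset_prod _ (fun j : Fin l => shiftFn l ((j : ℕ) : ℤ) g) hmem,
    qExpL_comp_diag hd1, qExpL_comp_diag hg₁q, Igusa.Mono.normSeries]
  congr 1
  refine Finset.prod_congr rfl fun j _ => ?_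
  rw [qExpL_shiftFn _ hgq, zpow_natCast]
  ext k
  rw [Igusa.monoNewScale_coeff, qTwist_coeff]

/-- **`T l` commutes with conjugation of expansions.** -/
theorem IsConjSeries.normFn_tSystemH {l : ℕ} (hl : l.Prime) (h : Nat.Coprime l L) {σ : ℂ ≃+* ℂ}
    {g g' : ℍ → ℂ} (hg : g ∈ weakMod (deltaKer δ)) (hg' : g' ∈ weakMod (deltaKer δ))
    (hc : IsConjSeries σ g g') :
    IsConjSeries σ (normFn (tSystemH δ hl h) g) (normFn (tSystemH δ hl h) g') := by
  haveI : NeZero l := ⟨hl.ne_zero⟩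
  have hd : qExpL (fun τ => g' ((diamondMat L l h : SL(2, ℤ)) • τ)) =
      coeffMap (σ : ℂ →+* ℂ) (qExpL fun τ => g ((diamondMat L l h : SL(2, ℤ)) • τ)) :=
    IsConjSeries.comp_gamma0 hC hLM (diamondMat L l h).2 hg hg' hc
  have hc' : qExpL g' = coeffMap (σ : ℂ →+* ℂ) (qExpL g) := hc
  refine qExpand_injective l ?_
  rw [← coeffMap_qExpand (σ : ℂ →+* ℂ) l, qExpand_qExpL_normFn_tSystemH hl h hg,
    qExpand_qExpL_normFn_tSystemH hl h hg', normSeries_zetaQ_eq, normSeries_zetaQ_eq, map_mul,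
    coeffMap_prod_qTwist, coeffMap_qExpand, coeffMap_qExpand, hc', hd]

omit hLM in
theorem galRoot_normHom_uSystemH {p : ℕ} (hp : p.Prime) (hpL : p ∣ L) (σ : ℂ ≃+* ℂ)
    (φ : RootHom (deltaKer δ) n) :
    galRoot hC σ (normHom (uSystemH δ hp hpL) φ) = normHom (uSystemH δ hp hpL) (galRoot hC σ φ) :=
  galRoot_normHom hC _ (uSystemH_det_pos δ hp hpL)
    (fun _ _ hg hg' hc => IsConjSeries.normFn_uSystemH hC hp hpL hg hg' hc) φ

theorem galRoot_normHom_tSystemH {l : ℕ} (hl : l.Prime) (h : Nat.Coprime l L) (σ : ℂ ≃+* ℂ)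
    (φ : RootHom (deltaKer δ) n) :
    galRoot hC σ (normHom (tSystemH δ hl h) φ) = normHom (tSystemH δ hl h) (galRoot hC σ φ) :=
  galRoot_normHom hC _ (tSystemH_det_pos δ hl h)
    (fun _ _ hg hg' hc => IsConjSeries.normFn_tSystemH hC hLM hl h hg hg' hc) φ

omit hLM in
/-- **`U p` commutes with the Galois action on classes.** -/
theorem rootRep_normHom_uSystemH {p : ℕ} (hp : p.Prime) (hpL : p ∣ L) (σ : Γℚ)
    (φ : RootHom (deltaKer δ) n) :
    rootRep hC n σ (normHom (uSystemH δ hp hpL) φ) =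
      normHom (uSystemH δ hp hpL) (rootRep hC n σ φ) :=
  galRoot_normHom_uSystemH hC hp hpL _ φ

/-- **`T l` commutes with the Galois action on classes.** -/
theorem rootRep_normHom_tSystemH {l : ℕ} (hl : l.Prime) (h : Nat.Coprime l L) (σ : Γℚ)
    (φ : RootHom (deltaKer δ) n) :
    rootRep hC n σ (normHom (tSystemH δ hl h) φ) =
      normHom (tSystemH δ hl h) (rootRep hC n σ φ) :=
  galRoot_normHom_tSystemH hC hLM hl h _ φ

end Galois

/-! ### Restriction from `Γ₀(L₀)` -/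

section Restrict

variable {L L₀ : ℕ} {Δ : Type} [CommGroup Δ] (δ : (ZMod L)ˣ →* Δ) (hL : L₀ ∣ L)

include hL in
theorem deltaKer_le_gamma0_of_dvd : deltaKer δ ≤ Gamma0 L₀ := fun γ hγ => by
  have h := deltaKer_le δ hγ
  rw [Gamma0_mem, ZMod.intCast_zmod_eq_zero_iff_dvd] at h ⊢
  exact dvd_trans (Int.natCast_dvd_natCast.mpr hL) h

/-- The indices of `T l` at a level prime to `l`. -/
def tIdxEquiv (l : Nat.Primes) (h : ¬ (l : ℕ) ∣ L₀) : Option (Fin (l : ℕ)) ≃ HeckeIdx L₀ l :=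
  (Equiv.subtypeUnivEquiv fun _ _ => h).symm

/-- The indices of `U p`. -/
def uIdxEquiv (p : Nat.Primes) (h : (p : ℕ) ∣ L₀) : Fin (p : ℕ) ≃ HeckeIdx L₀ p where
  toFun j := ⟨some j, fun h' => (Option.some_ne_none _ h').elim⟩
  invFun x := x.1.get (by
    rcases hx : x.1 with _ | j
    · exact absurd h (x.2 hx)
    · rfl)
  left_inv j := rfl
  right_inv x := Subtype.ext (Option.some_get _)

end Restrict

end FermatLib.MLT.LGC

end
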