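import Mathlib

/-!
# Local-global count: totals

* `two_mul_finrank_inf_le`: if every component has at least half of its dimension in `K` and `K`
  has at most half of the total, every component has exactly half.
* `finrank_le_of_saturated`: the rank of a saturated sublattice is at most the dimension of any
  subspace containing its reduction.
-/

set_option autoImplicit false

noncomputable section

open Module

namespace FermatLib.MLT.LGCCount

section Total

variable {E M ι : Type*} [Field E] [AddCommGroup M] [Module E M] [FiniteDimensional E M]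

theorem finrank_finset_sup_of_indep {W : ι → Submodule E M} (hind : iSupIndep W) (s : Finset ι) :
    finrank E ↥(s.sup W) = ∑ i ∈ s, finrank E (W i) := by
  classical
  induction s using Finset.induction_on with
  | empty => simp
  | insert i s hi ih =>
    have hdisj : Disjoint (W i) (s.sup W) := by
      refine (hind i).mono_right (Finset.sup_le fun j hj => ?_)
      exact le_iSup₂ (f := fun j (_ : j ≠ i) => W j) j (ne_of_mem_of_not_mem hj hi)
    have h := Submodule.finrank_sup_add_finrank_inf_eq (W i) (s.sup W)
    rw [hdisj.eq_bot, finrank_bot, add_zero] at h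
    rw [Finset.sup_insert, Finset.sum_insert hi, h, ih]

/-- Half in every component. -/
theorem two_mul_finrank_inf_le [Finite ι] {W : ι → Submodule E M} (hind : iSupIndep W)
    (htop : ⨆ i, W i = ⊤) {K : Submodule E M}
    (hlow : ∀ i, finrank E (W i) ≤ 2 * finrank E ↥(K ⊓ W i))
    (hup : 2 * finrank E K ≤ finrank E M) (i : ι) :
    2 * finrank E ↥(K ⊓ W i) ≤ finrank E (W i) := by
  classical
  have := Fintype.ofFinite ι
  have hM : finrank E M = ∑ j, finrank E (W j) := by
    rw [← finrank_finset_sup_of_indep hind, Finset.sup_univ_eq_iSup, htop, finrank_top]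
  have hKsum : ∑ j, finrank E ↥(K ⊓ W j) ≤ finrank E K := by
    rw [← finrank_finset_sup_of_indep (hind.mono fun j => inf_le_right), Finset.sup_univ_eq_iSup]
    exact Submodule.finrank_mono (iSup_le fun j => inf_le_left)
  by_contra h
  push Not at h
  have hlt : ∑ j, finrank E (W j) < ∑ j, 2 * finrank E ↥(K ⊓ W j) :=
    Finset.sum_lt_sum (fun j _ => hlow j) ⟨i, Finset.mem_univ i, h⟩
  rw [← Finset.mul_sum, ← hM] at hlt
  omega

end Total

section Saturated

variable {R k M V : Type*} [CommRing R] [IsDomain R] [IsPrincipalIdealRing R] [Field k]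
  [Algebra R k] [AddCommGroup M] [Module R M] [Module.Finite R M] [Module.IsTorsionFree R M]
  [AddCommGroup V] [Module k V] [FiniteDimensional k V] [Module R V] [IsScalarTower R k V]

/-- The rank of a saturated sublattice is at most the dimension of its reduction. -/
theorem finrank_le_of_saturated {ϖ : R} (hk : Function.Surjective (algebraMap R k))
    (hϖ0 : algebraMap R k ϖ = 0)
    (g : M →ₗ[R] V)
    (hg : ∀ m, g m = 0 → ∃ m', m = ϖ • m') {K : Submodule R M}
    (hsat : ∀ m, ϖ • m ∈ K → m ∈ K) {K₁ : Submodule k V} (hK : ∀ m ∈ K, g m ∈ K₁) :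
    finrank R K ≤ finrank k K₁ := by
  set b := Module.Free.chooseBasis R K
  have hli : LinearIndependent k fun i => (⟨g (b i).1, hK _ (b i).2⟩ : K₁) := by
    rw [Fintype.linearIndependent_iff]
    intro c hc i
    choose r hr using fun i => hk (c i)
    have h0 : g (∑ j, r j • b j : K).1 = 0 := by
      have := congrArg Subtype.val hc
      simp only [AddSubmonoidClass.coe_finsetSum, SetLike.val_smul, ZeroMemClass.coe_zero] at this ⊢
      rw [map_sum, ← this]
      exact Finset.sum_congr rfl fun j _ => by rw [map_smul, ← hr j, algebraMap_smul]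
    obtain ⟨m, hm⟩ := hg _ h0
    have hmK : m ∈ K := hsat m (hm ▸ (∑ j, r j • b j : K).2)
    have heq : (∑ j, r j • b j : K) = ϖ • ⟨m, hmK⟩ := Subtype.ext hm
    have hri : r i = ϖ * b.repr ⟨m, hmK⟩ i := by
      rw [← smul_eq_mul, ← Finsupp.smul_apply, ← map_smul, ← heq, b.repr_sum_self]
    rw [← hr i, hri, map_mul, hϖ0, zero_mul]
  rw [Module.finrank_eq_card_chooseBasisIndex]
  exact hli.fintype_card_le_finrank

end Saturated

end FermatLib.MLT.LGCCount

end
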