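import Fermat.Agent.MLT.LGC.TwistShift
import Fermat.Agent.Modular.HeckeParabolic
import Fermat.Agent.Modular.CorrKummer
import Fermat.Agent.Igusa.MonoNormSeries

/-!
# Norms of root classes along Hecke systems

For a Hecke system `D` on `Γ` the product `∏ i, g (rep i • τ)` of a root class of `φ` is a root
class of the transfer `D.op φ`.  Its expansion for the standard representatives is the product of
the twists, as in `redUnit_eq_of_qExpand_eq_twistNorm` and `IsSeriesHecke`.
-/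

set_option autoImplicit false

noncomputable section

open UpperHalfPlane hiding I
open CongruenceSubgroup ModularCurve Filter
open scoped MatrixGroups Manifold ModularForm

namespace FermatLib.MLT.LGC

open FermatLib.Modular FermatLib.Modular.Corr

local notation "M2Z" => Matrix (Fin 2) (Fin 2) ℤ
local notation "Δ" => ModularForm.discriminant

variable {Γ : Subgroup SL(2, ℤ)}

/-- Meromorphy at every cusp is kept under integral matrices of positive determinant. -/
theorem isBoundedAtImInfty_comp_glOfInt {G : ℍ → ℂ} (hG : G ∈ weakMod Γ) {M : M2Z}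
    (hM : 0 < M.det) :
    ∃ m : ℕ, IsBoundedAtImInfty ((fun τ => G (glOfInt M • τ)) * Δ ^ m) := by
  obtain ⟨B, U, hMU, hU0, hU⟩ := exists_upperTriangular _ hM
  obtain ⟨m, hm⟩ := hG.2.2 B
  have hUd : (0 : ℤ) < U 0 0 * U 1 1 := by
    have := Matrix.det_fin_two U
    rw [hU0, mul_zero, sub_zero] at this
    rw [← this]; exact hU
  have hd : (0 : ℝ) < (U 0 0 : ℝ) / (U 1 1 : ℝ) := by
    have h2 : (0 : ℝ) < (U 0 0 : ℝ) * (U 1 1 : ℝ) := by exact_mod_cast hUd
    rcases pos_and_pos_or_neg_and_neg_of_mul_pos h2 with ⟨ha, hb⟩ | ⟨ha, hb⟩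
    · exact div_pos ha hb
    · exact div_pos_of_neg_of_neg ha hb
  have h11 : (U 1 1 : ℂ) ≠ 0 := by exact_mod_cast (mul_ne_zero_iff.mp hUd.ne').2
  refine ⟨⌈(U 0 0 : ℝ) / (U 1 1 : ℝ)⌉₊ * m, ?_⟩
  have h := isBoundedAtImInfty_comp_triangular (b := (U 0 1 : ℝ) / (U 1 1 : ℝ)) hm hd one_pos
    (k := ⌈(U 0 0 : ℝ) / (U 1 1 : ℝ)⌉₊) (by simpa using Nat.le_ceil _)
  rwa [show (fun τ => G (glOfInt M • τ)) = fun τ => G (B • (ModularForm.upperTriangularGL
      ((U 0 0 : ℝ) / (U 1 1 : ℝ)) ((U 0 1 : ℝ) / (U 1 1 : ℝ)) 1 (mul_pos hd one_pos).ne' • τ))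
    from funext fun τ => ?_]
  rw [sl_smul_eq_glOfInt B, hMU, glOfInt_mul (det_coe_ne_zero _) hU.ne', mul_smul]
  congr 2
  refine UpperHalfPlane.ext ?_
  rw [UpperHalfPlane.coe_smul_of_det_pos (det_glOfInt_pos hU),
    coe_upperTriangularGL_smul hd one_pos]
  simp [num, denom, val_glOfInt hU.ne', hU0]
  field_simp

/-! ### Norms -/

variable {ι : Type} [Fintype ι] (D : HeckeSystem Γ ι)

/-- The norm `∏ i, g (rep i • τ)`. -/
def normFn (g : ℍ → ℂ) : ℍ → ℂ := ∏ i, fun τ => g (glOfInt (D.rep i) • τ)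

theorem normFn_apply (g : ℍ → ℂ) (τ : ℍ) : normFn D g τ = ∏ i, g (glOfInt (D.rep i) • τ) :=
  Finset.prod_apply _ _ _

theorem glOfInt_rep_smul (γ : Γ) (i : ι) (τ : ℍ) :
    glOfInt (D.rep i) • ((γ : SL(2, ℤ)) • τ) =
      (D.elt γ i : SL(2, ℤ)) • (glOfInt (D.rep (D.next γ i)) • τ) := by
  rw [sl_smul_eq_glOfInt (γ : SL(2, ℤ)), sl_smul_eq_glOfInt (D.elt γ i : SL(2, ℤ)), ← mul_smul,
    ← mul_smul, ← glOfInt_mul (D.det_ne_zero i) (det_coe_ne_zero _),
    ← glOfInt_mul (det_coe_ne_zero _) (D.det_ne_zero _), D.rep_mul]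

theorem mdifferentiable_normFn (hdet : ∀ i, 0 < (D.rep i).det) {g : ℍ → ℂ} (hg : MDiff g) :
    MDiff (normFn D g) :=
  mdifferentiable_finset_prod _ _ fun i =>
    hg.comp (UpperHalfPlane.mdifferentiable_smul (det_glOfInt_pos (hdet i)))

theorem normFn_ne_zero (hdet : ∀ i, 0 < (D.rep i).det) {g : ℍ → ℂ} (hg : MDiff g) (hg0 : g ≠ 0) :
    normFn D g ≠ 0 :=
  finset_prod_ne_zero _ _
    (fun i => hg.comp (UpperHalfPlane.mdifferentiable_smul (det_glOfInt_pos (hdet i))))
    fun i h => hg0 (funext fun τ => by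
      simpa using congrFun h ((glOfInt (D.rep i))⁻¹ • τ))

theorem normFn_mem_weakMod (hdet : ∀ i, 0 < (D.rep i).det) {g : ℍ → ℂ} (hg : g ∈ weakMod Γ) :
    normFn D g ∈ weakMod Γ := by
  classical
  refine ⟨mdifferentiable_normFn D hdet hg.1, fun γ hγ τ => ?_, fun A => ?_⟩
  · rw [normFn_apply, normFn_apply]
    refine (Finset.prod_congr rfl fun i _ => ?_).trans
      (Equiv.prod_comp (Equiv.ofBijective _ (D.next_bijective ⟨γ, hγ⟩))
        fun j => g (glOfInt (D.rep j) • τ))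
    rw [glOfInt_rep_smul D ⟨γ, hγ⟩, hg.2.1 _ (D.elt ⟨γ, hγ⟩ i).2]
    rfl
  · have hfac : ∀ i, ∃ m : ℕ,
        IsBoundedAtImInfty ((fun τ => g (glOfInt (D.rep i) • (A • τ))) * Δ ^ m) := by
      intro i
      have hM : 0 < (D.rep i * (A : M2Z)).det := by
        rw [Matrix.det_mul, Matrix.SpecialLinearGroup.det_coe, mul_one]
        exact hdet i
      obtain ⟨m, hm⟩ := isBoundedAtImInfty_comp_glOfInt hg hM
      refine ⟨m, ?_⟩
      rwa [show (fun τ => g (glOfInt (D.rep i) • (A • τ))) =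
        fun τ => g (glOfInt (D.rep i * (A : M2Z)) • τ) from funext fun τ => by
          rw [glOfInt_mul (hdet i).ne' (det_coe_ne_zero _), mul_smul, ← sl_smul_eq_glOfInt]]
    choose m hm using hfac
    refine ⟨∑ i, m i, ?_⟩
    have hprod : ∀ s : Finset ι, IsBoundedAtImInfty
        ((∏ i ∈ s, fun τ => g (glOfInt (D.rep i) • (A • τ))) * (Δ : ℍ → ℂ) ^ ∑ i ∈ s, m i) := by
      intro s
      induction s using Finset.induction_on with
      | empty => simpa using! (const_boundedAtFilter atImInfty (1 : ℂ))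
      | insert a s ha ih =>
        rw [Finset.prod_insert ha, Finset.sum_insert ha, pow_add, mul_mul_mul_comm]
        exact BoundedAtFilter.mul (hm a) ih
    rw [show (fun τ => normFn D g (A • τ)) =
      ∏ i, fun τ => g (glOfInt (D.rep i) • (A • τ)) from funext fun τ => by
        rw [normFn_apply, Finset.prod_apply]]
    exact hprod _

variable {n : ℕ}

theorem rootChar_op (φ : Additive Γ →+ Additive (rootsOfUnity n ℂ)) (γ : Γ) :
    rootChar (D.op ℤ φ) γ = ∏ i, rootChar φ (D.elt γ i) := by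
  show (rootsOfUnity n ℂ).subtype (Additive.toMul (D.op ℤ φ (Additive.ofMul γ))) = _
  rw [HeckeSystem.op_apply, toMul_sum, map_prod]
  rfl

/-- The transfer on root homomorphisms. -/
def normHom : RootHom Γ n →ₗ[ℤ] RootHom Γ n :=
  (D.op ℤ).restrict fun _ hφ => op_mem_parabolicHoms D hφ

/-- **The norm of a root class is a root class of the transfer.** -/
theorem IsRootClass.norm (hdet : ∀ i, 0 < (D.rep i).det) {g : ℍ → ℂ}
    {φ : Additive Γ →+ Additive (rootsOfUnity n ℂ)} (h : IsRootClass Γ n g φ) :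
    IsRootClass Γ n (normFn D g) (D.op ℤ φ) := by
  obtain ⟨hg, hg0, r, hr, hrφ, hrn⟩ := h
  refine ⟨normFn_mem_weakMod D hdet hg, normFn_ne_zero D hdet hg.1 hg0, normFn D r,
    mdifferentiable_normFn D hdet hr, fun γ τ => ?_, fun τ => ?_⟩
  · rw [normFn_apply, normFn_apply, rootChar_op, Units.coe_prod]
    rw [← Equiv.prod_comp (Equiv.ofBijective _ (D.next_bijective γ))
      (fun i => r (glOfInt (D.rep i) • τ)), ← Finset.prod_mul_distrib]
    refine Finset.prod_congr rfl fun i _ => ?_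
    rw [glOfInt_rep_smul, hrφ]
    rfl
  · rw [normFn_apply, normFn_apply, ← Finset.prod_pow]
    exact Finset.prod_congr rfl fun i _ => hrn _

/-! ### Expansions for the standard representatives -/

theorem qExpL_finset_prod {κ : Type} (s : Finset κ) (F : κ → ℍ → ℂ) (hF : ∀ i, F i ∈ qMero) :
    qExpL (∏ i ∈ s, F i) = ∏ i ∈ s, qExpL (F i) := by
  classical
  induction s using Finset.induction_on with
  | empty => simp [qExpL_one]
  | insert a s ha ih =>
    rw [Finset.prod_insert ha, Finset.prod_insert ha,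
      qExpL_mul (hF a) (Subalgebra.prod_mem _ fun i _ => hF i), ih]

theorem glOfInt_heckeRepInt_some_smul (p : ℕ) [NeZero p] (j : Fin p) (τ : ℍ) :
    glOfInt (heckeRepInt p (some j)) • (ModularForm.heckeDiagMatrix p • τ) =
      ((((j : ℕ) : ℤ) : ℝ) / p) +ᵥ τ := by
  have hp : (0 : ℤ) < p := by exact_mod_cast NeZero.pos p
  have hd : 0 < (heckeRepInt p (some j)).det := by rw [det_heckeRepInt]; exact hp
  refine UpperHalfPlane.ext ?_
  rw [UpperHalfPlane.coe_smul_of_det_pos (det_glOfInt_pos hd), UpperHalfPlane.coe_vadd]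
  simp only [num, denom, val_glOfInt hd.ne',
    ModularForm.coe_heckeDiagMatrix_smul (NeZero.ne p)]
  simp [heckeRepInt]
  have hp' : (p : ℂ) ≠ 0 := Nat.cast_ne_zero.mpr (NeZero.ne p)
  field_simp
  ring

theorem glOfInt_heckeRepInt_none_smul (p : ℕ) [NeZero p] (τ : ℍ) :
    glOfInt (heckeRepInt p none) • τ = ModularForm.heckeDiagMatrix p • τ := by
  have hp : (0 : ℤ) < p := by exact_mod_cast NeZero.pos p
  have hd : 0 < (heckeRepInt p none).det := by rw [det_heckeRepInt]; exact hp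
  refine UpperHalfPlane.ext ?_
  rw [UpperHalfPlane.coe_smul_of_det_pos (det_glOfInt_pos hd),
    ModularForm.coe_heckeDiagMatrix_smul (NeZero.ne p)]
  simp only [num, denom, val_glOfInt hd.ne']
  simp [heckeRepInt]

variable {p : ℕ} [NeZero p]

theorem qExpand_qExpL_normFn (hT : ModularGroup.T ∈ Γ) (hdet : ∀ i, 0 < (D.rep i).det)
    {g : ℍ → ℂ} (hg : g ∈ weakMod Γ) :
    qExpand ℂ p (qExpL (normFn D g)) =
      qExpL (∏ i, fun τ => g (glOfInt (D.rep i) • (ModularForm.heckeDiagMatrix p • τ))) := by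
  rw [← qExpL_comp_diag (weakMod_le_qMero hT (normFn_mem_weakMod D hdet hg))]
  refine congrArg qExpL (funext fun τ => ?_)
  rw [normFn_apply, Finset.prod_apply]

/-- **The expansion of the norm of `U p`.** -/
theorem qExpand_qExpL_normFn_U (hT : ModularGroup.T ∈ Γ) (e : Fin p ≃ ι)
    (hrep : ∀ j, D.rep (e j) = heckeRepInt p (some j)) {g : ℍ → ℂ} (hg : g ∈ weakMod Γ) :
    qExpand ℂ p (qExpL (normFn D g)) =
      ∏ j ∈ Finset.range p, qTwist (zetaQ p ^ j) (qExpL g) := by
  have hgq : g ∈ qMero := weakMod_le_qMero hT hg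
  have hdet : ∀ i, 0 < (D.rep i).det := fun i => by
    obtain ⟨j, rfl⟩ := e.surjective i
    rw [hrep, det_heckeRepInt]
    exact_mod_cast NeZero.pos p
  have hfac : ∀ j : Fin p,
      (fun τ => g (glOfInt (D.rep (e j)) • (ModularForm.heckeDiagMatrix p • τ))) =
        shiftFn p ((j : ℕ) : ℤ) g := fun j => funext fun τ => by
    rw [hrep, glOfInt_heckeRepInt_some_smul]
    rfl
  rw [qExpand_qExpL_normFn D hT hdet hg, ← Equiv.prod_comp e]
  simp only [hfac]
  rw [qExpL_finset_prod _ (fun j : Fin p => shiftFn p ((j : ℕ) : ℤ) g)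
      (fun j => comp_vadd_mem hgq _),
    Finset.prod_range fun j => qTwist (zetaQ p ^ j) (qExpL g)]
  exact Finset.prod_congr rfl fun j _ => by rw [qExpL_shiftFn _ hgq, zpow_natCast]

/-- **The expansion of the norm of `T p`.** -/
theorem qExpand_qExpL_normFn_T (hT : ModularGroup.T ∈ Γ) (e : Option (Fin p) ≃ ι)
    (hrep : ∀ x, D.rep (e x) = heckeRepInt p x) {g : ℍ → ℂ} (hg : g ∈ weakMod Γ) :
    qExpand ℂ p (qExpL (normFn D g)) =
      Igusa.Mono.normSeries (q := p) (zetaQ p) (qExpand ℂ p (qExpL g)) (qExpL g) := by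
  have hgq : g ∈ qMero := weakMod_le_qMero hT hg
  have hdet : ∀ i, 0 < (D.rep i).det := fun i => by
    obtain ⟨j, rfl⟩ := e.surjective i
    rw [hrep, det_heckeRepInt]
    exact_mod_cast NeZero.pos p
  have hfac : ∀ j : Fin p,
      (fun τ => g (glOfInt (D.rep (e (some j))) • (ModularForm.heckeDiagMatrix p • τ))) =
        shiftFn p ((j : ℕ) : ℤ) g := fun j => funext fun τ => by
    rw [hrep, glOfInt_heckeRepInt_some_smul]
    rfl
  have hnone : (fun τ => g (glOfInt (D.rep (e none)) • (ModularForm.heckeDiagMatrix p • τ))) =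
      fun τ => (fun σ => g (ModularForm.heckeDiagMatrix p • σ))
        (ModularForm.heckeDiagMatrix p • τ) := funext fun τ => by
    rw [hrep, glOfInt_heckeRepInt_none_smul]
  have hd1 := comp_diag_mem_qMero hgq p
  rw [qExpand_qExpL_normFn D hT hdet hg, ← Equiv.prod_comp e, Fintype.prod_option]
  simp only [hfac, hnone]
  have hmem : ∀ j : Fin p, shiftFn p ((j : ℕ) : ℤ) g ∈ qMero := fun j => comp_vadd_mem hgq _
  rw [qExpL_mul (comp_diag_mem_qMero hd1 p) (Subalgebra.prod_mem _ fun j _ => hmem j),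
    qExpL_finset_prod _ (fun j : Fin p => shiftFn p ((j : ℕ) : ℤ) g)
      (fun j => comp_vadd_mem hgq _),
    qExpL_comp_diag hd1, qExpL_comp_diag hgq, Igusa.Mono.normSeries]
  congr 1
  refine Finset.prod_congr rfl fun j _ => ?_
  rw [qExpL_shiftFn _ hgq, zpow_natCast]
  ext k
  rw [qTwist_coeff, Igusa.monoNewScale_coeff]

end FermatLib.MLT.LGC

end
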