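import Fermat.Agent.MLT.LGC.RedKer
import Fermat.Agent.MLT.LGC.NormFn
import Fermat.Agent.MLT.LGC.CountTotal
import Mathlib.Algebra.Module.CharacterModule
import Mathlib.LinearAlgebra.Basis.VectorSpace

/-!
# The kernel of the reduction on the lattice of parabolic homomorphisms

`redKerO` consists of the parabolic homomorphisms with values in `O` all of whose images in classes
of order `p ^ n` have reduction `0`.  It is saturated; its span `redKerK` over an algebraically
closed field meets the lattice in `redKerO` and contains the images of `τ - 1` for `τ` in inertia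
and of `F - U q`; its rank inside a sublattice is bounded by the dimension of the reduction.
-/

set_option autoImplicit false
set_option linter.style.haveILetI false
set_option linter.unusedSectionVars false

noncomputable section

open UpperHalfPlane hiding I
open CongruenceSubgroup ModularCurve ModularCurve.Period
open scoped MatrixGroups

namespace FermatLib.MLT.LGC

open FermatLib.Modular FermatLib.Galois.DS

local notation "Qbar" => AlgebraicClosure ℚ
local notation "Γℚ" => (AlgebraicClosure ℚ ≃ₐ[ℚ] AlgebraicClosure ℚ)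

/-! ### Lifting functionals -/

section Lift

variable {p : ℕ} [Fact p.Prime]

/-- `a ↦ a / p ^ n` into `ℚ / ℤ`. -/
def circleVal (p n : ℕ) [NeZero (p ^ n)] : ZMod (p ^ n) →+ AddCircle (1 : ℚ) :=
  ZMod.lift (p ^ n) ⟨zmultiplesHom _ (((1 : ℚ) / (p ^ n : ℕ) : ℚ) : AddCircle (1 : ℚ)), by
    show ((p ^ n : ℕ) : ℤ) • (((1 : ℚ) / (p ^ n : ℕ) : ℚ) : AddCircle (1 : ℚ)) = 0
    rw [← AddCircle.coe_zsmul, AddCircle.coe_eq_zero_iff]
    exact ⟨1, by
      rw [one_zsmul, zsmul_eq_mul, Int.cast_natCast, mul_one_div, div_self]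
      exact Nat.cast_ne_zero.mpr (NeZero.ne _)⟩⟩

theorem circleVal_intCast (n : ℕ) [NeZero (p ^ n)] (m : ℤ) :
    circleVal p n (m : ZMod (p ^ n)) = (((m : ℚ) / (p ^ n : ℕ) : ℚ) : AddCircle (1 : ℚ)) := by
  rw [circleVal, ZMod.lift_coe]
  show m • (((1 : ℚ) / (p ^ n : ℕ) : ℚ) : AddCircle (1 : ℚ)) = _
  rw [← AddCircle.coe_zsmul, zsmul_eq_mul, mul_one_div]

theorem circleVal_injective (n : ℕ) [NeZero (p ^ n)] : Function.Injective (circleVal p n) := by
  refine (injective_iff_map_eq_zero _).mpr fun a ha => ?_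
  obtain ⟨m, rfl⟩ := ZMod.intCast_surjective a
  rw [circleVal_intCast, AddCircle.coe_eq_zero_iff] at ha
  obtain ⟨k, hk⟩ := ha
  have hn : ((p ^ n : ℕ) : ℚ) ≠ 0 := Nat.cast_ne_zero.mpr (NeZero.ne _)
  rw [ZMod.intCast_zmod_eq_zero_iff_dvd]
  refine ⟨k, ?_⟩
  rw [zsmul_eq_mul, mul_one, eq_div_iff hn] at hk
  exact_mod_cast hk.symm.trans (mul_comm _ _)

theorem exists_circleVal_eq (n : ℕ) [NeZero (p ^ n)] {x : AddCircle (1 : ℚ)}
    (hx : (p ^ n) • x = 0) : ∃ a, circleVal p n a = x := by
  obtain ⟨r, rfl⟩ := QuotientAddGroup.mk_surjective x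
  change ((p ^ n) • r : AddCircle (1 : ℚ)) = 0 at hx
  rw [← AddCircle.coe_nsmul, AddCircle.coe_eq_zero_iff] at hx
  obtain ⟨m, hm⟩ := hx
  refine ⟨m, ?_⟩
  rw [circleVal_intCast]
  have hn : ((p ^ n : ℕ) : ℚ) ≠ 0 := Nat.cast_ne_zero.mpr (NeZero.ne _)
  congr 1
  rw [zsmul_eq_mul, mul_one, nsmul_eq_mul] at hm
  rw [div_eq_iff hn, hm, mul_comm]

/-- On a group without `p`-torsion functionals modulo `p ^ n` lift modulo `p ^ (n + 1)`. -/
theorem exists_lift_zmod_pow {G : Type*} [AddCommGroup G] (hG : ∀ x : G, p • x = 0 → x = 0)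
    (n : ℕ) (f : G →+ ZMod (p ^ n)) : ∃ g : G →+ ZMod (p ^ (n + 1)),
      ∀ x, ZMod.castHom (pow_dvd_pow p n.le_succ) (ZMod (p ^ n)) (g x) = f x := by
  haveI : NeZero p := ⟨(Fact.out : p.Prime).ne_zero⟩
  obtain ⟨h, hh⟩ := (Module.Baer.of_divisible (AddCircle (1 : ℚ))).extension_property_addMonoidHom
    (nsmulAddMonoidHom p : G →+ G) ((injective_iff_map_eq_zero _).mpr hG) ((circleVal p n).comp f)
  have hp : ∀ x, h (p • x) = circleVal p n (f x) := fun x => DFunLike.congr_fun hh x
  have hkill : ∀ x, (p ^ (n + 1)) • h x = 0 := fun x => by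
    rw [pow_succ, mul_nsmul', ← map_nsmul, hp, ← map_nsmul, ← Nat.cast_smul_eq_nsmul (ZMod (p ^ n)),
      ZMod.natCast_self, zero_smul, map_zero]
  choose g hg using fun x => exists_circleVal_eq (n + 1) (hkill x)
  refine ⟨AddMonoidHom.mk' g fun x y => circleVal_injective (n + 1)
    (by rw [map_add, hg, hg, hg, map_add]), fun x => circleVal_injective n ?_⟩
  show circleVal p n (ZMod.castHom _ _ (g x)) = _
  rw [← hp, map_nsmul, ← hg x]
  obtain ⟨m, hm⟩ := ZMod.intCast_surjective (g x)
  rw [← hm, map_intCast, circleVal_intCast, circleVal_intCast, ← AddCircle.coe_nsmul, nsmul_eq_mul]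
  congr 1
  have hp0 : (p : ℚ) ≠ 0 := Nat.cast_ne_zero.mpr (NeZero.ne p)
  push_cast
  rw [pow_succ]
  field_simp

end Lift

/-! ### Operators and lattices -/

section Hom

variable {Γ : Subgroup SL(2, ℤ)}

/-- The transfer operator of a Hecke system on parabolic homomorphisms. -/
def parNormOp {ι : Type} [Fintype ι] (D : HeckeSystem Γ ι) (R : Type) [CommRing R] :
    Module.End R (parabolicHoms R Γ R) :=
  (D.op R).restrict fun _ hφ => op_mem_parabolicHoms D hφ

variable (O K : Type) [CommRing O] [Field K] [Algebra O K] (Γ)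

/-- From the lattice to the homomorphisms with values in `K`. -/
def redLatticeIncl : parabolicHoms O Γ O →ₗ[O] parabolicHoms K Γ K where
  toFun x := ⟨(algebraMap O K).toAddMonoidHom.comp x.1, fun γ hγ => by
    show algebraMap O K (x.1 (Additive.ofMul γ)) = 0
    rw [x.2 γ hγ, map_zero]⟩
  map_add' x y := Subtype.ext (AddMonoidHom.ext fun γ =>
    map_add (algebraMap O K) (x.1 γ) (y.1 γ))
  map_smul' c x := Subtype.ext (AddMonoidHom.ext fun γ => by
    show algebraMap O K (c * x.1 γ) = c • algebraMap O K (x.1 γ)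
    rw [map_mul, Algebra.smul_def])

variable {Γ O K}

theorem redLatticeIncl_apply (x : parabolicHoms O Γ O) (γ : Additive Γ) :
    (redLatticeIncl Γ O K x).1 γ = algebraMap O K (x.1 γ) := rfl

theorem parNormOp_redLatticeIncl {ι : Type} [Fintype ι] (D : HeckeSystem Γ ι)
    (x : parabolicHoms O Γ O) :
    parNormOp D K (redLatticeIncl Γ O K x) = redLatticeIncl Γ O K (parNormOp D O x) := by
  refine Subtype.ext (AddMonoidHom.ext fun γ => ?_)
  obtain ⟨γ, rfl⟩ := Additive.ofMul.surjective γ
  exact (map_sum (algebraMap O K) _ _).symm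

/-- A linear map sending the lattice into a subspace sends everything into it. -/
theorem apply_mem_of_forall_incl
    (hspan : Submodule.span K (Set.range (redLatticeIncl Γ O K)) = ⊤)
    {S : Submodule K (parabolicHoms K Γ K)} (T : Module.End K (parabolicHoms K Γ K))
    (h : ∀ x, T (redLatticeIncl Γ O K x) ∈ S) (v : parabolicHoms K Γ K) : T v ∈ S := by
  have hv : v ∈ Submodule.span K (Set.range (redLatticeIncl Γ O K)) := hspan ▸ Submodule.mem_top
  induction hv using Submodule.span_induction with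
  | mem y hy =>
    obtain ⟨x, rfl⟩ := hy
    exact h x
  | zero => rw [map_zero]; exact zero_mem _
  | add y z _ _ hy hz => rw [map_add]; exact add_mem hy hz
  | smul c y _ hy => rw [map_smul]; exact S.smul_mem c hy

variable [IsDomain O]

/-- Spans over `K` of sublattices meet in the span of the intersection if one of them is
saturated. -/
theorem span_incl_inf_span_incl_le (hO : Function.Injective (algebraMap O K))
    (L S : Submodule O (parabolicHoms O Γ O))
    (hS : ∀ (c : O), c ≠ 0 → ∀ x, c • x ∈ S → x ∈ S) :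
    Submodule.span K (redLatticeIncl Γ O K '' (L : Set (parabolicHoms O Γ O))) ⊓
        Submodule.span K (redLatticeIncl Γ O K '' (S : Set (parabolicHoms O Γ O))) ≤
      Submodule.span K (redLatticeIncl Γ O K '' ((L ⊓ S : Submodule O (parabolicHoms O Γ O)) :
        Set (parabolicHoms O Γ O))) := by
  let F := FractionRing O
  letI : Algebra F K := (IsFractionRing.lift (A := O) (K := F) hO).toAlgebra
  haveI : IsScalarTower O F K := IsScalarTower.of_algebraMap_eq fun a =>
    (IsFractionRing.lift_algebraMap hO a).symm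
  have halg : ∀ a : O, algebraMap O K a = algebraMap F K (algebraMap O F a) :=
    IsScalarTower.algebraMap_apply O F K
  -- a projection of an element of a span comes from the sublattice up to a denominator
  have hproj : ∀ (T : Submodule O (parabolicHoms O Γ O)) (v : parabolicHoms K Γ K),
      v ∈ Submodule.span K (redLatticeIncl Γ O K '' (T : Set (parabolicHoms O Γ O))) →
      ∀ π : K →ₗ[F] F, ∃ c : O, c ≠ 0 ∧ ∃ s ∈ T, ∀ γ,
        algebraMap O F c * π (v.1 γ) = algebraMap O F (s.1 γ) := by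
    intro T v hv
    induction hv using Submodule.span_induction with
    | mem y hy =>
      obtain ⟨s, hs, rfl⟩ := hy
      intro π
      obtain ⟨⟨o, d⟩, hod⟩ := IsLocalization.surj (nonZeroDivisors O) (π 1)
      refine ⟨d, nonZeroDivisors.coe_ne_zero d, o • s, T.smul_mem o hs, fun γ => ?_⟩
      rw [redLatticeIncl_apply, halg, Algebra.algebraMap_eq_smul_one (R := F) (A := K), map_smul,
        smul_eq_mul]
      show _ = algebraMap O F (o * s.1 γ)
      rw [map_mul, ← hod]
      ring
    | zero => exact fun π => ⟨1, one_ne_zero, 0, zero_mem _, fun γ => by simp⟩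
    | add y z _ _ hy hz =>
      intro π
      obtain ⟨c, hc, s, hs, hcs⟩ := hy π
      obtain ⟨d, hd, t, ht, hdt⟩ := hz π
      refine ⟨c * d, mul_ne_zero hc hd, d • s + c • t,
        add_mem (T.smul_mem d hs) (T.smul_mem c ht), fun γ => ?_⟩
      show _ * π (y.1 γ + z.1 γ) = algebraMap O F (d * s.1 γ + c * t.1 γ)
      rw [map_add π, map_add, map_mul, map_mul, map_mul, ← hcs, ← hdt]
      ring
    | smul a y _ hy =>
      intro π
      obtain ⟨c, hc, s, hs, hcs⟩ := hy (π.comp (LinearMap.mulLeft F a))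
      exact ⟨c, hc, s, hs, hcs⟩
  -- the values lie in a finite dimensional space over `F`
  have hfin : ∀ v : parabolicHoms K Γ K,
      v ∈ Submodule.span K (redLatticeIncl Γ O K '' (L : Set (parabolicHoms O Γ O))) →
      ∃ W : Submodule F K, FiniteDimensional F W ∧ ∀ γ, v.1 γ ∈ W := by
    intro v hv
    induction hv using Submodule.span_induction with
    | mem y hy =>
      obtain ⟨s, -, rfl⟩ := hy
      refine ⟨Submodule.span F {1}, inferInstance, fun γ => ?_⟩
      rw [redLatticeIncl_apply, halg, Algebra.algebraMap_eq_smul_one (R := F) (A := K)]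
      exact Submodule.smul_mem _ _ (Submodule.mem_span_singleton_self 1)
    | zero => exact ⟨⊥, inferInstance, fun γ => zero_mem _⟩
    | add y z _ _ hy hz =>
      obtain ⟨W, hW, hWy⟩ := hy
      obtain ⟨W', hW', hWz⟩ := hz
      exact ⟨W ⊔ W', inferInstance, fun γ => Submodule.add_mem_sup (hWy γ) (hWz γ)⟩
    | smul a y _ hy =>
      obtain ⟨W, hW, hWy⟩ := hy
      exact ⟨W.map (LinearMap.mulLeft F a), inferInstance, fun γ =>
        Submodule.mem_map_of_mem (f := LinearMap.mulLeft F a) (hWy γ)⟩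
  rintro v ⟨hvL, hvS⟩
  obtain ⟨W, hW, hWv⟩ := hfin v hvL
  let b := Module.finBasis F W
  choose π hπ using fun j => LinearMap.exists_extend (b.coord j)
  choose c hc x hx hcx using fun j => hproj L v hvL (π j)
  choose d hd s hs hds using fun j => hproj S v hvS (π j)
  have hxS : ∀ j, x j ∈ S := fun j => by
    refine hS (d j) (hd j) (x j) ?_
    rw [show d j • x j = c j • s j from Subtype.ext (AddMonoidHom.ext fun γ => by
      refine IsFractionRing.injective O F ?_
      show algebraMap O F (d j * (x j).1 γ) = algebraMap O F (c j * (s j).1 γ)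
      rw [map_mul, map_mul, ← hcx, ← hds]
      ring)]
    exact S.smul_mem _ (hs j)
  have hv : v = ∑ j, ((b j : K) / algebraMap O K (c j)) • redLatticeIncl Γ O K (x j) := by
    refine Subtype.ext (AddMonoidHom.ext fun γ => ?_)
    rw [AddSubmonoidClass.coe_finsetSum, AddMonoidHom.finsetSum_apply]
    have h1 := congrArg Subtype.val (b.sum_repr ⟨v.1 γ, hWv γ⟩)
    rw [AddSubmonoidClass.coe_finsetSum] at h1
    refine h1.symm.trans (Finset.sum_congr rfl fun j _ => ?_)
    show b.repr _ j • (b j : K) = ((b j : K) / algebraMap O K (c j)) * (redLatticeIncl Γ O K (x j)).1 γ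
    rw [redLatticeIncl_apply, Algebra.smul_def,
      show b.repr ⟨v.1 γ, hWv γ⟩ j = π j (v.1 γ) from
        (LinearMap.congr_fun (hπ j) ⟨v.1 γ, hWv γ⟩).symm]
    have hc' : algebraMap O K (c j) ≠ 0 := fun h0 => hc j (hO (by rw [h0, map_zero]))
    have e : algebraMap O K (c j) * algebraMap F K (π j (v.1 γ)) =
        algebraMap O K ((x j).1 γ) := by
      rw [halg, halg, ← map_mul, hcx]
    rw [← e]
    field_simp
  rw [hv]
  exact Submodule.sum_mem _ fun j _ =>
    Submodule.smul_mem _ _ (Submodule.subset_span ⟨x j, ⟨hx j, hxS j⟩, rfl⟩)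

end Hom

/-! ### The kernel -/

variable {q : ℕ} [Fact q.Prime] {A : ValuationSubring Qbar} {Γ : Subgroup SL(2, ℤ)} {N : ℕ}
  [NeZero N] (hC : ConjStable Γ N) {O : Type} [CommRing O] {p : ℕ} [Fact p.Prime]
  (μ : ∀ n, ZMod (p ^ n) ≃+ Additive (rootsOfUnity (p ^ n) ℂ))

/-- The class of order `p ^ n` of a functional of a homomorphism. -/
def pushRoot {n : ℕ} (f : O →+ ZMod (p ^ n)) (x : parabolicHoms O Γ O) : RootHom Γ (p ^ n) :=
  ⟨(μ n).toAddMonoidHom.comp (f.comp x.1), fun γ hγ => by
    show μ n (f (x.1 (Additive.ofMul γ))) = 0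
    rw [x.2 γ hγ, map_zero, map_zero]⟩

theorem pushRoot_add {n : ℕ} (f : O →+ ZMod (p ^ n)) (x y : parabolicHoms O Γ O) :
    pushRoot μ f (x + y) = pushRoot μ f x + pushRoot μ f y :=
  Subtype.ext (AddMonoidHom.ext fun γ => by
    show μ n (f (x.1 γ + y.1 γ)) = μ n (f (x.1 γ)) + μ n (f (y.1 γ))
    rw [map_add, map_add])

theorem pushRoot_smul {n : ℕ} (f : O →+ ZMod (p ^ n)) (c : O) (x : parabolicHoms O Γ O) :
    pushRoot μ f (c • x) = pushRoot μ (f.comp (AddMonoidHom.mulLeft c)) x := rfl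

theorem pushRoot_sub {n : ℕ} (f : O →+ ZMod (p ^ n)) (x y : parabolicHoms O Γ O) :
    pushRoot μ f (x - y) = pushRoot μ f x - pushRoot μ f y :=
  eq_sub_of_add_eq (by rw [← pushRoot_add, sub_add_cancel])

theorem pushRoot_parNormOp {n : ℕ} {ι : Type} [Fintype ι] (D : HeckeSystem Γ ι)
    (f : O →+ ZMod (p ^ n)) (x : parabolicHoms O Γ O) :
    pushRoot μ f (parNormOp D O x) = normHom D (pushRoot μ f x) := by
  refine Subtype.ext (AddMonoidHom.ext fun γ => ?_)
  obtain ⟨γ, rfl⟩ := Additive.ofMul.surjective γ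
  show μ n (f (∑ i, x.1 (Additive.ofMul (D.elt γ i)))) =
    ∑ i, μ n (f (x.1 (Additive.ofMul (D.elt γ i))))
  rw [map_sum, map_sum]

variable (hA : A.LiesOverPrime q)

/-- `F - U q` for a Hecke system with representatives `(1 j; 0 q)`. -/
theorem lgcRed_rootRep_sub_normHom {n : ℕ} [NeZero n] {F : Γℚ} (hF : A.IsFrobeniusAt F q)
    {ι : Type} [Fintype ι] (D : HeckeSystem Γ ι) (e : Fin q ≃ ι)
    (hrep : ∀ j, D.rep (e j) = heckeRepInt q (some j)) (φ : RootHom Γ n) :
    lgcRed n hC A hA (rootRep hC n F φ - normHom D φ) = 0 := by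
  haveI : NeZero q := ⟨(Fact.out : q.Prime).ne_zero⟩
  obtain ⟨x, g, hg, hx⟩ := exists_isClassRep hC φ
  have hdet : ∀ i, 0 < (D.rep i).det := fun i => by
    obtain ⟨j, rfl⟩ := e.surjective i
    rw [hrep, det_heckeRepInt]
    exact_mod_cast NeZero.pos q
  rw [map_sub, lgcRed_rootRep_of_qExpL hC A hA hF hg hx (ψ := normHom D φ) (hg.norm D hdet)
    (qExpand_qExpL_normFn_U D (hC.gamma1_le (modularGroup_T_mem_Gamma1 N)) e hrep hg.1)]
  exact sub_self (G := UnitsModPow A hA (classField Γ) n) _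

/-- The homomorphisms all of whose classes of `p`-power order have reduction `0`. -/
def redKerO : Submodule O (parabolicHoms O Γ O) where
  carrier := {x | ∀ (n : ℕ) (f : O →+ ZMod (p ^ n)),
    haveI : NeZero p := ⟨(Fact.out : p.Prime).ne_zero⟩
    lgcRed (p ^ n) hC A hA (pushRoot μ f x) = 0}
  zero_mem' := by
    intro n f
    haveI : NeZero p := ⟨(Fact.out : p.Prime).ne_zero⟩
    rw [show pushRoot μ f (0 : parabolicHoms O Γ O) = 0 from
      Subtype.ext (AddMonoidHom.ext fun γ => by
        show μ n (f 0) = 0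
        rw [map_zero, map_zero])]
    exact map_zero _
  add_mem' := by
    intro x y hx hy n f
    haveI : NeZero p := ⟨(Fact.out : p.Prime).ne_zero⟩
    rw [pushRoot_add, map_add, hx n f, hy n f]
    exact add_zero (M := UnitsModPow A hA (classField Γ) (p ^ n)) _
  smul_mem' := by
    intro c x hx n f
    rw [pushRoot_smul]
    exact hx n _

variable [IsDomain O] [CharZero O]
  (hμ : ∀ (n : ℕ) (a : ZMod (p ^ (n + 1))),
    powMu (pow_dvd_pow p n.le_succ) (μ (n + 1) a) =
      μ n (ZMod.castHom (pow_dvd_pow p n.le_succ) (ZMod (p ^ n)) a))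

include hμ

/-- The kernel is saturated for `p`. -/
theorem mem_redKerO_of_nsmul (hqp : q ≠ p) {x : parabolicHoms O Γ O}
    (h : p • x ∈ redKerO hC μ hA) : x ∈ redKerO hC μ hA := by
  haveI : NeZero p := ⟨(Fact.out : p.Prime).ne_zero⟩
  intro n f
  obtain ⟨g, hg⟩ := exists_lift_zmod_pow (p := p) (G := O) (fun a ha => by
    rw [nsmul_eq_mul, mul_eq_zero] at ha
    exact ha.resolve_left (Nat.cast_ne_zero.mpr (NeZero.ne p))) n f
  have hpush : powRoot (pow_dvd_pow p n.le_succ) (pushRoot μ g x) = pushRoot μ f x :=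
    Subtype.ext (AddMonoidHom.ext fun γ => by
      show powMu (pow_dvd_pow p n.le_succ) (μ (n + 1) (g (x.1 γ))) = μ n (f (x.1 γ))
      rw [hμ, hg])
  have h1 : p • lgcRed (p ^ (n + 1)) hC A hA (pushRoot μ g x) = 0 := by
    have := h (n + 1) g
    rwa [show pushRoot μ g (p • x) = p • pushRoot μ g x from
      map_nsmul (AddMonoidHom.mk' (pushRoot μ g) (pushRoot_add μ g)) p x, map_nsmul] at this
  have hqp' : ¬ q ∣ p := fun hd =>
    hqp ((Nat.prime_dvd_prime_iff_eq Fact.out Fact.out).mp hd)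
  rw [← hpush]
  haveI : NeZero (p ^ n * p) := ⟨mul_ne_zero (NeZero.ne _) (NeZero.ne p)⟩
  exact lgcRed_powRoot_eq_zero hC A hA (n := p ^ n) (p := p) hqp' h1

variable [IsDiscreteValuationRing O]

/-- **The kernel is saturated.** -/
theorem mem_redKerO_of_smul (hqp : q ≠ p) (hp : (p : O) ∈ IsLocalRing.maximalIdeal O) {c : O}
    (hc : c ≠ 0) {x : parabolicHoms O Γ O} (h : c • x ∈ redKerO hC μ hA) :
    x ∈ redKerO hC μ hA := by
  obtain ⟨ϖ, hϖ⟩ := IsDiscreteValuationRing.exists_irreducible O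
  obtain ⟨k, hk⟩ := IsDiscreteValuationRing.associated_pow_irreducible hc hϖ
  rw [hϖ.maximalIdeal_eq, Ideal.mem_span_singleton] at hp
  obtain ⟨d, hd⟩ : c ∣ ((p : O)) ^ k := hk.dvd.trans (pow_dvd_pow_of_dvd hp k)
  have h2 : (p ^ k : ℕ) • x ∈ redKerO hC μ hA := by
    rw [← Nat.cast_smul_eq_nsmul O, Nat.cast_pow, hd, mul_comm, mul_smul]
    exact Submodule.smul_mem _ d h
  clear hd hk
  induction k generalizing x with
  | zero => simpa using h2
  | succ k ih =>
    refine mem_redKerO_of_nsmul hC μ hA hμ hqp ?_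
    refine ih (x := p • x) ?_ ?_
    · rw [smul_comm]; exact Submodule.smul_of_tower_mem _ p h
    · rwa [← mul_nsmul, ← pow_succ']

omit hμ [IsDiscreteValuationRing O]

variable (K : Type) [Field K] [Algebra O K]

/-- The span of the kernel over `K`. -/
def redKerK : Submodule K (parabolicHoms K Γ K) :=
  Submodule.span K (redLatticeIncl Γ O K ''
    ((redKerO hC μ hA : Submodule O (parabolicHoms O Γ O)) : Set (parabolicHoms O Γ O)))

variable {K}

omit [IsDomain O] [CharZero O] in
theorem redLatticeIncl_mem_redKerK {x : parabolicHoms O Γ O} (hx : x ∈ redKerO hC μ hA) :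
    redLatticeIncl Γ O K x ∈ redKerK (O := O) hC μ hA K :=
  Submodule.subset_span ⟨x, hx, rfl⟩

variable [IsDiscreteValuationRing O]

omit [IsDiscreteValuationRing O] [IsDomain O] [CharZero O] in
/-- `τ - 1` maps into the kernel. -/
theorem galK_sub_self_mem_redKerK
    (hspan : Submodule.span K (Set.range (redLatticeIncl Γ O K)) = ⊤) [NeZero p]
    {σ : Γℚ} (hσ : σ ∈ A.inertiaSubgroupIn ℚ) (galO : Module.End O (parabolicHoms O Γ O))
    (hgalO : ∀ (n : ℕ) (f : O →+ ZMod (p ^ n)) (x : parabolicHoms O Γ O),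
      pushRoot μ f (galO x) = rootRep hC (p ^ n) σ (pushRoot μ f x))
    (galK : Module.End K (parabolicHoms K Γ K))
    (hgalK : ∀ x, galK (redLatticeIncl Γ O K x) = redLatticeIncl Γ O K (galO x))
    (v : parabolicHoms K Γ K) : galK v - v ∈ redKerK (O := O) hC μ hA K := by
  refine apply_mem_of_forall_incl hspan (galK - 1) (fun x => ?_) v
  rw [LinearMap.sub_apply, Module.End.one_apply, hgalK, ← map_sub]
  refine redLatticeIncl_mem_redKerK hC μ hA fun n f => ?_
  rw [pushRoot_sub, hgalO]
  exact lgcRed_rootRep_sub_self hC hA hσ _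

omit [IsDiscreteValuationRing O] [IsDomain O] [CharZero O] in
/-- `F - U q` maps into the kernel. -/
theorem galK_sub_parNormOp_mem_redKerK
    (hspan : Submodule.span K (Set.range (redLatticeIncl Γ O K)) = ⊤) [NeZero p]
    {F : Γℚ} (hF : A.IsFrobeniusAt F q) {ι : Type} [Fintype ι] (D : HeckeSystem Γ ι)
    (e : Fin q ≃ ι) (hrep : ∀ j, D.rep (e j) = heckeRepInt q (some j))
    (galO : Module.End O (parabolicHoms O Γ O))
    (hgalO : ∀ (n : ℕ) (f : O →+ ZMod (p ^ n)) (x : parabolicHoms O Γ O),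
      pushRoot μ f (galO x) = rootRep hC (p ^ n) F (pushRoot μ f x))
    (galK : Module.End K (parabolicHoms K Γ K))
    (hgalK : ∀ x, galK (redLatticeIncl Γ O K x) = redLatticeIncl Γ O K (galO x))
    (v : parabolicHoms K Γ K) : galK v - parNormOp D K v ∈ redKerK (O := O) hC μ hA K := by
  refine apply_mem_of_forall_incl hspan (galK - parNormOp D K) (fun x => ?_) v
  rw [LinearMap.sub_apply, hgalK, parNormOp_redLatticeIncl, ← map_sub]
  refine redLatticeIncl_mem_redKerK hC μ hA fun n f => ?_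
  rw [pushRoot_sub, pushRoot_parNormOp, hgalO]
  exact lgcRed_rootRep_sub_normHom hC hA hF D e hrep _

variable {A₀ : Type} [AddCommGroup A₀] [Module O A₀]

omit [IsDomain O] [CharZero O] [IsDiscreteValuationRing O] in
/-- In level `p` the classes of the reduction of the kernel have reduction `0`. -/
theorem lgcRed_residue_eq_zero [IsLocalRing O] [NeZero p] (ι : A₀ →ₗ[O] parabolicHoms O Γ O)
    {a : A₀} (ha : ι a ∈ redKerO hC μ hA)
    (f : IsLocalRing.ResidueField O →+ ZMod (p ^ 1)) :
    lgcRed (p ^ 1) hC A hA (pushRoot μ (f.comp (IsLocalRing.residue O).toAddMonoidHom) (ι a)) = 0 :=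
  ha 1 _

include hμ in
/-- **The rank of the kernel in a sublattice is at most the dimension of its reduction.** -/
theorem finrank_redKerK_inf_span_le (hO : Function.Injective (algebraMap O K)) (hqp : q ≠ p)
    (hp : (p : O) ∈ IsLocalRing.maximalIdeal O) [Module.Finite O A₀] [Module.IsTorsionFree O A₀]
    (ι : A₀ →ₗ[O] parabolicHoms O Γ O) {k V : Type} [Field k] [Algebra O k]
    [AddCommGroup V] [Module k V] [FiniteDimensional k V] [Module O V] [IsScalarTower O k V]
    {ϖ : O} (hk : Function.Surjective (algebraMap O k)) (hϖ0 : algebraMap O k ϖ = 0) (hϖ : ϖ ≠ 0)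
    (g : A₀ →ₗ[O] V) (hg : ∀ a, g a = 0 → ∃ a', a = ϖ • a') {K₁ : Submodule k V}
    (hK : ∀ a, ι a ∈ redKerO hC μ hA → g a ∈ K₁) :
    Module.finrank K ↥(redKerK (O := O) hC μ hA K ⊓
        Submodule.span K (Set.range (redLatticeIncl Γ O K ∘ₗ ι))) ≤ Module.finrank k K₁ := by
  set N₀ := (redKerO hC μ hA).comap ι
  have hsat := fun (c : O) (hc : c ≠ 0) y => mem_redKerO_of_smul hC μ hA hμ hqp hp hc (x := y)
  refine le_trans ?_ (LGCCount.finrank_le_of_saturated hk hϖ0 g hg (K := N₀)
    (fun a ha => hsat ϖ hϖ (ι a) (by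
      have h' : ι (ϖ • a) ∈ redKerO hC μ hA := ha
      rwa [map_smul] at h')) hK)
  let b := Module.Free.chooseBasis O N₀
  have hle : redKerK (O := O) hC μ hA K ⊓
      Submodule.span K (Set.range (redLatticeIncl Γ O K ∘ₗ ι)) ≤
      Submodule.span K (Set.range fun i => redLatticeIncl Γ O K (ι (b i : A₀))) := by
    have h1 := span_incl_inf_span_incl_le hO (LinearMap.range ι) (redKerO hC μ hA) hsat
    rw [inf_comm, LinearMap.coe_comp, Set.range_comp, ← LinearMap.coe_range]
    refine h1.trans (Submodule.span_le.mpr ?_)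
    rintro _ ⟨_, ⟨⟨a, rfl⟩, ha⟩, rfl⟩
    have h2 := congrArg (fun z : N₀ => redLatticeIncl Γ O K (ι (z : A₀))) (b.sum_repr ⟨a, ha⟩)
    simp only [AddSubmonoidClass.coe_finsetSum, map_sum, SetLike.val_smul, map_smul] at h2
    rw [← h2]
    refine sum_mem fun i _ => ?_
    rw [← algebraMap_smul K]
    exact Submodule.smul_mem _ _ (Submodule.subset_span ⟨i, rfl⟩)
  haveI : FiniteDimensional K
      (Submodule.span K (Set.range fun i => redLatticeIncl Γ O K (ι (b i : A₀)))) :=
    FiniteDimensional.span_of_finite K (Set.finite_range _)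
  refine (Submodule.finrank_mono hle).trans ((finrank_range_le_card _).trans_eq ?_)
  rw [Module.finrank_eq_card_chooseBasisIndex]

end FermatLib.MLT.LGC

end
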