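import Fermat.Agent.MLT.LGC.ChiPart
import Fermat.Agent.MLT.LGC.Ops
import Fermat.Agent.MLT.LGC.RedKernel
import Fermat.Agent.MLT.LGC.LatticeGalois

/-!
# The operators of the Betti bridge are those of `Ops`

`lgcParOp` at `l ∤ N` is the transfer of `tSystemH`, at `p ∣ N` the transfer of `uSystemH`; the
extension of values is `latK`.
-/

set_option autoImplicit false

noncomputable section

open CongruenceSubgroup ModularCurve ModularCurve.Period
open scoped MatrixGroups

namespace FermatLib.MLT.LGC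

open FermatLib.Modular FermatLib.Galois.DS

local notation "M2Z" => Matrix (Fin 2) (Fin 2) ℤ

/-- Systems with the same representatives have the same transfer. -/
theorem op_eq_of_rep_eq {Γ : Subgroup SL(2, ℤ)} {ι κ : Type} [Fintype ι] [Fintype κ]
    (D : HeckeSystem Γ ι) (D' : HeckeSystem Γ κ) (τ : ι ≃ κ) (h : ∀ i, D.rep i = D'.rep (τ i))
    {R : Type*} [Semiring R] {A : Type*} [AddCommGroup A] [Module R A] (φ : Additive Γ →+ A) :
    D.op R φ = D'.op R φ := by
  have e := D.op_comp R D' (MonoidHom.id Γ) (1 : M2Z) (by simp) (fun γ => by simp) τ (fun _ => 1)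
    (fun i => by simp [h i]) φ
  simpa [AddMonoidHom.ext_iff] using e

variable {N : ℕ} {Δ : Type} [CommGroup Δ] (δ : (ZMod N)ˣ →* Δ)

theorem deltaHecke_rep_eq_tSystemH (l : Nat.Primes) (h : Nat.Coprime (l : ℕ) N)
    (x : Option (Fin (l : ℕ))) :
    (tSystemH δ l.2 h).rep x =
      (deltaHecke δ l).rep (tIdxEquiv (L₀ := N) l (l.2.coprime_iff_not_dvd.mp h) x) := by
  rw [tSystemH_rep, deltaHecke_rep]
  cases x <;> rfl

theorem deltaHomOp_eq_tSystemH (l : Nat.Primes) (h : Nat.Coprime (l : ℕ) N) {R : Type*}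
    [CommRing R] {A : Type*} [AddCommGroup A] [Module R A] (φ : Additive (deltaKer δ) →+ A) :
    deltaHomOp δ R A l φ = (tSystemH δ l.2 h).op R φ :=
  (op_eq_of_rep_eq _ _ _ (deltaHecke_rep_eq_tSystemH δ l h) φ).symm

theorem deltaHomOp_eq_uSystemH (p : Nat.Primes) (hp : (p : ℕ) ∣ N) {R : Type*}
    [CommRing R] {A : Type*} [AddCommGroup A] [Module R A] (φ : Additive (deltaKer δ) →+ A) :
    deltaHomOp δ R A p φ = (uSystemH δ p.2 hp).op R φ :=
  (op_eq_of_rep_eq _ _ (uIdxEquiv (L₀ := N) p hp) (fun j => by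
    rw [uSystemH_rep, deltaHecke_rep_some δ p (j := j) rfl]) φ).symm

variable {q M : ℕ}

/-- `T l` of the bridge is the transfer of `tSystemH`. -/
theorem lgcParOp_eq_tSystemH (R : Type) [CommRing R] (l : Nat.Primes)
    (h : Nat.Coprime (l : ℕ) (q ^ 2 * M)) :
    lgcParOp q M R R l = parNormOp (tSystemH (lgcQuot q M) l.2 h) R :=
  LinearMap.ext fun (φ : parabolicHoms R (lgcGroup q M) R) =>
    Subtype.ext (deltaHomOp_eq_tSystemH (R := R) (A := R) (lgcQuot q M) l h φ.1)

/-- `U p` of the bridge is the transfer of `uSystemH`. -/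
theorem lgcParOp_eq_uSystemH (R : Type) [CommRing R] (p : Nat.Primes)
    (hp : (p : ℕ) ∣ q ^ 2 * M) :
    lgcParOp q M R R p = parNormOp (uSystemH (lgcQuot q M) p.2 hp) R :=
  LinearMap.ext fun (φ : parabolicHoms R (lgcGroup q M) R) =>
    Subtype.ext (deltaHomOp_eq_uSystemH (R := R) (A := R) (lgcQuot q M) p hp φ.1)

end FermatLib.MLT.LGC

end
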