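import Fermat.Agent.MLT.LGC.ChiPartOps

/-!
# The reduction of the Betti part

Modulo the maximal ideal the character is trivial, so classes reduce to homomorphisms of
`Γ₀(q M)`.  The reduction of the localised cohomology consists of parabolic homomorphisms, has
kernel `ϖ` times it, restricts to the reduction of `lgcIota`, and is stable under the Hecke
operators.
-/

set_option autoImplicit false

noncomputable section

open CongruenceSubgroup ModularCurve.Period
open scoped MatrixGroups

namespace FermatLib.MLT.LGC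

open FermatLib.Modular

local notation "kk" => IsLocalRing.ResidueField

/-- A root of unity of `p`-power order reduces to one in residue characteristic `p`. -/
theorem residue_eq_one_of_pow_eq_one {O : Type} [CommRing O] [IsLocalRing O] {p : ℕ}
    [Fact p.Prime] (hp : (p : O) ∈ IsLocalRing.maximalIdeal O) {x : O} {v : ℕ}
    (hx : x ^ p ^ v = 1) : IsLocalRing.residue O x = 1 := by
  have h0 : (p : kk O) = 0 := by
    rw [← map_natCast (IsLocalRing.residue O)]
    exact Ideal.Quotient.eq_zero_iff_mem.mpr hp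
  have : CharP (kk O) p := (CharP.charP_iff_prime_eq_zero Fact.out).mpr h0
  have h1 : (IsLocalRing.residue O x - 1) ^ p ^ v = 0 := by
    rw [sub_pow_char_pow, one_pow, ← map_pow, hx, map_one, sub_self]
  exact sub_eq_zero.mp (pow_eq_zero_iff (pow_ne_zero v (Fact.out : p.Prime).ne_zero) |>.mp h1)

variable {O : Type} [CommRing O]
  {p q M : ℕ} {χ : (ZMod q)ˣ →* Oˣ}

theorem IsLgcSystem.residue_chi [IsDomain O] [IsDiscreteValuationRing O] [Fact p.Prime]
    {K : Type} [Field K] [Algebra O K] {lam : Nat.Primes → O}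
    {x : bettiH1 (Gamma0 (q * M)) (nebenChar (lgcChiK q M K χ)) K} {ρ : GaloisRepAdic O}
    (h : IsLgcSystem p q M χ K lam x ρ) :
    ∀ u, IsLocalRing.residue O ((χ u : Oˣ) : O) = 1 := fun u => by
  obtain ⟨v, hv⟩ := h.pow_eq_one
  exact residue_eq_one_of_pow_eq_one h.mem_maximal
    (by rw [← Units.val_pow_eq_pow_val, hv, Units.val_one])

variable [IsDomain O] [IsDiscreteValuationRing O]

theorem lgcChi_smul_residueField (hres : ∀ u, IsLocalRing.residue O ((χ u : Oˣ) : O) = 1) :
    ∀ u (v : kk O), ((lgcChi q M χ u : Oˣ) : O) • v = v := fun u v => by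
  rw [← algebraMap_smul (kk O) ((lgcChi q M χ u : Oˣ) : O),
    show algebraMap O (kk O) ((lgcChi q M χ u : Oˣ) : O) = 1 from hres _, one_smul]

/-- Reduction of classes to homomorphisms of `Γ₀(q M)`. -/
def lgcRedCocycle (hres : ∀ u, IsLocalRing.residue O ((χ u : Oˣ) : O) = 1) :
    bettiCocycles (Gamma0 (q * M)) (nebenChar (lgcChi q M χ)) O →ₗ[O]
      (Additive (Gamma0 (q * M)) →+ kk O) where
  toFun c := cocycleHom (lgcChi_smul_residueField hres)
    (bettiCocyclesMap _ _ (Algebra.linearMap O (kk O)) c)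
  map_add' c d := AddMonoidHom.ext fun γ => map_add (algebraMap O (kk O)) _ _
  map_smul' a c := AddMonoidHom.ext fun γ => map_smul (Algebra.linearMap O (kk O)) a _

/-- Reduction of classes to homomorphisms of `Γ₀(q M)`. -/
def lgcRedHom (hres : ∀ u, IsLocalRing.residue O ((χ u : Oˣ) : O) = 1) :
    BettiMod (q * M) (lgcChi q M χ) O →ₗ[O] (Additive (Gamma0 (q * M)) →+ kk O) :=
  Submodule.liftQ (bettiBoundaries (Gamma0 (q * M)) (nebenChar (lgcChi q M χ)) O)
    (lgcRedCocycle hres) fun c hc => by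
      obtain ⟨v, hv⟩ := mem_bettiBoundaries.1 hc
      refine AddMonoidHom.ext fun γ => ?_
      show algebraMap O (kk O) ((c : Gamma0 (q * M) → O) (Additive.toMul γ)) = 0
      rw [← hv, map_sub, smul_eq_mul, map_mul,
        show algebraMap O (kk O) ((nebenChar (lgcChi q M χ) (Additive.toMul γ) : Oˣ) : O) = 1 from
          hres _, one_mul, sub_self]

theorem lgcRedHom_mk (hres : ∀ u, IsLocalRing.residue O ((χ u : Oˣ) : O) = 1)
    (c : bettiCocycles (Gamma0 (q * M)) (nebenChar (lgcChi q M χ)) O) (γ : Gamma0 (q * M)) :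
    lgcRedHom hres (BettiMod.mk c) (Additive.ofMul γ) =
      IsLocalRing.residue O ((c : Gamma0 (q * M) → O) γ) := by
  rw [lgcRedHom]
  exact congrArg (fun φ : Additive (Gamma0 (q * M)) →+ kk O => φ (Additive.ofMul γ))
    (Submodule.liftQ_apply _ _ c)

theorem lgcRedHom_neg_one (hres : ∀ u, IsLocalRing.residue O ((χ u : Oˣ) : O) = 1)
    (m : BettiMod (q * M) (lgcChi q M χ) O) (γ : Gamma0 (q * M)) (hγ : (γ : SL(2, ℤ)) = -1) :
    lgcRedHom hres m (Additive.ofMul γ) = 0 := by
  obtain ⟨c, rfl⟩ := BettiMod.mk_surjective m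
  rw [lgcRedHom_mk, bettiCocycles.map_neg_one c hγ, map_zero]

theorem lgcRedHom_X_smul (hres : ∀ u, IsLocalRing.residue O ((χ u : Oˣ) : O) = 1) (r : Nat.Primes)
    (m : BettiMod (q * M) (lgcChi q M χ) O) :
    lgcRedHom hres ((MvPolynomial.X r : BettiHeckeAlg O) • m) =
      heckeHomOp (q * M) (kk O) (kk O) r (lgcRedHom hres m) := by
  obtain ⟨c, rfl⟩ := BettiMod.mk_surjective m
  rw [BettiMod.X_smul]
  refine AddMonoidHom.ext fun γ => ?_
  obtain ⟨γ, rfl⟩ := Additive.ofMul.surjective γ
  show lgcRedHom hres (BettiMod.mk ((bettiHeckeSystem (q * M) r).transferCocycles O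
    (isWeight_heckeWeight (lgcChi q M χ) r) c)) (Additive.ofMul γ) = _
  rw [lgcRedHom_mk, CosetSystem.transferCocycles_apply, map_sum, heckeHomOp_apply]
  refine Finset.sum_congr rfl fun i _ => ?_
  rw [lgcRedHom_mk, smul_eq_mul, map_mul,
    show IsLocalRing.residue O (heckeWeight (lgcChi q M χ) r i) = 1 from hres _, one_mul,
    ((bettiHeckeSystem (q * M) r).next_elt_eq_of_eq (h := (heckeSystem (q * M) r).elt γ i)
      ((heckeSystem (q * M) r).rep_mul γ i)).2]

variable [IsAdicComplete (IsLocalRing.maximalIdeal O) O] [NeZero q] [NeZero M]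
  {lam : Nat.Primes → O}

theorem lgcRedHom_lgcSection_mem (hd : IsChiPartData p q M χ lam)
    (hres : ∀ u, IsLocalRing.residue O ((χ u : Oˣ) : O) = 1) (a : LgcLoc p q M χ lam) :
    lgcRedHom hres (lgcSection p q M χ lam a) ∈
      parabolicHoms (kk O) (Gamma0 (q * M)) (kk O) := by
  obtain ⟨l, hl, hl1, hP⟩ := hd.exists_sub_degree
  have hlL := (not_dvd_of_mem_goodPrimes hl).1
  have hl1' : ((l : ℕ) : ZMod (q * M)) = 1 := by
    have h := congrArg (ZMod.castHom (⟨q, by ring⟩ : q * M ∣ q ^ 2 * M) (ZMod (q * M))) hl1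
    rwa [map_natCast, map_one] at h
  obtain ⟨b, hb⟩ :=
    (bettiResLoc_injective_smul (lgcChi q M χ) (goodPrimes q M p) (sysTheta lam) hP).2 a
  intro γ hγ
  rw [← hb, map_smul, sub_smul, map_sub, AddMonoidHom.sub_apply, lgcRedHom_X_smul,
    heckeHomOp_parabolic l hl1' hlL (lgcRedHom_neg_one hres _) γ hγ,
    ← MvPolynomial.algebraMap_eq, algebraMap_smul, map_smul, Nat.cast_smul_eq_nsmul,
    AddMonoidHom.smul_apply, sub_self]

/-- The reduction before restricting the codomain. -/
def lgcRedPre (hd : IsChiPartData p q M χ lam)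
    (hres : ∀ u, IsLocalRing.residue O ((χ u : Oˣ) : O) = 1) :
    LgcLoc p q M χ lam →ₗ[O] parabolicHoms (kk O) (Gamma0 (q * M)) (kk O) where
  toFun a := ⟨lgcRedHom hres (lgcSection p q M χ lam a), lgcRedHom_lgcSection_mem hd hres a⟩
  map_add' a b := Subtype.ext (by
    show lgcRedHom hres (lgcSection p q M χ lam (a + b)) = _
    rw [map_add, map_add]
    rfl)
  map_smul' c a := Subtype.ext (by
    show lgcRedHom hres (((lgcSection p q M χ lam).restrictScalars O) (c • a)) = _
    rw [map_smul, map_smul]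
    rfl)

/-- The reduced Betti part. -/
def lgcRedV (hd : IsChiPartData p q M χ lam)
    (hres : ∀ u, IsLocalRing.residue O ((χ u : Oˣ) : O) = 1) :
    Submodule (kk O) (parabolicHoms (kk O) (Gamma0 (q * M)) (kk O)) where
  carrier := Set.range (lgcRedPre hd hres)
  zero_mem' := ⟨0, map_zero _⟩
  add_mem' := by
    rintro _ _ ⟨a, rfl⟩ ⟨b, rfl⟩
    exact ⟨a + b, map_add _ a b⟩
  smul_mem' := by
    rintro c _ ⟨a, rfl⟩
    obtain ⟨c, rfl⟩ := IsLocalRing.residue_surjective (R := O) c
    exact ⟨c • a, by rw [map_smul, ← algebraMap_smul (kk O) c]; rfl⟩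

instance lgcRedV.instAddCommGroup (hd : IsChiPartData p q M χ lam)
    (hres : ∀ u, IsLocalRing.residue O ((χ u : Oˣ) : O) = 1) :
    AddCommGroup (lgcRedV hd hres) := Submodule.addCommGroup _

instance lgcRedV.instModuleResidue (hd : IsChiPartData p q M χ lam)
    (hres : ∀ u, IsLocalRing.residue O ((χ u : Oˣ) : O) = 1) :
    Module (kk O) (lgcRedV hd hres) := Submodule.module _

instance lgcRedV.instModule (hd : IsChiPartData p q M χ lam)
    (hres : ∀ u, IsLocalRing.residue O ((χ u : Oˣ) : O) = 1) :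
    Module O (lgcRedV hd hres) := Submodule.module' _

instance lgcRedV.instIsScalarTower (hd : IsChiPartData p q M χ lam)
    (hres : ∀ u, IsLocalRing.residue O ((χ u : Oˣ) : O) = 1) :
    IsScalarTower O (kk O) (lgcRedV hd hres) := Submodule.isScalarTower _

/-- **The reduction of the localised cohomology.** -/
def lgcRedG (hd : IsChiPartData p q M χ lam)
    (hres : ∀ u, IsLocalRing.residue O ((χ u : Oˣ) : O) = 1) :
    LgcLoc p q M χ lam →ₗ[O] lgcRedV hd hres where
  toFun a := ⟨lgcRedPre hd hres a, a, rfl⟩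
  map_add' a b := Subtype.ext (map_add (lgcRedPre hd hres) a b)
  map_smul' c a := Subtype.ext (map_smul (lgcRedPre hd hres) c a)

variable (hd : IsChiPartData p q M χ lam)
  (hres : ∀ u, IsLocalRing.residue O ((χ u : Oˣ) : O) = 1)

theorem coe_lgcRedG (a : LgcLoc p q M χ lam) :
    (lgcRedG hd hres a : parabolicHoms (kk O) (Gamma0 (q * M)) (kk O)).1 =
      lgcRedHom hres (lgcSection p q M χ lam a) := rfl

theorem lgcRedG_surjective : Function.Surjective (lgcRedG hd hres) := by
  rintro ⟨_, a, rfl⟩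
  exact ⟨a, rfl⟩

/-- **Compatibility with the lattice**: restriction of the reduction is the reduction. -/
theorem residue_lgcIota (a : LgcLoc p q M χ lam) (γ : lgcGroup q M) :
    IsLocalRing.residue O ((lgcIota hd a).1 (Additive.ofMul γ)) =
      (lgcRedG hd hres a).1.1 (Additive.ofMul (Subgroup.inclusion lgcGroup_le_gamma0 γ)) := by
  rw [coe_lgcIota, coe_lgcRedG]
  obtain ⟨c, hc⟩ := BettiMod.mk_surjective (lgcSection p q M χ lam a)
  rw [← hc, resBetti_mk, resCocycle_apply, lgcRedHom_mk]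

/-- **The kernel of the reduction is `ϖ` times the localised cohomology.** -/
theorem eq_smul_of_lgcRedG_eq_zero {ϖ : O} (hϖ : Irreducible ϖ) {a : LgcLoc p q M χ lam}
    (ha : lgcRedG hd hres a = 0) : ∃ b, a = ϖ • b := by
  obtain ⟨c, hc⟩ := BettiMod.mk_surjective (lgcSection p q M χ lam a)
  have h0 : ∀ γ, ∃ d, (c : Gamma0 (q * M) → O) γ = ϖ * d := fun γ => by
    have h := DFunLike.congr_fun (congrArg (fun v : lgcRedV hd hres => v.1.1) ha)
      (Additive.ofMul γ)
    rw [show (lgcRedG hd hres a).1.1 = lgcRedHom hres (BettiMod.mk c) by rw [coe_lgcRedG, hc],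
      lgcRedHom_mk] at h
    have hm : (c : Gamma0 (q * M) → O) γ ∈ IsLocalRing.maximalIdeal O :=
      Ideal.Quotient.eq_zero_iff_mem.mp h
    rw [hϖ.maximalIdeal_eq, Ideal.mem_span_singleton'] at hm
    obtain ⟨d, hd'⟩ := hm
    exact ⟨d, by rw [← hd', mul_comm]⟩
  choose d hd0 using h0
  have hcan : ∀ {x y : O}, ϖ * x = ϖ * y → x = y := fun h => mul_left_cancel₀ hϖ.ne_zero h
  let c' : bettiCocycles (Gamma0 (q * M)) (nebenChar (lgcChi q M χ)) O :=
    ⟨d, fun γ δ => hcan (by
      rw [mul_add, ← hd0, ← hd0, bettiCocycles.map_mul, smul_eq_mul, smul_eq_mul, hd0 δ]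
      ring),
     fun γ hγ => hcan (by rw [← hd0, bettiCocycles.map_neg_one c hγ, mul_zero])⟩
  refine ⟨LocalizedModule.mkLinearMap
    (bettiResidualSubmonoid (goodPrimes q M p) (sysTheta lam)) _ (BettiMod.mk c'), ?_⟩
  rw [← LinearMap.map_smul_of_tower, ← map_smul]
  have hcc : ϖ • c' = c := Subtype.ext (funext fun γ => (hd0 γ).symm)
  rw [hcc, hc, mk_lgcSection]

/-- The reduction commutes with every `T r` and `U r`. -/
theorem heckeParOp_lgcRedG (r : Nat.Primes) (a : LgcLoc p q M χ lam) :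
    heckeParOp (kk O) (kk O) (q * M) r (lgcRedG hd hres a).1 =
      (lgcRedG hd hres ((MvPolynomial.X r : BettiHeckeAlg O) • a)).1 :=
  Subtype.ext (by
    rw [coe_heckeParOp, coe_lgcRedG, coe_lgcRedG, map_smul, lgcRedHom_X_smul])

theorem heckeParOp_mem_lgcRedV (r : Nat.Primes)
    {v : parabolicHoms (kk O) (Gamma0 (q * M)) (kk O)} (hv : v ∈ lgcRedV hd hres) :
    heckeParOp (kk O) (kk O) (q * M) r v ∈ lgcRedV hd hres := by
  obtain ⟨a, rfl⟩ := hv
  show heckeParOp (kk O) (kk O) (q * M) r (lgcRedG hd hres a).1 ∈ _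
  rw [heckeParOp_lgcRedG]
  exact (lgcRedG hd hres _).2

/-- `T r - c` on the reduced Betti part. -/
def lgcRedT0 (r : Nat.Primes) (c : ℕ) : Module.End (kk O) (lgcRedV hd hres) :=
  ((heckeParOp (kk O) (kk O) (q * M) r).restrict fun _ hv => heckeParOp_mem_lgcRedV hd hres r hv) -
    (c • LinearMap.id : lgcRedV hd hres →ₗ[kk O] lgcRedV hd hres)

theorem coe_lgcRedT0 (r : Nat.Primes) (c : ℕ) (v : lgcRedV hd hres) :
    (lgcRedT0 hd hres r c v : parabolicHoms (kk O) (Gamma0 (q * M)) (kk O)) =
      parNormOp (heckeSystem (q * M) r) (kk O) v.1 - c • v.1 := rfl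

theorem lgcRedT0_lgcRedG (r : Nat.Primes) (c : ℕ) (a : LgcLoc p q M χ lam) :
    lgcRedT0 hd hres r c (lgcRedG hd hres a) =
      lgcRedG hd hres ((MvPolynomial.X r - MvPolynomial.C (c : O) : BettiHeckeAlg O) • a) := by
  refine Subtype.ext ?_
  rw [coe_lgcRedT0, sub_smul, map_sub, ← MvPolynomial.algebraMap_eq, algebraMap_smul,
    (lgcRedG hd hres).map_smul, Nat.cast_smul_eq_nsmul, AddSubgroupClass.coe_sub,
    ← heckeParOp_lgcRedG]
  rfl

/-- The reduced Betti part is finite dimensional. -/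
theorem finiteDimensional_lgcRedV : FiniteDimensional (kk O) (lgcRedV hd hres) := by
  obtain ⟨hfree, hfin⟩ := lgcLoc_free hd
  have : Module.Finite O (lgcRedV hd hres) :=
    Module.Finite.of_surjective (lgcRedG hd hres) (lgcRedG_surjective hd hres)
  exact Module.Finite.of_restrictScalars_finite O (kk O) _

/-- Its dimension is at most the rank of the localised cohomology. -/
theorem finrank_lgcRedV_le :
    Module.finrank (kk O) (lgcRedV hd hres) ≤ Module.finrank O (LgcLoc p q M χ lam) := by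
  obtain ⟨hfree, hfin⟩ := lgcLoc_free hd
  let b := Module.Free.chooseBasis O (LgcLoc p q M χ lam)
  have hs : Submodule.span (kk O) (Set.range fun i => lgcRedG hd hres (b i)) = ⊤ := by
    refine top_le_iff.mp fun v _ => ?_
    obtain ⟨a, rfl⟩ := lgcRedG_surjective hd hres v
    rw [← b.sum_repr a, map_sum]
    refine Submodule.sum_mem _ fun i _ => ?_
    rw [map_smul, ← algebraMap_smul (kk O)]
    exact Submodule.smul_mem _ _ (Submodule.subset_span ⟨i, rfl⟩)
  rw [← finrank_top (kk O) (lgcRedV hd hres), ← hs, Module.finrank_eq_card_basis b]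
  exact finrank_range_le_card (R := kk O) (fun i => lgcRedG hd hres (b i))

/-- `T r - c` is invertible on the reduced Betti part when it is residually invertible. -/
theorem lgcRedT0_injective (r : Nat.Primes) (hr : r ∈ goodPrimes q M p) (c : ℕ)
    (hne : IsLocalRing.residue O (lam r) ≠ (c : kk O)) :
    Function.Injective (lgcRedT0 hd hres r c) := by
  have := finiteDimensional_lgcRedV hd hres
  have hP : (MvPolynomial.X r - MvPolynomial.C (c : O) : BettiHeckeAlg O) ∈
      bettiResidualSubmonoid (goodPrimes q M p) (sysTheta lam) := by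
    refine ⟨Subalgebra.sub_mem _ (X_mem_supported_set hr) (C_mem_supported_set _ _), ?_⟩
    rwa [map_sub, sysTheta_C, sub_ne_zero, sysTheta_eval, MvPolynomial.eval_X, map_natCast]
  refine LinearMap.injective_iff_surjective.mpr fun v => ?_
  obtain ⟨a, rfl⟩ := lgcRedG_surjective hd hres v
  obtain ⟨b, hb⟩ :=
    (bettiResLoc_injective_smul (lgcChi q M χ) (goodPrimes q M p) (sysTheta lam) hP).2 a
  exact ⟨lgcRedG hd hres b, (lgcRedT0_lgcRedG hd hres r c b).trans (congrArg _ hb)⟩

end FermatLib.MLT.LGC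

end
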