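import Fermat.Agent.MLT.LGC.ChiPartHecke
import Fermat.Agent.MLT.BettiBaseChange
import Mathlib.LinearAlgebra.FreeModule.PID
import Mathlib.GroupTheory.Schreier
import Mathlib.LinearAlgebra.Matrix.FixedDetMatrices

/-!
# Restriction of classes with a character to homomorphisms

For `Γ` normal in `Γ₀(L)` with `χ` trivial on it a class restricts to a homomorphism of `Γ` in
the `χ`-eigenspace of conjugation, compatibly with the Hecke operators.  Up to the index the
restriction is bijective onto the eigenspace.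
-/

set_option autoImplicit false

noncomputable section

open CongruenceSubgroup ModularCurve.Period
open scoped MatrixGroups

namespace FermatLib.MLT.LGC

open FermatLib.Modular FermatLib.Galois.DS

variable {A : Type} [CommRing A] {L : ℕ} (χ : (ZMod L)ˣ →* Aˣ) (Γ : Subgroup SL(2, ℤ))

/-- `Γ` is a normal subgroup of `Γ₀(L)` containing `-1` on which `χ` is trivial. -/
structure IsCharKer : Prop where
  le : Γ ≤ Gamma0 L
  neg_one_mem : (-1 : SL(2, ℤ)) ∈ Γ
  triv : ∀ γ : Gamma0 L, (γ : SL(2, ℤ)) ∈ Γ → nebenChar χ γ = 1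
  normal : ∀ g : Gamma0 L, ∀ x : SL(2, ℤ), x ∈ Γ →
    (g : SL(2, ℤ)) * x * (g : SL(2, ℤ))⁻¹ ∈ Γ

/-- Homomorphisms on which conjugation by `g` is multiplication by `χ g`. -/
def IsChiEigen {V : Type} [AddCommGroup V] [Module A V] (φ : Additive Γ →+ V) : Prop :=
  ∀ (g : Gamma0 L) (x y : Γ), (y : SL(2, ℤ)) = (g : SL(2, ℤ)) * x * (g : SL(2, ℤ))⁻¹ →
    φ (Additive.ofMul y) = (nebenChar χ g : A) • φ (Additive.ofMul x)

variable {χ Γ} (h : IsCharKer χ Γ) (V : Type) [AddCommGroup V] [Module A V]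

/-- Restriction of cocycles. -/
def resCocycle : bettiCocycles (Gamma0 L) (nebenChar χ) V →ₗ[A] (Additive Γ →+ V) where
  toFun c := AddMonoidHom.mk'
    (fun γ => (c : Gamma0 L → V) (Subgroup.inclusion h.le (Additive.toMul γ)))
    fun γ δ => by
      rw [toMul_add, map_mul, bettiCocycles.map_mul,
        h.triv (Subgroup.inclusion h.le (Additive.toMul γ)) (Additive.toMul γ).2, Units.val_one,
        one_smul]
  map_add' c d := AddMonoidHom.ext fun γ => rfl
  map_smul' a c := AddMonoidHom.ext fun γ => rfl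

theorem resCocycle_apply (c : bettiCocycles (Gamma0 L) (nebenChar χ) V) (γ : Γ) :
    resCocycle h V c (Additive.ofMul γ) = (c : Gamma0 L → V) (Subgroup.inclusion h.le γ) := rfl

theorem bettiBoundaries_le_ker_res :
    bettiBoundaries (Gamma0 L) (nebenChar χ) V ≤ LinearMap.ker (resCocycle h V) := fun c hc => by
  obtain ⟨v, hv⟩ := mem_bettiBoundaries.1 hc
  refine AddMonoidHom.ext fun γ => ?_
  obtain ⟨γ, rfl⟩ := Additive.ofMul.surjective γ
  rw [resCocycle_apply, ← hv, h.triv (Subgroup.inclusion h.le γ) γ.2, Units.val_one, one_smul,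
    sub_self]
  rfl

/-- Restriction of classes to homomorphisms of `Γ`. -/
def resBetti : BettiMod L χ V →ₗ[A] (Additive Γ →+ V) :=
  Submodule.liftQ (bettiBoundaries (Gamma0 L) (nebenChar χ) V) (resCocycle h V)
    (bettiBoundaries_le_ker_res h V)

variable {V}

theorem resBetti_mk (c : bettiCocycles (Gamma0 L) (nebenChar χ) V) :
    resBetti h V (BettiMod.mk c) = resCocycle h V c :=
  Submodule.liftQ_apply _ _ c

theorem resBetti_neg_one (x : BettiMod L χ V) (γ : Γ) (hγ : (γ : SL(2, ℤ)) = -1) :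
    resBetti h V x (Additive.ofMul γ) = 0 := by
  obtain ⟨c, rfl⟩ := BettiMod.mk_surjective x
  rw [resBetti_mk, resCocycle_apply]
  exact bettiCocycles.map_neg_one c hγ

theorem resBetti_isChiEigen (x : BettiMod L χ V) : IsChiEigen χ Γ (resBetti h V x) := by
  obtain ⟨c, rfl⟩ := BettiMod.mk_surjective x
  intro g x y hy
  rw [resBetti_mk, resCocycle_apply, resCocycle_apply,
    show Subgroup.inclusion h.le y = g * Subgroup.inclusion h.le x * g⁻¹ from Subtype.ext hy,
    bettiCocycles.map_mul, bettiCocycles.map_mul, bettiCocycles.map_inv,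
    map_mul (nebenChar χ) g _, h.triv (Subgroup.inclusion h.le x) x.2, mul_one]
  simp only [smul_neg, smul_smul, ← Units.val_mul, ← map_mul, mul_inv_cancel, map_one,
    Units.val_one, one_smul]
  abel

/-! ### The restriction up to the index -/

section Index

variable [Γ.FiniteIndex]

/-- The index of `Γ` in `Γ₀(L)`. -/
def charKerIndex (_ : IsCharKer χ Γ) : ℕ := (Γ.subgroupOf (Gamma0 L)).index

theorem charKerIndex_ne_zero : charKerIndex h ≠ 0 :=
  Subgroup.FiniteIndex.index_ne_zero

/-- A class restricting to zero is killed by the index. -/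
theorem index_smul_eq_zero_of_resBetti {x : BettiMod L χ V} (hx : resBetti h V x = 0) :
    charKerIndex h • x = 0 := by
  classical
  obtain ⟨c, rfl⟩ := BettiMod.mk_surjective x
  rw [resBetti_mk] at hx
  let Γ' := Γ.subgroupOf (Gamma0 L)
  have : Finite (Gamma0 L ⧸ Γ') := Subgroup.finite_quotient_of_finiteIndex
  have : Fintype (Gamma0 L ⧸ Γ') := Fintype.ofFinite _
  set f : Gamma0 L → V := (c : Gamma0 L → V) with hf
  have hright : ∀ (g : Gamma0 L) (z : Γ'), f (g * z) = f g := fun g z => by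
    have hz : f (z : Gamma0 L) = 0 := DFunLike.congr_fun hx (Additive.ofMul (⟨_, z.2⟩ : Γ))
    rw [hf, bettiCocycles.map_mul, ← hf, hz, smul_zero, add_zero]
  have hfac : ∀ g g' : Gamma0 L, (QuotientGroup.mk g : Gamma0 L ⧸ Γ') = QuotientGroup.mk g' →
      f g = f g' := fun g g' e => by
    rw [← hright g ⟨g⁻¹ * g', QuotientGroup.eq.mp e⟩]
    exact congrArg f (mul_inv_cancel_left g g')
  let S : V := ∑ a : Gamma0 L ⧸ Γ', f a.out
  rw [← map_nsmul, BettiMod.mk_eq_zero]
  refine ⟨-S, fun g => ?_⟩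
  have key : ∑ a : Gamma0 L ⧸ Γ', f (g • a).out =
      Fintype.card (Gamma0 L ⧸ Γ') • f g + (nebenChar χ g : A) • S := by
    rw [Finset.smul_sum, ← Finset.card_univ, ← Finset.sum_const, ← Finset.sum_add_distrib]
    refine Finset.sum_congr rfl fun a _ => ?_
    rw [hf, ← bettiCocycles.map_mul, ← hf]
    refine hfac _ _ ?_
    rw [QuotientGroup.out_eq']
    conv_lhs => rw [← QuotientGroup.out_eq' a]
    rfl
  rw [show ∑ a : Gamma0 L ⧸ Γ', f (g • a).out = S from
    Equiv.sum_comp (MulAction.toPerm g) (fun a : Gamma0 L ⧸ Γ' => f a.out)] at key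
  have hcard : Fintype.card (Gamma0 L ⧸ Γ') = charKerIndex h := by
    rw [← Nat.card_eq_fintype_card]; rfl
  rw [hcard] at key
  rw [Submodule.coe_smul_of_tower, Pi.smul_apply, smul_neg, ← hf,
    show charKerIndex h • f g = S - (nebenChar χ g : A) • S from eq_sub_of_add_eq key.symm]
  abel

/-- An eigenhomomorphism times the index is a restriction. -/
theorem exists_resBetti_eq_index_smul (φ : Additive Γ →+ V) (hφ : IsChiEigen χ Γ φ)
    (hneg : ∀ γ : Γ, (γ : SL(2, ℤ)) = -1 → φ (Additive.ofMul γ) = 0) :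
    ∃ x : BettiMod L χ V, resBetti h V x = charKerIndex h • φ := by
  classical
  let Γ' := Γ.subgroupOf (Gamma0 L)
  have : Finite (Gamma0 L ⧸ Γ') := Subgroup.finite_quotient_of_finiteIndex
  have : Fintype (Gamma0 L ⧸ Γ') := Fintype.ofFinite _
  have hmem : ∀ (g : Gamma0 L) (a : Gamma0 L ⧸ Γ'), (g • a).out⁻¹ * (g * a.out) ∈ Γ' := fun g a => by
    rw [← QuotientGroup.eq, QuotientGroup.out_eq']
    conv_lhs => rw [← QuotientGroup.out_eq' a]
    rfl
  let z : Gamma0 L → Gamma0 L ⧸ Γ' → Γ := fun g a =>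
    ⟨(((g • a).out⁻¹ * (g * a.out) : Gamma0 L) : SL(2, ℤ)), hmem g a⟩
  have hz : ∀ (g g' : Gamma0 L) (a : Gamma0 L ⧸ Γ'), z (g * g') a = z g (g' • a) * z g' a := fun g g' a => by
    refine Subtype.ext ?_
    simp only [z, mul_smul, Subgroup.coe_mul, Subgroup.coe_inv]
    group
  have htriv : ∀ (g : Gamma0 L) (a : Gamma0 L ⧸ Γ'), (nebenChar χ (g • a).out : A) =
      (nebenChar χ g : A) * nebenChar χ a.out := fun g a => by
    have e := h.triv ((g • a).out⁻¹ * (g * a.out)) (hmem g a)
    rw [map_mul, map_inv, inv_mul_eq_one, map_mul] at e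
    rw [e, Units.val_mul]
  let f : Gamma0 L → V := fun g =>
    ∑ a : Gamma0 L ⧸ Γ', (nebenChar χ (g • a).out : A) • φ (Additive.ofMul (z g a))
  have hconj : ∀ (x : Gamma0 L), (x : SL(2, ℤ)) ∈ Γ → ∀ a : Gamma0 L ⧸ Γ',
      a.out⁻¹ * (x * a.out) ∈ Γ' := fun x hx a => by
    have := h.normal a.out⁻¹ _ hx
    rw [Subgroup.mem_subgroupOf]
    simp only [Subgroup.coe_mul, Subgroup.coe_inv, inv_inv] at this ⊢
    rwa [← mul_assoc]
  have hfix : ∀ (x : Gamma0 L), (x : SL(2, ℤ)) ∈ Γ → ∀ a : Gamma0 L ⧸ Γ', x • a = a :=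
    fun x hx a => by
      conv_lhs => rw [← QuotientGroup.out_eq' a]
      conv_rhs => rw [← QuotientGroup.out_eq' a]
      exact (QuotientGroup.eq.mpr (hconj x hx a)).symm
  refine ⟨BettiMod.mk ⟨f, fun g g' => ?_, fun x hx => ?_⟩, AddMonoidHom.ext fun γ => ?_⟩
  · show ∑ a, _ = ∑ a, _ + _ • ∑ a, _
    simp only [hz, ofMul_mul, map_add, smul_add, Finset.sum_add_distrib, Finset.smul_sum]
    congr 1
    · rw [← Equiv.sum_comp (MulAction.toPerm g') (fun a : Gamma0 L ⧸ Γ' => (nebenChar χ (g • a).out : A) •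
        φ (Additive.ofMul (z g a)))]
      exact Finset.sum_congr rfl fun a _ => by rw [MulAction.toPerm_apply, mul_smul]
    · exact Finset.sum_congr rfl fun a _ => by rw [mul_smul, htriv g, smul_smul]
  · refine Finset.sum_eq_zero fun a _ => ?_
    rw [hneg _ ?_, smul_zero]
    show (((x • a).out⁻¹ * (x * a.out) : Gamma0 L) : SL(2, ℤ)) = -1
    rw [hfix x (hx ▸ h.neg_one_mem)]
    simp only [Subgroup.coe_mul, Subgroup.coe_inv, hx, neg_mul, one_mul, mul_neg, inv_mul_cancel]
  · obtain ⟨γ, rfl⟩ := Additive.ofMul.surjective γ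
    rw [resBetti_mk, resCocycle_apply]
    show ∑ a : Gamma0 L ⧸ Γ', _ = charKerIndex h • φ (Additive.ofMul γ)
    have hcard : Fintype.card (Gamma0 L ⧸ Γ') = charKerIndex h := by
      rw [← Nat.card_eq_fintype_card]; rfl
    rw [← hcard, ← Finset.card_univ, ← Finset.sum_const]
    refine Finset.sum_congr rfl fun a _ => ?_
    have e := hφ a.out⁻¹ γ (z (Subgroup.inclusion h.le γ) a) (by
      show (((_ : Gamma0 L ⧸ Γ').out⁻¹ * _ : Gamma0 L) : SL(2, ℤ)) = _
      rw [hfix (Subgroup.inclusion h.le γ) γ.2]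
      simp [mul_assoc])
    rw [hfix (Subgroup.inclusion h.le γ) γ.2, e, smul_smul, ← Units.val_mul, ← map_mul,
      mul_inv_cancel, map_one, Units.val_one, one_smul]

end Index

/-! ### Hecke operators -/

section Hecke

variable {N : ℕ} {Δ : Type} [CommGroup Δ] {δ : (ZMod N)ˣ →* Δ}
  (hk : IsCharKer χ (deltaKer δ))

/-- **Restriction commutes with the Hecke operators.** -/
theorem resBetti_bettiHeckeOp (hL : L ∣ N) (p : Nat.Primes)
    (hp : (p : ℕ) ∣ N ↔ (p : ℕ) ∣ L) (x : BettiMod L χ V) :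
    resBetti hk V ((MvPolynomial.X p : BettiHeckeAlg A) • x) =
      deltaHomOp δ A V p (resBetti hk V x) := by
  obtain ⟨c, rfl⟩ := BettiMod.mk_surjective x
  rw [BettiMod.X_smul]
  refine AddMonoidHom.ext fun γ => ?_
  obtain ⟨γ, rfl⟩ := Additive.ofMul.surjective γ
  show resBetti hk V (BettiMod.mk
    ((bettiHeckeSystem L p).transferCocycles V (isWeight_heckeWeight χ p) c)) (Additive.ofMul γ) = _
  rw [resBetti_mk, resBetti_mk, resCocycle_apply, CosetSystem.transferCocycles_apply, deltaHomOp,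
    HeckeSystem.op_apply]
  simp only [resCocycle_apply]
  set ε : HeckeIdx N p ≃ HeckeIdx L p :=
    Equiv.subtypeEquivRight fun _ => imp_congr_right fun _ => not_congr hp
  have hle : Gamma0 N ≤ Gamma0 L := fun g hg => Modular.mem_Gamma0_iff_dvd.2
    ((Int.natCast_dvd_natCast.2 hL).trans (Modular.mem_Gamma0_iff_dvd.1 hg))
  set ι := Subgroup.inclusion hle
  set γN : Gamma0 N := ⟨γ, deltaKer_le δ γ.2⟩
  set f : Gamma0 L → V := (c : Gamma0 L → V) with hf
  have hw : ∀ i, heckeWeight χ p (ε i) = (nebenChar χ (ι (unitRep N p i)) : A) := by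
    rintro ⟨i, hi⟩
    cases i with
    | some j =>
      rw [unitRep_some p (j := j) rfl, map_one, map_one, Units.val_one]
      show (χ 1 : A) = 1
      rw [map_one, Units.val_one]
    | none =>
      show (χ (heckeUnit L p _) : A) = (χ (gamma0UnitsHom L _) : A)
      refine congrArg (fun u => (χ u : A)) (Units.ext ?_)
      show ((p : ℕ) : ZMod L) = ((((p : ℕ) : ℤ)) : ZMod L)
      rw [Int.cast_natCast]
  have key : ∀ i, heckeWeight χ p (ε i) •
      f ((bettiHeckeSystem L p).elt (Subgroup.inclusion hk.le γ) (ε i)) +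
        f (ι (unitRep N p i)) =
      f (Subgroup.inclusion hk.le ((deltaHecke δ p).elt γ i)) +
        f (ι (unitRep N p ((heckeSystem N p).next γN i))) := by
    intro i
    set g := (heckeSystem N p).elt γN i
    set j := (heckeSystem N p).next γN i
    have he := ((bettiHeckeSystem L p).next_elt_eq_of_eq
      (γ := Subgroup.inclusion hk.le γ) (i := ε i) (j := ε j) (h := ι g)
      ((heckeSystem N p).rep_mul γN i)).2
    have hd : Subgroup.inclusion hk.le ((deltaHecke δ p).elt γ i) =
        ι (unitRep N p i * g * (unitRep N p j)⁻¹) := Subtype.ext (deltaHecke_elt δ p γ i)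
    have hg : ι g = (ι (unitRep N p i))⁻¹ *
        Subgroup.inclusion hk.le ((deltaHecke δ p).elt γ i) * ι (unitRep N p j) := by
      rw [hd, map_mul, map_mul, map_inv]
      group
    rw [he, hg, hf, bettiCocycles.map_mul, bettiCocycles.map_mul, bettiCocycles.map_inv, map_mul,
      hk.triv (Subgroup.inclusion hk.le ((deltaHecke δ p).elt γ i)) ((deltaHecke δ p).elt γ i).2,
      mul_one, hw]
    simp only [smul_add, smul_neg, smul_smul, ← Units.val_mul, ← map_mul, mul_inv_cancel, map_one,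
      Units.val_one, one_smul]
    abel
  have hsum := Finset.sum_congr (rfl : (Finset.univ : Finset (HeckeIdx N p)) = Finset.univ)
    fun i _ => key i
  rw [Finset.sum_add_distrib, Finset.sum_add_distrib,
    ε.sum_comp (fun i => heckeWeight χ p i •
      f ((bettiHeckeSystem L p).elt (Subgroup.inclusion hk.le γ) i)),
    ((heckeSystem N p).next_bijective γN).sum_comp (fun i => f (ι (unitRep N p i)))] at hsum
  exact add_right_cancel hsum

/-- `T l - (l + 1)`, `l ≡ 1 (mod N)`, makes restrictions parabolic. -/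
theorem resBetti_sub_degree_mem (hL : L ∣ N) (hδ : δ (-1) = 1) (l : Nat.Primes)
    (hl : ((l : ℕ) : ZMod N) = 1) (hlN : ¬ (l : ℕ) ∣ N) (hlL : ¬ (l : ℕ) ∣ L)
    (x : BettiMod L χ V) :
    resBetti hk V ((MvPolynomial.X l - MvPolynomial.C (((l : ℕ) + 1 : ℕ) : A) :
      BettiHeckeAlg A) • x) ∈ parabolicHoms A (deltaKer δ) V := by
  intro γ hγ
  rw [sub_smul, map_sub, AddMonoidHom.sub_apply,
    resBetti_bettiHeckeOp hk hL l ⟨fun h => absurd h hlN, fun h => absurd h hlL⟩,
    deltaHomOp_parabolic δ hδ l hl hlN (resBetti_neg_one hk x) γ hγ,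
    ← MvPolynomial.algebraMap_eq, algebraMap_smul, map_smul, Nat.cast_smul_eq_nsmul,
    AddMonoidHom.smul_apply, sub_self]

end Hecke

/-! ### Descent of eigenhomomorphisms -/

section Span

variable [IsDomain A] [IsPrincipalIdealRing A] [CharZero A] {K : Type} [Field K] [CharZero K]
  [Algebra A K]

/-- Eigenhomomorphisms with values in `K` are combinations of restrictions of integral classes. -/
theorem mem_span_resBetti [Γ.FiniteIndex] (hA : Function.Injective (algebraMap A K))
    (φ : Additive Γ →+ K) (hφ : IsChiEigen χ Γ φ) :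
    φ ∈ Submodule.span K (Set.range fun x : BettiMod L χ A =>
      (algebraMap A K).toAddMonoidHom.comp (resBetti h A x)) := by
  classical
  have : Group.FG SL(2, ℤ) := ⟨⟨{ModularGroup.S, ModularGroup.T}, by
    simpa using SpecialLinearGroup.SL2Z_generators⟩⟩
  have : Group.FG Γ := Subgroup.fg_of_index_ne_zero (H := Γ)
  have : Module.IsTorsionFree A K := (Module.isTorsionFree_iff_algebraMap_injective).mpr hA
  obtain ⟨s, hs⟩ := Group.fg_def.1 (inferInstance : Group.FG Γ)
  let W : Submodule A K :=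
    Submodule.span A ((s.image fun γ => φ (Additive.ofMul γ) : Finset K) : Set K)
  have : Module.Finite A W :=
    Module.Finite.span_of_finite A (Finset.finite_toSet _)
  have : Module.Free A W := Module.free_of_finite_type_torsion_free'
  have hW : ∀ γ : Additive Γ, φ γ ∈ W := by
    intro γ
    obtain ⟨γ, rfl⟩ := Additive.ofMul.surjective γ
    have hγ : γ ∈ Subgroup.closure (s : Set Γ) := by rw [hs]; trivial
    induction hγ using Subgroup.closure_induction with
    | mem x hx => exact Submodule.subset_span (Finset.mem_image_of_mem _ hx)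
    | one => rw [ofMul_one, map_zero]; exact zero_mem _
    | mul x y _ _ hx hy => rw [ofMul_mul, map_add]; exact add_mem hx hy
    | inv x _ hx => rw [ofMul_inv, map_neg]; exact neg_mem hx
  let b := Module.Free.chooseBasis A W
  let co : Module.Free.ChooseBasisIndex A W → (Additive Γ →+ A) := fun i =>
    AddMonoidHom.mk' (fun γ => b.repr ⟨φ γ, hW γ⟩ i) fun γ δ => by
      rw [show (⟨φ (γ + δ), hW _⟩ : W) = ⟨φ γ, hW γ⟩ + ⟨φ δ, hW δ⟩ from
        Subtype.ext (map_add φ γ δ), map_add, Finsupp.add_apply]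
  have hco : ∀ i, IsChiEigen χ Γ (co i) := fun i g x y hy => by
    show b.repr ⟨_, _⟩ i = _ • b.repr ⟨_, _⟩ i
    rw [show (⟨φ (Additive.ofMul y), hW _⟩ : W) =
      (nebenChar χ g : A) • ⟨φ (Additive.ofMul x), hW _⟩ from Subtype.ext (hφ g x y hy), map_smul,
      Finsupp.smul_apply]
  have hneg : ∀ i (γ : Γ), (γ : SL(2, ℤ)) = -1 → co i (Additive.ofMul γ) = 0 := fun i γ hγ => by
    have h1 : γ * γ = 1 := Subtype.ext (by rw [Subgroup.coe_mul, hγ]; simp)
    have h2 : co i (Additive.ofMul γ) + co i (Additive.ofMul γ) = 0 := by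
      rw [← map_add, ← ofMul_mul, h1, ofMul_one, map_zero]
    rw [← two_mul] at h2
    exact (mul_eq_zero.mp h2).resolve_left two_ne_zero
  choose m hm using fun i => exists_resBetti_eq_index_smul h (co i) (hco i) (hneg i)
  have hn : ((charKerIndex h : ℕ) : K) ≠ 0 := Nat.cast_ne_zero.mpr (charKerIndex_ne_zero h)
  have e : φ = ∑ i, ((b i : K) / (charKerIndex h : ℕ)) •
      (algebraMap A K).toAddMonoidHom.comp (resBetti h A (m i)) := by
    refine AddMonoidHom.ext fun γ => ?_
    have := congrArg Subtype.val (b.sum_repr ⟨φ γ, hW γ⟩)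
    rw [Submodule.coe_sum] at this
    refine this.symm.trans ?_
    rw [AddMonoidHom.finsetSum_apply]
    refine Finset.sum_congr rfl fun i _ => ?_
    show b.repr _ i • (b i : K) = _ * algebraMap A K (resBetti h A (m i) γ)
    rw [hm i, AddMonoidHom.smul_apply, map_nsmul, nsmul_eq_mul, div_mul_eq_mul_div,
      ← mul_assoc, mul_comm ((b i : K)) ((charKerIndex h : ℕ) : K), mul_assoc,
      mul_div_cancel_left₀ _ hn, Algebra.smul_def, mul_comm]
    rfl
  rw [e]
  exact Submodule.sum_mem _ fun i _ => Submodule.smul_mem _ _ (Submodule.subset_span ⟨_, rfl⟩)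

end Span

end FermatLib.MLT.LGC

end
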