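import Fermat.Agent.MLT.BettiResidual

/-!
# An idempotent section of localisation at a residual character

For a finite module over a complete local ring the localisation at a residual character splits:
there is an `R`-linear section whose composite with localisation is multiplication by an element
not killed by the character.
-/

set_option autoImplicit false

noncomputable section

namespace FermatLib.MLT

variable {A : Type} [CommRing A] [IsLocalRing A] [IsNoetherianRing A]
  [IsAdicComplete (IsLocalRing.maximalIdeal A) A]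

/-- In a finite algebra over a complete local ring a residual character singles out an element
`e` with value one, which becomes a multiple of every element not killed by the character. -/
theorem exists_residual_idempotent {k : Type} [Field k] (T : Type) [CommRing T] [Algebra A T]
    [Module.Finite A T] (θ : T →+* k)
    (hθ : ∀ a ∈ IsLocalRing.maximalIdeal A, θ (algebraMap A T a) = 0) :
    ∃ e : T, θ e = 1 ∧ e * e = e ∧ ∀ r : T, θ r ≠ 0 → ∃ t : T, t * r = e := by
  classical
  let P : Ideal T := RingHom.ker θ
  have hPp : P.IsPrime := RingHom.ker_isPrime θ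
  have hPm : P.IsMaximal := by
    have hint : Algebra.IsIntegral A T := Algebra.IsIntegral.of_finite A _
    refine Ideal.isMaximal_of_isIntegral_of_isMaximal_comap (R := A) P ?_
    rw [show P.comap (algebraMap A T) = IsLocalRing.maximalIdeal A from
      le_antisymm (IsLocalRing.le_maximalIdeal (Ideal.IsPrime.ne_top (Ideal.IsPrime.comap _)))
        fun a ha => hθ a ha]
    infer_instance
  obtain ⟨-, hbij, -, -⟩ :=
    Algebra.finite_maximalSpectrum_and_bijective_localization_of_module_finite (𝒪 := A) T
  set π := RingHom.pi fun I : MaximalSpectrum T =>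
    algebraMap T (Localization.AtPrime I.asIdeal)
  obtain ⟨e, he⟩ := hbij.2 (Pi.single ⟨P, hPm⟩ 1)
  refine ⟨e, ?_, hbij.1 ?_, fun r hr => ?_⟩
  · have h1 : algebraMap T (Localization.AtPrime P) e = algebraMap T _ 1 := by
      have := congrFun he ⟨P, hPm⟩
      rw [Pi.single_eq_same] at this
      rw [map_one]
      exact this
    obtain ⟨⟨u, hu⟩, hu'⟩ := IsLocalization.exists_of_eq (M := P.primeCompl) h1
    have h2 : θ u * θ e = θ u := by rw [← map_mul]; exact congrArg θ (by simpa using hu')
    exact mul_left_cancel₀ (show θ u ≠ 0 from fun h => hu h) (h2.trans (mul_one _).symm)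
  · rw [map_mul, he, ← Pi.single_mul, mul_one]
  · obtain ⟨t, ht⟩ := hbij.2 (Pi.single ⟨P, hPm⟩
      (IsLocalization.mk' (Localization.AtPrime P) (1 : T) (⟨r, hr⟩ : P.primeCompl)))
    refine ⟨t, hbij.1 ?_⟩
    rw [map_mul, ht, he]
    funext I
    rw [Pi.mul_apply]
    by_cases hI : I = ⟨P, hPm⟩
    · subst hI
      rw [Pi.single_eq_same, Pi.single_eq_same]
      show _ * algebraMap T _ r = _
      rw [IsLocalization.mk'_spec _ _ (⟨r, hr⟩ : P.primeCompl), map_one]
    · rw [Pi.single_eq_of_ne hI, Pi.single_eq_of_ne hI, zero_mul]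

variable {R : Type} [CommRing R] [Algebra A R] {k : Type} [Field k]

/-- **The section of localisation at a residual character.** -/
theorem exists_charSubmonoid_section (R₀ : Subalgebra A R) (θ : R →+* k)
    (hθ : ∀ a ∈ IsLocalRing.maximalIdeal A, θ (algebraMap A R a) = 0)
    (M : Type) [AddCommGroup M] [Module A M] [Module R M] [IsScalarTower A R M]
    [Module.Finite A M] :
    ∃ (σ : LocalizedModule (charSubmonoid R₀ θ) M →ₗ[R] M) (e : R),
      e ∈ R₀ ∧ θ e ≠ 0 ∧
      (∀ x, LocalizedModule.mkLinearMap (charSubmonoid R₀ θ) M (σ x) = x) ∧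
      ∀ m, σ (LocalizedModule.mkLinearMap (charSubmonoid R₀ θ) M m) = e • m := by
  classical
  set S := charSubmonoid R₀ θ
  set mk := LocalizedModule.mkLinearMap S M
  have hsurj : Function.Surjective mk :=
    mkLinearMap_charSubmonoid_surjective R₀ θ hθ M
  -- an element killing the kernel, acting trivially on the localisation
  suffices ∃ e ∈ R₀, θ e ≠ 0 ∧ (∀ m : M, mk (e • m) = mk m) ∧
      ∀ s ∈ S, ∀ m : M, s • m = 0 → e • m = 0 by
    obtain ⟨e, heR, heθ, heid, hekill⟩ := this
    have hker : LinearMap.ker mk ≤ LinearMap.ker (e • (LinearMap.id : M →ₗ[R] M)) := by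
      intro m hm
      rw [LinearMap.mem_ker, LocalizedModule.mkLinearMap_apply, ← LocalizedModule.zero_mk 1,
        LocalizedModule.mk_eq] at hm
      obtain ⟨u, hu⟩ := hm
      refine hekill u u.2 m ?_
      simpa [Submonoid.smul_def] using hu
    refine ⟨(Submodule.liftQ _ _ hker).comp (mk.quotKerEquivOfSurjective hsurj).symm.toLinearMap,
      e, heR, heθ, fun x => ?_, fun m => ?_⟩
    · obtain ⟨m, rfl⟩ := hsurj x
      rw [LinearMap.comp_apply, LinearEquiv.coe_toLinearMap,
        LinearMap.quotKerEquivOfSurjective_symm_apply]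
      exact heid m
    · rw [LinearMap.comp_apply, LinearEquiv.coe_toLinearMap,
        LinearMap.quotKerEquivOfSurjective_symm_apply]
      rfl
  by_cases hkill : ∃ u ∈ S, ∀ x : M, u • x = 0
  · obtain ⟨u, hu, hux⟩ := hkill
    refine ⟨u, hu.1, hu.2, fun m => ?_, fun s _ m _ => hux m⟩
    rw [LocalizedModule.mkLinearMap_apply, LocalizedModule.mkLinearMap_apply, LocalizedModule.mk_eq]
    exact ⟨⟨u, hu⟩, by simp [Submonoid.smul_def, hux]⟩
  push Not at hkill
  let act : R₀ →+* Module.End A M :=
    ((Algebra.lsmul A A M : R →ₐ[A] Module.End A M).comp R₀.val).toRingHom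
  let J : Ideal R₀ := RingHom.ker act
  have hact : ∀ (r : R₀) (x : M), act r x = (r : R) • x := fun _ _ => rfl
  have hfin : Module.Finite A (R₀ ⧸ J) := by
    obtain ⟨n, g, hg⟩ := Module.Finite.exists_fin' A M
    have : IsNoetherian A M := isNoetherian_of_isNoetherianRing_of_finite A M
    let ev : R₀ →ₗ[A] (Fin n → M) :=
      { toFun := fun r i => act r (g (Pi.single i 1))
        map_add' := fun r r' => by funext i; simp [map_add]
        map_smul' := fun a r => by funext i; simp [hact, smul_assoc] }
    have hker : (J.restrictScalars A) = LinearMap.ker ev := by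
      ext r
      simp only [Submodule.restrictScalars_mem, LinearMap.mem_ker, J, RingHom.mem_ker]
      constructor
      · intro h
        funext i
        show act r _ = 0
        rw [h]
        rfl
      · intro h
        refine LinearMap.ext fun x => ?_
        obtain ⟨v, rfl⟩ := hg x
        rw [pi_eq_sum_univ' v, map_sum, map_sum, map_sum]
        refine Finset.sum_congr rfl fun i _ => ?_
        rw [map_smul, map_smul, map_smul,
          show act r (g (Pi.single i 1)) = 0 from congrFun h i]
        rfl
    exact Module.Finite.equiv ((Submodule.Quotient.restrictScalarsEquiv A J).symm.trans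
      ((Submodule.quotEquivOfEq _ _ hker).trans ev.quotKerEquivRange)).symm
  let θ₀ : R₀ →+* k := θ.comp R₀.val.toRingHom
  have hJ : J ≤ RingHom.ker θ₀ := by
    intro r hr
    rw [RingHom.mem_ker]
    by_contra h
    obtain ⟨x, hx⟩ := hkill r ⟨r.2, h⟩
    refine hx ?_
    rw [← hact, show act r = 0 from hr]
    rfl
  obtain ⟨e, heθ, hee, hedvd⟩ :=
    exists_residual_idempotent (R₀ ⧸ J) (Ideal.Quotient.lift J θ₀ hJ) fun a ha => hθ a ha
  obtain ⟨e, rfl⟩ := Ideal.Quotient.mk_surjective e
  have hlift : ∀ r r' : R₀, Ideal.Quotient.mk J r = Ideal.Quotient.mk J r' →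
      ∀ m : M, (r : R) • m = (r' : R) • m := fun r r' h m => by
    have := LinearMap.congr_fun (RingHom.mem_ker.1 (Ideal.Quotient.eq.1 h)) m
    rw [map_sub, LinearMap.sub_apply, LinearMap.zero_apply, sub_eq_zero] at this
    exact this
  have hθe : θ (e : R) ≠ 0 := by
    rw [show θ (e : R) = 1 from heθ]
    exact one_ne_zero
  refine ⟨e, e.2, hθe, fun m => ?_, fun s hs m hm => ?_⟩
  · rw [LocalizedModule.mkLinearMap_apply, LocalizedModule.mkLinearMap_apply, LocalizedModule.mk_eq]
    refine ⟨⟨e, e.2, hθe⟩, ?_⟩
    simp only [Submonoid.smul_def, one_smul]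
    rw [← mul_smul]
    exact hlift (e * e) e (by rw [map_mul]; exact hee) m
  · obtain ⟨t, ht⟩ := hedvd (Ideal.Quotient.mk J ⟨s, hs.1⟩) hs.2
    obtain ⟨t, rfl⟩ := Ideal.Quotient.mk_surjective t
    rw [← hlift (t * ⟨s, hs.1⟩) e (by rw [map_mul]; exact ht) m]
    show ((t : R) * s) • m = 0
    rw [mul_smul, hm, smul_zero]

end FermatLib.MLT

end
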