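import Fermat.Agent.MLT.LGC.SeriesHull
import Fermat.Agent.Igusa.MonoSeriesSheet
import Fermat.Prelude.Def_FLTPrelim_Ramification
import Mathlib.GroupTheory.QuotientGroup.Basic

/-!
# The universal Gauss valuation on ratios of series with bounded coefficients

`seriesHull L` is the field generated by the Laurent series with integer coefficients.  For a
valuation ring `A` of `Qbar` over `q` it carries the valuation of `seriesSheet`; `redUnit` is the
normalised residue modulo `n`-th powers.  Coefficientwise automorphisms in the inertia group of `A`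
do not change it.
-/

set_option autoImplicit false
set_option linter.style.haveILetI false

noncomputable section

open ModularCurve AlgebraicCurve

namespace FermatLib.MLT.LGC

open FermatLib.Igusa.Mono

local notation "Qbar" => AlgebraicClosure ℚ

attribute [local instance 100000] monoLaurentModule monoLaurentSMul

namespace HullInstances

/-! Cached copies of default instances whose search is slow. -/

scoped instance (priority := 100000) hullAlgebra : Algebra Qbar (seriesHull Qbar) := inferInstance

scoped instance (priority := 100000) hullSMulWithZero : SMulWithZero Qbar (seriesHull Qbar) :=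
  inferInstance

scoped instance (priority := 100000) hullMulAction : MulAction Qbar (seriesHull Qbar) :=
  inferInstance

scoped instance (priority := 100000) residueSeriesAlgebra (A : ValuationSubring Qbar) :
    Algebra (IsLocalRing.ResidueField A) (LaurentSeries (IsLocalRing.ResidueField A)) :=
  inferInstance

end HullInstances

open scoped HullInstances

theorem exists_intSpan_fraction {L : Type*} [Field L] [CharZero L] (f : seriesHull L) :
    ∃ z : seriesHull L, z ≠ 0 ∧ (seriesHull L).val z ∈ intSpan L ∧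
      (seriesHull L).val (f * z) ∈ intSpan L := by
  obtain ⟨r, hr, s, hs, hrs⟩ := (IntermediateField.mem_adjoin_iff_div (F := L)).mp f.2
  rcases eq_or_ne s 0 with rfl | hs0
  · have hf : f = 0 := Subtype.ext (by simpa using hrs)
    exact ⟨1, one_ne_zero, by simp, by simp [hf]⟩
  · refine ⟨⟨s, intSpan_le_seriesHull hs⟩, fun h => hs0 (congrArg Subtype.val h), hs, ?_⟩
    simpa [hrs, div_mul_cancel₀ _ hs0] using! hr

variable (q : ℕ) [Fact q.Prime] (A : ValuationSubring Qbar)

theorem natCast_residue_eq_zero (hA : A.LiesOverPrime q) :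
    (q : IsLocalRing.ResidueField A) = 0 := by
  rw [← map_natCast (IsLocalRing.residue A), IsLocalRing.residue_eq_zero_iff,
    ← ValuationSubring.coe_mem_nonunits_iff]
  simpa [ValuationSubring.LiesOverPrime] using hA

theorem residue_eq_zero_iff_not_isUnit (a : A) : IsLocalRing.residue A a = 0 ↔ ¬ IsUnit a := by
  rw [IsLocalRing.residue_eq_zero_iff, IsLocalRing.mem_maximalIdeal, mem_nonunits_iff]

/-- The sheet of expansions. -/
def hullSheet (hA : A.LiesOverPrime q) :
    Sheet (IsLocalRing.residue A) (seriesHull Qbar) (LaurentSeries (IsLocalRing.ResidueField A)) :=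
  seriesSheet (seriesHull Qbar).val (residue_eq_zero_iff_not_isUnit A)
    Fact.out (natCast_residue_eq_zero q A hA) exists_intSpan_fraction

/-- The Gauss valuation ring. -/
def hullW (hA : A.LiesOverPrime q) : ValuationSubring (seriesHull Qbar) := (hullSheet q A hA).W

variable {q} (hA : A.LiesOverPrime q)

scoped instance (priority := 100000) HullInstances.hullWCommRing : CommRing (hullW q A hA) :=
  inferInstance

scoped instance (priority := 100000) HullInstances.hullWMonoid : Monoid (hullW q A hA) :=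
  inferInstance

theorem exists_hull_scale {f : seriesHull Qbar} (hf : f ≠ 0) :
    ∃ c : Qbar, c ≠ 0 ∧ ∃ h : c • f ∈ hullW q A hA, IsUnit (⟨c • f, h⟩ : hullW q A hA) := by
  obtain ⟨c, hm, hr⟩ := seriesSheet_scale (ι := (seriesHull Qbar).val) (A := A)
    (π := IsLocalRing.residue A) (residue_eq_zero_iff_not_isUnit A)
    Fact.out (natCast_residue_eq_zero q A hA) exists_intSpan_fraction hf
  refine ⟨c, fun h0 => hr ?_, hm, ?_⟩
  · rw [show c • f = 0 by rw [h0, zero_smul], Sheet.rd_zero]
  · rw [Sheet.rd_of_mem hm] at hr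
    exact (hullSheet q A hA).isUnit_of_red_ne _ hr

variable (E : IntermediateField Qbar (LaurentSeries Qbar))

/-- The `n`-th powers of residues of units coming from the subfield `E`. -/
def powsIn (n : ℕ) : Subgroup (IsLocalRing.ResidueField (hullW q A hA))ˣ where
  carrier := {z | ∃ u : (hullW q A hA)ˣ,
    (((u : hullW q A hA) : seriesHull Qbar) : LaurentSeries Qbar) ∈ E ∧
      Units.map (IsLocalRing.residue (hullW q A hA)).toMonoidHom u ^ n = z}
  one_mem' := ⟨1, one_mem E, by rw [map_one, one_pow]⟩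
  mul_mem' := by
    rintro _ _ ⟨u, hu, rfl⟩ ⟨v, hv, rfl⟩
    exact ⟨u * v, mul_mem hu hv, by rw [map_mul, mul_pow]⟩
  inv_mem' := by
    rintro _ ⟨u, hu, rfl⟩
    refine ⟨u⁻¹, ?_, by rw [map_inv, inv_pow]⟩
    have h : (((u⁻¹ : (hullW q A hA)ˣ) : hullW q A hA) : seriesHull Qbar) =
        (((u : hullW q A hA) : seriesHull Qbar))⁻¹ := by
      refine eq_inv_of_mul_eq_one_left ?_
      rw [← MulMemClass.coe_mul, ← Units.val_mul, inv_mul_cancel, Units.val_one,
        OneMemClass.coe_one]
    rw [h]
    exact inv_mem hu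

/-- Units of the residue field modulo `n`-th powers of residues coming from `E`. -/
abbrev UnitsModPow (n : ℕ) : Type :=
  Additive ((IsLocalRing.ResidueField (hullW q A hA))ˣ ⧸ powsIn A hA E n)

scoped instance (priority := 100000) HullInstances.powsInNormal (n : ℕ) : (powsIn A hA E n).Normal :=
  inferInstance

scoped instance (priority := 100000) HullInstances.unitsModPowAddCommGroup (n : ℕ) :
    AddCommGroup (UnitsModPow A hA E n) :=
  inferInstance

/-- The residue of a nonzero function, normalised, modulo `n`-th powers. -/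
def redUnit (n : ℕ) (f : seriesHull Qbar) : UnitsModPow A hA E n :=
  open Classical in
  if hf : f ≠ 0 then
    Additive.ofMul (QuotientGroup.mk
      (Units.map (IsLocalRing.residue (hullW q A hA)).toMonoidHom
        (exists_hull_scale A hA hf).choose_spec.2.choose_spec.unit))
  else 0

theorem exists_pow_eq_residue {n : ℕ} (hn : n ≠ 0) {e : Qbar} (he : e ∈ A) (he' : IsUnit (⟨e, he⟩ : A))
    (h : algebraMap Qbar (seriesHull Qbar) e ∈ hullW q A hA) :
    ∃ r : Qbar, ∃ hr : algebraMap Qbar (seriesHull Qbar) r ∈ hullW q A hA,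
      IsLocalRing.residue (hullW q A hA) ⟨_, hr⟩ ^ n =
        IsLocalRing.residue (hullW q A hA) ⟨_, h⟩ := by
  obtain ⟨r, hr⟩ := IsAlgClosed.exists_pow_nat_eq e (Nat.pos_of_ne_zero hn)
  have hrA : r ∈ A := by
    rcases A.mem_or_inv_mem r with h' | h'
    · exact h'
    · obtain ⟨u, hu⟩ := he'
      have he0 : e ≠ 0 := fun h0 => u.ne_zero (Subtype.ext (by rw [hu]; exact h0))
      have hr0 : r ≠ 0 := fun h0 => he0 (by rw [← hr, h0, zero_pow hn])
      obtain ⟨m, rfl⟩ := Nat.exists_eq_succ_of_ne_zero hn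
      rw [show r = e * r⁻¹ ^ m by rw [← hr, pow_succ, inv_pow, mul_comm (r ^ m) r, mul_assoc,
        mul_inv_cancel₀ (pow_ne_zero _ hr0), mul_one]]
      exact mul_mem he (pow_mem h' m)
  refine ⟨r, (hullSheet q A hA).algebraMap_mem hrA, ?_⟩
  rw [← map_pow]
  exact congrArg _ (Subtype.ext (by
    show algebraMap Qbar (seriesHull Qbar) r ^ n = algebraMap Qbar (seriesHull Qbar) e
    rw [← map_pow, hr]))

/-- A unit residue of a constant is an `n`-th power. -/
theorem mk_map_residue_eq_of_smul {n : ℕ} (hn : n ≠ 0) {u v : (hullW q A hA)ˣ} {e : Qbar}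
    (h : ((u : hullW q A hA) : seriesHull Qbar) = e • ((v : hullW q A hA) : seriesHull Qbar)) :
    (QuotientGroup.mk (Units.map (IsLocalRing.residue (hullW q A hA)).toMonoidHom u) :
        (IsLocalRing.ResidueField (hullW q A hA))ˣ ⧸
          powsIn A hA E n) =
      QuotientGroup.mk (Units.map (IsLocalRing.residue (hullW q A hA)).toMonoidHom v) := by
  set w : (hullW q A hA)ˣ := u * v⁻¹
  have hwv : w * v = u := inv_mul_cancel_right u v
  have hv0 : ((v : hullW q A hA) : seriesHull Qbar) ≠ 0 := fun h0 => v.ne_zero (Subtype.ext h0)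
  have hw : ((w : hullW q A hA) : seriesHull Qbar) = algebraMap Qbar (seriesHull Qbar) e := by
    refine mul_right_cancel₀ hv0 ?_
    rw [← MulMemClass.coe_mul, ← Units.val_mul, hwv, h, Algebra.smul_def]
  have hw' : ((w⁻¹ : (hullW q A hA)ˣ) : hullW q A hA).1 = algebraMap Qbar (seriesHull Qbar) e⁻¹ := by
    have h1 : ((w : hullW q A hA) : seriesHull Qbar) * ((w⁻¹ : (hullW q A hA)ˣ) : hullW q A hA).1 = 1 := by
      rw [← MulMemClass.coe_mul, ← Units.val_mul, mul_inv_cancel, Units.val_one, OneMemClass.coe_one]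
    rw [map_inv₀, ← hw]
    exact eq_inv_of_mul_eq_one_right h1
  have he : e ∈ A := (hullSheet q A hA).mem_of_algebraMap_mem
    (residue_eq_zero_iff_not_isUnit A) (by rw [← hw]; exact (w : hullW q A hA).2)
  have he' : e⁻¹ ∈ A := (hullSheet q A hA).mem_of_algebraMap_mem
    (residue_eq_zero_iff_not_isUnit A) (by rw [← hw']; exact ((w⁻¹ : (hullW q A hA)ˣ) : hullW q A hA).2)
  have he0 : e ≠ 0 := fun h0 => w.ne_zero (Subtype.ext (by rw [hw, h0, map_zero]; rfl))
  obtain ⟨r, hr, hy⟩ := exists_pow_eq_residue A hA hn he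
    (IsUnit.of_mul_eq_one ⟨e⁻¹, he'⟩ (Subtype.ext (mul_inv_cancel₀ he0)))
    (by rw [← hw]; exact (w : hullW q A hA).2)
  have hy' : IsLocalRing.residue (hullW q A hA) ⟨_, hr⟩ ^ n =
      IsLocalRing.residue (hullW q A hA) (w : hullW q A hA) :=
    hy.trans (congrArg _ (Subtype.ext hw.symm))
  have hru : IsUnit (⟨_, hr⟩ : hullW q A hA) := by
    rw [← IsLocalRing.residue_ne_zero_iff_isUnit]
    intro h0
    have hu' := (Units.map (IsLocalRing.residue (hullW q A hA)).toMonoidHom w).ne_zero
    rw [Units.coe_map] at hu'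
    exact hu' (hy'.symm.trans (by rw [h0, zero_pow hn]))
  refine QuotientGroup.eq.mpr (inv_mem_iff.mp ⟨hru.unit, ?_, ?_⟩)
  · rw [hru.unit_spec]
    exact E.algebraMap_mem r
  · rw [← hwv, map_mul, mul_inv_rev, inv_inv, mul_comm (Units.map _ w),
      ← mul_assoc, inv_mul_cancel, one_mul]
    exact Units.ext (by simpa using hy')

/-- The normalised residue may be computed with any scalar. -/
theorem redUnit_eq {n : ℕ} (hn : n ≠ 0) {f : seriesHull Qbar} (hf : f ≠ 0) {c : Qbar}
    (u : (hullW q A hA)ˣ) (hu : ((u : hullW q A hA) : seriesHull Qbar) = c • f) :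
    redUnit A hA E n f = Additive.ofMul (QuotientGroup.mk
      (Units.map (IsLocalRing.residue (hullW q A hA)).toMonoidHom u)) := by
  rw [redUnit, dif_pos hf]
  have h := (exists_hull_scale A hA hf).choose_spec.2.choose_spec
  have key : ∀ c' : Qbar, c' ≠ 0 → ∀ v : (hullW q A hA)ˣ,
      ((v : hullW q A hA) : seriesHull Qbar) = c' • f →
      (QuotientGroup.mk (Units.map (IsLocalRing.residue (hullW q A hA)).toMonoidHom u) :
        (IsLocalRing.ResidueField (hullW q A hA))ˣ ⧸ powsIn A hA E n) =
        QuotientGroup.mk (Units.map (IsLocalRing.residue (hullW q A hA)).toMonoidHom v) :=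
    fun c' hc' v hv => mk_map_residue_eq_of_smul A hA E hn (e := c / c')
      (by rw [hu, hv, smul_smul, div_mul_cancel₀ _ hc'])
  exact congrArg Additive.ofMul
    (key _ (exists_hull_scale A hA hf).choose_spec.1 _ (congrArg Subtype.val h.unit_spec)).symm

theorem redUnit_mul {n : ℕ} (hn : n ≠ 0) {f g : seriesHull Qbar} (hf : f ≠ 0) (hg : g ≠ 0) :
    redUnit A hA E n (f * g) = redUnit A hA E n f + redUnit A hA E n g := by
  obtain ⟨c, -, h, hu⟩ := exists_hull_scale A hA hf
  obtain ⟨d, -, h', hu'⟩ := exists_hull_scale A hA hg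
  have hw : (((hu.unit * hu'.unit : (hullW q A hA)ˣ) : hullW q A hA) : seriesHull Qbar) =
      (c * d) • (f * g) := by
    rw [Units.val_mul, hu.unit_spec, hu'.unit_spec]
    exact smul_mul_smul_comm c f d g
  refine (redUnit_eq A hA E hn (mul_ne_zero hf hg) _ hw).trans ?_
  refine Eq.trans ?_ (congrArg₂ (· + ·)
    (redUnit_eq A hA E hn hf hu.unit (congrArg Subtype.val hu.unit_spec))
    (redUnit_eq A hA E hn hg hu'.unit (congrArg Subtype.val hu'.unit_spec))).symm
  exact congrArg Additive.ofMul
    ((congrArg QuotientGroup.mk (map_mul _ _ _)).trans (QuotientGroup.mk_mul _ _ _))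

theorem redUnit_pow_self {n : ℕ} (hn : n ≠ 0) {f : seriesHull Qbar} (hf : f ≠ 0)
    (hfE : (f : LaurentSeries Qbar) ∈ E) :
    redUnit A hA E n (f ^ n) = 0 := by
  obtain ⟨c, -, h, hu⟩ := exists_hull_scale A hA hf
  have hw : (((hu.unit ^ n : (hullW q A hA)ˣ) : hullW q A hA) : seriesHull Qbar) =
      c ^ n • f ^ n := by
    rw [Units.val_pow_eq_pow_val, hu.unit_spec]
    exact smul_pow c f n
  rw [redUnit_eq A hA E hn (pow_ne_zero _ hf) _ hw, map_pow]
  refine congrArg Additive.ofMul ((QuotientGroup.eq_one_iff _).mpr ⟨hu.unit, ?_, rfl⟩)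
  rw [hu.unit_spec]
  exact E.smul_mem hfE

theorem coeffMap_mem_seriesHull (σ : Qbar →+* Qbar) {x : LaurentSeries Qbar}
    (hx : x ∈ seriesHull Qbar) : coeffMap σ x ∈ seriesHull Qbar := by
  induction hx using IntermediateField.adjoin_induction with
  | mem y hy =>
    obtain ⟨z, rfl⟩ := hy
    refine IntermediateField.subset_adjoin _ _ ⟨z, ?_⟩
    rw [coeffMap_coeffMap]
    exact coeffMap_congr (Subsingleton.elim _ _) z
  | algebraMap c =>
    rw [algebraMap_laurentSeries_eq_single, coeffMap_single, ← algebraMap_laurentSeries_eq_single]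
    exact (seriesHull Qbar).algebraMap_mem _
  | add y z _ _ hy hz => rw [map_add]; exact add_mem hy hz
  | inv y _ hy => rw [map_inv₀]; exact inv_mem hy
  | mul y z _ _ hy hz => rw [map_mul]; exact mul_mem hy hz

/-- Inertia does not change normalised residues. -/
theorem redUnit_coeffMap_of_mem_inertia {n : ℕ} (hn : n ≠ 0)
    {σ : AlgebraicClosure ℚ ≃ₐ[ℚ] AlgebraicClosure ℚ} (hσ : σ ∈ A.inertiaSubgroupIn ℚ)
    (f : seriesHull Qbar) :
    redUnit A hA E n ⟨coeffMap (σ : Qbar →+* Qbar) (f : LaurentSeries Qbar),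
      coeffMap_mem_seriesHull _ f.2⟩ = redUnit A hA E n f := by
  set f' : seriesHull Qbar := ⟨coeffMap (σ : Qbar →+* Qbar) (f : LaurentSeries Qbar),
      coeffMap_mem_seriesHull _ f.2⟩
  rcases eq_or_ne f 0 with hf | hf
  · have hf' : f' = 0 := Subtype.ext (by simp [f', hf])
    rw [hf', hf]
  have hf' : f' ≠ 0 := fun h0 => hf (Subtype.ext ((coeffMap (σ : Qbar →+* Qbar)).injective
    ((congrArg Subtype.val h0).trans (map_zero _).symm)))
  obtain ⟨σ', hσ', rfl⟩ := hσ
  obtain ⟨c, -, h, hu⟩ := exists_hull_scale A hA hf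
  obtain ⟨y, z, hyz⟩ := h
  set s : A →+* A := (MulSemiringAction.toRingEquiv (A.decompositionSubgroup ℚ) A σ').toRingHom
  have hs : ∀ a : A, IsLocalRing.residue A (s a) = IsLocalRing.residue A a := fun a => by
    have := congrArg (fun g : RingAut (IsLocalRing.ResidueField A) => g (IsLocalRing.residue A a))
      (MonoidHom.mem_ker.mp hσ')
    exact this
  have hcomp : (A.subtype).comp s =
      ((σ' : AlgebraicClosure ℚ ≃ₐ[ℚ] AlgebraicClosure ℚ) : Qbar →+* Qbar).comp A.subtype := rfl
  have hred : ∀ w : LaurentSeries A, coeffMap (IsLocalRing.residue A) (coeffMap s w) =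
      coeffMap (IsLocalRing.residue A) w := fun w => by
    rw [coeffMap_coeffMap]
    exact coeffMap_congr (RingHom.ext hs) w
  have hval : ∀ w : LaurentSeries A, coeffMap A.subtype (coeffMap s w) =
      coeffMap ((σ' : AlgebraicClosure ℚ ≃ₐ[ℚ] AlgebraicClosure ℚ) : Qbar →+* Qbar)
        (coeffMap A.subtype w) := fun w => by
    rw [coeffMap_coeffMap, coeffMap_coeffMap, hcomp]
  have hyz' : IsRatio A (IsLocalRing.residue A) (seriesHull Qbar).val
      (((σ' : AlgebraicClosure ℚ ≃ₐ[ℚ] AlgebraicClosure ℚ) c) • f') (coeffMap s y) (coeffMap s z) := by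
    refine ⟨by rw [hred]; exact hyz.red_ne, ?_⟩
    rw [hval, hval, ← hyz.eq, map_mul]
    congr 1
    simp only [f', Algebra.smul_def, map_mul, AlgHom.commutes,
      algebraMap_laurentSeries_eq_single, coeffMap_single, IntermediateField.coe_val]
    rfl
  have h0 := seriesSheet_rd (residue_eq_zero_iff_not_isUnit A) Fact.out
    (natCast_residue_eq_zero q A hA) exists_intSpan_fraction hyz
  have h1 := seriesSheet_rd (residue_eq_zero_iff_not_isUnit A) Fact.out
    (natCast_residue_eq_zero q A hA) exists_intSpan_fraction hyz'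
  rw [hred, hred, ← h0.2, Sheet.rd_of_mem h0.1, Sheet.rd_of_mem h1.1] at h1
  set a : hullW q A hA := ⟨_, h0.1⟩
  set b : hullW q A hA := ⟨_, h1.1⟩
  have hab : (hullSheet q A hA).red b = (hullSheet q A hA).red a := h1.2
  have hres : IsLocalRing.residue (hullW q A hA) b = IsLocalRing.residue (hullW q A hA) a := by
    rw [← sub_eq_zero, ← map_sub, IsLocalRing.residue_eq_zero_iff, IsLocalRing.mem_maximalIdeal,
      mem_nonunits_iff]
    intro hunit
    refine (hunit.map (hullSheet q A hA).red).ne_zero ?_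
    exact (map_sub _ _ _).trans (sub_eq_zero.mpr hab)
  have hub : IsUnit b := by
    rw [← IsLocalRing.notMem_maximalIdeal, ← IsLocalRing.residue_eq_zero_iff, hres,
      IsLocalRing.residue_eq_zero_iff, IsLocalRing.notMem_maximalIdeal]
    exact hu
  rw [redUnit_eq A hA E hn hf' hub.unit (congrArg Subtype.val hub.unit_spec),
    redUnit_eq A hA E hn hf hu.unit (congrArg Subtype.val hu.unit_spec)]
  exact congrArg Additive.ofMul (congrArg QuotientGroup.mk (Units.ext hres))

end FermatLib.MLT.LGC

end
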