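import Fermat.Agent.MLT.LGC.Group
import Fermat.Agent.MLT.LGC.Hull
import Fermat.Agent.MLT.BettiLocal
import Fermat.Agent.MLT.BettiResidual
import Fermat.Prelude.Def_GaloisRep_Adic
import Fermat.Prelude.Def_HeckeGalois_EichlerShimura

/-!
# Systems of Hecke eigenvalues with a character of conductor `q`

`q ∤ M`, `χ = ψ²` a nontrivial character modulo `q` of `p`-power order, `lam` a system of good
Hecke eigenvalues in `H¹(Γ₀(q M), χ)` which is not Eisenstein modulo the maximal ideal, and `ρ`
the representation with the matching characteristic polynomials at good Frobenius elements.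
-/

set_option autoImplicit false

noncomputable section

open CongruenceSubgroup Polynomial
open scoped MatrixGroups

namespace FermatLib.MLT.LGC

local notation "Qbar" => AlgebraicClosure ℚ
local notation "Γℚ" => (AlgebraicClosure ℚ ≃ₐ[ℚ] AlgebraicClosure ℚ)

/-- The good primes. -/
def goodPrimes (q M p : ℕ) : Set Nat.Primes := {l | ¬ (l : ℕ) ∣ q * M * p}

variable {O : Type} [CommRing O]

/-- The residual character of a system with values in `O`. -/
def sysTheta [IsLocalRing O] (lam : Nat.Primes → O) :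
    BettiHeckeAlg O →+* IsLocalRing.ResidueField O :=
  (IsLocalRing.residue O).comp (MvPolynomial.eval lam)

/-- A system of eigenvalues in `H¹(Γ₀(q M), χ)` with its representation. -/
structure IsLgcSystem [IsDomain O] [IsDiscreteValuationRing O] (p q M : ℕ)
    (χ : (ZMod q)ˣ →* Oˣ) (K : Type) [Field K] [Algebra O K] (lam : Nat.Primes → O)
    (x : bettiH1 (Gamma0 (q * M))
      (nebenChar ((Units.map (algebraMap O K).toMonoidHom).comp
        (χ.comp (ZMod.unitsMap (dvd_mul_right q M))))) K)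
    (ρ : GaloisRepAdic O) : Prop where
  not_dvd : ¬ q ∣ M
  mem_maximal : (p : O) ∈ IsLocalRing.maximalIdeal O
  ne_one : χ ≠ 1
  pow_eq_one : ∃ v : ℕ, ∀ u, χ u ^ p ^ v = 1
  exists_sqrt : ∃ ψ : (ZMod q)ˣ →* Oˣ, ∀ u, ψ u ^ 2 = χ u
  ne_zero : x ≠ 0
  eigen : ∀ l ∈ goodPrimes q M p,
    bettiHeckeOp (q * M) K ((Units.map (algebraMap O K).toMonoidHom).comp
      (χ.comp (ZMod.unitsMap (dvd_mul_right q M)))) l x = algebraMap O K (lam l) • x
  nonEisenstein : ∃ l ∈ goodPrimes q M p, ((l : ℕ) : ZMod (q ^ 2 * M)) = 1 ∧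
    IsLocalRing.residue O (lam l) ≠ ((l : ℕ) : IsLocalRing.ResidueField O) + 1
  elliptic : EllipticHarmless (q * M) (goodPrimes q M p) (sysTheta lam)
  charpoly_frob : ∀ (l : Nat.Primes), l ∈ goodPrimes q M p → ∀ hlq : Nat.Coprime (l : ℕ) q,
    ∀ P : ValuationSubring Qbar, P.LiesOverPrime l → ∀ σ : Γℚ, P.IsFrobeniusAt σ l →
      LinearMap.charpoly (ρ.ρ σ) = X ^ 2 - C (lam l) * X +
        C ((χ (ZMod.unitOfCoprime (l : ℕ) hlq) : O) * (l : O))
  residual_irreducible : ρ.residual.IsAbsolutelyIrreducible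

end FermatLib.MLT.LGC

end
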