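import Fermat.Agent.MLT.LGC.ChiPartRes
import Fermat.Agent.MLT.LGC.ChiPartSection
import Fermat.Agent.MLT.LGC.System
import Fermat.Agent.MLT.Hecke.GammaHHecke
import Mathlib.LinearAlgebra.LinearIndependent.BaseChange

/-!
# The Betti part of the parabolic homomorphisms of `lgcGroup q M`

The localised cohomology `A` at the residual system embeds by restriction into the parabolic
homomorphisms of `lgcGroup q M`; `lgcVm` is the span of its image over `K`, of dimension the rank
of `A`.
-/

set_option autoImplicit false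

noncomputable section

open CongruenceSubgroup ModularCurve.Period
open scoped MatrixGroups

namespace FermatLib.MLT.LGC

open FermatLib.Modular

variable {O : Type} [CommRing O] (p q M : ℕ)

/-- The character at level `q M`. -/
abbrev lgcChi (χ : (ZMod q)ˣ →* Oˣ) : (ZMod (q * M))ˣ →* Oˣ :=
  χ.comp (ZMod.unitsMap (dvd_mul_right q M))

/-- The character at level `q M` with values in `K`. -/
abbrev lgcChiK (K : Type) [Field K] [Algebra O K] (χ : (ZMod q)ˣ →* Oˣ) :
    (ZMod (q * M))ˣ →* Kˣ :=
  (Units.map (algebraMap O K).toMonoidHom).comp (lgcChi q M χ)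

variable {p q M}

theorem isCharKer_lgcGroup {χ : (ZMod q)ˣ →* Oˣ} (hχ : χ (-1) = 1) :
    IsCharKer (lgcChi q M χ) (lgcGroup q M) where
  le := lgcGroup_le_gamma0
  neg_one_mem := mem_lgcGroup.mpr ⟨by simp [Gamma0_mem], Or.inr (by simp)⟩
  triv γ hγ := by
    have h : ZMod.unitsMap (dvd_mul_right q M) (gamma0UnitsHom (q * M) γ) = 1 ∨
        ZMod.unitsMap (dvd_mul_right q M) (gamma0UnitsHom (q * M) γ) = -1 := by
      rcases (mem_lgcGroup.mp hγ).2 with hd | hd
      · exact Or.inl (Units.ext (by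
          rw [ZMod.unitsMap_val, coe_gamma0UnitsHom, ZMod.cast_intCast (dvd_mul_right q M), hd,
            Units.val_one]))
      · exact Or.inr (Units.ext (by
          rw [ZMod.unitsMap_val, coe_gamma0UnitsHom, ZMod.cast_intCast (dvd_mul_right q M), hd,
            Units.val_neg, Units.val_one]))
    show χ (ZMod.unitsMap (dvd_mul_right q M) (gamma0UnitsHom (q * M) γ)) = 1
    rcases h with h | h <;> rw [h]
    · rw [map_one]
    · exact hχ
  normal g x hx := conj_mem_lgcGroup g.2 hx

theorem isCharKer_lgcGroupK (K : Type) [Field K] [Algebra O K] {χ : (ZMod q)ˣ →* Oˣ}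
    (hχ : χ (-1) = 1) : IsCharKer (lgcChiK q M K χ) (lgcGroup q M) where
  le := lgcGroup_le_gamma0
  neg_one_mem := (isCharKer_lgcGroup (M := M) hχ).neg_one_mem
  triv γ hγ := by
    show (Units.map (algebraMap O K).toMonoidHom) (nebenChar (lgcChi q M χ) γ) = 1
    rw [(isCharKer_lgcGroup hχ).triv γ hγ, map_one]
  normal := (isCharKer_lgcGroup (M := M) hχ).normal

instance lgcGroup_finiteIndex [NeZero q] [NeZero M] : (lgcGroup q M).FiniteIndex :=
  Subgroup.finiteIndex_of_le (conjStable_lgcGroup q M).gamma1_le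

theorem dvd_sq_mul_iff {p : ℕ} (hp : p.Prime) : p ∣ q ^ 2 * M ↔ p ∣ q * M := by
  rw [hp.dvd_mul, hp.dvd_mul]
  exact or_congr_left ⟨fun h => hp.dvd_of_dvd_pow h, fun h => dvd_pow h two_ne_zero⟩

/-- `T l` or `U l` on homomorphisms of `lgcGroup q M`. -/
def lgcHomOp (q M : ℕ) (R : Type*) [CommRing R] (A : Type*) [AddCommGroup A] [Module R A]
    (l : Nat.Primes) : Module.End R (Additive (lgcGroup q M) →+ A) :=
  deltaHomOp (lgcQuot q M) R A l

/-- `T l` or `U l` on parabolic homomorphisms of `lgcGroup q M`. -/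
def lgcParOp (q M : ℕ) (R : Type*) [CommRing R] (A : Type*) [AddCommGroup A] [Module R A]
    (l : Nat.Primes) : Module.End R (parabolicHoms R (lgcGroup q M) A) :=
  deltaParOp (lgcQuot q M) R A l

/-- Restriction intertwines the operators. -/
theorem resBetti_lgcHomOp {A : Type} [CommRing A] {χ : (ZMod (q * M))ˣ →* Aˣ}
    (hk : IsCharKer χ (lgcGroup q M)) {V : Type} [AddCommGroup V] [Module A V] (l : Nat.Primes)
    (x : BettiMod (q * M) χ V) :
    resBetti hk V ((MvPolynomial.X l : BettiHeckeAlg A) • x) =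
      lgcHomOp q M A V l (resBetti hk V x) :=
  resBetti_bettiHeckeOp (N := q ^ 2 * M) (δ := lgcQuot q M) hk ⟨q, by ring⟩ l
    (dvd_sq_mul_iff l.2) x

/-- `T l - (l + 1)`, `l ≡ 1 (mod q² M)`, makes restrictions parabolic. -/
theorem resBetti_sub_degree_mem_lgc {A : Type} [CommRing A] {χ : (ZMod (q * M))ˣ →* Aˣ}
    (hk : IsCharKer χ (lgcGroup q M)) {V : Type} [AddCommGroup V] [Module A V] (l : Nat.Primes)
    (hl : ((l : ℕ) : ZMod (q ^ 2 * M)) = 1) (hlN : ¬ (l : ℕ) ∣ q ^ 2 * M)
    (hlL : ¬ (l : ℕ) ∣ q * M) (x : BettiMod (q * M) χ V) :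
    resBetti hk V ((MvPolynomial.X l - MvPolynomial.C (((l : ℕ) + 1 : ℕ) : A) :
      BettiHeckeAlg A) • x) ∈ parabolicHoms A (lgcGroup q M) V :=
  resBetti_sub_degree_mem (N := q ^ 2 * M) (δ := lgcQuot q M) hk ⟨q, by ring⟩
    (lgcQuot_neg_one q M) l hl hlN hlL x

/-- The eigenhomomorphisms for `χ`. -/
def chiEigenHoms {A : Type} [CommRing A] {L : ℕ} (χ : (ZMod L)ˣ →* Aˣ) (Γ : Subgroup SL(2, ℤ))
    (V : Type) [AddCommGroup V] [Module A V] : Submodule A (Additive Γ →+ V) where
  carrier := {φ | IsChiEigen χ Γ φ}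
  zero_mem' g x y _ := by simp
  add_mem' {φ ψ} hφ hψ g x y e := by
    rw [AddMonoidHom.add_apply, AddMonoidHom.add_apply, hφ g x y e, hψ g x y e, smul_add]
  smul_mem' a φ hφ g x y e := by
    rw [AddMonoidHom.smul_apply, AddMonoidHom.smul_apply, hφ g x y e, smul_comm]

section Data

variable (p q M) [IsLocalRing O]

/-- What the Betti bridge uses of a system. -/
structure IsChiPartData (χ : (ZMod q)ˣ →* Oˣ) (lam : Nat.Primes → O) : Prop where
  neg_one : χ (-1) = 1
  nonEisenstein : ∃ l ∈ goodPrimes q M p, ((l : ℕ) : ZMod (q ^ 2 * M)) = 1 ∧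
    IsLocalRing.residue O (lam l) ≠ ((l : ℕ) : IsLocalRing.ResidueField O) + 1
  elliptic : EllipticHarmless (q * M) (goodPrimes q M p) (sysTheta lam)

end Data

theorem not_dvd_of_mem_goodPrimes {l : Nat.Primes} (hl : l ∈ goodPrimes q M p) :
    ¬ (l : ℕ) ∣ q * M ∧ ¬ (l : ℕ) ∣ q ^ 2 * M :=
  ⟨fun h => hl (h.mul_right p), fun h => hl (((dvd_sq_mul_iff l.2).mp h).mul_right p)⟩

/-- The localised cohomology at the system. -/
abbrev LgcLoc [IsLocalRing O] (p q M : ℕ) (χ : (ZMod q)ˣ →* Oˣ) (lam : Nat.Primes → O) : Type :=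
  BettiResLoc (lgcChi q M χ) (goodPrimes q M p) (sysTheta lam)

/-- Its Hecke algebra. -/
abbrev lgcHecke [IsLocalRing O] (p q M : ℕ) (χ : (ZMod q)ˣ →* Oˣ) (lam : Nat.Primes → O) :
    Subalgebra O (Module.End O (LgcLoc p q M χ lam)) :=
  bettiResHecke (lgcChi q M χ) (goodPrimes q M p) (sysTheta lam)

theorem sysTheta_C [IsLocalRing O] (lam : Nat.Primes → O) (a : O) :
    sysTheta lam (MvPolynomial.C a) = IsLocalRing.residue O a := by
  simp [sysTheta]

theorem sysTheta_eval [IsLocalRing O] (lam : Nat.Primes → O) (P : BettiHeckeAlg O) :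
    sysTheta lam P = IsLocalRing.residue O (MvPolynomial.eval lam P) := rfl

theorem sysTheta_maximal [IsLocalRing O] (lam : Nat.Primes → O) :
    ∀ a ∈ IsLocalRing.maximalIdeal O, sysTheta lam (MvPolynomial.C a) = 0 := fun a ha => by
  rw [sysTheta_C]
  exact Ideal.Quotient.eq_zero_iff_mem.mpr ha

theorem IsChiPartData.exists_sub_degree [IsLocalRing O] {χ : (ZMod q)ˣ →* Oˣ}
    {lam : Nat.Primes → O} (hd : IsChiPartData p q M χ lam) :
    ∃ l ∈ goodPrimes q M p, ((l : ℕ) : ZMod (q ^ 2 * M)) = 1 ∧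
      (MvPolynomial.X l - MvPolynomial.C (((l : ℕ) + 1 : ℕ) : O) : BettiHeckeAlg O) ∈
        bettiResidualSubmonoid (goodPrimes q M p) (sysTheta lam) := by
  obtain ⟨l, hl, hl1, hne⟩ := hd.nonEisenstein
  refine ⟨l, hl, hl1, Subalgebra.sub_mem _ (X_mem_supported_set hl) (C_mem_supported_set _ _), ?_⟩
  rw [map_sub, sysTheta_C, sub_ne_zero, sysTheta_eval, MvPolynomial.eval_X, map_natCast]
  exact_mod_cast hne

variable [IsDomain O] [IsDiscreteValuationRing O] [IsAdicComplete (IsLocalRing.maximalIdeal O) O]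
  [NeZero q] [NeZero M] {χ : (ZMod q)ˣ →* Oˣ} {lam : Nat.Primes → O}

variable (p q M χ lam) in
theorem exists_lgcSection :
    ∃ (σ : LgcLoc p q M χ lam →ₗ[BettiHeckeAlg O] BettiMod (q * M) (lgcChi q M χ) O)
      (e : BettiHeckeAlg O),
      e ∈ MvPolynomial.supported O (goodPrimes q M p) ∧ sysTheta lam e ≠ 0 ∧
      (∀ x, LocalizedModule.mkLinearMap
        (bettiResidualSubmonoid (goodPrimes q M p) (sysTheta lam)) _ (σ x) = x) ∧
      ∀ m, σ (LocalizedModule.mkLinearMap
        (bettiResidualSubmonoid (goodPrimes q M p) (sysTheta lam)) _ m) = e • m :=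
  exists_charSubmonoid_section _ _ (sysTheta_maximal lam) _

variable (p q M χ lam) in
/-- The section of localisation. -/
def lgcSection : LgcLoc p q M χ lam →ₗ[BettiHeckeAlg O] BettiMod (q * M) (lgcChi q M χ) O :=
  (exists_lgcSection p q M χ lam).choose

variable (p q M χ lam) in
/-- The element cutting out the section. -/
def lgcIdem : BettiHeckeAlg O := (exists_lgcSection p q M χ lam).choose_spec.choose

theorem lgcIdem_mem :
    lgcIdem p q M χ lam ∈ bettiResidualSubmonoid (goodPrimes q M p) (sysTheta lam) :=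
  ⟨(exists_lgcSection p q M χ lam).choose_spec.choose_spec.1,
    (exists_lgcSection p q M χ lam).choose_spec.choose_spec.2.1⟩

theorem mk_lgcSection (x : LgcLoc p q M χ lam) :
    LocalizedModule.mkLinearMap (bettiResidualSubmonoid (goodPrimes q M p) (sysTheta lam)) _
      (lgcSection p q M χ lam x) = x :=
  (exists_lgcSection p q M χ lam).choose_spec.choose_spec.2.2.1 x

theorem lgcSection_mk (m : BettiMod (q * M) (lgcChi q M χ) O) :
    lgcSection p q M χ lam (LocalizedModule.mkLinearMap
      (bettiResidualSubmonoid (goodPrimes q M p) (sysTheta lam)) _ m) =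
      lgcIdem p q M χ lam • m :=
  (exists_lgcSection p q M χ lam).choose_spec.choose_spec.2.2.2 m

theorem resBetti_lgcSection_mem (hd : IsChiPartData p q M χ lam) (x : LgcLoc p q M χ lam) :
    resBetti (isCharKer_lgcGroup hd.neg_one) O (lgcSection p q M χ lam x) ∈
      parabolicHoms O (lgcGroup q M) O := by
  obtain ⟨l, hl, hl1, hP⟩ := hd.exists_sub_degree
  obtain ⟨y, hy⟩ :=
    (bettiResLoc_injective_smul (lgcChi q M χ) (goodPrimes q M p) (sysTheta lam) hP).2 x
  obtain ⟨hlL, hlN⟩ := not_dvd_of_mem_goodPrimes hl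
  rw [← hy, map_smul]
  exact resBetti_sub_degree_mem (N := q ^ 2 * M) (δ := lgcQuot q M)
    (isCharKer_lgcGroup hd.neg_one) ⟨q, by ring⟩ (lgcQuot_neg_one q M) l hl1 hlN hlL _

/-- **The embedding of the localised cohomology.** -/
def lgcIota (hd : IsChiPartData p q M χ lam) :
    LgcLoc p q M χ lam →ₗ[O] parabolicHoms O (lgcGroup q M) O :=
  ((resBetti (isCharKer_lgcGroup hd.neg_one) O).comp
    ((lgcSection p q M χ lam).restrictScalars O)).codRestrict _ (resBetti_lgcSection_mem hd)

theorem coe_lgcIota (hd : IsChiPartData p q M χ lam) (a : LgcLoc p q M χ lam) :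
    (lgcIota hd a : Additive (lgcGroup q M) →+ O) =
      resBetti (isCharKer_lgcGroup hd.neg_one) O (lgcSection p q M χ lam a) := rfl

theorem lgcLoc_free (hd : IsChiPartData p q M χ lam) :
    Module.Free O (LgcLoc p q M χ lam) ∧ Module.Finite O (LgcLoc p q M χ lam) := by
  have hfin := bettiLoc_finite (lgcChi q M χ) O (goodPrimes q M p) (sysTheta lam)
    (sysTheta_maximal lam)
  obtain ⟨l, hl, hl1, hP⟩ := hd.exists_sub_degree
  have hlq : ¬ (l : ℕ) ∣ q * M := (not_dvd_of_mem_goodPrimes hl).1
  have hχ1 : lgcChi q M χ (-1) = 1 := by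
    show χ (ZMod.unitsMap (dvd_mul_right q M) (-1)) = 1
    rw [show ZMod.unitsMap (dvd_mul_right q M) (-1) = -1 from Units.ext (by
      simp [ZMod.unitsMap_def]), hd.neg_one]
  have hdeg : heckeDegree (lgcChi q M χ) l = (((l : ℕ) + 1 : ℕ) : O) := by
    rw [heckeDegree, ← (Equiv.subtypeUnivEquiv
      (p := fun x : Option (Fin (l : ℕ)) => x = none → ¬ (l : ℕ) ∣ q * M)
      (fun x _ => hlq)).symm.sum_comp, Fintype.sum_option]
    have hone : ∀ y : HeckeIdx (q * M) l,
        ZMod.unitsMap (dvd_mul_right q M) (heckeUnit (q * M) l y) = 1 := by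
      rintro ⟨y, hy⟩
      cases y with
      | some j => simp [heckeUnit]
      | none =>
        refine Units.ext ?_
        have h2 := congrArg (ZMod.castHom (dvd_mul_of_dvd_left (dvd_pow_self q two_ne_zero) M)
          (ZMod q)) hl1
        rw [map_natCast, map_one] at h2
        simp [heckeUnit, ZMod.unitsMap_def, h2]
    have hw : ∀ y : HeckeIdx (q * M) l, heckeWeight (lgcChi q M χ) l y = 1 := fun y => by
      show ((χ (ZMod.unitsMap (dvd_mul_right q M) (heckeUnit (q * M) l y)) : Oˣ) : O) = 1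
      rw [hone y, map_one, Units.val_one]
    simp only [hw, Finset.sum_const, Finset.card_univ, Fintype.card_fin, nsmul_eq_mul, mul_one]
    push_cast
    ring
  refine ⟨bettiLoc_residual_free _ hχ1 _ (sysTheta_maximal lam) hd.elliptic l hl ?_, hfin⟩
  have hne := hP.2
  rw [map_sub, sub_ne_zero] at hne
  rwa [hdeg]

theorem lgcParOp_lgcIota (hd : IsChiPartData p q M χ lam) (l : Nat.Primes)
    (a : LgcLoc p q M χ lam) :
    lgcParOp q M O O l (lgcIota hd a) =
      lgcIota hd ((MvPolynomial.X l : BettiHeckeAlg O) • a) := by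
  refine Subtype.ext ?_
  rw [coe_lgcIota hd, map_smul, resBetti_lgcHomOp]
  rfl

variable [CharZero O]

theorem lgcIota_injective (hd : IsChiPartData p q M χ lam) : Function.Injective (lgcIota hd) := by
  have := (lgcLoc_free hd).1
  rw [injective_iff_map_eq_zero]
  intro a ha
  have h : resBetti (isCharKer_lgcGroup hd.neg_one) O (lgcSection p q M χ lam a) = 0 :=
    congrArg Subtype.val ha
  have h2 := index_smul_eq_zero_of_resBetti _ h
  rw [← map_nsmul] at h2
  have h3 := congrArg (LocalizedModule.mkLinearMap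
    (bettiResidualSubmonoid (goodPrimes q M p) (sysTheta lam)) _) h2
  rw [map_zero, mk_lgcSection, ← Nat.cast_smul_eq_nsmul O] at h3
  exact (smul_eq_zero.mp h3).resolve_left (Nat.cast_ne_zero.mpr (charKerIndex_ne_zero _))

/-! ### The span over `K` -/

variable (q M) (K : Type) [Field K] [Algebra O K]

/-- Extension of values to `K`. -/
def lgcInclHom : (Additive (lgcGroup q M) →+ O) →ₗ[O] (Additive (lgcGroup q M) →+ K) where
  toFun φ := (algebraMap O K).toAddMonoidHom.comp φ
  map_add' φ ψ := AddMonoidHom.comp_add _ φ ψ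
  map_smul' a φ := AddMonoidHom.ext fun γ => by simp [Algebra.smul_def]

/-- Extension of values to `K` on parabolic homomorphisms. -/
def lgcIncl : parabolicHoms O (lgcGroup q M) O →ₗ[O] parabolicHoms K (lgcGroup q M) K where
  toFun φ := ⟨lgcInclHom q M K φ.1, fun γ hγ => by
    show algebraMap O K (φ.1 (Additive.ofMul γ)) = 0
    rw [φ.2 γ hγ, map_zero]⟩
  map_add' φ ψ := Subtype.ext (map_add (lgcInclHom q M K) φ.1 ψ.1)
  map_smul' a φ := Subtype.ext (map_smul (lgcInclHom q M K) a φ.1)

variable {q M}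

theorem lgcHomOp_lgcInclHom (l : Nat.Primes) (φ : Additive (lgcGroup q M) →+ O) :
    lgcHomOp q M K K l (lgcInclHom q M K φ) =
      lgcInclHom q M K (lgcHomOp q M O O l φ) :=
  (deltaHecke (lgcQuot q M) l).op_comp_left ℤ (algebraMap O K).toAddMonoidHom φ

theorem lgcParOp_lgcIncl (l : Nat.Primes) (φ : parabolicHoms O (lgcGroup q M) O) :
    lgcParOp q M K K l (lgcIncl q M K φ) = lgcIncl q M K (lgcParOp q M O O l φ) :=
  Subtype.ext (lgcHomOp_lgcInclHom K l φ.1)

variable {K}

/-- The embedding followed by extension of values. -/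
def lgcIotaK (K : Type) [Field K] [Algebra O K] (hd : IsChiPartData p q M χ lam) :
    LgcLoc p q M χ lam →ₗ[O] parabolicHoms K (lgcGroup q M) K :=
  (lgcIncl q M K).comp (lgcIota hd)

/-- **The Betti part over `K`.** -/
def lgcVm (K : Type) [Field K] [Algebra O K] (hd : IsChiPartData p q M χ lam) :
    Submodule K (parabolicHoms K (lgcGroup q M) K) :=
  Submodule.span K (Set.range (lgcIotaK K hd))

instance lgcVm_addCommGroup (hd : IsChiPartData p q M χ lam) : AddCommGroup (lgcVm K hd) :=
  (lgcVm K hd).addCommGroup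

instance lgcVm_module (hd : IsChiPartData p q M χ lam) : Module K (lgcVm K hd) :=
  (lgcVm K hd).module

instance lgcVm_moduleBase (hd : IsChiPartData p q M χ lam) : Module O (lgcVm K hd) :=
  (lgcVm K hd).module'

instance lgcVm_isScalarTower (hd : IsChiPartData p q M χ lam) : IsScalarTower O K (lgcVm K hd) :=
  Submodule.isScalarTower _

instance lgcVm_smulCommClass (hd : IsChiPartData p q M χ lam) :
    SMulCommClass K O (lgcVm K hd) :=
  IsScalarTower.to_smulCommClass'

theorem lgcIotaK_mem (hd : IsChiPartData p q M χ lam) (a : LgcLoc p q M χ lam) :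
    lgcIotaK K hd a ∈ lgcVm K hd :=
  Submodule.subset_span ⟨a, rfl⟩

/-- The two readings of the eigen condition on values in `K` agree. -/
theorem isChiEigen_lgcChiK_iff {φ : Additive (lgcGroup q M) →+ K} :
    IsChiEigen (lgcChiK q M K χ) (lgcGroup q M) φ ↔
      IsChiEigen (lgcChi q M χ) (lgcGroup q M) φ := by
  constructor <;> intro h g x y e
  · rw [h g x y e, ← algebraMap_smul K ((nebenChar (lgcChi q M χ) g : Oˣ) : O)]
    rfl
  · rw [h g x y e, ← algebraMap_smul K ((nebenChar (lgcChi q M χ) g : Oˣ) : O)]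
    rfl

theorem isChiEigen_lgcInclHom {φ : Additive (lgcGroup q M) →+ O}
    (h : IsChiEigen (lgcChi q M χ) (lgcGroup q M) φ) :
    IsChiEigen (lgcChiK q M K χ) (lgcGroup q M) (lgcInclHom q M K φ) := fun g x y e => by
  show algebraMap O K _ = _ • algebraMap O K _
  rw [h g x y e, smul_eq_mul, map_mul]
  rfl

theorem isChiEigen_of_mem_lgcVm (hd : IsChiPartData p q M χ lam)
    {v : parabolicHoms K (lgcGroup q M) K} (hv : v ∈ lgcVm K hd) :
    IsChiEigen (lgcChiK q M K χ) (lgcGroup q M) v.1 := by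
  suffices h : lgcVm K hd ≤ (chiEigenHoms (lgcChiK q M K χ) (lgcGroup q M) K).comap
      (parabolicHoms K (lgcGroup q M) K).subtype from h hv
  refine Submodule.span_le.mpr ?_
  rintro _ ⟨a, rfl⟩
  exact isChiEigen_lgcInclHom (resBetti_isChiEigen _ _)

theorem linearIndependent_lgcIotaK (hO : Function.Injective (algebraMap O K))
    (hd : IsChiPartData p q M χ lam) {ι : Type} {b : ι → LgcLoc p q M χ lam}
    (hb : LinearIndependent O b) : LinearIndependent K fun i => lgcIotaK K hd (b i) := by
  classical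
  have : Group.FG SL(2, ℤ) := ⟨⟨{ModularGroup.S, ModularGroup.T}, by
    simpa using SpecialLinearGroup.SL2Z_generators⟩⟩
  have : Group.FG (lgcGroup q M) := Subgroup.fg_of_index_ne_zero (H := lgcGroup q M)
  obtain ⟨s, hs⟩ := Group.fg_def.1 (inferInstance : Group.FG (lgcGroup q M))
  have : FaithfulSMul O K := (faithfulSMul_iff_algebraMap_injective O K).mpr hO
  let evO : parabolicHoms O (lgcGroup q M) O →ₗ[O] (s → O) :=
    { toFun := fun φ x => φ.1 (Additive.ofMul (x : lgcGroup q M))
      map_add' := fun φ ψ => rfl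
      map_smul' := fun a φ => rfl }
  have hev : Function.Injective evO := by
    refine (injective_iff_map_eq_zero evO).mpr fun φ hφ => Subtype.ext (AddMonoidHom.ext fun γ => ?_)
    obtain ⟨γ, rfl⟩ := Additive.ofMul.surjective γ
    have hγ : γ ∈ Subgroup.closure (s : Set (lgcGroup q M)) := by rw [hs]; trivial
    show φ.1 (Additive.ofMul γ) = 0
    induction hγ using Subgroup.closure_induction with
    | mem x hx => exact congrFun hφ ⟨x, hx⟩
    | one => rw [ofMul_one, map_zero]
    | mul x y _ _ hx hy => rw [ofMul_mul, map_add, hx, hy, add_zero]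
    | inv x _ hx => rw [ofMul_inv, map_neg, hx, neg_zero]
  have h1 : LinearIndependent O fun i => evO (lgcIota hd (b i)) :=
    hb.map' (evO.comp (lgcIota hd)) (LinearMap.ker_eq_bot.mpr (hev.comp (lgcIota_injective hd)))
  have h2 := (linearIndependent_algebraMap_comp_iff (S := K)).mpr h1
  let evK : parabolicHoms K (lgcGroup q M) K →ₗ[K] (s → K) :=
    { toFun := fun φ x => φ.1 (Additive.ofMul (x : lgcGroup q M))
      map_add' := fun φ ψ => rfl
      map_smul' := fun a φ => rfl }
  exact LinearIndependent.of_comp evK h2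

/-- A basis of the Betti part from a basis of the localised cohomology. -/
def lgcVmBasis (hO : Function.Injective (algebraMap O K)) (hd : IsChiPartData p q M χ lam)
    {ι : Type} (b : Module.Basis ι O (LgcLoc p q M χ lam)) : Module.Basis ι K (lgcVm K hd) :=
  Module.Basis.mk
    (v := fun i => (⟨lgcIotaK K hd (b i), lgcIotaK_mem hd _⟩ : lgcVm K hd))
    (LinearIndependent.of_comp (lgcVm K hd).subtype (linearIndependent_lgcIotaK hO hd b.linearIndependent))
    (by
      rintro ⟨v, hv⟩ -
      suffices h : lgcVm K hd ≤ (Submodule.span K (Set.range fun i =>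
          (⟨lgcIotaK K hd (b i), lgcIotaK_mem hd _⟩ : lgcVm K hd))).map (lgcVm K hd).subtype by
        obtain ⟨w, hw, hwv⟩ := h hv
        rwa [show (⟨v, hv⟩ : lgcVm K hd) = w from Subtype.ext hwv.symm]
      refine Submodule.span_le.mpr ?_
      rintro _ ⟨a, rfl⟩
      rw [Submodule.map_span, ← Set.range_comp]
      have ha := b.mem_span a
      induction ha using Submodule.span_induction with
      | mem x hx =>
        obtain ⟨i, rfl⟩ := hx
        exact Submodule.subset_span ⟨i, rfl⟩
      | zero => rw [map_zero]; exact zero_mem _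
      | add x y _ _ hx hy => rw [map_add]; exact add_mem hx hy
      | smul c x _ hx =>
        rw [map_smul, ← algebraMap_smul K c (lgcIotaK K hd x)]
        exact Submodule.smul_mem _ _ hx)

theorem coe_lgcVmBasis (hO : Function.Injective (algebraMap O K))
    (hd : IsChiPartData p q M χ lam) {ι : Type} (b : Module.Basis ι O (LgcLoc p q M χ lam))
    (i : ι) : (lgcVmBasis hO hd b i : parabolicHoms K (lgcGroup q M) K) = lgcIotaK K hd (b i) := by
  rw [lgcVmBasis, Module.Basis.mk_apply]

/-- **The dimension of the Betti part is the rank of the localised cohomology.** -/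
theorem finrank_lgcVm (hO : Function.Injective (algebraMap O K))
    (hd : IsChiPartData p q M χ lam) :
    Module.finrank K (lgcVm K hd) = Module.finrank O (LgcLoc p q M χ lam) := by
  obtain ⟨hfree, hfin⟩ := lgcLoc_free hd
  let b := Module.Free.chooseBasis O (LgcLoc p q M χ lam)
  rw [Module.finrank_eq_card_basis b, Module.finrank_eq_card_basis (lgcVmBasis hO hd b)]

theorem finiteDimensional_lgcVm (hO : Function.Injective (algebraMap O K))
    (hd : IsChiPartData p q M χ lam) : FiniteDimensional K (lgcVm K hd) := by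
  obtain ⟨hfree, hfin⟩ := lgcLoc_free hd
  exact Module.Finite.of_basis (lgcVmBasis hO hd (Module.Free.chooseBasis O (LgcLoc p q M χ lam)))

end FermatLib.MLT.LGC

end
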