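import Fermat.Agent.MLT.LGC.Field
import Fermat.Agent.MLT.LGC.DictionaryNat
import Fermat.Agent.Curve.Descent.LaurentDescent
import Mathlib.RingTheory.Localization.FractionRing

/-!
# The action of a normalising group on the class field

For `Λ` normalising `Γ`, translation `g ↦ g ∘ γ⁻¹` preserves the functions on `Γ` with algebraic
expansion at `∞`, so it acts on `classField Γ` through a finite group, fixing the constants; the
fixed elements lie in `classField Λ`.
-/

set_option autoImplicit false
set_option linter.style.haveILetI false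
set_option linter.unusedSectionVars false

noncomputable section

open UpperHalfPlane hiding I
open CongruenceSubgroup ModularCurve
open scoped MatrixGroups Manifold

namespace FermatLib.MLT.LGC

open FermatLib.Modular FermatLib.Galois.DS

local notation "Qbar" => AlgebraicClosure ℚ
local notation "ι₀" => complexEmbedding

variable {Γ : Subgroup SL(2, ℤ)} {N : ℕ} [NeZero N] (hC : ConjStable Γ N)

/-- The expansion at `∞` of weakly modular functions on `Γ`. -/
def weakExp : weakMod Γ →ₐ[ℂ] LaurentSeries ℂ :=
  qExpLHom.comp (Subalgebra.inclusion (weakMod_le_qMero' hC))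

theorem weakExp_apply (g : weakMod Γ) : weakExp hC g = qExpL (g : ℍ → ℂ) := rfl

theorem weakExp_injective : Function.Injective (weakExp hC) :=
  qExpLHom_injective.comp (Subalgebra.inclusion_injective (weakMod_le_qMero' hC))

/-- The algebraic series which are expansions of functions on `Γ`. -/
def classAlg : Subalgebra Qbar (LaurentSeries Qbar) where
  carrier := {x | coeffMap (ι₀).toRingHom x ∈ (weakExp hC).range}
  mul_mem' {a b} ha hb := by
    simp only [Set.mem_ofPred_eq] at *
    rw [map_mul]; exact mul_mem ha hb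
  one_mem' := by
    simp only [Set.mem_ofPred_eq] at *
    rw [map_one]; exact one_mem _
  add_mem' {a b} ha hb := by
    simp only [Set.mem_ofPred_eq] at *
    rw [map_add]; exact add_mem ha hb
  zero_mem' := by
    simp only [Set.mem_ofPred_eq] at *
    rw [map_zero]; exact zero_mem _
  algebraMap_mem' c := by
    simp only [Set.mem_ofPred_eq] at *
    rw [algebraMap_laurentSeries_eq_single, coeffMap_single, ← algebraMap_laurentSeries_eq_single]
    exact Subalgebra.algebraMap_mem _ _

theorem mem_classAlg_iff {x : LaurentSeries Qbar} : x ∈ classAlg hC ↔ x ∈ classSeries Γ := by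
  refine ⟨fun ⟨g, hg⟩ => ⟨g, g.2, hg.symm⟩, fun ⟨g, hg, hx⟩ => ⟨⟨g, hg⟩, hx.symm⟩⟩

theorem classAlg_le_classField {x : LaurentSeries Qbar} (hx : x ∈ classAlg hC) :
    x ∈ classField Γ :=
  subset_classField ((mem_classAlg_iff hC).mp hx)

/-- The inclusion into the class field. -/
def classIncl : classAlg hC →+* classField Γ where
  toFun x := ⟨x, classAlg_le_classField hC x.2⟩
  map_one' := rfl
  map_mul' _ _ := rfl
  map_zero' := rfl
  map_add' _ _ := rfl

instance : Algebra (classAlg hC) (classField Γ) := (classIncl hC).toAlgebra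

theorem coe_algebraMap_classAlg (x : classAlg hC) :
    ((algebraMap (classAlg hC) (classField Γ) x : classField Γ) : LaurentSeries Qbar) = x := rfl

theorem algebraMap_classAlg_injective :
    Function.Injective (algebraMap (classAlg hC) (classField Γ)) := fun a b h =>
  Subtype.ext (by rw [← coe_algebraMap_classAlg hC a, h, coe_algebraMap_classAlg])

/-- Every element of the class field is a quotient of expansions. -/
theorem exists_classAlg_div (f : classField Γ) : ∃ a b : classAlg hC, b ≠ 0 ∧
    f = algebraMap (classAlg hC) (classField Γ) a / algebraMap (classAlg hC) (classField Γ) b := by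
  have hf : (f : LaurentSeries Qbar) ∈ IntermediateField.adjoin Qbar (classSeries Γ) := f.2
  rw [IntermediateField.mem_adjoin_iff_div] at hf
  obtain ⟨r, hr, s, hs, hrs⟩ := hf
  have hle : Algebra.adjoin Qbar (classSeries Γ) ≤ classAlg hC :=
    Algebra.adjoin_le fun x hx => (mem_classAlg_iff hC).mpr hx
  rcases eq_or_ne s 0 with rfl | hs0
  · refine ⟨0, 1, one_ne_zero, Subtype.ext ?_⟩
    rw [hrs]; simp
  · exact ⟨⟨r, hle hr⟩, ⟨s, hle hs⟩, fun h => hs0 (congrArg Subtype.val h), Subtype.ext hrs⟩

instance : IsFractionRing (classAlg hC) (classField Γ) := by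
  haveI : FaithfulSMul (classAlg hC) (classField Γ) :=
    (faithfulSMul_iff_algebraMap_injective _ _).mpr (algebraMap_classAlg_injective hC)
  refine IsFractionRing.of_field _ _ fun f => ?_
  obtain ⟨a, b, -, h⟩ := exists_classAlg_div hC f
  exact ⟨a, b, h⟩

/-- The function of an algebraic expansion. -/
def classFn : classAlg hC →+* weakMod Γ where
  toFun x := x.2.choose
  map_one' := weakExp_injective hC (by
    rw [map_one]
    exact ((1 : classAlg hC).2.choose_spec).trans (map_one _))
  map_mul' x y := weakExp_injective hC (by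
    rw [map_mul]
    refine ((x * y).2.choose_spec).trans ?_
    rw [MulMemClass.coe_mul, map_mul]
    exact congrArg₂ (· * ·) x.2.choose_spec.symm y.2.choose_spec.symm)
  map_zero' := weakExp_injective hC (by
    rw [map_zero]
    exact ((0 : classAlg hC).2.choose_spec).trans (map_zero _))
  map_add' x y := weakExp_injective hC (by
    rw [map_add]
    refine ((x + y).2.choose_spec).trans ?_
    rw [AddMemClass.coe_add, map_add]
    exact congrArg₂ (· + ·) x.2.choose_spec.symm y.2.choose_spec.symm)

theorem coeffMap_classAlg (x : classAlg hC) :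
    coeffMap (ι₀).toRingHom (x : LaurentSeries Qbar) = qExpL (classFn hC x : ℍ → ℂ) :=
  x.2.choose_spec.symm

theorem classFn_eq {x : classAlg hC} {g : ℍ → ℂ} (hg : g ∈ weakMod Γ)
    (h : coeffMap (ι₀).toRingHom (x : LaurentSeries Qbar) = qExpL g) :
    (classFn hC x : ℍ → ℂ) = g :=
  congrArg Subtype.val (weakExp_injective hC (a₁ := classFn hC x) (a₂ := ⟨g, hg⟩)
    ((coeffMap_classAlg hC x).symm.trans h))

theorem classFn_injective : Function.Injective (classFn hC) := fun x y h =>
  Subtype.ext <| HahnSeries.ext <| funext fun n => (ι₀).injective <| by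
    have hxy : coeffMap (ι₀).toRingHom (x : LaurentSeries Qbar) =
        coeffMap (ι₀).toRingHom (y : LaurentSeries Qbar) := by
      rw [coeffMap_classAlg, coeffMap_classAlg, h]
    exact congrArg (fun z : LaurentSeries ℂ => z.coeff n) hxy

section Translate

variable {γ : SL(2, ℤ)} (hn : ∀ x ∈ Γ, γ * x * γ⁻¹ ∈ Γ)
include hC hn

/-- A translate of a function with algebraic expansion has algebraic expansion. -/
theorem exists_classSeries_comp_smul (x : classAlg hC) :
    ∃ y : classAlg hC, (classFn hC y : ℍ → ℂ) = fun τ => (classFn hC x : ℍ → ℂ) (γ • τ) := by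
  let := FermatLib.Curve.qbarAlgebraComplex
  set g : ℍ → ℂ := (classFn hC x : ℍ → ℂ)
  have hg : g ∈ weakMod Γ := (classFn hC x).2
  have hg' : (fun τ => g (γ • τ)) ∈ weakMod Γ := comp_mem_weakMod hn hg
  obtain ⟨z, hz⟩ : Igusa.zetaU N ∈ (ι₀).range := by
    obtain ⟨w, hw⟩ := HasEnoughRootsOfUnity.exists_primitiveRoot Qbar N
    obtain ⟨i, -, hi⟩ := (hw.map_of_injective (ι₀).injective).eq_pow_of_pow_eq_one
      (Igusa.isPrimitiveRoot_zetaU N).pow_eq_one
    exact ⟨w ^ i, (map_pow (ι₀) w i).trans hi⟩
  have hc : qExpL (fun τ => g (γ • τ)) ∈ (coeffMap (ι₀).toRingHom).range := by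
    refine (FermatLib.Curve.mem_range_coeffMap_iff (K := Qbar) (L := ℂ)).mpr fun k => ?_
    refine FermatLib.Curve.mem_range_of_forall_fixed fun τ => ?_
    set σ : ℂ ≃+* ℂ := τ.toRingEquiv
    have hfix : ∀ a : Qbar, σ (ι₀ a) = ι₀ a := τ.commutes
    have hgg : IsConjSeries σ g g := by
      refine HahnSeries.ext (funext fun i => ?_)
      rw [coeffMap_coeff, ← coeffMap_classAlg, coeffMap_coeff]
      exact (hfix _).symm
    have h := IsConjSeries.comp_smul hC (s := 1) (σ := σ) (by
        rw [zpow_one, ← hz]; exact hfix z)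
      (by rw [Int.cast_one]; exact isUnit_one) (γ := γ) (γ' := γ)
      (by simp [IsConjMat]) hn hn hg hg hgg
    have hk := congrArg (fun s : LaurentSeries ℂ => s.coeff k) h
    simp only [coeffMap_coeff] at hk
    exact hk.symm
  obtain ⟨y, hy⟩ := hc
  refine ⟨⟨y, (mem_classAlg_iff hC).mpr ⟨_, hg', hy⟩⟩, classFn_eq hC hg' hy⟩

/-- Translation by a normalising element on expansions. -/
def classTrans : classAlg hC →+* classAlg hC where
  toFun x := (exists_classSeries_comp_smul hC hn x).choose
  map_one' := classFn_injective hC <| Subtype.ext <| by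
    rw [(exists_classSeries_comp_smul hC hn 1).choose_spec, map_one]
    rfl
  map_mul' x y := classFn_injective hC <| Subtype.ext <| by
    rw [(exists_classSeries_comp_smul hC hn (x * y)).choose_spec, map_mul, map_mul,
      MulMemClass.coe_mul, MulMemClass.coe_mul,
      (exists_classSeries_comp_smul hC hn x).choose_spec,
      (exists_classSeries_comp_smul hC hn y).choose_spec]
    rfl
  map_zero' := classFn_injective hC <| Subtype.ext <| by
    rw [(exists_classSeries_comp_smul hC hn 0).choose_spec, map_zero]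
    rfl
  map_add' x y := classFn_injective hC <| Subtype.ext <| by
    rw [(exists_classSeries_comp_smul hC hn (x + y)).choose_spec, map_add, map_add,
      AddMemClass.coe_add, AddMemClass.coe_add,
      (exists_classSeries_comp_smul hC hn x).choose_spec,
      (exists_classSeries_comp_smul hC hn y).choose_spec]
    rfl

theorem classFn_classTrans (x : classAlg hC) :
    (classFn hC (classTrans hC hn x) : ℍ → ℂ) = fun τ => (classFn hC x : ℍ → ℂ) (γ • τ) :=
  (exists_classSeries_comp_smul hC hn x).choose_spec

end Translate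

variable {Λ : Subgroup SL(2, ℤ)} (hΛ : ∀ γ ∈ Λ, ∀ x ∈ Γ, γ * x * γ⁻¹ ∈ Γ)

theorem classFn_classTrans_inv (γ : Λ) (x : classAlg hC) :
    (classFn hC (classTrans hC (hΛ _ (Λ.inv_mem γ.2)) x) : ℍ → ℂ) =
      fun τ => (classFn hC x : ℍ → ℂ) ((γ : SL(2, ℤ))⁻¹ • τ) :=
  classFn_classTrans hC _ x

/-- `g ↦ g ∘ γ⁻¹` on expansions. -/
def classAut : Λ →* RingAut (classAlg hC) where
  toFun γ := RingEquiv.ofRingHom (classTrans hC (hΛ _ (Λ.inv_mem γ.2))) (classTrans hC (hΛ _ γ.2))
    (RingHom.ext fun x => classFn_injective hC <| Subtype.ext <| funext fun τ => by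
      rw [RingHom.comp_apply, RingHom.id_apply, classFn_classTrans, classFn_classTrans]
      simp [← mul_smul])
    (RingHom.ext fun x => classFn_injective hC <| Subtype.ext <| funext fun τ => by
      rw [RingHom.comp_apply, RingHom.id_apply, classFn_classTrans, classFn_classTrans]
      simp [← mul_smul])
  map_one' := RingEquiv.ext fun x => classFn_injective hC <| Subtype.ext <| funext fun τ => by
    show (classFn hC (classTrans hC (hΛ _ (Λ.inv_mem (1 : Λ).2)) x) : ℍ → ℂ) τ = _
    rw [classFn_classTrans_inv hC hΛ 1 x]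
    simp
  map_mul' γ δ := RingEquiv.ext fun x => classFn_injective hC <| Subtype.ext <| funext fun τ => by
    show (classFn hC (classTrans hC (hΛ _ (Λ.inv_mem (γ * δ).2)) x) : ℍ → ℂ) τ =
      (classFn hC (classTrans hC (hΛ _ (Λ.inv_mem γ.2))
        (classTrans hC (hΛ _ (Λ.inv_mem δ.2)) x)) : ℍ → ℂ) τ
    rw [classFn_classTrans_inv hC hΛ (γ * δ) x, classFn_classTrans_inv hC hΛ γ,
      classFn_classTrans_inv hC hΛ δ x]
    simp [mul_inv_rev, mul_smul]

theorem classFn_classAut (γ : Λ) (x : classAlg hC) :
    (classFn hC (classAut hC hΛ γ x) : ℍ → ℂ) =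
      fun τ => (classFn hC x : ℍ → ℂ) ((γ : SL(2, ℤ))⁻¹ • τ) :=
  classFn_classTrans hC (hΛ _ (Λ.inv_mem γ.2)) x

/-- The action on the class field. -/
def fieldAut : Λ →* RingAut (classField Γ) where
  toFun γ := IsFractionRing.ringEquivOfRingEquiv (classAut hC hΛ γ)
  map_one' := RingEquiv.toRingHom_injective <|
    IsLocalization.ringHom_ext (nonZeroDivisors (classAlg hC)) <| RingHom.ext fun x => by
      simp
  map_mul' γ δ := RingEquiv.toRingHom_injective <|
    IsLocalization.ringHom_ext (nonZeroDivisors (classAlg hC)) <| RingHom.ext fun x => by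
      simp

theorem fieldAut_algebraMap (γ : Λ) (x : classAlg hC) :
    fieldAut hC hΛ γ (algebraMap (classAlg hC) (classField Γ) x) =
      algebraMap (classAlg hC) (classField Γ) (classAut hC hΛ γ x) :=
  IsFractionRing.ringEquivOfRingEquiv_algebraMap _ _

/-- The finite group acting on the class field. -/
def fieldGroup : Subgroup (RingAut (classField Γ)) := (fieldAut hC hΛ).range

theorem finite_fieldGroup : Finite (fieldGroup hC hΛ) := by
  have hker : Γ.subgroupOf Λ ≤ (fieldAut hC hΛ).ker := fun γ hγ => by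
    rw [MonoidHom.mem_ker]
    refine RingEquiv.toRingHom_injective <|
      IsLocalization.ringHom_ext (nonZeroDivisors (classAlg hC)) <| RingHom.ext fun x => ?_
    show fieldAut hC hΛ γ (algebraMap _ _ x) = algebraMap _ _ x
    rw [fieldAut_algebraMap]
    congr 1
    refine classFn_injective hC (Subtype.ext (funext fun τ => ?_))
    rw [classFn_classAut]
    exact (mem_weakMod.mp (classFn hC x).2).2.1 _ (Γ.inv_mem (Subgroup.mem_subgroupOf.mp hγ)) τ
  haveI : (Gamma1 N).FiniteIndex := inferInstance
  haveI : Γ.FiniteIndex := Subgroup.finiteIndex_of_le hC.gamma1_le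
  haveI : (fieldAut hC hΛ).ker.FiniteIndex := Subgroup.finiteIndex_of_le hker
  haveI : Finite (Λ ⧸ (fieldAut hC hΛ).ker) := Subgroup.finite_quotient_of_finiteIndex
  exact Finite.of_equiv _ (QuotientGroup.quotientKerEquivRange (fieldAut hC hΛ)).toEquiv

variable {hC hΛ}

/-- The fixed elements are functions on `Λ`. -/
theorem mem_classField_of_fixed {f : classField Γ}
    (hf : ∀ γ : Λ, fieldAut hC hΛ γ f = f) : (f : LaurentSeries Qbar) ∈ classField Λ := by
  classical
  haveI := finite_fieldGroup hC hΛ
  cases nonempty_fintype (fieldGroup hC hΛ)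
  set i := algebraMap (classAlg hC) (classField Γ)
  -- a fixed expansion is an expansion on `Λ`
  have hdesc : ∀ x : classAlg hC, (∀ γ : Λ, fieldAut hC hΛ γ (i x) = i x) →
      (x : LaurentSeries Qbar) ∈ classField Λ := by
    intro x hx
    obtain ⟨hd, -, hb⟩ := mem_weakMod.mp (classFn hC x).2
    refine subset_classField ⟨(classFn hC x : ℍ → ℂ), mem_weakMod.mpr ⟨hd, fun γ hγ τ => ?_, hb⟩,
      coeffMap_classAlg hC x⟩
    have h := algebraMap_classAlg_injective hC
      ((fieldAut_algebraMap hC hΛ ⟨γ, hγ⟩⁻¹ x).symm.trans (hx _))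
    have h' := congrFun (classFn_classAut hC hΛ ⟨γ, hγ⟩⁻¹ x) τ
    rw [h] at h'
    simpa using h'.symm
  have hstab : ∀ (g : fieldGroup hC hΛ) (x : classAlg hC),
      ∃ y, i y = (g : RingAut (classField Γ)) (i x) := by
    rintro ⟨_, γ, rfl⟩ x
    exact ⟨_, (fieldAut_algebraMap hC hΛ γ x).symm⟩
  obtain ⟨a, b, hb, hab⟩ := exists_classAlg_div hC f
  -- clear the denominator by a norm
  choose y hy using fun g => hstab g b
  have hbN : i (∏ g, y g) = ∏ g : fieldGroup hC hΛ, (g : RingAut (classField Γ)) (i b) := by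
    rw [map_prod]
    exact Finset.prod_congr rfl fun g _ => hy g
  have hNfix : ∀ γ : Λ, fieldAut hC hΛ γ (i (∏ g, y g)) = i (∏ g, y g) := fun γ => by
    rw [hbN, map_prod]
    exact Fintype.prod_equiv (Equiv.mulLeft ⟨_, ⟨γ, rfl⟩⟩) _ _ fun g => rfl
  have hib : i b ≠ 0 := (map_ne_zero_iff i (algebraMap_classAlg_injective hC)).mpr hb
  have hne : i (∏ g, y g) ≠ 0 := by
    rw [hbN, Finset.prod_ne_zero_iff]
    exact fun g _ => (map_ne_zero _).mpr hib
  have ha' : i (a * ∏ g ∈ Finset.univ.erase 1, y g) = f * i (∏ g, y g) := by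
    rw [hab, map_mul, ← Finset.mul_prod_erase Finset.univ y (Finset.mem_univ 1), map_mul,
      show i (y 1) = i b from hy 1, ← mul_assoc, div_mul_cancel₀ _ hib]
  have hf' : f = i (a * ∏ g ∈ Finset.univ.erase 1, y g) / i (∏ g, y g) := by
    rw [ha', mul_div_assoc, div_self hne, mul_one]
  rw [hf', IntermediateField.coe_div]
  refine div_mem (hdesc (a * ∏ g ∈ Finset.univ.erase 1, y g) fun γ => ?_) (hdesc (∏ g, y g) hNfix)
  rw [ha', map_mul, hf γ, hNfix γ]

end FermatLib.MLT.LGC

end
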