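import Fermat.Agent.MLT.LGC.Shape
import Mathlib.LinearAlgebra.Eigenspace.Pi
import Mathlib.LinearAlgebra.Eigenspace.Triangularizable
import Mathlib.RingTheory.Ideal.GoingUp
import Mathlib.FieldTheory.IsAlgClosed.Basic
import Mathlib.RingTheory.LocalRing.ResidueField.Basic

/-!
# The count on a lattice with a local algebra of operators

`R` is a local algebra, finite over `O`, acting on a `K`-space `V` and commuting with `ρ`; the
operators `ρ g + e g • ρ g⁻¹` are those of elements `t g` of `R`, and residually `t` is not split by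
a character.  If `Kr` is at most half of `V` and contains the images of `ρ τ - 1` on inertia and of
`ρ F - U`, the conclusions hold at every eigenvector of `R` and `U`.
-/

set_option autoImplicit false

noncomputable section

open Module LinearMap

namespace FermatLib.MLT.LGC

open LGCShape

variable {O K : Type*} [CommRing O] [IsLocalRing O] [Field K] [IsAlgClosed K] [Algebra O K]

theorem exists_integralClosure_red (hO : Function.Injective (algebraMap O K))
    (R : Type*) [CommRing R] [IsLocalRing R] [Algebra O R] [Module.Finite O R] (χ : R →ₐ[O] K) :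
    ∃ (red : integralClosure O K →+* AlgebraicClosure (IsLocalRing.ResidueField R))
      (hχ : ∀ r, χ r ∈ integralClosure O K),
      ∀ r, red ⟨χ r, hχ r⟩ = algebraMap (IsLocalRing.ResidueField R) _ (IsLocalRing.residue R r) := by
  have hint : ∀ r, χ r ∈ integralClosure O K := fun r =>
    IsIntegral.map χ (Algebra.IsIntegral.isIntegral (R := O) r)
  let χ' : R →+* integralClosure O K :=
    (χ : R →+* K).codRestrict (integralClosure O K).toSubring hint
  let := χ'.toAlgebra
  have : IsScalarTower O R (integralClosure O K) :=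
    IsScalarTower.of_algebraMap_eq fun x => Subtype.ext (by
      show algebraMap O K x = χ (algebraMap O R x)
      rw [AlgHom.commutes])
  have : Algebra.IsIntegral O (integralClosure O K) := integralClosure.AlgebraIsIntegral
  have : Algebra.IsIntegral R (integralClosure O K) :=
    ⟨fun y => IsIntegral.tower_top (R := O) (Algebra.IsIntegral.isIntegral y)⟩
  have hker : RingHom.ker (algebraMap R (integralClosure O K)) ≤ IsLocalRing.maximalIdeal R :=
    IsLocalRing.le_maximalIdeal (RingHom.ker_ne_top _)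
  obtain ⟨Q, hQ, hQR⟩ := Ideal.exists_ideal_over_maximal_of_isIntegral (S := integralClosure O K)
    (IsLocalRing.maximalIdeal R) hker
  let kQ := integralClosure O K ⧸ Q
  let := Ideal.Quotient.field Q
  let f : IsLocalRing.ResidueField R →+* kQ :=
    Ideal.Quotient.lift (IsLocalRing.maximalIdeal R) ((Ideal.Quotient.mk Q).comp χ')
      fun r hr => by
        show (Ideal.Quotient.mk Q) (χ' r) = 0
        rw [Ideal.Quotient.eq_zero_iff_mem]
        rw [← hQR] at hr
        exact hr
  let := f.toAlgebra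
  have hf : ∀ r, algebraMap (IsLocalRing.ResidueField R) kQ (IsLocalRing.residue R r) =
      Ideal.Quotient.mk Q (χ' r) := fun r => rfl
  have halg : Algebra.IsAlgebraic (IsLocalRing.ResidueField R) kQ := by
    refine ⟨fun y => ?_⟩
    obtain ⟨s, rfl⟩ := Ideal.Quotient.mk_surjective y
    obtain ⟨P, hP, hPs⟩ := Algebra.IsIntegral.isIntegral (R := R) s
    refine IsIntegral.isAlgebraic ⟨P.map (IsLocalRing.residue R), hP.map _, ?_⟩
    rw [Polynomial.eval₂_map]
    have hcomp : (algebraMap (IsLocalRing.ResidueField R) kQ).comp (IsLocalRing.residue R) =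
        (Ideal.Quotient.mk Q).comp (algebraMap R (integralClosure O K)) := RingHom.ext hf
    rw [hcomp, ← Polynomial.hom_eval₂, hPs, map_zero]
  let j : kQ →ₐ[IsLocalRing.ResidueField R] AlgebraicClosure (IsLocalRing.ResidueField R) :=
    IsAlgClosed.lift
  refine ⟨j.toRingHom.comp (Ideal.Quotient.mk Q), hint, fun r => ?_⟩
  show j (Ideal.Quotient.mk Q (χ' r)) = _
  rw [← hf, AlgHom.commutes]

variable {G : Type*} [Group G] {V : Type*} [AddCommGroup V] [Module K V] [FiniteDimensional K V]
  {R : Type*} [CommRing R] [IsLocalRing R] [Algebra O R] [Module.Finite O R]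

/-- Residually no character splits `t`. -/
def ResNoSplit (e : G →* O) (t : G → R) : Prop :=
  ∀ ψ : G →* AlgebraicClosure (IsLocalRing.ResidueField R), ∃ g,
    algebraMap (IsLocalRing.ResidueField R) _ (IsLocalRing.residue R (t g)) ≠
      ψ g + algebraMap (IsLocalRing.ResidueField R) _
        (IsLocalRing.residue R (algebraMap O R (e g))) * ψ g⁻¹

theorem noSplit_of_resNoSplit (hO : Function.Injective (algebraMap O K)) {e : G →* O} {t : G → R}
    (h : ResNoSplit e t) (χ : R →ₐ[O] K) :
    NoSplit ((algebraMap O K).toMonoidHom.comp e) fun g => χ (t g) := by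
  intro ψ
  by_contra! hall
  obtain ⟨red, hχ, hred⟩ := exists_integralClosure_red hO R χ
  have hψ : ∀ g, ψ g ∈ integralClosure O K := by
    intro g
    have h1 : ψ g * ψ g⁻¹ = 1 := by rw [← map_mul, mul_inv_cancel, map_one]
    have hroot : ψ g ^ 2 + (-χ (t g)) * ψ g + algebraMap O K (e g) = 0 := by
      show _ + -χ (t g) * ψ g + _ = (0 : K)
      have h2 : χ (t g) = ψ g + algebraMap O K (e g) * ψ g⁻¹ := hall g
      rw [h2]
      linear_combination (algebraMap O K (e g)) * (-h1)
    let a : integralClosure O K := ⟨χ (t g), hχ _⟩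
    have hint : IsIntegral (integralClosure O K) (ψ g) :=
      ⟨Polynomial.X ^ 2 + Polynomial.C (-a) * Polynomial.X +
          Polynomial.C (algebraMap O (integralClosure O K) (e g)), by monicity!, by
        simpa [a] using hroot⟩
    have : Algebra.IsIntegral O (integralClosure O K) := integralClosure.AlgebraIsIntegral
    exact isIntegral_trans (ψ g) hint
  let ψ' : G →* AlgebraicClosure (IsLocalRing.ResidueField R) :=
    { toFun := fun g => red ⟨ψ g, hψ g⟩
      map_one' := by
        rw [show (⟨ψ 1, hψ 1⟩ : integralClosure O K) = 1 from Subtype.ext (map_one ψ), map_one]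
      map_mul' := fun a b => by
        rw [show (⟨ψ (a * b), hψ _⟩ : integralClosure O K) = ⟨ψ a, hψ a⟩ * ⟨ψ b, hψ b⟩ from
          Subtype.ext (map_mul ψ a b), map_mul] }
  obtain ⟨g, hg⟩ := h ψ'
  refine hg ?_
  show _ = red ⟨ψ g, hψ g⟩ + _ * red ⟨ψ g⁻¹, hψ g⁻¹⟩
  rw [← hred, ← hred, ← map_mul, ← map_add]
  refine congrArg red (Subtype.ext ?_)
  show χ (t g) = ψ g + χ (algebraMap O R (e g)) * ψ g⁻¹
  rw [AlgHom.commutes]
  exact hall g

variable [CharZero K] [Algebra O (Module.End K V)] [IsScalarTower O K (Module.End K V)]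
  (act : R →ₐ[O] Module.End K V) (ρ : G →* Module.End K V) (e : G →* O) (t : G → R)

/-- The simultaneous generalised eigenspace. -/
def actEigen (χ : R → K) : Submodule K V := ⨅ r, (act r).maxGenEigenspace (χ r)

theorem act_mem_actEigen (χ : R → K) {f : Module.End K V} (hf : ∀ r, Commute (act r) f) {x : V}
    (hx : x ∈ actEigen act χ) : f x ∈ actEigen act χ := by
  rw [actEigen, Submodule.mem_iInf] at hx ⊢
  exact fun r => Module.End.mapsTo_maxGenEigenspace_of_comm (hf r) (χ r) (hx r)

theorem exists_algHom_of_eigen {χ : R → K} {x : V} (hx : x ≠ 0) (h : ∀ r, act r x = χ r • x) :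
    ∃ f : R →ₐ[O] K, ∀ r, f r = χ r := by
  have key : ∀ {a b : K}, a • x = b • x → a = b := fun hab => smul_left_injective K hx hab
  refine ⟨AlgHom.mk'
    { toFun := χ
      map_one' := key (by rw [← h, map_one, Module.End.one_apply, one_smul])
      map_mul' := fun r s => key (by
        rw [← h, map_mul, Module.End.mul_apply, h s, map_smul, h r, smul_smul, mul_comm])
      map_zero' := key (by rw [← h, map_zero, LinearMap.zero_apply, zero_smul])
      map_add' := fun r s => key (by
        rw [← h, map_add, LinearMap.add_apply, h r, h s, add_smul]) }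
    fun c r => key ?_, fun r => rfl⟩
  show χ (c • r) • x = (c • χ r) • x
  rw [← h, map_smul, Algebra.smul_def, Algebra.smul_def,
    IsScalarTower.algebraMap_apply O K (Module.End K V), Module.End.mul_apply,
    Module.algebraMap_end_apply, h r, smul_smul]

/-- A nonzero subspace stable under a commutative algebra has an eigenvector. -/
theorem exists_eigen_of_stable {W : Submodule K V} (hW : W ≠ ⊥)
    (hstab : ∀ r, ∀ x ∈ W, act r x ∈ W) :
    ∃ (χ : R → K) (x : V), x ∈ W ∧ x ≠ 0 ∧ ∀ r, act r x = χ r • x := by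
  obtain ⟨U, ⟨hU0, hUW, hUs⟩, hmin⟩ := IsArtinian.set_has_minimal
    {U : Submodule K V | U ≠ ⊥ ∧ U ≤ W ∧ ∀ r, ∀ x ∈ U, act r x ∈ U} ⟨W, hW, le_rfl, hstab⟩
  have hUnt : Nontrivial U := Submodule.nontrivial_iff_ne_bot.mpr hU0
  have hscal : ∀ r, ∃ c : K, ∀ x ∈ U, act r x = c • x := by
    intro r
    obtain ⟨c, hc⟩ := Module.End.exists_eigenvalue ((act r).restrict (hUs r) : Module.End K U)
    obtain ⟨v, hv⟩ := hc.exists_hasEigenvector
    refine ⟨c, fun x hx => ?_⟩
    have heq : U ⊓ LinearMap.ker (act r - c • 1) = U := by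
      by_contra hlt
      refine hmin _ ⟨fun h0 => hv.2 ?_, inf_le_left.trans hUW, fun s x hx => ?_⟩
        (lt_of_le_of_ne inf_le_left hlt)
      · have : (v : V) ∈ U ⊓ LinearMap.ker (act r - c • 1) := ⟨v.2, by
          simpa [sub_eq_zero] using congrArg Subtype.val hv.apply_eq_smul⟩
        rw [h0] at this
        exact Subtype.ext this
      · refine ⟨hUs s x hx.1, ?_⟩
        have hx2 : act r x = c • x := by simpa [sub_eq_zero] using hx.2
        show (act r - c • 1) (act s x) = 0
        rw [LinearMap.sub_apply, LinearMap.smul_apply, Module.End.one_apply,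
          ← Module.End.mul_apply, ← map_mul, mul_comm, map_mul, Module.End.mul_apply, hx2,
          map_smul, sub_self]
    rw [← heq] at hx
    simpa [sub_eq_zero] using hx.2
  choose χ hχ using hscal
  obtain ⟨x, hx, hx0⟩ := U.ne_bot_iff.mp hU0
  exact ⟨χ, x, hUW hx, hx0, fun r => hχ r x hx⟩

theorem exists_algHom_of_actEigen {χ : R → K} (hχ : actEigen act χ ≠ ⊥) :
    ∃ f : R →ₐ[O] K, ∀ r, f r = χ r := by
  obtain ⟨χ', x, hxW, hx0, hx⟩ := exists_eigen_of_stable act hχ fun r x hx =>
    act_mem_actEigen act χ (fun s => by rw [commute_iff_eq, ← map_mul, mul_comm, map_mul]) hx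
  obtain ⟨f, hf⟩ := exists_algHom_of_eigen act hx0 hx
  refine ⟨f, fun r => (hf r).trans ?_⟩
  rw [actEigen, Submodule.mem_iInf] at hxW
  obtain ⟨m, hm⟩ := (Module.End.mem_maxGenEigenspace _ _ _).mp (hxW r)
  have hpow : ∀ k : ℕ, ((act r - χ r • 1) ^ k) x = (χ' r - χ r) ^ k • x := by
    intro k
    induction k with
    | zero => simp
    | succ k ih =>
      rw [pow_succ, Module.End.mul_apply, LinearMap.sub_apply, LinearMap.smul_apply,
        Module.End.one_apply, hx, ← sub_smul, map_smul, ih, smul_smul, ← pow_succ']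
  rw [hpow, smul_eq_zero] at hm
  exact sub_eq_zero.mp (pow_eq_zero_iff'.mp (hm.resolve_right hx0)).1

/-- **The conclusions of the count at an eigenvector.** -/
theorem conclusion_of_half (hO : Function.Injective (algebraMap O K))
    (hres : ResNoSplit e t) (hρact : ∀ r g, Commute (act r) (ρ g))
    (htr : ∀ g, ρ g + algebraMap O K (e g) • ρ g⁻¹ = act (t g))
    {U : Module.End K V} (hUρ : ∀ g, Commute U (ρ g))
    (I : Set G) {τ₀ : G} (hτ₀ : τ₀ ∈ I) (he : algebraMap O K (e τ₀) ≠ 1)
    {F : G} (hconj : F * τ₀ * F⁻¹ ∈ I) {Kr : Submodule K V}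
    (hKI : ∀ τ ∈ I, ∀ x, ρ τ x - x ∈ Kr) (hKF : ∀ x, ρ F x - U x ∈ Kr)
    (hhalf : 2 * finrank K Kr ≤ finrank K V)
    (A : G →* Matrix (Fin 2) (Fin 2) K) (hspan : Submodule.span K (Set.range A) = ⊤)
    {χ₀ : R →ₐ[O] K} (hAtr : ∀ g, (A g).trace = χ₀ (t g))
    (hAdet : ∀ g, (A g).det = algebraMap O K (e g))
    {x : V} (hx0 : x ≠ 0) (hx : ∀ r, act r x = χ₀ r • x) {u : K} (hux : U x = u • x) :
    (∀ τ ∈ I, χ₀ (t τ) = 1 + algebraMap O K (e τ)) ∧
      u ^ 2 - χ₀ (t F) * u + algebraMap O K (e F) = 0 := by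
  set eK : G →* K := (algebraMap O K).toMonoidHom.comp e
  have hρW : ∀ (χ : R → K) g, ∀ y ∈ actEigen act χ, ρ g y ∈ actEigen act χ := fun χ g y hy =>
    act_mem_actEigen act χ (fun r => hρact r g) hy
  have hdef : ∀ (χ : R → K) g, defect ρ eK (fun g => χ (t g)) g = act (t g) - χ (t g) • 1 :=
    fun χ g => by
      show ρ g + algebraMap O K (e g) • ρ g⁻¹ - _ = _
      rw [htr]
  have hsys : ∀ χ : R → K, IsSystem (restrictHom ρ _ (hρW χ)) eK fun g => χ (t g) := by
    intro χ
    have hd : ∀ g (y : actEigen act χ),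
        (defect (restrictHom ρ _ (hρW χ)) eK (fun g => χ (t g)) g y : V) =
          (act (t g) - χ (t g) • 1) y.1 := fun g y => by
      rw [← hdef]
      rfl
    refine ⟨fun g => ?_, fun g k => LinearMap.ext fun y => Subtype.ext ?_⟩
    · have hn : ∀ y : actEigen act χ, ∃ k : ℕ,
          ((defect (restrictHom ρ _ (hρW χ)) eK (fun g => χ (t g)) g) ^ k) y = 0 := by
        intro y
        obtain ⟨k, hk⟩ := (Module.End.mem_maxGenEigenspace _ _ _).mp
          ((Submodule.mem_iInf _).mp y.2 (t g))
        refine ⟨k, Subtype.ext ?_⟩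
        rw [ZeroMemClass.coe_zero, ← hk]
        clear hk
        induction k generalizing y with
        | zero => simp
        | succ k ih =>
          rw [pow_succ, pow_succ, Module.End.mul_apply, Module.End.mul_apply, ih, hd]
      exact (Module.End.isNilpotent_iff_of_finite (R := K) (M := actEigen act χ)).mpr hn
    · show ((defect (restrictHom ρ _ (hρW χ)) eK (fun g => χ (t g)) g)
        (restrictHom ρ _ (hρW χ) k y) : V) = _
      rw [hd, coe_restrictHom, Module.End.mul_apply, coe_restrictHom, hd, LinearMap.sub_apply,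
        LinearMap.sub_apply, map_sub, LinearMap.smul_apply, LinearMap.smul_apply,
        Module.End.one_apply, Module.End.one_apply, map_smul]
      congr 1
      exact LinearMap.congr_fun (hρact (t g) k).eq y.1
  -- the components
  let ι := {χ : R → K // actEigen act χ ≠ ⊥}
  have hmaps : ∀ r s φ, Set.MapsTo (act r) ((act s).maxGenEigenspace φ)
      ((act s).maxGenEigenspace φ) := fun r s φ =>
    Module.End.mapsTo_maxGenEigenspace_of_comm (by rw [commute_iff_eq, ← map_mul, mul_comm, map_mul]) φ
  have hind : iSupIndep fun χ : ι => actEigen act χ.1 :=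
    (Module.End.independent_iInf_maxGenEigenspace_of_forall_mapsTo _ hmaps).comp
      Subtype.val_injective
  have htop : ⨆ χ : ι, actEigen act χ.1 = ⊤ := by
    refine top_le_iff.mp ?_
    rw [← Module.End.iSup_iInf_maxGenEigenspace_eq_top_of_forall_mapsTo (fun r => act r) hmaps
      fun r => Module.End.iSup_maxGenEigenspace_eq_top (act r)]
    refine iSup_le fun χ => ?_
    by_cases hχ : actEigen act χ = ⊥
    · exact le_of_eq_of_le hχ bot_le
    · exact le_iSup (fun χ : ι => actEigen act χ.1) ⟨χ, hχ⟩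
  have : Finite ι := WellFoundedGT.finite_of_iSupIndep hind fun χ => χ.2
  have hsplit : ∀ χ : ι, NoSplit eK fun g => χ.1 (t g) := by
    intro χ
    obtain ⟨f, hf⟩ := exists_algHom_of_actEigen act χ.2
    have h := noSplit_of_resNoSplit hO hres f
    simp only [hf] at h
    exact h
  have hlow : ∀ χ : ι, finrank K (actEigen act χ.1) ≤
      2 * finrank K ↥(Kr ⊓ actEigen act χ.1) := fun χ =>
    finrank_le_two_mul_inf (hρW χ.1) (hsys χ.1) (hsplit χ) he (hKI τ₀ hτ₀)
  -- the component of `x`
  have hxmem : x ∈ actEigen act χ₀ := (Submodule.mem_iInf _).mpr fun r =>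
    (Module.End.mem_maxGenEigenspace _ _ _).mpr ⟨1, by
      simp [hx r]⟩
  have hne : actEigen act χ₀ ≠ ⊥ := fun h => hx0 (by rw [h] at hxmem; exact hxmem)
  have hup : 2 * finrank K ↥(Kr ⊓ actEigen act χ₀) ≤ finrank K (actEigen act χ₀) :=
    LGCCount.two_mul_finrank_inf_le hind htop hlow hhalf ⟨_, hne⟩
  have h1 : ∀ τ ∈ I, χ₀ (t τ) = 1 + algebraMap O K (e τ) := fun τ hτ =>
    eq_one_add_of_half (hρW χ₀) (hsys χ₀) hne hup (hKI τ hτ)
  refine ⟨h1, ?_⟩
  let W₀ : Submodule K V := ⨅ r, LinearMap.ker (act r - χ₀ r • 1)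
  have hW₀mem : ∀ {y : V}, y ∈ W₀ ↔ ∀ r, act r y = χ₀ r • y := fun {y} => by
    simp [W₀, sub_eq_zero]
  refine eval_eq_zero_of_half (hρW χ₀) (hsys χ₀) (hsplit ⟨_, hne⟩) he (hKI τ₀ hτ₀) hup
    (hKI _ hconj) hUρ hKF A hspan hAtr hAdet (W₀ := W₀) ?_ ?_ ?_ (hW₀mem.mpr hx) hx0 hux
  · intro y hy
    exact (Submodule.mem_iInf _).mpr fun r => (Module.End.mem_maxGenEigenspace _ _ _).mpr
      ⟨1, by simp [hW₀mem.mp hy r]⟩
  · intro g y hy
    refine hW₀mem.mpr fun r => ?_
    rw [← Module.End.mul_apply, (hρact r g).eq, Module.End.mul_apply, hW₀mem.mp hy r, map_smul]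
  · intro g y hy
    have h := congrArg (fun f : Module.End K V => f y) (htr g)
    simp only [LinearMap.add_apply, LinearMap.smul_apply, hW₀mem.mp hy (t g)] at h
    have h2 := congrArg (ρ g) h
    rw [map_add, map_smul, map_smul, ← Module.End.mul_apply (ρ g) (ρ g⁻¹), ← map_mul,
      mul_inv_cancel, map_one, Module.End.one_apply] at h2
    rw [← h2]
    show _ + algebraMap O K (e g) • y = 0
    module

end FermatLib.MLT.LGC

end
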