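import Mathlib

/-!
# Local-global count: one isotypic component

`G` acts on `W` and every element is killed by the characteristic polynomial of its image under an
absolutely irreducible two-dimensional representation `A`; then the action factors through
`2 × 2` matrices (`exists_matrixHom`).

Given such an action `φ`, an operator `U` commuting with it and a subspace `K` containing the
images of `a - 1` (`a` in inertia) and of `F - U`, the subspace `K` has at least half the dimension.
In the case of equality inertia fixes a line modulo a line on which it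
acts by the determinant, `U` is a root of the characteristic polynomial of `F`, and `F` acts by
the other root on the moved line.
-/

set_option autoImplicit false

noncomputable section

open Matrix Module LinearMap

namespace FermatLib.MLT.LGCCount

variable {E W : Type*} [Field E] [AddCommGroup W] [Module E W]

local notation "M₂" => Matrix (Fin 2) (Fin 2) E

/-- An action all whose elements satisfy the characteristic polynomial of an absolutely
irreducible two-dimensional representation factors through the matrices. -/
theorem exists_matrixHom {G : Type*} [Group G] (h2 : (2 : E) ≠ 0) (ρ : G →* Module.End E W)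
    (A : G →* M₂) (hspan : Submodule.span E (Set.range A) = ⊤)
    (hquad : ∀ g, ρ g * ρ g - (A g).trace • ρ g + (A g).det • (1 : Module.End E W) = 0) :
    ∃ φ : M₂ →ₐ[E] Module.End E W, ∀ g, φ (A g) = ρ g := by
  set P := MonoidAlgebra.lift E M₂ G A with hP
  set Q := MonoidAlgebra.lift E (Module.End E W) G ρ with hQ
  have hPg : ∀ g, P (MonoidAlgebra.of E G g) = A g := fun g => by simp [hP]
  have hQg : ∀ g, Q (MonoidAlgebra.of E G g) = ρ g := fun g => by simp [hQ]
  have hadj : ∀ g, (A g).det • ρ g⁻¹ = (A g).trace • (1 : Module.End E W) - ρ g := by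
    intro g
    have h := congrArg (· * ρ g⁻¹) (hquad g)
    simp only [add_mul, sub_mul, smul_mul_assoc, one_mul, zero_mul, mul_assoc, ← map_mul,
      mul_inv_cancel, map_one, mul_one] at h
    rw [← sub_eq_zero, ← h]
    abel
  let t : MonoidAlgebra E G → E := fun x => (P x).trace
  let B : MonoidAlgebra E G → MonoidAlgebra E G → Module.End E W := fun x y =>
    Q x * Q y + Q y * Q x - t x • Q y - t y • Q x + (t x * t y - t (x * y)) • 1
  have hBg : ∀ g h, B (MonoidAlgebra.of E G g) (MonoidAlgebra.of E G h) = 0 := by
    intro g h
    have e := hadj (g * h)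
    rw [_root_.mul_inv_rev, map_mul A, det_mul, mul_comm (A g).det, map_mul ρ h⁻¹,
      ← smul_mul_smul_comm] at e
    rw [hadj g, hadj h] at e
    simp only [B, t, map_mul P, hPg, hQg]
    have e' := sub_eq_zero.mpr e
    rw [← e']
    simp only [sub_mul, mul_sub, smul_mul_assoc, mul_smul_comm, one_mul, mul_one, map_mul]
    module
  have hB : ∀ x y, B x y = 0 := by
    intro x y
    induction x using MonoidAlgebra.induction_on with
    | of g =>
      induction y using MonoidAlgebra.induction_on with
      | of h => exact hBg g h
      | add y y' h h' =>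
        have e : B (MonoidAlgebra.of E G g) y + B (MonoidAlgebra.of E G g) y' = 0 := by
          rw [h, h', add_zero]
        rw [← e]
        simp only [B, t, map_add, map_mul, trace_add, mul_add, add_mul]
        module
      | smul r y h =>
        have e : r • B (MonoidAlgebra.of E G g) y = 0 := by rw [h, smul_zero]
        rw [← e]
        simp only [B, t, map_smul, map_mul, trace_smul, mul_smul_comm, smul_mul_assoc, smul_eq_mul]
        module
    | add x x' h h' =>
      have e : B x y + B x' y = 0 := by simp [h, h']
      rw [← e]
      simp only [B, t, map_add, map_mul, trace_add, mul_add, add_mul]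
      module
    | smul r x h =>
      have e : r • B x y = 0 := by simp [h]
      rw [← e]
      simp only [B, t, map_smul, map_mul, trace_smul, mul_smul_comm, smul_mul_assoc, smul_eq_mul]
      module
  have hsurj : Function.Surjective P := by
    intro m
    have hm : m ∈ LinearMap.range P.toLinearMap := by
      have hle : Submodule.span E (Set.range A) ≤ LinearMap.range P.toLinearMap := by
        rw [Submodule.span_le]
        rintro _ ⟨g, rfl⟩
        exact ⟨_, hPg g⟩
      exact hle (hspan ▸ Submodule.mem_top)
    exact hm
  have hker : ∀ x, P x = 0 → Q x = 0 := by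
    intro x hx
    let st : MonoidAlgebra E G → Module.End E W := fun y => t y • 1 - Q y
    have htx : t x = 0 := by simp [t, hx]
    have hcomm : ∀ y, Q x * Q y = st y * Q x := by
      intro y
      have h := hB x y
      have htxy : t (x * y) = 0 := by simp [t, hx]
      simp only [B, htx, htxy, zero_smul, zero_mul, sub_zero, add_zero] at h
      simp only [st, sub_mul, smul_mul_assoc, one_mul]
      rw [← sub_eq_zero, ← h]
      abel
    have hrev : ∀ y z, st (y * z) = st z * st y := by
      intro y z
      rw [← sub_eq_zero]
      have h := hB y z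
      simp only [B] at h
      rw [← neg_eq_zero] at h
      rw [← h]
      simp only [st, map_mul, sub_mul, mul_sub, smul_mul_assoc, mul_smul_comm, one_mul, mul_one]
      module
    have hkill : ∀ y z, (Q z * Q y - Q y * Q z) * Q x = 0 := by
      intro y z
      have h1 : Q x * Q (y * z) = st z * st y * Q x := by rw [hcomm, hrev]
      have h2 : Q x * Q (y * z) = st y * st z * Q x := by
        rw [map_mul, ← mul_assoc, hcomm, mul_assoc, hcomm, ← mul_assoc]
      rw [h1, ← sub_eq_zero, ← sub_mul] at h2
      rw [← h2]
      congr 1
      simp only [st, sub_mul, mul_sub, smul_mul_assoc, mul_smul_comm, one_mul, mul_one]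
      module
    obtain ⟨y, hy⟩ := hsurj (Matrix.single 0 1 1)
    obtain ⟨z, hz⟩ := hsurj (Matrix.single 1 0 1)
    set c := z * y - y * z with hc
    have hPc : P c = Matrix.single 1 1 1 - Matrix.single 0 0 1 := by
      simp [hc, map_sub, map_mul, hy, hz]
    have htc : t c = 0 := by simp [t, hPc, Matrix.trace_fin_two]
    have htcc : t (c * c) = 2 := by
      simp [t, map_mul, hPc, Matrix.trace_fin_two, Matrix.mul_apply, Fin.sum_univ_two]
      norm_num
    have hcc : Q c * Q c = 1 := by
      have h := hB c c
      simp only [B, htc, htcc, zero_smul, sub_zero, mul_zero, zero_sub] at h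
      have h' : (2 : E) • (Q c * Q c - 1) = 0 := by
        rw [← h]
        module
      exact sub_eq_zero.mp ((smul_eq_zero.mp h').resolve_left h2)
    have h0 : Q c * Q x = 0 := by
      rw [hc, map_sub, map_mul, map_mul]
      exact hkill y z
    rw [← one_mul (Q x), ← hcc, mul_assoc, h0, mul_zero]
  choose s hs using hsurj
  have hwd : ∀ x y, P x = P y → Q x = Q y := fun x y h => by
    rw [← sub_eq_zero, ← map_sub]
    exact hker _ (by rw [map_sub, h, sub_self])
  let φl : M₂ →ₗ[E] Module.End E W :=
    { toFun := fun m => Q (s m)
      map_add' := fun a b => by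
        rw [← map_add]
        exact hwd _ _ (by rw [map_add, hs, hs, hs])
      map_smul' := fun r a => by
        rw [RingHom.id_apply, ← map_smul]
        exact hwd _ _ (by rw [map_smul, hs, hs]) }
  refine ⟨AlgHom.ofLinearMap φl ?_ ?_, fun g => ?_⟩
  · show Q (s 1) = 1
    rw [← map_one Q]
    exact hwd _ _ (by rw [hs, map_one])
  · intro a b
    show Q (s (a * b)) = Q (s a) * Q (s b)
    rw [← map_mul]
    exact hwd _ _ (by rw [hs, map_mul, hs, hs])
  · show Q (s (A g)) = ρ g
    rw [← hQg]
    exact hwd _ _ (by rw [hs, hPg])

/-- The matrix units. -/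
abbrev mUnit (E : Type*) [Field E] (i j : Fin 2) : Matrix (Fin 2) (Fin 2) E := Matrix.single i j 1

theorem single_mul_mul_single (X : M₂) (a b : E) (i j k l : Fin 2) :
    Matrix.single i j a * X * Matrix.single k l b = Matrix.single i l (a * X j k * b) := by
  ext r s
  fin_cases i <;> fin_cases j <;> fin_cases k <;> fin_cases l <;> fin_cases r <;> fin_cases s <;>
    simp [Matrix.mul_apply, Fin.sum_univ_two]

/-- A nonzero matrix is a two-sided multiple of an idempotent. -/
theorem exists_mul_mul_eq {N : M₂} (hN : N ≠ 0) :
    ∃ c b : M₂, c * (N * b) = (mUnit E 0 0) ∧ (mUnit E 0 0) * c = c ∧ b * (mUnit E 0 0) = b ∧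
      b.det = 0 := by
  obtain ⟨i, j, hij⟩ : ∃ i j, N i j ≠ 0 := by
    by_contra h
    push Not at h
    exact hN (Matrix.ext h)
  refine ⟨Matrix.single 0 i (N i j)⁻¹, Matrix.single j 0 1, ?_, by simp, by simp, ?_⟩
  · rw [← mul_assoc, single_mul_mul_single, inv_mul_cancel₀ hij, mul_one]
  · fin_cases j <;> simp [Matrix.det_fin_two]

variable (φ : Matrix (Fin 2) (Fin 2) E →ₐ[E] Module.End E W)

/-- The common dimension of the columns. -/
def half : ℕ := finrank E (LinearMap.range (φ (mUnit E 0 0) : W →ₗ[E] W))

theorem single_zero_add_single_one : (mUnit E 0 0) + (mUnit E 1 1) = 1 := by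
  ext i j
  fin_cases i <;> fin_cases j <;> simp

variable [FiniteDimensional E W]

theorem finrank_range_mul_le_left (f g : Module.End E W) :
    finrank E (range (f * g)) ≤ finrank E (range f) :=
  Submodule.finrank_mono (LinearMap.range_comp_le_range g f)

theorem finrank_range_mul_le_right (f g : Module.End E W) :
    finrank E (range (f * g)) ≤ finrank E (range g) := by
  rw [Module.End.mul_eq_comp, LinearMap.range_comp]
  exact Submodule.finrank_map_le f (range g)

theorem finrank_eq_two_mul : finrank E W = 2 * half φ := by
  have hsum : φ (mUnit E 0 0) + φ (mUnit E 1 1) = 1 := by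
    rw [← map_add, single_zero_add_single_one, map_one]
  have h00 : φ (mUnit E 0 0) * φ (mUnit E 0 0) = φ (mUnit E 0 0) := by rw [← map_mul]; simp
  have h01 : φ (mUnit E 0 0) * φ (mUnit E 1 1) = 0 := by rw [← map_mul]; simp
  have hker : ker (φ (mUnit E 0 0)) = range (φ (mUnit E 1 1)) := by
    ext w
    constructor
    · intro hw
      have := LinearMap.congr_fun hsum w
      rw [LinearMap.add_apply, LinearMap.mem_ker.mp hw, zero_add] at this
      exact ⟨w, this⟩
    · rintro ⟨v, rfl⟩
      exact LinearMap.congr_fun h01 v
  have hle : ∀ i j : Fin 2, finrank E (range (φ (mUnit E i i))) ≤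
      finrank E (range (φ (mUnit E j j))) := by
    intro i j
    have h : φ (mUnit E i i) = φ (mUnit E i j) * φ (mUnit E j j) * φ (mUnit E j i) := by
      rw [← map_mul, ← map_mul]; simp
    rw [h]
    exact (finrank_range_mul_le_left _ _).trans (finrank_range_mul_le_right _ _)
  have := LinearMap.finrank_range_add_finrank_ker (φ (mUnit E 0 0))
  rw [hker, le_antisymm (hle 1 0) (hle 0 1)] at this
  simp only [half]
  omega

theorem half_pos [Nontrivial W] : 0 < half φ := by
  have := finrank_eq_two_mul φ
  have : 0 < finrank E W := Module.finrank_pos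
  omega

theorem eq_zero_of_map_eq_zero [Nontrivial W] {X : M₂} (hX : φ X = 0) : X = 0 := by
  by_contra h
  obtain ⟨c, b, hcb, -, -, -⟩ := exists_mul_mul_eq h
  have := half_pos φ
  have h0 : φ (mUnit E 0 0) = 0 := by rw [← hcb, map_mul, map_mul, hX]; simp
  rw [half, h0, LinearMap.range_zero, finrank_bot] at this
  exact lt_irrefl 0 this

end FermatLib.MLT.LGCCount

end
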