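import Fermat.Prelude.Def_ModularCurve_PeriodMap
import Fermat.Agent.Galois.DS.ConjUnits
import Fermat.Agent.MLT.BettiDefs
import Mathlib.RingTheory.RootsOfUnity.Complex

/-!
# Kummer classes of weakly modular functions on `Γ_H`: definitions

`deltaKer δ` is `Γ_H` for a quotient `δ` of `(ℤ/L)ˣ`.  For such a group `Γ` the Galois module is
`RootHom Γ n`, the parabolic homomorphisms `Γ → μₙ(ℂ)`: `IsRootClass Γ n g φ` says that an `n`-th
root of the weakly modular function `g` transforms by `φ`, and automorphisms of `ℂ` act on the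
coefficients of `qExpL g`.  `ConjStable Γ M` is what this action needs from `Γ`.
-/

set_option autoImplicit false

noncomputable section

open UpperHalfPlane hiding I
open CongruenceSubgroup ModularCurve
open scoped MatrixGroups Manifold

namespace FermatLib.MLT.LGC

open FermatLib.Modular FermatLib.Galois.DS

section Group

variable {L : ℕ} {Δ : Type} [CommGroup Δ]

/-- `Γ_H = {γ ∈ Γ₀(L) | δ (d mod L) = 1}`. -/
def deltaKer (δ : (ZMod L)ˣ →* Δ) : Subgroup SL(2, ℤ) :=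
  (δ.comp (gamma0UnitsHom L)).ker.map (Gamma0 L).subtype

theorem mem_deltaKer {δ : (ZMod L)ˣ →* Δ} {γ : SL(2, ℤ)} :
    γ ∈ deltaKer δ ↔ ∃ h : γ ∈ Gamma0 L, δ (gamma0UnitsHom L ⟨γ, h⟩) = 1 :=
  ⟨fun ⟨x, hx, hxγ⟩ => ⟨hxγ ▸ x.2, by subst hxγ; exact hx⟩, fun ⟨h, hγ⟩ => ⟨⟨γ, h⟩, hγ, rfl⟩⟩

theorem deltaKer_le (δ : (ZMod L)ˣ →* Δ) : deltaKer δ ≤ Gamma0 L := Subgroup.map_subtype_le _

theorem deltaKer_one : deltaKer (1 : (ZMod L)ˣ →* Δ) = Gamma0 L :=
  le_antisymm (deltaKer_le _) fun _ h => mem_deltaKer.mpr ⟨h, rfl⟩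

/-- What conjugation of expansions needs from the group: it lies over `Γ₁(M)` for a level with a
rigid base and is stable under `γ ↦ diag(1, s) γ diag(1, s)⁻¹` modulo `M`. -/
structure ConjStable (Γ : Subgroup SL(2, ℤ)) (M : ℕ) [NeZero M] : Prop where
  gamma1_le : Gamma1 M ≤ Γ
  neg_one_mem : (-1 : SL(2, ℤ)) ∈ Γ
  base : 4 ∣ M ∨ 5 ∣ M
  five_le : 5 ≤ M
  conj_mem : ∀ (s : ℤ), IsUnit (s : ZMod M) → ∀ γ γ' : SL(2, ℤ), IsConjMat M s γ γ' →
    γ ∈ Γ → γ' ∈ Γ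

/-- `Γ_H` is stable, at the level `20 L`. -/
theorem conjStable_deltaKer [NeZero L] (δ : (ZMod L)ˣ →* Δ) (hδ : δ (-1) = 1) :
    ConjStable (deltaKer δ) (20 * L) where
  gamma1_le γ hγ := by
    have hd : L ∣ 20 * L := dvd_mul_left L 20
    rw [Gamma1_mem] at hγ
    have hγ' := hγ
    have h0 : γ ∈ Gamma0 L := by
      rw [Gamma0_mem]
      simpa using congrArg (ZMod.castHom hd (ZMod L)) hγ'.2.2
    refine mem_deltaKer.mpr ⟨h0, ?_⟩
    have : gamma0UnitsHom L ⟨γ, h0⟩ = 1 := Units.ext (by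
      rw [coe_gamma0UnitsHom, Units.val_one]
      simpa using congrArg (ZMod.castHom hd (ZMod L)) hγ'.2.1)
    rw [this, map_one]
  neg_one_mem := by
    refine mem_deltaKer.mpr ⟨by simp [Gamma0_mem], ?_⟩
    have : gamma0UnitsHom L ⟨-1, by simp [Gamma0_mem]⟩ = -1 := Units.ext (by simp)
    rw [this, hδ]
  base := Or.inl (dvd_mul_of_dvd_left (by norm_num) L)
  five_le := by have := NeZero.pos L; omega
  conj_mem s _ γ γ' h hγ := by
    have hd : L ∣ 20 * L := dvd_mul_left L 20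
    obtain ⟨hγ0, hγ1⟩ := mem_deltaKer.mp hγ
    have h0 : γ' ∈ Gamma0 L := by
      rw [Gamma0_mem]
      have := congrArg (ZMod.castHom hd (ZMod L)) h.2.2.1
      simpa [Gamma0_mem.mp hγ0] using this
    refine mem_deltaKer.mpr ⟨h0, ?_⟩
    rw [show gamma0UnitsHom L ⟨γ', h0⟩ = gamma0UnitsHom L ⟨γ, hγ0⟩ from Units.ext (by
      simpa [coe_gamma0UnitsHom] using congrArg (ZMod.castHom hd (ZMod L)) h.2.2.2)]
    exact hγ1

end Group

section Classes

variable (Γ : Subgroup SL(2, ℤ)) (n : ℕ)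

/-- Parabolic homomorphisms `Γ → μₙ(ℂ)`. -/
abbrev RootHom : Submodule ℤ (Additive Γ →+ Additive (rootsOfUnity n ℂ)) :=
  Period.parabolicHoms ℤ Γ (Additive (rootsOfUnity n ℂ))

variable {Γ n}

/-- A homomorphism to `μₙ` as a complex valued character. -/
def rootChar (φ : Additive Γ →+ Additive (rootsOfUnity n ℂ)) : Γ →* ℂˣ :=
  (rootsOfUnity n ℂ).subtype.comp (AddMonoidHom.toMultiplicative φ)

theorem rootChar_pow_eq_one (φ : Additive Γ →+ Additive (rootsOfUnity n ℂ)) (γ : Γ) :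
    rootChar φ γ ^ n = 1 :=
  (mem_rootsOfUnity n _).mp (Additive.toMul (φ (Additive.ofMul γ))).2

theorem rootChar_zero :
    rootChar (0 : Additive Γ →+ Additive (rootsOfUnity n ℂ)) = 1 := rfl

theorem rootChar_add (φ ψ : Additive Γ →+ Additive (rootsOfUnity n ℂ)) :
    rootChar (φ + ψ) = rootChar φ * rootChar ψ := rfl

theorem rootChar_injective : Function.Injective (rootChar (Γ := Γ) (n := n)) := fun φ ψ h =>
  AddMonoidHom.ext fun γ =>
    congrArg Additive.ofMul (Subtype.ext (DFunLike.congr_fun h (Additive.toMul γ)))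

variable (Γ n)

/-- An `n`-th root of `g` transforms by `φ`. -/
def IsRootClass (g : ℍ → ℂ) (φ : Additive Γ →+ Additive (rootsOfUnity n ℂ)) : Prop :=
  g ∈ weakMod Γ ∧ g ≠ 0 ∧ ∃ h : ℍ → ℂ, MDiff h ∧
    (∀ (γ : Γ) (τ : ℍ), h ((γ : SL(2, ℤ)) • τ) = (rootChar φ γ : ℂ) * h τ) ∧
    ∀ τ, h τ ^ n = g τ

/-- `g'` has the `σ`-conjugate expansion at `∞`. -/
def IsConjSeries (σ : ℂ ≃+* ℂ) (g g' : ℍ → ℂ) : Prop :=
  qExpL g' = coeffMap (σ : ℂ →+* ℂ) (qExpL g)

end Classes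

end FermatLib.MLT.LGC

end
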