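import Fermat.Agent.Modular.WeightedEisenstein
import Fermat.Agent.MLT.LGC.DictionaryDefs

/-!
# Every parabolic homomorphism to `μₙ` is the class of a weakly modular function

The weight twelve Eisenstein series with the character, divided by `Δ`, to the power `n`.
-/

set_option autoImplicit false

noncomputable section

open UpperHalfPlane hiding I
open Filter Topology CongruenceSubgroup ModularCurve Matrix
open scoped MatrixGroups ModularForm Manifold

namespace FermatLib.MLT.LGC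

open FermatLib.Modular

variable {Γ : Subgroup SL(2, ℤ)} (ψ : Γ →* ℂˣ)

/-- `ψ` is trivial on elements of trace `±2`. -/
def KillsParabolicOn : Prop :=
  ∀ γ : Γ, ((γ : SL(2, ℤ)) : Matrix (Fin 2) (Fin 2) ℤ).trace ^ 2 = 4 → ψ γ = 1

variable {ψ}

theorem eq_of_sameRow (hψ : KillsParabolicOn ψ) {γ γ' : Γ}
    (h : (γ : SL(2, ℤ)).1 1 = (γ' : SL(2, ℤ)).1 1) : ψ γ = ψ γ' := by
  set U : SL(2, ℤ) := ((γ' * γ⁻¹ : Γ) : SL(2, ℤ)) with hU
  have hrow : U.1 1 = (1 : Matrix (Fin 2) (Fin 2) ℤ) 1 := by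
    have h1 : (γ : SL(2, ℤ)).1 * ((γ : SL(2, ℤ))⁻¹).1 = 1 :=
      congrArg Subtype.val (mul_inv_cancel (γ : SL(2, ℤ)))
    rw [← h1]
    funext j
    show ((γ' : SL(2, ℤ)).1 * ((γ : SL(2, ℤ))⁻¹).1) 1 j = _
    simp only [Matrix.mul_apply, h]
  have h10 : U.1 1 0 = 0 := by rw [hrow]; rfl
  have h11 : U.1 1 1 = 1 := by rw [hrow]; rfl
  have hdet := U.2
  rw [Matrix.det_fin_two, h10, h11, mul_zero, sub_zero, mul_one] at hdet
  have : ψ (γ' * γ⁻¹) = 1 := hψ _ (by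
    show U.1.trace ^ 2 = 4
    rw [Matrix.trace_fin_two, hdet, h11]; norm_num)
  rw [map_mul, map_inv, mul_inv_eq_one] at this
  exact this.symm

variable (ψ) in
/-- `conj ψ` as a function of the bottom row, extended by zero. -/
def groupWeight (v : Fin 2 → ℤ) : ℂ :=
  open Classical in
  if h : ∃ γ : Γ, (γ : SL(2, ℤ)).1 1 = v then ((ψ h.choose)⁻¹ : ℂˣ) else 0

theorem groupWeight_bottomRow (hψ : KillsParabolicOn ψ) (γ : Γ) :
    groupWeight ψ ((γ : SL(2, ℤ)).1 1) = ((ψ γ)⁻¹ : ℂˣ) := by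
  have h : ∃ γ' : Γ, (γ' : SL(2, ℤ)).1 1 = (γ : SL(2, ℤ)).1 1 := ⟨γ, rfl⟩
  rw [groupWeight, dif_pos h, eq_of_sameRow hψ h.choose_spec]

theorem norm_groupWeight_le (hu : ∀ γ, ‖(ψ γ : ℂ)‖ = 1) (v : Fin 2 → ℤ) :
    ‖groupWeight ψ v‖ ≤ 1 := by
  rw [groupWeight]
  split_ifs with h
  · rw [← map_inv, hu]
  · simp

theorem groupWeight_vecMul (hψ : KillsParabolicOn ψ) (γ : Γ) (v : Fin 2 → ℤ) :
    groupWeight ψ (v ᵥ* ((γ : SL(2, ℤ))⁻¹).1) = (ψ γ : ℂ) * groupWeight ψ v := by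
  have hrow : ∀ g A : SL(2, ℤ), g.1 1 ᵥ* A.1 = (g * A).1 1 := fun g A => by
    funext j
    simp [Matrix.vecMul, dotProduct, Matrix.mul_apply]
  by_cases h : ∃ δ : Γ, (δ : SL(2, ℤ)).1 1 = v
  · obtain ⟨δ, rfl⟩ := h
    rw [hrow,
      show (δ : SL(2, ℤ)) * (γ : SL(2, ℤ))⁻¹ = ((δ * γ⁻¹ : Γ) : SL(2, ℤ)) from rfl,
      groupWeight_bottomRow hψ, groupWeight_bottomRow hψ, ← Units.val_mul, map_mul, map_inv,
      _root_.mul_inv_rev, inv_inv]
  · have h' : ¬ ∃ δ : Γ, (δ : SL(2, ℤ)).1 1 = v ᵥ* ((γ : SL(2, ℤ))⁻¹).1 := by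
      rintro ⟨δ, hδ⟩
      refine h ⟨δ * γ, ?_⟩
      have hγ : ((γ : SL(2, ℤ))⁻¹).1 * (γ : SL(2, ℤ)).1 = 1 :=
        congrArg Subtype.val (inv_mul_cancel (γ : SL(2, ℤ)))
      rw [Subgroup.coe_mul, ← hrow, hδ, vecMul_vecMul, hγ, vecMul_one]
    rw [groupWeight, groupWeight, dif_neg h, dif_neg h', mul_zero]

variable (ψ) in
/-- The Eisenstein series of weight twelve with character `ψ`. -/
def groupEis : ℍ → ℂ := weightedEis (groupWeight ψ) 12

theorem groupEis_slash (hψ : KillsParabolicOn ψ) (γ : Γ) :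
    groupEis ψ ∣[(12 : ℤ)] (γ : SL(2, ℤ)) = (ψ γ : ℂ) • groupEis ψ := by
  rw [groupEis, weightedEis_slash]
  funext z
  simp only [weightedEis, Pi.smul_apply, smul_eq_mul, groupWeight_vecMul hψ γ, mul_assoc,
    tsum_mul_left]

theorem groupEis_ne_zero (hneg : (-1 : SL(2, ℤ)) ∈ Γ) (hψ : KillsParabolicOn ψ)
    (hu : ∀ γ, ‖(ψ γ : ℂ)‖ = 1) : groupEis ψ ≠ 0 := by
  intro h
  have ht := tendsto_weightedEis_I_mul (norm_groupWeight_le hu) (show (3 : ℤ) ≤ 12 by norm_num)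
  rw [show weightedEis (groupWeight ψ) 12 = 0 from h] at ht
  have hne : ![(0 : ℤ), 1] ≠ ![0, -1] := fun h ↦ by simpa using congrFun h 1
  rw [tsum_eq_sum (s := {![0, 1], ![0, -1]}) ?_, Finset.sum_pair hne] at ht
  · have e1 : groupWeight ψ ![0, 1] = 1 := by
      have : ((1 : Γ) : SL(2, ℤ)).1 1 = ![0, 1] := by
        funext j; fin_cases j <;> rfl
      rw [← this, groupWeight_bottomRow hψ, map_one, inv_one, Units.val_one]
    have e2 : groupWeight ψ ![0, -1] = 1 := by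
      have : ((⟨-1, hneg⟩ : Γ) : SL(2, ℤ)).1 1 = ![0, -1] := by
        funext j; fin_cases j <;> simp
      rw [← this, groupWeight_bottomRow hψ, hψ ⟨-1, hneg⟩ (by simp),
        inv_one, Units.val_one]
    have h2 := tendsto_nhds_unique (tendsto_const_nhds (x := (0 : ℂ))) ht
    norm_num [e1, e2] at h2
  · intro v hv
    split_ifs with h0
    · rw [groupWeight, dif_neg ?_, zero_mul]
      rintro ⟨γ, hγ⟩
      have hdet := (γ : SL(2, ℤ)).2
      rw [Matrix.det_fin_two, hγ, h0, mul_zero, sub_zero] at hdet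
      rcases Int.eq_one_or_neg_one_of_mul_eq_one (mul_comm (v 1) _ ▸ hdet) with h1 | h1 <;>
        apply hv <;> simp only [Finset.mem_insert, Finset.mem_singleton]
      · left; funext j; fin_cases j <;> simp [h0, h1]
      · right; funext j; fin_cases j <;> simp [h0, h1]
    · rfl

variable (ψ) in
/-- `E / Δ`. -/
def groupFun : ℍ → ℂ := fun τ => groupEis ψ τ / ModularForm.discriminant τ

theorem groupFun_smul (hψ : KillsParabolicOn ψ) (γ : Γ) (τ : ℍ) :
    groupFun ψ ((γ : SL(2, ℤ)) • τ) = (ψ γ : ℂ) * groupFun ψ τ := by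
  have hd : UpperHalfPlane.denom (γ : SL(2, ℤ)) τ ≠ 0 := UpperHalfPlane.denom_ne_zero _ τ
  have hΔ := slash_SL_apply_eq (slash_SL_eq_self CuspForm.discriminant (γ : SL(2, ℤ))) τ
  rw [CuspForm.coe_discriminant] at hΔ
  have hE := congrFun (groupEis_slash hψ γ) τ
  rw [ModularForm.SL_slash_apply, Pi.smul_apply, smul_eq_mul, _root_.zpow_neg,
    mul_inv_eq_iff_eq_mul₀ (zpow_ne_zero _ hd)] at hE
  simp only [groupFun, hE, hΔ]
  field_simp [zpow_ne_zero, ModularForm.discriminant_ne_zero τ]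

theorem mdifferentiable_groupFun (hu : ∀ γ, ‖(ψ γ : ℂ)‖ = 1) : MDiff (groupFun ψ) :=
  (mdifferentiable_weightedEis (norm_groupWeight_le hu) (by norm_num)).div
    CuspForm.discriminant.holo' ModularForm.discriminant_ne_zero

theorem groupFun_ne_zero (hneg : (-1 : SL(2, ℤ)) ∈ Γ) (hψ : KillsParabolicOn ψ)
    (hu : ∀ γ, ‖(ψ γ : ℂ)‖ = 1) : groupFun ψ ≠ 0 := fun h =>
  groupEis_ne_zero hneg hψ hu (funext fun τ => by
    simpa [groupFun, ModularForm.discriminant_ne_zero τ] using congrFun h τ)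

theorem isBoundedAtImInfty_groupFun (hu : ∀ γ, ‖(ψ γ : ℂ)‖ = 1) (A : SL(2, ℤ)) :
    IsBoundedAtImInfty ((fun τ => groupFun ψ (A • τ)) * ModularForm.discriminant) := by
  have hb : IsBoundedAtImInfty (groupEis ψ ∣[(12 : ℤ)] A) := by
    rw [groupEis, weightedEis_slash]
    exact isBoundedAtImInfty_weightedEis (fun v ↦ norm_groupWeight_le hu _) (by norm_num)
  refine hb.congr' ?_ Filter.EventuallyEq.rfl
  refine Eventually.of_forall fun τ => ?_
  have hd : UpperHalfPlane.denom A τ ≠ 0 := UpperHalfPlane.denom_ne_zero _ τ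
  have hΔ := slash_SL_apply_eq (slash_SL_eq_self CuspForm.discriminant A) τ
  rw [CuspForm.coe_discriminant] at hΔ
  simp only [Pi.mul_apply, groupFun, hΔ, ModularForm.SL_slash_apply, _root_.zpow_neg]
  field_simp [zpow_ne_zero, ModularForm.discriminant_ne_zero τ]

section Class

variable {n : ℕ} [NeZero n]

theorem norm_rootChar (φ : Additive Γ →+ Additive (rootsOfUnity n ℂ)) (γ : Γ) :
    ‖(rootChar φ γ : ℂ)‖ = 1 :=
  Complex.norm_eq_one_of_pow_eq_one
    (by rw [← Units.val_pow_eq_pow_val, rootChar_pow_eq_one, Units.val_one]) (NeZero.ne n)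

omit [NeZero n] in
theorem killsParabolicOn_rootChar (φ : RootHom Γ n) : KillsParabolicOn (rootChar φ.1) :=
  fun γ hγ => by
    show (rootsOfUnity n ℂ).subtype (Additive.toMul (φ.1 (Additive.ofMul γ))) = 1
    rw [Period.mem_parabolicHoms_iff.mp φ.2 γ hγ]
    rfl

theorem isBoundedAtImInfty_pow_discriminant {f : ℍ → ℂ}
    (h : IsBoundedAtImInfty (f * ModularForm.discriminant)) (m : ℕ) :
    IsBoundedAtImInfty (f ^ m * (ModularForm.discriminant : ℍ → ℂ) ^ m) := by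
  rw [← mul_pow]
  exact pow_mem (show f * ModularForm.discriminant ∈ boundedAtImInftySubalgebra ℂ from h) m

/-- **Every parabolic homomorphism is a class**, with pole order at most `n` in `q` at every
cusp. -/
theorem exists_isRootClass_bounded (hneg : (-1 : SL(2, ℤ)) ∈ Γ) (φ : RootHom Γ n) :
    ∃ g : ℍ → ℂ, IsRootClass Γ n g φ ∧
      ∀ A : SL(2, ℤ), IsBoundedAtImInfty ((fun τ => g (A • τ)) *
        (ModularForm.discriminant : ℍ → ℂ) ^ n) := by
  have hψ := killsParabolicOn_rootChar φ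
  have hu := norm_rootChar φ.1
  have hb : ∀ A : SL(2, ℤ), IsBoundedAtImInfty
      ((fun τ => groupFun (rootChar φ.1) (A • τ) ^ n) * (ModularForm.discriminant : ℍ → ℂ) ^ n) :=
    fun A => isBoundedAtImInfty_pow_discriminant (isBoundedAtImInfty_groupFun hu A) n
  refine ⟨fun τ => groupFun (rootChar φ.1) τ ^ n, ⟨mem_weakMod.mpr ⟨(mdifferentiable_groupFun hu).pow n,
    fun γ hγ τ => ?_, fun A => ⟨n, hb A⟩⟩, fun h => ?_, groupFun (rootChar φ.1),
    mdifferentiable_groupFun hu, groupFun_smul hψ, fun τ => rfl⟩, hb⟩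
  · show groupFun (rootChar φ.1) (γ • τ) ^ n = _
    rw [groupFun_smul hψ ⟨γ, hγ⟩, mul_pow, ← Units.val_pow_eq_pow_val, rootChar_pow_eq_one,
      Units.val_one, one_mul]
  · refine groupFun_ne_zero hneg hψ hu (funext fun τ => ?_)
    exact pow_eq_zero_iff (NeZero.ne n) |>.mp (congrFun h τ)

end Class

end FermatLib.MLT.LGC

end
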