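import Fermat.Agent.Galois.DS.KummerClass
import Fermat.Agent.MLT.LGC.DictionaryDefs

/-!
# Algebra of classes, and the parabolic ones among them

A class is parabolic exactly when its function has orders divisible by `n` in `ℍ` and, at the
cusp `A ∞`, expansion order `K` (in `q^(1/M)`) with `M n ∣ K k` whenever `A T^k A⁻¹ ∈ Γ`.
-/

set_option autoImplicit false
set_option linter.unusedSectionVars false

noncomputable section

open UpperHalfPlane hiding I
open Filter Complex Topology CongruenceSubgroup ModularCurve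
open scoped Manifold MatrixGroups ModularForm

namespace FermatLib.MLT.LGC

open FermatLib.Modular FermatLib.Galois.DS

variable {Γ : Subgroup SL(2, ℤ)} {n : ℕ} [NeZero n]
  {g g' : ℍ → ℂ} {φ φ' : Additive Γ →+ Additive (rootsOfUnity n ℂ)}

namespace IsRootClass

theorem mem (h : IsRootClass Γ n g φ) : g ∈ weakMod Γ := h.1

theorem ne_zero (h : IsRootClass Γ n g φ) : g ≠ 0 := h.2.1

theorem root_ne_zero' {r : ℍ → ℂ} (hg : g ≠ 0) (hp : ∀ τ, r τ ^ n = g τ) : r ≠ 0 := fun h0 =>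
  hg (funext fun τ => by rw [← hp, h0, Pi.zero_apply, zero_pow (NeZero.ne n)])

theorem unique (h₁ : IsRootClass Γ n g φ) (h₂ : IsRootClass Γ n g φ') : φ = φ' := by
  obtain ⟨-, hg, r, hr, hrt, hrp⟩ := h₁
  obtain ⟨-, -, s, hs, hst, hsp⟩ := h₂
  have hr0 := root_ne_zero' hg hrp
  obtain ⟨a, ha⟩ := exists_stdAddChar_mul_of_pow_eq hr hs hr0 (fun τ => by rw [hrp, hsp])
  obtain ⟨σ, hσ⟩ := Function.ne_iff.mp hr0
  refine rootChar_injective (MonoidHom.ext fun γ => Units.ext (mul_right_cancel₀ (b := r σ) hσ ?_))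
  have h1 := hst γ σ
  rw [ha, ha, hrt] at h1
  refine mul_left_cancel₀ (a := ZMod.stdAddChar a) (fun h0 => ?_) (h1.trans (by ring))
  have := stdAddChar_pow_self (ℓ := n) a
  rw [h0, zero_pow (NeZero.ne n)] at this
  exact zero_ne_one this

theorem mul (h₁ : IsRootClass Γ n g φ) (h₂ : IsRootClass Γ n g' φ') :
    IsRootClass Γ n (g * g') (φ + φ') := by
  obtain ⟨hg, hg0, r, hr, hrt, hrp⟩ := h₁
  obtain ⟨hg', hg0', s, hs, hst, hsp⟩ := h₂
  refine ⟨mul_mem hg hg', fun h0 => ?_, fun τ => r τ * s τ, hr.mul hs, fun γ τ => ?_, fun τ => ?_⟩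
  · rcases UpperHalfPlane.mul_eq_zero_iff (mem_weakMod.mp hg).1 (mem_weakMod.mp hg').1 |>.mp h0
      with h | h
    exacts [hg0 h, hg0' h]
  · simp only [hrt, hst, rootChar_add, MonoidHom.mul_apply, Units.val_mul]
    ring
  · rw [mul_pow, hrp, hsp]
    rfl

end IsRootClass

theorem isRootClass_pow_self {k : ℍ → ℂ} (hk : k ∈ weakMod Γ) (hk0 : k ≠ 0) :
    IsRootClass Γ n (k ^ n) 0 :=
  ⟨pow_mem hk n, fun h => hk0 (funext fun τ =>
      (pow_eq_zero_iff (NeZero.ne n)).mp (congrFun h τ)),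
    k, (mem_weakMod.mp hk).1, fun γ τ => by
      rw [rootChar_zero, MonoidHom.one_apply, Units.val_one, one_mul]
      exact (mem_weakMod.mp hk).2.1 _ γ.2 τ, fun _ => rfl⟩

theorem isRootClass_const {c : ℂ} (hc : c ≠ 0) : IsRootClass Γ n (fun _ => c) 0 := by
  obtain ⟨d, hd⟩ := IsAlgClosed.exists_pow_nat_eq c (NeZero.pos n)
  have h := isRootClass_pow_self (n := n) (Subalgebra.algebraMap_mem (weakMod Γ) d)
    (fun h0 => hc (by
      have := congrFun h0 UpperHalfPlane.I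
      rw [← hd, show d = (0 : ℂ) from this, zero_pow (NeZero.ne n)]))
  rwa [show (algebraMap ℂ (ℍ → ℂ) d) ^ n = fun _ => c from funext fun τ => hd] at h

namespace IsRootClass

theorem pow (h : IsRootClass Γ n g φ) (m : ℕ) : IsRootClass Γ n (g ^ m) (m • φ) := by
  induction m with
  | zero =>
    rw [pow_zero, zero_nsmul]
    exact isRootClass_const one_ne_zero
  | succ m ih => rw [pow_succ, succ_nsmul]; exact ih.mul h

theorem smul (h : IsRootClass Γ n g φ) {c : ℂ} (hc : c ≠ 0) :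
    IsRootClass Γ n (c • g) φ := by
  rw [← zero_add φ]
  exact (isRootClass_const hc).mul h

theorem ordAt_dvd (h : IsRootClass Γ n g φ) (τ : ℍ) : n ∣ ordAt g τ := by
  obtain ⟨-, -, r, hr, -, hrp⟩ := h
  refine ⟨ordAt r τ, ?_⟩
  rw [show g = r ^ n from funext fun τ => (hrp τ).symm, ordAt,
    show (r ^ n) ∘ ofComplex = (r ∘ ofComplex) ^ n from rfl,
    analyticOrderNatAt_pow (FermatLib.Galois.DS.analyticAt_comp_ofComplex hr τ)]
  rfl

end IsRootClass

theorem exists_bounded_nthRoot (hg : g ∈ weakMod Γ) {h : ℍ → ℂ} (hp : ∀ τ, h τ ^ n = g τ)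
    (A : SL(2, ℤ)) : ∃ m : ℕ, ∀ m', m ≤ m' →
      IsBoundedAtImInfty ((fun τ => h (A • τ)) * (ModularForm.discriminant : ℍ → ℂ) ^ m') := by
  obtain ⟨m, hm⟩ := (mem_weakMod.mp hg).2.2 A
  refine ⟨m, fun m' hm' => Kummer.isBoundedAtImInfty_of_pow (NeZero.ne n) ?_⟩
  have hle : m ≤ n * m' := hm'.trans (Nat.le_mul_of_pos_left _ (NeZero.pos n))
  refine (hm.mul (isBoundedAtImInfty_discriminant_pow (n * m' - m))).congr'
    (Eventually.of_forall fun τ => ?_) EventuallyEq.rfl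
  simp only [Pi.mul_apply, Pi.pow_apply, mul_pow, hp, mul_assoc, ← pow_add,
    Nat.add_sub_cancel' hle, ← pow_mul, mul_comm m' n]

/-- The trivial class consists of the `n`-th powers. -/
theorem IsRootClass.exists_pow_eq (h : IsRootClass Γ n g 0) :
    ∃ k ∈ weakMod Γ, k ^ n = g := by
  obtain ⟨hg, -, r, hr, hrt, hrp⟩ := h
  refine ⟨r, mem_weakMod.mpr ⟨hr, fun γ hγ τ => ?_, fun A => ?_⟩, funext hrp⟩
  · simpa [rootChar_zero] using hrt ⟨γ, hγ⟩ τ
  · obtain ⟨m, hm⟩ := exists_bounded_nthRoot hg hrp A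
    exact ⟨m, hm m le_rfl⟩

theorem IsRootClass.of_pow_eq {k : ℍ → ℂ} (hk : k ∈ weakMod Γ) (h : IsRootClass Γ n g φ)
    (he : k ^ n = g) : φ = 0 := by
  subst he
  exact h.unique (isRootClass_pow_self hk fun h0 => h.ne_zero (by
    rw [h0, zero_pow (NeZero.ne n)]))

/-- A function with orders divisible by `n` in `ℍ` has a class, parabolic or not. -/
theorem exists_isRootClass_of_dvd (hg : g ∈ weakMod Γ) (hg0 : g ≠ 0)
    (hd : ∀ τ, n ∣ ordAt g τ) : ∃ φ, IsRootClass Γ n g φ := by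
  obtain ⟨r, hr, hrp⟩ := exists_root (mem_weakMod.mp hg).1 hg0 hd
  have hr0 := IsRootClass.root_ne_zero' hg0 hrp
  have hex : ∀ γ : Γ, ∃ a : rootsOfUnity n ℂ,
      ∀ τ, r ((γ : SL(2, ℤ)) • τ) = ((a : ℂˣ) : ℂ) * r τ := fun γ => by
    obtain ⟨a, ha⟩ := exists_stdAddChar_mul_of_pow_eq hr (hr.comp
      (UpperHalfPlane.mdifferentiable_smul (g := ((γ : SL(2, ℤ)) : GL (Fin 2) ℝ)) (by simp))) hr0
      fun τ => by
        rw [hrp]
        exact ((mem_weakMod.mp hg).2.1 _ γ.2 τ).symm.trans (hrp _).symm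
    exact ⟨rootsOfUnity.mkOfPowEq _ (stdAddChar_pow_self a), fun τ => ha τ⟩
  choose a ha using hex
  obtain ⟨σ, hσ⟩ := Function.ne_iff.mp hr0
  have hmul : ∀ γ δ : Γ, a (γ * δ) = a γ * a δ := fun γ δ => by
    refine Subtype.ext (Units.ext (mul_right_cancel₀ (b := r σ) hσ ?_))
    rw [← ha, Subgroup.coe_mul (rootsOfUnity n ℂ), Units.val_mul, mul_assoc, ← ha, ← ha,
      Subgroup.coe_mul, mul_smul]
  exact ⟨MonoidHom.toAdditive (MonoidHom.mk' a hmul), hg, hg0, r, hr, fun γ τ => ha γ τ, hrp⟩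

section Level

variable {M : ℕ} [NeZero M]

/-- A function on `Γ` as a function on `Γ₁(M)`. -/
def toLevel (hC : ConjStable Γ M) (g : weakMod Γ) : modRing M :=
  ⟨g, weakMod_mono hC.gamma1_le g.2⟩

@[simp] theorem coe_toLevel (hC : ConjStable Γ M) (g : weakMod Γ) :
    ((toLevel hC g : modRing M) : ℍ → ℂ) = g := rfl

variable (Γ n) in
/-- The conditions for a parabolic class. -/
def IsRootAdmissible (G : modRing M) : Prop :=
  (∀ τ, n ∣ ordAt (G : ℍ → ℂ) τ) ∧ ∀ (A : SL(2, ℤ)) (k : ℤ),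
    A * ModularGroup.T ^ k * A⁻¹ ∈ Γ → ((M * n : ℕ) : ℤ) ∣ (cuspExp M A G).order * k

/-- The value of a class at a parabolic element. -/
theorem IsRootClass.rootChar_eq {G : modRing M} (h : IsRootClass Γ n (G : ℍ → ℂ) φ)
    (A : SL(2, ℤ)) {k : ℤ} {γ : Γ} (hγ : (γ : SL(2, ℤ)) = A * ModularGroup.T ^ k * A⁻¹) :
    (rootChar φ γ : ℂ) =
      exp (2 * Real.pi * Complex.I * (cuspExp M A G).order * k / (M * n)) := by
  obtain ⟨-, hg, r, hr, hrt, hrp⟩ := h
  have hG : G ≠ 0 := fun h0 => hg (by rw [h0]; rfl)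
  obtain ⟨u, hu, -, hu0, hev⟩ :=
    exists_leading (cuspFun_mem_qMero M A G.2) (cuspFun_ne_zero A hG)
  obtain ⟨c, hc, hlim⟩ := exists_tendsto_root (ℓ := n) (mdiff_cuspFun (M := M) A hr) hu.continuousAt
    hu0 (hev.mono fun τ hτ => (hrp _).trans hτ)
  rw [← cuspExp_apply] at hlim
  set K := (cuspExp M A G).order
  set χ : ℂ := (rootChar φ γ : ℂ)
  have hshift : Tendsto (fun τ : ℍ => ((k : ℝ) / M) +ᵥ τ) atImInfty atImInfty := by
    rw [atImInfty, tendsto_comap_iff]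
    exact tendsto_comap.congr fun τ => by simp
  have h1 := hlim.comp hshift
  have hkey : ∀ τ : ℍ,
      Galois.DS.cuspFun M A r (((k : ℝ) / M) +ᵥ τ) = χ * Galois.DS.cuspFun M A r τ := fun τ => by
    have hM : (M : ℂ) ≠ 0 := Nat.cast_ne_zero.mpr (NeZero.ne M)
    have h2 : ModularForm.heckeDiagMatrix M • (((k : ℝ) / M) +ᵥ τ) =
        ModularGroup.T ^ k • (ModularForm.heckeDiagMatrix M • τ) := by
      apply UpperHalfPlane.ext
      rw [coe_T_zpow_smul, ModularForm.coe_heckeDiagMatrix_smul (NeZero.ne M),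
        ModularForm.coe_heckeDiagMatrix_smul (NeZero.ne M), UpperHalfPlane.coe_vadd]
      push_cast
      field_simp
      ring
    simp only [Galois.DS.cuspFun, h2, ← mul_smul]
    rw [show A * ModularGroup.T ^ k = (γ : SL(2, ℤ)) * A by rw [hγ]; group, mul_smul, hrt]
  set e := exp (2 * Real.pi * Complex.I * K * k / (M * n))
  have hR : (fun τ : ℍ => Galois.DS.cuspFun M A r τ / exp (2 * Real.pi * Complex.I * K * τ / n)) ∘
      (fun τ : ℍ => ((k : ℝ) / M) +ᵥ τ) = fun τ : ℍ =>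
        χ / e * (Galois.DS.cuspFun M A r τ / exp (2 * Real.pi * Complex.I * K * τ / n)) := by
    funext τ
    have : exp (2 * Real.pi * Complex.I * K * ((((k : ℝ) / M) +ᵥ τ : ℍ) : ℂ) / n) =
        e * exp (2 * Real.pi * Complex.I * K * τ / n) := by
      rw [← exp_add, UpperHalfPlane.coe_vadd]
      congr 1
      push_cast
      ring
    simp only [Function.comp_apply, hkey, this]
    field_simp
  rw [hR] at h1
  have h3 := tendsto_nhds_unique h1 (hlim.const_mul (χ / e))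
  have h4 : χ / e = 1 := mul_right_cancel₀ hc (by rw [one_mul]; exact h3.symm)
  rwa [div_eq_one_iff_eq (exp_ne_zero _)] at h4

theorem exp_eq_one_iff_dvd (K k : ℤ) :
    exp (2 * Real.pi * Complex.I * K * k / (M * n)) = 1 ↔ ((M * n : ℕ) : ℤ) ∣ K * k := by
  have h0 : ((M : ℂ) * n) ≠ 0 :=
    mul_ne_zero (Nat.cast_ne_zero.mpr (NeZero.ne M)) (Nat.cast_ne_zero.mpr (NeZero.ne n))
  have h2 : (2 * Real.pi * Complex.I : ℂ) ≠ 0 := Complex.two_pi_I_ne_zero
  rw [exp_eq_one_iff]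
  constructor
  · rintro ⟨j, hj⟩
    refine ⟨j, ?_⟩
    rw [div_eq_iff h0] at hj
    have : ((K * k : ℤ) : ℂ) = (((M * n : ℕ) : ℤ) * j : ℤ) := by
      push_cast
      exact mul_left_cancel₀ h2 (by linear_combination hj)
    exact_mod_cast this
  · rintro ⟨j, hj⟩
    refine ⟨j, ?_⟩
    have h3 : (K : ℂ) * k = (M : ℂ) * n * j := by exact_mod_cast congrArg (Int.cast : ℤ → ℂ) hj
    rw [div_eq_iff h0]
    linear_combination (2 * Real.pi * Complex.I) * h3

/-- **Parabolic classes are the admissible functions.** -/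
theorem IsRootClass.mem_rootHom_iff (hneg : (-1 : SL(2, ℤ)) ∈ Γ) {G : modRing M}
    (h : IsRootClass Γ n (G : ℍ → ℂ) φ) : φ ∈ RootHom Γ n ↔ IsRootAdmissible Γ n G := by
  have hval : ∀ γ : Γ, φ (Additive.ofMul γ) = 0 ↔ (rootChar φ γ : ℂ) = 1 := fun γ => by
    rw [Units.val_eq_one]
    constructor
    · intro h0
      show (rootsOfUnity n ℂ).subtype (Additive.toMul (φ (Additive.ofMul γ))) = 1
      rw [h0]
      rfl
    · exact fun h1 => congrArg Additive.ofMul (Subtype.ext h1 :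
        Additive.toMul (φ (Additive.ofMul γ)) = 1)
  rw [Period.mem_parabolicHoms_iff]
  constructor
  · intro hp
    refine ⟨h.ordAt_dvd, fun A k hmem => ?_⟩
    have htr : (((⟨_, hmem⟩ : Γ) : SL(2, ℤ)) : Matrix (Fin 2) (Fin 2) ℤ).trace ^ 2 = 4 := by
      show ((A * ModularGroup.T ^ k * A⁻¹ : SL(2, ℤ)) : Matrix (Fin 2) (Fin 2) ℤ).trace ^ 2 = 4
      rw [coe_conj_T_zpow, Matrix.trace_fin_two_of]
      ring
    rw [← exp_eq_one_iff_dvd, ← h.rootChar_eq A (γ := ⟨_, hmem⟩) rfl]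
    exact (hval _).mp (hp _ htr)
  · rintro ⟨-, hadm⟩ γ htr
    have hconj : ∀ (A : SL(2, ℤ)) (k : ℤ) (δ : Γ),
        (δ : SL(2, ℤ)) = A * ModularGroup.T ^ k * A⁻¹ → φ (Additive.ofMul δ) = 0 := fun A k δ hδ => by
      rw [hval, h.rootChar_eq A hδ, exp_eq_one_iff_dvd]
      exact hadm A k (hδ ▸ δ.2)
    have hneg1 : φ (Additive.ofMul (⟨-1, hneg⟩ : Γ)) = 0 := by
      obtain ⟨-, hg, r, -, hrt, hrp⟩ := h
      obtain ⟨τ, hτ⟩ := Function.ne_iff.mp (IsRootClass.root_ne_zero' hg hrp)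
      rw [hval]
      refine mul_right_cancel₀ (b := r τ) hτ ?_
      rw [← hrt, one_mul]
      show r ((-1 : SL(2, ℤ)) • τ) = _
      rw [ModularGroup.SL_neg_smul, one_smul]
    obtain ⟨A, k, hA | hA⟩ := exists_eq_conj_of_trace_sq_eq_four htr
    · exact hconj A k γ hA
    · have hmul : γ = (⟨-1, hneg⟩ : Γ) * (⟨-(γ : SL(2, ℤ)), by
          simpa using Γ.mul_mem hneg γ.2⟩ : Γ) := Subtype.ext (by simp)
      rw [hmul, ofMul_mul, map_add, hneg1, zero_add]
      exact hconj A k _ (show -(γ : SL(2, ℤ)) = _ from neg_eq_iff_eq_neg.mpr hA)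

end Level

end FermatLib.MLT.LGC

end
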