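import Fermat.Agent.Galois.DS.LevelConj
import Fermat.Agent.Galois.DS.ConjClass
import Fermat.Agent.MLT.LGC.DictionaryEis
import Fermat.Agent.MLT.LGC.DictionaryRoot

/-!
# The action of `Aut ℂ` on the classes of `Γ_H`

Conjugating the coefficients at `∞` preserves invariance under `Γ`, the divisibility of the
orders in `ℍ` and the condition at the cusps, so it acts on `RootHom Γ n`.
-/

set_option autoImplicit false
set_option linter.unusedSectionVars false

noncomputable section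

open UpperHalfPlane hiding I
open CongruenceSubgroup ModularCurve
open scoped MatrixGroups Manifold

namespace FermatLib.MLT.LGC

open FermatLib.Modular FermatLib.Galois.DS

section ConjMat

variable {M : ℕ} {s : ℤ} {A A' B B' : SL(2, ℤ)}

theorem isConjMat_mul (h : IsConjMat M s A A') (h' : IsConjMat M s B B') :
    IsConjMat M s (A * B) (A' * B') := by
  obtain ⟨a0, a1, a2, a3⟩ := h
  obtain ⟨b0, b1, b2, b3⟩ := h'
  simp only [IsConjMat, Matrix.SpecialLinearGroup.coe_mul, Matrix.mul_apply, Fin.sum_univ_two]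
  push_cast
  refine ⟨?_, ?_, ?_, ?_⟩
  · rw [a0, b0, b2]; linear_combination ((B 1 0 : ℤ) : ZMod M) * a1
  · rw [a0, b3]
    linear_combination ((B 1 1 : ℤ) : ZMod M) * a1 + ((A 0 0 : ℤ) : ZMod M) * b1
  · rw [a2, b0, a3, b2]; ring
  · rw [a2, b3, a3]; linear_combination ((A 1 0 : ℤ) : ZMod M) * b1

theorem isConjMat_inv (h : IsConjMat M s A A') : IsConjMat M s A⁻¹ A'⁻¹ := by
  obtain ⟨a0, a1, a2, a3⟩ := h
  simp only [IsConjMat, Matrix.SpecialLinearGroup.coe_inv, Matrix.adjugate_fin_two,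
    Matrix.of_apply, Matrix.cons_val', Matrix.cons_val_zero, Matrix.cons_val_one,
    Matrix.cons_val_fin_one]
  push_cast
  refine ⟨a3, ?_, ?_, a0⟩
  · linear_combination -a1
  · rw [a2]; ring

theorem isConjMat_conj_T (h : IsConjMat M s A A') {t : ℤ} (ht : (s : ZMod M) * t = 1) (k : ℤ) :
    IsConjMat M s (A * ModularGroup.T ^ k * A⁻¹) (A' * ModularGroup.T ^ (k * t) * A'⁻¹) := by
  refine isConjMat_mul (isConjMat_mul h ?_) (isConjMat_inv h)
  simp only [IsConjMat, ModularGroup.coe_T_zpow, Matrix.of_apply, Matrix.cons_val',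
    Matrix.cons_val_zero, Matrix.cons_val_one, Matrix.cons_val_fin_one]
  push_cast
  simp only [mul_zero, true_and, and_true]
  linear_combination (k : ZMod M) * ht

end ConjMat

variable {Γ : Subgroup SL(2, ℤ)} {M : ℕ} [NeZero M] (hC : ConjStable Γ M)
  {σ τ : ℂ ≃+* ℂ} {g g' k : ℍ → ℂ}
include hC

theorem weakMod_le_qMero' : weakMod Γ ≤ qMero :=
  (weakMod_mono hC.gamma1_le).trans (weakMod_le_qMero (modularGroup_T_mem_Gamma1 M))

theorem eq_of_qExpL_eq (hg : g ∈ weakMod Γ) (hg' : g' ∈ weakMod Γ) (h : qExpL g = qExpL g') :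
    g = g' :=
  congrArg Subtype.val (qExpLHom_injective (a₁ := ⟨g, weakMod_le_qMero' hC hg⟩)
    (a₂ := ⟨g', weakMod_le_qMero' hC hg'⟩) h)

theorem qExpL_mul_weakMod (hg : g ∈ weakMod Γ) (hg' : g' ∈ weakMod Γ) :
    qExpL (g * g') = qExpL g * qExpL g' :=
  qExpL_mul (weakMod_le_qMero' hC hg) (weakMod_le_qMero' hC hg')

theorem IsConjSeries.mul_weakMod {a a' b b' : ℍ → ℂ} (ha : a ∈ weakMod Γ) (ha' : a' ∈ weakMod Γ)
    (hb : b ∈ weakMod Γ) (hb' : b' ∈ weakMod Γ) (h : IsConjSeries σ a a')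
    (h' : IsConjSeries σ b b') : IsConjSeries σ (a * b) (a' * b') := by
  rw [IsConjSeries, qExpL_mul_weakMod hC ha' hb', qExpL_mul_weakMod hC ha hb, map_mul,
    show qExpL a' = _ from h, show qExpL b' = _ from h']

theorem IsConjSeries.pow_weakMod {a a' : ℍ → ℂ} (ha : a ∈ weakMod Γ) (ha' : a' ∈ weakMod Γ)
    (h : IsConjSeries σ a a') (m : ℕ) : IsConjSeries σ (a ^ m) (a' ^ m) := by
  induction m with
  | zero =>
    rw [pow_zero, pow_zero, IsConjSeries,
      show qExpL (1 : ℍ → ℂ) = 1 from map_one qExpLHom, map_one]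
  | succ m ih =>
    rw [pow_succ, pow_succ]
    exact ih.mul_weakMod hC (pow_mem ha m) (pow_mem ha' m) ha ha' h

omit hC in
theorem IsConjSeries.symm (h : IsConjSeries σ g g') : IsConjSeries σ.symm g' g := by
  refine HahnSeries.ext (funext fun i => ?_)
  rw [coeffMap_coeff, show qExpL g' = _ from h, coeffMap_coeff]
  exact (σ.symm_apply_apply _).symm

omit hC in
theorem IsConjSeries.trans (h : IsConjSeries σ g g') (h' : IsConjSeries τ g' k) :
    IsConjSeries (σ.trans τ) g k := by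
  refine HahnSeries.ext (funext fun i => ?_)
  rw [show qExpL k = _ from h', coeffMap_coeff, show qExpL g' = _ from h, coeffMap_coeff,
    coeffMap_coeff]
  rfl

omit hC in
theorem isConjSeries_refl : IsConjSeries (RingEquiv.refl ℂ) g g := by
  refine HahnSeries.ext (funext fun i => ?_)
  rw [coeffMap_coeff]
  rfl

/-- **Coefficientwise conjugates exist**, on `Γ`. -/
theorem exists_isConjSeries (σ : ℂ ≃+* ℂ) (hg : g ∈ weakMod Γ) :
    ∃ g' ∈ weakMod Γ, IsConjSeries σ g g' := by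
  obtain ⟨m, hm, D, hmM, -⟩ := exists_baseData hC.base
  obtain ⟨s, hs, hu⟩ := exists_conj_exponent (M := M) (σ : ℂ →+* ℂ)
  set G : modRing M := toLevel hC ⟨g, hg⟩
  obtain ⟨G', hG'⟩ := exists_conjAll D hmM (by have := hC.five_le; omega) hs hu G
  have hM' := mem_weakMod.mp G'.2
  refine ⟨G', mem_weakMod.mpr ⟨hM'.1, fun γ hγ τ => ?_, hM'.2.2⟩, hG'.isConjFn⟩
  obtain ⟨γ', hγ'⟩ := exists_isConjMat hu γ
  have h1 : cuspExp M γ G' = cuspExp M 1 G' := by
    rw [hG' γ γ' hγ', hG' 1 1 (isConjMat_one s)]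
    refine congrArg _ (cuspExp_eq_of_forall_apply_eq M fun τ => ?_)
    rw [one_smul]
    exact (mem_weakMod.mp hg).2.1 γ' (hC.conj_mem s hu γ γ' hγ' hγ) τ
  have h2 : Galois.DS.cuspFun M γ (G' : ℍ → ℂ) = Galois.DS.cuspFun M 1 (G' : ℍ → ℂ) :=
    congrArg Subtype.val (qExpLHom_injective
      (a₁ := ⟨_, cuspFun_mem_qMero M γ G'.2⟩) (a₂ := ⟨_, cuspFun_mem_qMero M 1 G'.2⟩) h1)
  have h3 := congrFun h2 ((ModularForm.heckeDiagMatrix M)⁻¹ • τ)
  simpa only [Galois.DS.cuspFun, smul_inv_smul, one_smul] using h3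

variable {n : ℕ} [NeZero n]

/-- Conjugation preserves admissibility. -/
theorem IsConjSeries.isRootAdmissible {G G' : modRing M} (h : IsConjFn M σ G G')
    (hG : IsRootAdmissible Γ n G) : IsRootAdmissible Γ n G' := by
  refine ⟨fun τ => ?_, fun A k hk => ?_⟩
  · obtain ⟨τ', hτ⟩ := exists_point_conj' hC.base hC.five_le σ τ
    rw [hτ G G' h]
    exact hG.1 τ'
  obtain ⟨m, hm, D, hmM, -⟩ := exists_baseData hC.base
  obtain ⟨s, hs, hu⟩ := exists_conj_exponent (M := M) (σ : ℂ →+* ℂ)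
  obtain ⟨A', hA'⟩ := exists_isConjMat hu A
  have hall := conjAll_of_isConjFn D hmM (by have := hC.five_le; omega) hs hu h
  rw [hall A A' hA', order_coeffMap]
  obtain ⟨u, hu'⟩ := hu
  obtain ⟨t, ht⟩ := ZMod.intCast_surjective (↑u⁻¹ : ZMod M)
  have hst : (s : ZMod M) * t = 1 := by rw [ht, ← hu', Units.mul_inv]
  have h1 := hG.2 A' (k * t) (hC.conj_mem s ⟨u, hu'⟩ _ _ (isConjMat_conj_T hA' hst k) hk)
  have h2 := hG.2 A' (M : ℤ) (hC.gamma1_le (T_pow_conj_mem_Gamma1 M A'))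
  obtain ⟨z, hz⟩ : (M : ℤ) ∣ t * s - 1 := by
    rw [← ZMod.intCast_zmod_eq_zero_iff_dvd]
    push_cast
    linear_combination hst
  set K := (cuspExp M A' G).order
  have hkey : K * k = K * (k * t) * s - K * M * (k * z) := by linear_combination -(K * k) * hz
  rw [hkey]
  exact dvd_sub (dvd_mul_of_dvd_left h1 _) (dvd_mul_of_dvd_left h2 _)

/-- The conjugate of the function of a parabolic class has a parabolic class. -/
theorem exists_rootHom_conj {φ : RootHom Γ n} (h : IsRootClass Γ n g φ.1) (hg' : g' ∈ weakMod Γ)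
    (hc : IsConjSeries σ g g') : ∃ φ' : RootHom Γ n, IsRootClass Γ n g' φ'.1 := by
  set G : modRing M := toLevel hC ⟨g, h.mem⟩
  set G' : modRing M := toLevel hC ⟨g', hg'⟩
  have hGG : IsConjFn M σ G G' := hc
  have hadm := IsConjSeries.isRootAdmissible hC hGG
    ((IsRootClass.mem_rootHom_iff hC.neg_one_mem (G := G) h).mp φ.2)
  have hg0 : g' ≠ 0 := fun h0 => h.ne_zero (by
    have := hc.symm
    rw [IsConjSeries, h0, qExpL_zero, map_zero] at this
    exact (qExpL_eq_zero_iff (weakMod_le_qMero' hC h.mem)).mp this)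
  obtain ⟨ψ, hψ⟩ := exists_isRootClass_of_dvd hg' hg0 hadm.1
  exact ⟨⟨ψ, (IsRootClass.mem_rootHom_iff hC.neg_one_mem (G := G') hψ).mpr hadm⟩, hψ⟩

omit hC in
theorem nsmul_rootHom_eq_zero (φ : Additive Γ →+ Additive (rootsOfUnity n ℂ)) : n • φ = 0 :=
  AddMonoidHom.ext fun γ => by
    show n • φ γ = 0
    exact congrArg Additive.ofMul (Subtype.ext
      ((mem_rootsOfUnity n _).mp (Additive.toMul (φ γ)).2) : Additive.toMul (φ γ) ^ n = 1)

/-- Conjugation respects equality of classes. -/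
theorem class_conj_unique {g₁ g₂ g₁' g₂' : ℍ → ℂ} {φ φ₁ φ₂ : Additive Γ →+ Additive (rootsOfUnity n ℂ)}
    (hc₁ : IsConjSeries σ g₁ g₁') (hc₂ : IsConjSeries σ g₂ g₂')
    (h₁ : IsRootClass Γ n g₁ φ) (h₂ : IsRootClass Γ n g₂ φ)
    (h₁' : IsRootClass Γ n g₁' φ₁) (h₂' : IsRootClass Γ n g₂' φ₂) : φ₁ = φ₂ := by
  have hn : n - 1 + 1 = n := Nat.sub_add_cancel (NeZero.pos n)
  have hzero : ∀ ψ : Additive Γ →+ Additive (rootsOfUnity n ℂ), ψ + (n - 1) • ψ = 0 := fun ψ => by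
    rw [add_comm, ← succ_nsmul, hn, nsmul_rootHom_eq_zero]
  have hprod := h₁.mul (h₂.pow (n - 1))
  rw [hzero] at hprod
  obtain ⟨k, hk, hke⟩ := hprod.exists_pow_eq
  obtain ⟨k', hk', hck⟩ := exists_isConjSeries hC σ hk
  have hprod' : g₁' * g₂' ^ (n - 1) = k' ^ n := by
    refine eq_of_qExpL_eq hC (mul_mem h₁'.mem (pow_mem h₂'.mem _)) (pow_mem hk' n) ?_
    rw [show qExpL (k' ^ n) = _ from IsConjSeries.pow_weakMod hC hk hk' hck n, hke]
    exact IsConjSeries.mul_weakMod hC h₁.mem h₁'.mem (pow_mem h₂.mem _) (pow_mem h₂'.mem _) hc₁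
      (IsConjSeries.pow_weakMod hC h₂.mem h₂'.mem hc₂ _)
  have h3 := IsRootClass.of_pow_eq hk' (h₁'.mul (h₂'.pow (n - 1))) hprod'.symm
  exact add_right_cancel (h3.trans (hzero φ₂).symm)

theorem exists_rootGal (σ : ℂ ≃+* ℂ) (φ : RootHom Γ n) : ∃ φ' : RootHom Γ n,
    ∀ g g' : ℍ → ℂ, IsRootClass Γ n g φ.1 → g' ∈ weakMod Γ → IsConjSeries σ g g' →
      IsRootClass Γ n g' φ'.1 := by
  obtain ⟨g, hg, -⟩ := exists_isRootClass_bounded hC.neg_one_mem φ
  obtain ⟨g', hg', hc⟩ := exists_isConjSeries hC σ hg.mem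
  obtain ⟨φ', hφ'⟩ := exists_rootHom_conj hC hg hg' hc
  refine ⟨φ', fun g₁ g₁' hg₁ hm₁ hc₁ => ?_⟩
  obtain ⟨ψ, hψ⟩ := exists_rootHom_conj hC hg₁ hm₁ hc₁
  rwa [← class_conj_unique hC hc₁ hc hg₁ hg hψ hφ']

/-- The conjugate class. -/
def galRoot (σ : ℂ ≃+* ℂ) (φ : RootHom Γ n) : RootHom Γ n := (exists_rootGal hC σ φ).choose

theorem IsRootClass.galRoot {φ : RootHom Γ n} (h : IsRootClass Γ n g φ.1) (hg' : g' ∈ weakMod Γ)
    (hc : IsConjSeries σ g g') : IsRootClass Γ n g' (LGC.galRoot hC σ φ).1 :=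
  (exists_rootGal hC σ φ).choose_spec g g' h hg' hc

theorem galRoot_eq {φ ψ : RootHom Γ n} (h : IsRootClass Γ n g φ.1)
    (hc : IsConjSeries σ g g') (hψ : IsRootClass Γ n g' ψ.1) : galRoot hC σ φ = ψ :=
  Subtype.ext ((h.galRoot hC hψ.mem hc).unique hψ)

theorem galRoot_add (σ : ℂ ≃+* ℂ) (φ ψ : RootHom Γ n) :
    galRoot hC σ (φ + ψ) = galRoot hC σ φ + galRoot hC σ ψ := by
  obtain ⟨a, ha, -⟩ := exists_isRootClass_bounded hC.neg_one_mem φ
  obtain ⟨b, hb, -⟩ := exists_isRootClass_bounded hC.neg_one_mem ψ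
  obtain ⟨a', ha', hca⟩ := exists_isConjSeries hC σ ha.mem
  obtain ⟨b', hb', hcb⟩ := exists_isConjSeries hC σ hb.mem
  exact galRoot_eq hC (ha.mul hb) (IsConjSeries.mul_weakMod hC ha.mem ha' hb.mem hb' hca hcb)
    ((ha.galRoot hC ha' hca).mul (hb.galRoot hC hb' hcb))

theorem galRoot_refl (φ : RootHom Γ n) : galRoot hC (RingEquiv.refl ℂ) φ = φ := by
  obtain ⟨a, ha, -⟩ := exists_isRootClass_bounded hC.neg_one_mem φ
  exact galRoot_eq hC ha isConjSeries_refl ha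

theorem galRoot_trans (σ τ : ℂ ≃+* ℂ) (φ : RootHom Γ n) :
    galRoot hC (σ.trans τ) φ = galRoot hC τ (galRoot hC σ φ) := by
  obtain ⟨a, ha, -⟩ := exists_isRootClass_bounded hC.neg_one_mem φ
  obtain ⟨a', ha', hca⟩ := exists_isConjSeries hC σ ha.mem
  obtain ⟨a'', ha'', hca'⟩ := exists_isConjSeries hC τ ha'
  exact galRoot_eq hC ha (hca.trans hca') ((ha.galRoot hC ha' hca).galRoot hC ha'' hca')

variable (n) in
/-- The representation of `Aut ℂ` on classes. -/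
def rootGal : (ℂ ≃+* ℂ) →* AddMonoid.End (RootHom Γ n) where
  toFun σ := AddMonoidHom.mk' (galRoot hC σ) (galRoot_add hC σ)
  map_one' := AddMonoidHom.ext (galRoot_refl hC)
  map_mul' σ τ := AddMonoidHom.ext (galRoot_trans hC τ σ)

end FermatLib.MLT.LGC

end
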