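import Mathlib.GroupTheory.Schreier
import Mathlib.LinearAlgebra.Matrix.FixedDetMatrices
import Fermat.Agent.Galois.DS.KummerRep
import Fermat.Agent.MLT.LGC.DictionaryGalois

/-!
# The distinguished function in a class of `Γ_H`

Among the functions of a class with poles bounded by `n M` at every cusp, exactly one has maximal
order at `∞` and leading coefficient one.
-/

set_option autoImplicit false
set_option linter.unusedSectionVars false

noncomputable section

open UpperHalfPlane hiding I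
open Filter Complex Topology CongruenceSubgroup ModularCurve Asymptotics
open scoped Manifold MatrixGroups ModularForm

namespace FermatLib.MLT.LGC

open FermatLib.Modular FermatLib.Galois.DS

local notation "qq" => Function.Periodic.qParam (1 : ℝ)

variable {Γ : Subgroup SL(2, ℤ)} {M : ℕ} [NeZero M] {n : ℕ} [NeZero n]

section Exp

theorem exp_mul_natCast_div_pow (j : ℤ) (τ : ℍ) :
    exp (2 * Real.pi * Complex.I * j * τ / n) ^ n = qq (τ : ℂ) ^ j := by
  have hn : (n : ℂ) ≠ 0 := Nat.cast_ne_zero.mpr (NeZero.ne n)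
  rw [Function.Periodic.qParam, ← exp_nat_mul, ← exp_int_mul]
  congr 1
  push_cast
  field_simp

theorem norm_exp_le_one_of_nonneg {j : ℤ} (hj : 0 ≤ j) (τ : ℍ) :
    ‖exp (2 * Real.pi * Complex.I * j * τ / n)‖ ≤ 1 := by
  rw [Complex.norm_exp, Real.exp_le_one_iff]
  have h1 : (2 * (Real.pi : ℂ) * Complex.I * j * τ / n).re = -(2 * Real.pi * j * τ.im / n) := by
    simp [Complex.div_natCast_re, Complex.mul_re, Complex.mul_im]
    ring
  rw [h1, neg_nonpos]
  have : (0 : ℝ) ≤ (j : ℝ) := by exact_mod_cast hj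
  have := τ.im_pos
  positivity

/-- Poles bounded by `Δ ^ m` give poles bounded by `q^(-m M)` in the level parameter. -/
theorem le_order_cuspExp_of_bounded {G : modRing M} (hG : G ≠ 0) {m : ℕ} (A : SL(2, ℤ))
    (hb : IsBoundedAtImInfty ((fun τ => (G : ℍ → ℂ) (A • τ)) *
      (ModularForm.discriminant : ℍ → ℂ) ^ m)) :
    -((m * M : ℕ) : ℤ) ≤ (cuspExp M A G).order := by
  refine le_order_of_isBigO (cuspFun_mem_qMero M A G.2) (cuspFun_ne_zero A hG) ?_
  obtain ⟨e, u, he, hua, -, hu0, hev⟩ := exists_leading_of_bounded discriminant_mem_qMero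
    ModularForm.discriminant_isZeroAtImInfty.isBoundedAtImInfty
    (fun h => ModularForm.discriminant_ne_zero UpperHalfPlane.I (congrFun h _))
  rw [qExpL_of_bounded discriminant_mem_qMero
    ModularForm.discriminant_isZeroAtImInfty.isBoundedAtImInfty] at he
  have he1 : e = 1 := by
    have := order_qExpDelta
    rw [qExpDelta] at this
    omega
  subst he1
  have hD := tendsto_heckeDiagMatrix (M := M)
  have hlimu : Tendsto (fun τ : ℍ => (u (qq ((ModularForm.heckeDiagMatrix M • τ : ℍ) : ℂ)) ^ m)⁻¹)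
      atImInfty (𝓝 (u 0 ^ m)⁻¹) :=
    ((hua.continuousAt.tendsto.comp ((qParam_tendsto_atImInfty one_pos).comp hD)).pow m).inv₀
      (pow_ne_zero _ hu0)
  have h2 : (fun τ : ℍ => ((fun τ => (G : ℍ → ℂ) (A • τ)) * ModularForm.discriminant ^ m)
      (ModularForm.heckeDiagMatrix M • τ)) =O[atImInfty] (1 : ℍ → ℂ) := by
    have h3 := hb.comp_tendsto hD
    exact isBigO_norm_right.mp (h3.norm_right.congr' EventuallyEq.rfl
      (Eventually.of_forall fun τ => by simp))
  refine ((h2.mul (hlimu.isBigO_one ℂ)).congr' ?_ (Eventually.of_forall fun τ => by simp))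
  filter_upwards [hD.eventually hev,
    (hua.continuousAt.tendsto.comp ((qParam_tendsto_atImInfty one_pos).comp hD)).eventually_ne hu0]
    with τ hτ hne'
  have hq : qq ((ModularForm.heckeDiagMatrix M • τ : ℍ) : ℂ) = qq (τ : ℂ) ^ M := by
    rw [ModularForm.coe_heckeDiagMatrix_smul (NeZero.ne M), Function.Periodic.qParam,
      Function.Periodic.qParam, ← exp_nat_mul]
    congr 1
    push_cast
    ring
  have hne'' : u (qq ((ModularForm.heckeDiagMatrix M • τ : ℍ) : ℂ)) ≠ 0 := hne'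
  simp only [Pi.mul_apply, Pi.pow_apply, Galois.DS.cuspFun, hτ, pow_one, mul_pow, zpow_neg,
    zpow_natCast, div_inv_eq_mul]
  rw [hq] at hne'' ⊢
  field_simp
  ring

end Exp

/-- The distinguished member of a class. -/
def IsMaxRootRep (φ : RootHom Γ n) (G : modRing M) : Prop :=
  IsRootClass Γ n (G : ℍ → ℂ) φ.1 ∧ G ∈ polarSpace M (n * M) ∧
    (qExp1 M G).leadingCoeff = 1 ∧ ∀ G' : modRing M, IsRootClass Γ n (G' : ℍ → ℂ) φ.1 →
      G' ∈ polarSpace M (n * M) → (qExp1 M G').order ≤ (qExp1 M G).order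

theorem modRing_ne_zero_of_class {φ : Additive Γ →+ Additive (rootsOfUnity n ℂ)} {G : modRing M}
    (h : IsRootClass Γ n (G : ℍ → ℂ) φ) : G ≠ 0 := fun h0 => h.ne_zero (by rw [h0]; rfl)

theorem exists_isMaxRootRep (hC : ConjStable Γ M) (φ : RootHom Γ n) :
    ∃ G : modRing M, IsMaxRootRep φ G := by
  obtain ⟨g₀, hg₀, hb₀⟩ := exists_isRootClass_bounded hC.neg_one_mem φ
  set G₀ : modRing M := toLevel hC ⟨g₀, hg₀.mem⟩
  have hp₀ : G₀ ∈ polarSpace M (n * M) := fun A i hi =>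
    HahnSeries.coeff_eq_zero_of_lt_order (lt_of_lt_of_le hi
      (le_order_cuspExp_of_bounded (modRing_ne_zero_of_class (G := G₀) hg₀) A (hb₀ A)))
  obtain ⟨B, hB⟩ := exists_eq_zero_of_order M (n * M)
  obtain ⟨d, ⟨G, hG, hGb, rfl⟩, hmax⟩ := Int.exists_greatest_of_bdd
    (P := fun d => ∃ G : modRing M, IsRootClass Γ n (G : ℍ → ℂ) φ.1 ∧
      G ∈ polarSpace M (n * M) ∧ (qExp1 M G).order = d)
    ⟨(B : ℤ), fun d ⟨G, hG, hGb, hd⟩ => hd ▸ by
      by_contra hlt
      exact modRing_ne_zero_of_class hG (hB G hGb fun i hi =>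
        HahnSeries.coeff_eq_zero_of_lt_order (lt_trans hi (not_le.mp hlt)))⟩
    ⟨_, G₀, hg₀, hp₀, rfl⟩
  have hG0 := modRing_ne_zero_of_class hG
  have hc : (qExp1 M G).leadingCoeff ≠ 0 :=
    HahnSeries.leadingCoeff_ne_zero.mpr (qExp1_ne_zero hG0)
  refine ⟨(qExp1 M G).leadingCoeff⁻¹ • G, hG.smul (inv_ne_zero hc),
    Submodule.smul_mem _ _ hGb, ?_, fun G' hG' hGb' => ?_⟩
  · rw [qExp1_smul, HahnSeries.leadingCoeff_mul, HahnSeries.leadingCoeff_of_single,
      inv_mul_cancel₀ hc]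
  · rw [order_qExp1_smul (inv_ne_zero hc) hG0]
    exact hmax _ ⟨G', hG', hGb', rfl⟩

/-- The root at `∞`, with the leading coefficient. -/
theorem exists_tendsto_nthRoot_infty {G : modRing M} (hG : G ≠ 0) {h : ℍ → ℂ} (hh : MDiff h)
    (hp : ∀ τ, h τ ^ n = (G : ℍ → ℂ) τ) :
    ∃ r : ℂ, r ^ n = (qExp1 M G).leadingCoeff ∧ Tendsto (fun τ : ℍ => h τ /
      exp (2 * Real.pi * Complex.I * (qExp1 M G).order * τ / n)) atImInfty (𝓝 r) := by
  have hmem := weakMod_le_qMero (modularGroup_T_mem_Gamma1 M) G.2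
  obtain ⟨u, hu, hval, hu0, hev⟩ := exists_leading hmem ((coe_ne_zero_iff M).mpr hG)
  obtain ⟨r, -, hr⟩ := exists_tendsto_root (ℓ := n) hh hu.continuousAt hu0
    (hev.mono fun τ hτ => (hp τ).trans hτ)
  refine ⟨r, ?_, hr⟩
  have hlim : Tendsto (fun τ : ℍ => u (qq (τ : ℂ))) atImInfty (𝓝 (u 0)) :=
    hu.continuousAt.tendsto.comp (qParam_tendsto_atImInfty one_pos)
  rw [HahnSeries.leadingCoeff_eq, qExp1_apply, ← hval]
  refine tendsto_nhds_unique ((hr.pow n).congr' ?_) hlim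
  filter_upwards [hev] with τ hτ
  rw [div_pow, hp, exp_mul_natCast_div_pow, hτ]
  exact mul_div_cancel_left₀ _ (zpow_ne_zero _ (Function.Periodic.qParam_ne_zero _))

theorem pow_sub_smul_root_mem {g₁ g₂ : ℍ → ℂ} {φ : Additive Γ →+ Additive (rootsOfUnity n ℂ)}
    (hg₁ : g₁ ∈ weakMod Γ) (hg₂ : g₂ ∈ weakMod Γ) {h₁ h₂ : ℍ → ℂ} (h₁d : MDiff h₁)
    (h₂d : MDiff h₂)
    (h₁t : ∀ (γ : Γ) (τ : ℍ), h₁ ((γ : SL(2, ℤ)) • τ) = (rootChar φ γ : ℂ) * h₁ τ)
    (h₂t : ∀ (γ : Γ) (τ : ℍ), h₂ ((γ : SL(2, ℤ)) • τ) = (rootChar φ γ : ℂ) * h₂ τ)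
    (h₁p : ∀ τ, h₁ τ ^ n = g₁ τ) (h₂p : ∀ τ, h₂ τ ^ n = g₂ τ) (c : ℂ) :
    (fun τ => (h₁ τ - c * h₂ τ) ^ n) ∈ weakMod Γ := by
  refine mem_weakMod.mpr ⟨(h₁d.sub (mdifferentiable_const.mul h₂d)).pow n, fun γ hγ τ => ?_,
    fun A => ?_⟩
  · show (h₁ (γ • τ) - c * h₂ (γ • τ)) ^ n = _
    rw [h₁t ⟨γ, hγ⟩, h₂t ⟨γ, hγ⟩, mul_left_comm, ← mul_sub, mul_pow,
      ← Units.val_pow_eq_pow_val, rootChar_pow_eq_one, Units.val_one, one_mul]
  · obtain ⟨m₁, hm₁⟩ := exists_bounded_nthRoot hg₁ h₁p A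
    obtain ⟨m₂, hm₂⟩ := exists_bounded_nthRoot hg₂ h₂p A
    set m := max m₁ m₂
    refine ⟨m * n, ?_⟩
    have hb : IsBoundedAtImInfty
        ((fun τ => h₁ (A • τ) - c * h₂ (A • τ)) * (ModularForm.discriminant : ℍ → ℂ) ^ m) := by
      have := (hm₁ m (le_max_left _ _)).sub ((hm₂ m (le_max_right _ _)).const_mul_left c)
      refine this.congr' (Eventually.of_forall fun τ => ?_) EventuallyEq.rfl
      simp only [Pi.mul_apply, Pi.pow_apply]
      ring
    have hpow : IsBoundedAtImInfty (((fun τ => h₁ (A • τ) - c * h₂ (A • τ)) *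
        (ModularForm.discriminant : ℍ → ℂ) ^ m) ^ n) :=
      pow_mem (show _ ∈ boundedAtImInftySubalgebra ℂ from hb) n
    refine hpow.congr' (Eventually.of_forall fun τ => ?_) EventuallyEq.rfl
    simp [mul_pow, pow_mul]

/-- **Uniqueness of the distinguished member.** -/
theorem IsMaxRootRep.eq (hC : ConjStable Γ M) {φ : RootHom Γ n} {G₁ G₂ : modRing M}
    (h₁ : IsMaxRootRep φ G₁) (h₂ : IsMaxRootRep φ G₂) : G₁ = G₂ := by
  obtain ⟨hc₁, hb₁, hl₁, hm₁⟩ := h₁
  obtain ⟨hc₂, hb₂, hl₂, hm₂⟩ := h₂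
  have hG₁ := modRing_ne_zero_of_class hc₁
  have hG₂ := modRing_ne_zero_of_class hc₂
  have hK : (qExp1 M G₁).order = (qExp1 M G₂).order :=
    le_antisymm (hm₂ _ hc₁ hb₁) (hm₁ _ hc₂ hb₂)
  obtain ⟨hw₁, hn₁, r, hr, hrt, hrp⟩ := id hc₁
  obtain ⟨hw₂, hn₂, s, hs, hst, hsp⟩ := id hc₂
  obtain ⟨a, ha, hlima⟩ := exists_tendsto_nthRoot_infty hG₁ hr hrp
  obtain ⟨b, hb, hlimb⟩ := exists_tendsto_nthRoot_infty hG₂ hs hsp
  rw [hl₁] at ha
  rw [hl₂] at hb
  have hn := NeZero.ne n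
  have hb0 : b ≠ 0 := fun h => by rw [h, zero_pow hn] at hb; exact zero_ne_one hb
  set c := a / b
  have hc : c ^ n = 1 := by rw [div_pow, ha, hb, div_one]
  set h : ℍ → ℂ := fun τ => r τ - c * s τ with hdef
  by_cases h0 : h = 0
  · refine Subtype.ext (funext fun τ => ?_)
    have hτ : r τ = c * s τ := sub_eq_zero.mp (congrFun h0 τ)
    rw [← hrp, hτ, mul_pow, hc, one_mul, hsp]
  exfalso
  have hmem := pow_sub_smul_root_mem hw₁ hw₂ hr hs hrt hst hrp hsp c
  set G : modRing M := toLevel hC ⟨_, hmem⟩ with hGdef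
  have hclass : IsRootClass Γ n (G : ℍ → ℂ) φ.1 :=
    ⟨hmem, fun hgz => h0 (funext fun τ => (pow_eq_zero_iff hn).mp (congrFun hgz τ)), h,
      hr.sub (mdifferentiable_const.mul hs), fun γ τ => by simp only [hdef, hrt, hst]; ring,
      fun τ => rfl⟩
  have hG : G ≠ 0 := modRing_ne_zero_of_class hclass
  have hbound : G ∈ polarSpace M (n * M) := fun A i hi => by
    refine HahnSeries.coeff_eq_zero_of_lt_order (lt_of_lt_of_le hi ?_)
    refine le_order_of_isBigO (cuspFun_mem_qMero M A G.2) (cuspFun_ne_zero A hG) ?_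
    set K₀ : ℤ := -((n * M : ℕ) : ℤ) with hK₀
    have hroot : ∀ (G' : modRing M) (h' : ℍ → ℂ), G' ≠ 0 → MDiff h' →
        (∀ τ, h' τ ^ n = (G' : ℍ → ℂ) τ) → G' ∈ polarSpace M (n * M) →
        (fun τ : ℍ => Galois.DS.cuspFun M A h' τ / exp (2 * Real.pi * Complex.I * K₀ * τ / n))
          =O[atImInfty] (1 : ℍ → ℂ) := by
      intro G' h' hG' hh' hp' hb'
      obtain ⟨u, hu, -, hu0, hev⟩ :=
        exists_leading (cuspFun_mem_qMero M A G'.2) (cuspFun_ne_zero A hG')
      obtain ⟨t, -, ht⟩ := exists_tendsto_root (ℓ := n) (mdiff_cuspFun (M := M) A hh')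
        hu.continuousAt hu0 (hev.mono fun τ hτ => (hp' _).trans hτ)
      rw [← cuspExp_apply] at ht
      obtain ⟨j, hj⟩ : ∃ j : ℤ, (cuspExp M A G').order = j + K₀ :=
        ⟨_, (sub_add_cancel _ K₀).symm⟩
      have hj0 : 0 ≤ j := by
        have := le_order_of_forall_coeff (cuspExp_ne_zero hG' A) (hb' A)
        rw [hK₀] at hj
        omega
      have h1 : (fun τ : ℍ => exp (2 * Real.pi * Complex.I * j * τ / n))
          =O[atImInfty] (1 : ℍ → ℂ) :=
        IsBigO.of_bound 1 (Eventually.of_forall fun τ => by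
          simpa using norm_exp_le_one_of_nonneg hj0 τ)
      refine ((ht.isBigO_one ℂ).mul h1).congr' (Eventually.of_forall fun τ => ?_)
        (Eventually.of_forall fun τ => by simp)
      have he : exp (2 * Real.pi * Complex.I * ((j + K₀ : ℤ) : ℂ) * τ / n) =
          exp (2 * Real.pi * Complex.I * j * τ / n) *
            exp (2 * Real.pi * Complex.I * K₀ * τ / n) := by
        rw [← exp_add]; push_cast; ring_nf
      simp only [hj, he]
      have e1 := exp_ne_zero (2 * Real.pi * Complex.I * j * τ / n)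
      have e2 := exp_ne_zero (2 * Real.pi * Complex.I * K₀ * τ / n)
      field_simp
    have h3 := (hroot G₁ r hG₁ hr hrp hb₁).sub ((hroot G₂ s hG₂ hs hsp hb₂).const_mul_left c)
    refine (h3.pow n).congr' (Eventually.of_forall fun τ => ?_)
      (Eventually.of_forall fun τ => by simp)
    simp only [Galois.DS.cuspFun, ← exp_mul_natCast_div_pow (n := n) K₀ τ, ← div_pow, hGdef,
      coe_toLevel, sub_div, mul_div_assoc]
  have hlt : (qExp1 M G₁).order < (qExp1 M G).order := by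
    refine lt_order_of_tendsto_zero (weakMod_le_qMero (modularGroup_T_mem_Gamma1 M) G.2)
      ((coe_ne_zero_iff M).mpr hG) ?_
    rw [← hK] at hlimb
    have h3 := (hlima.sub (hlimb.const_mul c)).pow n
    rw [show a - c * b = 0 by simp [c, div_mul_cancel₀ _ hb0], zero_pow hn] at h3
    refine h3.congr fun τ => ?_
    rw [← exp_mul_natCast_div_pow (n := n)]
    simp only [hGdef, coe_toLevel]
    rw [← div_pow, sub_div, mul_div_assoc c]
  exact absurd (hm₁ G hclass hbound) (not_le.mpr hlt)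

/-- Conjugates of distinguished members are distinguished. -/
theorem IsMaxRootRep.conj (hC : ConjStable Γ M) {σ : ℂ ≃+* ℂ} {φ : RootHom Γ n}
    {G G' : modRing M} (hG : IsMaxRootRep φ G) (hG' : (G' : ℍ → ℂ) ∈ weakMod Γ)
    (h : IsConjFn M σ G G') : IsMaxRootRep (galRoot hC σ φ) G' := by
  obtain ⟨hc, hb, hl, hm⟩ := hG
  have hpolar : ∀ {τ : ℂ ≃+* ℂ} {H H' : modRing M}, IsConjFn M τ H H' →
      H ∈ polarSpace M (n * M) → H' ∈ polarSpace M (n * M) := fun {τ H H'} hHH hH A i hi => by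
    obtain ⟨A', -, -, hA⟩ := exists_cusp_conj M hC.base hC.five_le τ A
    rw [hA H H' hHH, coeffMap_coeff, hH A' i hi, map_zero]
  refine ⟨hc.galRoot hC hG' h, hpolar h hb, ?_, fun K hK hKb => ?_⟩
  · rw [HahnSeries.leadingCoeff_eq, show qExp1 M G' = _ from h, order_coeffMap, coeffMap_coeff,
      ← HahnSeries.leadingCoeff_eq, hl]
    exact map_one _
  · obtain ⟨k', hk', hck⟩ := exists_isConjSeries hC σ.symm hK.mem
    have h1 := hK.galRoot hC hk' hck
    rw [← galRoot_trans hC, RingEquiv.self_trans_symm, galRoot_refl hC] at h1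
    set K' : modRing M := toLevel hC ⟨k', hk'⟩
    have hKK : IsConjFn M σ.symm K K' := hck
    have h2 := hm K' h1 (hpolar hKK hKb)
    rw [show qExp1 M K' = _ from hKK, order_coeffMap] at h2
    rwa [show qExp1 M G' = _ from h, order_coeffMap]

/-- There are finitely many classes. -/
theorem finite_rootHom (hC : ConjStable Γ M) : Finite (RootHom Γ n) := by
  have hfg : Group.FG SL(2, ℤ) := ⟨⟨{ModularGroup.S, ModularGroup.T}, by
    rw [Finset.coe_insert, Finset.coe_singleton]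
    exact SpecialLinearGroup.SL2Z_generators⟩⟩
  haveI : Γ.FiniteIndex := Subgroup.finiteIndex_of_le hC.gamma1_le
  have hΓ : Group.FG Γ := inferInstance
  obtain ⟨s, hs⟩ := hΓ.out
  refine Finite.of_injective
    (fun (φ : RootHom Γ n) (x : s) =>
      (Additive.toMul (φ.1 (Additive.ofMul (x : Γ))) : rootsOfUnity n ℂ))
    fun φ ψ h => Subtype.ext (AddMonoidHom.ext fun γ => ?_)
  have : Additive.toMul γ ∈ Subgroup.closure (s : Set Γ) := hs ▸ Subgroup.mem_top _
  have key : ∀ x : Γ, x ∈ Subgroup.closure (s : Set Γ) →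
      φ.1 (Additive.ofMul x) = ψ.1 (Additive.ofMul x) := by
    intro x hx
    induction hx using Subgroup.closure_induction with
    | mem x hx => exact Additive.toMul.injective (congrFun h ⟨x, hx⟩)
    | one => simp
    | mul x y _ _ hx hy => simp [hx, hy]
    | inv x _ hx => simp [hx]
  exact key _ this

end FermatLib.MLT.LGC

end
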