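import Fermat.Agent.Galois.DS.QbarAction
import Fermat.Agent.MLT.LGC.DictionaryMaxRep

/-!
# The Galois representation on the classes of `Γ_H`

Every class has a function with coefficients in `ℚ̄` at `∞`; automorphisms of `ℚ̄` act on these
coefficients, through a finite quotient.
-/

set_option autoImplicit false
set_option linter.unusedSectionVars false

noncomputable section

open UpperHalfPlane hiding I
open CongruenceSubgroup ModularCurve
open scoped MatrixGroups Manifold

namespace FermatLib.MLT.LGC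

open FermatLib.Modular FermatLib.Galois.DS

local notation "Γℚ" => (AlgebraicClosure ℚ ≃ₐ[ℚ] AlgebraicClosure ℚ)
local notation "ι₀" => complexEmbedding

variable {Γ : Subgroup SL(2, ℤ)} {M : ℕ} [NeZero M] (hC : ConjStable Γ M) {n : ℕ} [NeZero n]
  {σ : ℂ ≃+* ℂ} {φ : RootHom Γ n}
include hC

theorem IsMaxRootRep.coeff_galRoot {G G₁ : modRing M} (hG : IsMaxRootRep φ G)
    (hG₁ : IsMaxRootRep (galRoot hC σ φ) G₁) (i : ℤ) :
    (qExp1 M G₁).coeff i = σ ((qExp1 M G).coeff i) := by
  obtain ⟨g', hg', hc⟩ := exists_isConjSeries hC σ hG.1.mem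
  set G' : modRing M := toLevel hC ⟨g', hg'⟩
  have h : IsConjFn M σ G G' := hc
  rw [hG₁.eq hC (hG.conj hC (G' := G') hg' h), h.coeff_eq]

/-- The coefficients of the distinguished member are algebraic. -/
theorem IsMaxRootRep.coeff_mem {G : modRing M} (hG : IsMaxRootRep φ G) (i : ℤ) :
    (qExp1 M G).coeff i ∈ (ι₀).range := by
  have := finite_rootHom (n := n) hC
  choose R hR using fun ψ : RootHom Γ n => exists_isMaxRootRep hC ψ
  refine FermatLib.Curve.mem_range_complexEmbedding_of_finite_orbit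
    ((Set.finite_range fun ψ : RootHom Γ n => (qExp1 M (R ψ)).coeff i).subset ?_)
  rintro _ ⟨τ, rfl⟩
  exact ⟨galRoot hC τ.toRingEquiv φ, hG.coeff_galRoot hC (σ := τ.toRingEquiv) (hR _) i⟩

/-- **Every class has a function with algebraic coefficients at `∞`.** -/
theorem exists_isRootClass_algebraic (φ : RootHom Γ n) : ∃ g : ℍ → ℂ,
    IsRootClass Γ n g φ.1 ∧ ∀ i : ℤ, (qExpL g).coeff i ∈ (ι₀).range := by
  obtain ⟨G, hG⟩ := exists_isMaxRootRep hC φ
  exact ⟨G, hG.1, fun i => hG.coeff_mem hC i⟩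

theorem galRoot_eq_self {g : ℍ → ℂ} (hg : IsRootClass Γ n g φ.1)
    (hσ : ∀ i, σ ((qExpL g).coeff i) = (qExpL g).coeff i) : galRoot hC σ φ = φ := by
  refine galRoot_eq hC hg (HahnSeries.ext (funext fun i => ?_)) hg
  rw [coeffMap_coeff]
  exact (hσ i).symm

/-- The action on classes depends only on the action on algebraic numbers. -/
theorem galRoot_congr {σ τ : ℂ ≃+* ℂ} (h : ∀ a, σ (ι₀ a) = τ (ι₀ a)) (φ : RootHom Γ n) :
    galRoot hC σ φ = galRoot hC τ φ := by
  obtain ⟨g, hg, hcoeff⟩ := exists_isRootClass_algebraic hC φ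
  have h1 : galRoot hC (σ.trans τ.symm) φ = φ := by
    refine galRoot_eq_self hC hg fun i => ?_
    obtain ⟨a, ha⟩ := hcoeff i
    rw [← ha]
    show τ.symm (σ (ι₀ a)) = _
    rw [h, τ.symm_apply_apply]
    rfl
  conv_rhs => rw [← h1]
  rw [← galRoot_trans hC]
  congr 1
  ext x
  simp

variable (n) in
/-- The Galois representation on parabolic homomorphisms `Γ → μₙ`. -/
def rootRep : Γℚ →* AddMonoid.End (RootHom Γ n) where
  toFun σ := rootGal hC n (qbarExt σ)
  map_one' := AddMonoidHom.ext fun φ => by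
    refine (galRoot_congr hC (fun a => ?_) φ).trans (galRoot_refl hC φ)
    rw [qbarExt_apply]; rfl
  map_mul' σ τ := AddMonoidHom.ext fun φ => by
    show galRoot hC _ φ = galRoot hC _ (galRoot hC _ φ)
    rw [← galRoot_trans hC]
    refine galRoot_congr hC (fun a => ?_) φ
    rw [qbarExt_apply, RingEquiv.trans_apply, qbarExt_apply, qbarExt_apply]
    rfl

theorem rootRep_apply {σ : Γℚ} {s : ℂ ≃+* ℂ} (h : ∀ a, s (ι₀ a) = ι₀ (σ a))
    (φ : RootHom Γ n) : rootRep hC n σ φ = galRoot hC s φ :=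
  galRoot_congr hC (fun a => by rw [qbarExt_apply, h]) φ

/-- The defining property: conjugate functions give conjugate classes. -/
theorem IsRootClass.rootRep {σ : Γℚ} {s : ℂ ≃+* ℂ} (hs : ∀ a, s (ι₀ a) = ι₀ (σ a)) {g g' : ℍ → ℂ}
    (h : IsRootClass Γ n g φ.1) (hg' : g' ∈ weakMod Γ) (hc : IsConjSeries s g g') :
    IsRootClass Γ n g' (LGC.rootRep hC n σ φ).1 := by
  rw [rootRep_apply hC hs]
  exact h.galRoot hC hg' hc

/-- An automorphism moves the coefficients as it moves the classes. -/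
theorem rootRep_coeff (σ : Γℚ) {G G' : modRing M} (hG : IsMaxRootRep φ G)
    (hG' : IsMaxRootRep (rootRep hC n σ φ) G') (i : ℤ) (a b : AlgebraicClosure ℚ)
    (ha : ι₀ a = (qExp1 M G).coeff i) (hb : ι₀ b = (qExp1 M G').coeff i) : σ a = b := by
  refine (ι₀).injective ?_
  rw [rootRep_apply hC (s := qbarExt σ) (qbarExt_apply σ)] at hG'
  show ι₀ (σ a) = ι₀ b
  rw [← qbarExt_apply, ha, hb]
  exact (hG.coeff_galRoot hC hG' i).symm

/-- The representation factors through a finite Galois group. -/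
theorem rootRep_factors : GaloisFactorsThroughFiniteLevel (rootRep hC n) := by
  classical
  have := finite_rootHom (n := n) hC
  choose R hR using fun ψ : RootHom Γ n => exists_isMaxRootRep hC ψ
  choose a ha using fun (ψ : RootHom Γ n) (i : ℤ) => (hR ψ).coeff_mem hC i
  set L : IntermediateField ℚ (AlgebraicClosure ℚ) :=
    IntermediateField.adjoin ℚ (Set.range fun x : RootHom Γ n × ℤ => a x.1 x.2) with hL
  have hact : ∀ (σ : Γℚ) (ψ : RootHom Γ n) (i : ℤ),
      σ (a ψ i) = a (rootRep hC n σ ψ) i := fun σ ψ i =>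
    rootRep_coeff hC σ (hR ψ) (hR _) i _ _ (ha ψ i) (ha _ i)
  have hfix : ∀ σ : Γℚ, (∀ ψ, rootRep hC n σ ψ = ψ) → σ ∈ L.fixingSubgroup := by
    intro σ hσ
    rw [hL, IntermediateField.mem_fixingSubgroup_iff]
    intro x hx
    induction hx using IntermediateField.adjoin_induction with
    | mem x hx => obtain ⟨⟨ψ, i⟩, rfl⟩ := hx; simp only [hact, hσ]
    | algebraMap q => exact AlgEquiv.commutes _ _
    | add x y _ _ hx hy => rw [map_add, hx, hy]
    | inv x _ hx => rw [map_inv₀, hx]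
    | mul x y _ _ hx hy => rw [map_mul, hx, hy]
  haveI : Algebra.IsAlgebraic ℚ (AlgebraicClosure ℚ) := AlgebraicClosure.isAlgebraic ℚ
  haveI : IsAlgClosure ℚ (AlgebraicClosure ℚ) := ⟨inferInstance, inferInstance⟩
  haveI : IsGalois ℚ (AlgebraicClosure ℚ) := IsAlgClosure.isGalois ℚ _
  haveI hfi : L.fixingSubgroup.FiniteIndex := by
    haveI : Finite (AddMonoid.End (RootHom Γ n)) :=
      Finite.of_injective _ (DFunLike.coe_injective (F := RootHom Γ n →+ RootHom Γ n))
    refine finiteIndex_of_ker_le (rootRep hC n) fun σ hσ => hfix σ fun ψ => ?_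
    rw [MonoidHom.mem_ker.mp hσ]
    rfl
  refine ⟨L, (InfiniteGalois.isOpen_iff_finite L).mp
    (Subgroup.isOpen_of_isClosed_of_finiteIndex _ (InfiniteGalois.fixingSubgroup_isClosed L)),
    fun σ hσ => AddMonoidHom.ext fun φ => ?_⟩
  refine galRoot_eq_self hC (hR φ).1 fun i => ?_
  rw [show (qExpL ((R φ : modRing M) : ℍ → ℂ)).coeff i = ι₀ (a φ i) from (ha φ i).symm,
    qbarExt_apply,
    hσ _ (IntermediateField.subset_adjoin ℚ _ ⟨(φ, i), rfl⟩)]

end FermatLib.MLT.LGC

end
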