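import Fermat.Agent.MLT.LGC.SeriesHull
import Fermat.Agent.MLT.LGC.DictionaryDefs

/-!
# The field of algebraic expansions at `∞` of functions on `Γ`

`classField Γ` is generated over `ℚ̄` by the series with algebraic coefficients which are the
expansions of weakly modular functions on `Γ`.  It lies in `seriesHull ℚ̄`.
-/

set_option autoImplicit false

noncomputable section

open ModularCurve CongruenceSubgroup
open scoped MatrixGroups

namespace FermatLib.MLT.LGC

open FermatLib.Modular FermatLib.Galois.DS

local notation "Qbar" => AlgebraicClosure ℚ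

/-- The algebraic series which are expansions of weakly modular functions on `Γ`. -/
def classSeries (Γ : Subgroup SL(2, ℤ)) : Set (LaurentSeries Qbar) :=
  {x | ∃ g ∈ weakMod Γ, coeffMap complexEmbedding.toRingHom x = qExpL g}

/-- The field they generate. -/
def classField (Γ : Subgroup SL(2, ℤ)) : IntermediateField Qbar (LaurentSeries Qbar) :=
  IntermediateField.adjoin Qbar (classSeries Γ)

theorem subset_classField {Γ : Subgroup SL(2, ℤ)} {x : LaurentSeries Qbar}
    (hx : x ∈ classSeries Γ) : x ∈ classField Γ :=
  IntermediateField.subset_adjoin _ _ hx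

/-- An expansion lies in the hull. -/
theorem classSeries_subset_seriesHull {Γ : Subgroup SL(2, ℤ)} {M : ℕ} [NeZero M]
    (hΓ : ConjStable Γ M) : classSeries Γ ⊆ seriesHull Qbar := by
  rintro x ⟨g, hg, hx⟩
  refine mem_seriesHull_of_coeffMap ?_
  rw [hx]
  exact qExp1_mem_seriesHull hΓ.base hΓ.five_le ⟨g, weakMod_mono hΓ.gamma1_le hg⟩

theorem classField_le_seriesHull {Γ : Subgroup SL(2, ℤ)} {M : ℕ} [NeZero M]
    (hΓ : ConjStable Γ M) : classField Γ ≤ seriesHull Qbar :=
  IntermediateField.adjoin_le_iff.mpr (classSeries_subset_seriesHull hΓ)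

end FermatLib.MLT.LGC

end
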