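import Mathlib

/-!
# Fixed elements of a decomposition group and `p`-th powers in the residue field

`G` is a finite group of field automorphisms of `E` and `W` a valuation subring of `E`. An element
of the residue field fixed by the decomposition group of `W` has a `q`-power (`q` the characteristic
exponent) which is the residue of a `G`-fixed element. Consequently, a multiplicative endomorphism
`T` of the residue field commuting with the decomposition group and acting on `p`-th roots of
unity by `e` satisfies `T c = c ^ e * d ^ p` for every base residue `c` that is a `p`-th power.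
-/

set_option autoImplicit false

noncomputable section

open Polynomial IsLocalRing

namespace FermatLib.MLT.LGC

theorem charP_of_expChar {R : Type*} [Ring R] {q : ℕ} [h : ExpChar R q] (hq : q.Prime) :
    CharP R q := by
  cases h with
  | zero => exact absurd hq Nat.not_prime_one
  | prime _ => assumption

variable {E : Type*} [Field E] {G : Type*} [Group G] [MulSemiringAction G E]
  (W : ValuationSubring E)

variable (G) in
/-- The decomposition group of `W`. -/
def decompGroup : Subgroup G where
  carrier := {g | ∀ x : E, g • x ∈ W ↔ x ∈ W}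
  one_mem' x := by rw [one_smul]
  mul_mem' {g h} hg hh x := by rw [mul_smul, hg, hh]
  inv_mem' {g} hg x := by rw [← hg (g⁻¹ • x), smul_inv_smul]

/-- An element of the decomposition group as an automorphism of `W`. -/
def decompEquiv (g : decompGroup G W) : W ≃+* W where
  toFun x := ⟨(g : G) • (x : E), (g.2 x).mpr x.2⟩
  invFun x := ⟨(g : G)⁻¹ • (x : E), ((g⁻¹).2 x).mpr x.2⟩
  left_inv _ := Subtype.ext (inv_smul_smul _ _)
  right_inv _ := Subtype.ext (smul_inv_smul _ _)
  map_mul' _ _ := Subtype.ext (smul_mul' _ _ _)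
  map_add' _ _ := Subtype.ext (smul_add _ _ _)

@[simp]
theorem coe_decompEquiv (g : decompGroup G W) (x : W) :
    (decompEquiv W g x : E) = (g : G) • (x : E) := rfl

/-- The action of the decomposition group on the residue field. -/
def decompResidue (g : decompGroup G W) : ResidueField W ≃+* ResidueField W :=
  ResidueField.mapEquiv (decompEquiv W g)

@[simp]
theorem decompResidue_residue (g : decompGroup G W) (x : W) :
    decompResidue W g (residue W x) = residue W (decompEquiv W g x) := rfl

variable (G) in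
/-- The residues of the `G`-fixed elements of `W`. -/
def fixedResidues : Subfield (ResidueField W) where
  carrier := {z | ∃ x : W, (∀ g : G, g • (x : E) = x) ∧ residue W x = z}
  one_mem' := ⟨1, fun g => by simp, map_one _⟩
  zero_mem' := ⟨0, fun g => by simp, map_zero _⟩
  mul_mem' := by
    rintro _ _ ⟨x, hx, rfl⟩ ⟨y, hy, rfl⟩
    exact ⟨x * y, fun g => by simp [smul_mul', hx g, hy g], map_mul _ _ _⟩
  add_mem' := by
    rintro _ _ ⟨x, hx, rfl⟩ ⟨y, hy, rfl⟩
    exact ⟨x + y, fun g => by simp [smul_add, hx g, hy g], map_add _ _ _⟩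
  neg_mem' := by
    rintro _ ⟨x, hx, rfl⟩
    exact ⟨-x, fun g => by simp [smul_neg, hx g], map_neg _ _⟩
  inv_mem' := by
    rintro _ ⟨x, hx, rfl⟩
    by_cases h : residue W x = 0
    · exact ⟨0, fun g => by simp, by rw [h, inv_zero, map_zero]⟩
    · obtain ⟨u, hu⟩ := residue_ne_zero_iff_isUnit x |>.mp h
      refine ⟨(u⁻¹ : Wˣ), fun g => ?_, ?_⟩
      · have h1 : ((u⁻¹ : Wˣ) : W) * x = 1 := by rw [← hu, Units.inv_mul]
        have h2 := congrArg (Subtype.val) h1
        simp only [MulMemClass.coe_mul, OneMemClass.coe_one] at h2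
        rw [eq_inv_of_mul_eq_one_left h2, smul_inv'', hx g]
      · rw [← hu, eq_comm, map_units_inv]

variable [Finite G]

theorem mem_decompGroup_of_forall {g : G} (h : ∀ x ∈ W, g • x ∈ W) : g ∈ decompGroup G W := by
  intro x
  refine ⟨fun hx => ?_, h x⟩
  have hpow : ∀ m : ℕ, ∀ y ∈ W, g ^ m • y ∈ W := by
    intro m
    induction m with
    | zero => simp
    | succ m ih =>
      intro y hy
      rw [pow_succ', mul_smul]
      exact h _ (ih y hy)
  have h1 := hpow (orderOf g - 1) _ hx
  rwa [← mul_smul, ← pow_succ, Nat.sub_add_cancel (orderOf_pos g), pow_orderOf_eq_one,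
    one_smul] at h1

/-- Every element of `E` is a quotient of elements of `⋂ g W` with denominator integral,
and `a / s = x` where `s` is a unit at each conjugate of `W` at which `x` is integral. -/
theorem exists_div_mem_all (x : E) : ∃ a s : E, (∀ g : G, g • a ∈ W) ∧ (∀ g : G, g • s ∈ W) ∧
    a = x * s ∧ s ≠ 0 ∧ ∀ g : G, g • x ∈ W → g • s ∉ W.nonunits := by
  classical
  cases nonempty_fintype G
  let bad : G → Set ℕ := fun g => {k | k.Prime ∧ ∃ h : g • x ∈ W,
    ((k : ResidueField W) = 0 ∨
      (residue W ⟨g • x, h⟩ ≠ 1 ∧ residue W ⟨g • x, h⟩ ^ k = 1))}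
  have hfin : ∀ g, (bad g).Finite := by
    intro g
    have hsub : bad g ⊆ {k | k.Prime ∧ (k : ResidueField W) = 0} ∪
        {k | k.Prime ∧ ∃ h : g • x ∈ W,
          residue W ⟨g • x, h⟩ ≠ 1 ∧ residue W ⟨g • x, h⟩ ^ k = 1} := by
      rintro k ⟨hk, h, h0 | h1⟩
      · exact Or.inl ⟨hk, h0⟩
      · exact Or.inr ⟨hk, h, h1⟩
    refine (Set.Finite.union ?_ ?_).subset hsub
    · refine Set.Subsingleton.finite ?_
      rintro k ⟨hk, hk0⟩ l ⟨hl, hl0⟩
      have := (CharP.charP_iff_prime_eq_zero hk).mpr hk0
      exact (Nat.prime_dvd_prime_iff_eq hk hl).mp ((CharP.cast_eq_zero_iff _ k l).mp hl0)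
    · refine Set.Subsingleton.finite ?_
      rintro k ⟨hk, h, h1, hk1⟩ l ⟨hl, _, -, hl1⟩
      by_contra hkl
      have := pow_gcd_eq_one.mpr ⟨hk1, hl1⟩
      rw [(Nat.coprime_primes hk hl).mpr hkl, pow_one] at this
      exact h1 this
  obtain ⟨k, hk, hknot⟩ := Nat.infinite_setOfPred_prime.exists_notMem_finset
    ((Set.finite_iUnion hfin).toFinset)
  simp only [Set.Finite.mem_toFinset, Set.mem_iUnion, not_exists] at hknot
  set f := ∑ i ∈ Finset.range k, x ^ i with hf
  have key : ∀ g : G, g • f⁻¹ ∈ W ∧ g • (x * f⁻¹) ∈ W ∧ g • f ≠ 0 ∧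
      (g • x ∈ W → g • f⁻¹ ∉ W.nonunits) := by
    intro g
    have hgf : g • f = ∑ i ∈ Finset.range k, (g • x) ^ i := by simp [hf, Finset.smul_sum, smul_pow']
    rw [smul_inv'', smul_mul', smul_inv'']
    by_cases h : g • x ∈ W
    · set z : W := ⟨g • x, h⟩
      set w : W := ∑ i ∈ Finset.range k, z ^ i
      have hw : IsUnit w := by
        rw [← residue_ne_zero_iff_isUnit, map_sum]
        simp only [map_pow]
        intro h0
        rcases eq_or_ne (residue W z) 1 with h1 | h1
        · refine hknot g ⟨hk, h, Or.inl ?_⟩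
          simpa [h1] using h0
        · refine hknot g ⟨hk, h, Or.inr ⟨h1, ?_⟩⟩
          have := mul_geom_sum (residue W z) k
          rw [h0, mul_zero, eq_comm, sub_eq_zero] at this
          exact this
      obtain ⟨u, hu⟩ := hw
      have hw' : (w : E) = g • f := by simp [w, z, hgf]
      have hinv : (g • f)⁻¹ = ((u⁻¹ : Wˣ) : W) := by
        rw [← hw', ← hu]
        refine (eq_inv_of_mul_eq_one_left ?_).symm
        rw [← MulMemClass.coe_mul, Units.inv_mul, OneMemClass.coe_one]
      refine ⟨hinv ▸ ((u⁻¹ : Wˣ) : W).2, mul_mem h (hinv ▸ ((u⁻¹ : Wˣ) : W).2), ?_, fun _ hn => ?_⟩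
      · rw [← hw', ← hu]
        simp
      · rw [hinv, ValuationSubring.coe_mem_nonunits_iff] at hn
        exact hn (Units.isUnit _)
    · have hy : (g • x)⁻¹ ∈ W := (W.mem_or_inv_mem _).resolve_left h
      have hx0 : g • x ≠ 0 := fun h0 => h (h0 ▸ W.zero_mem)
      set y : W := ⟨(g • x)⁻¹, hy⟩
      have hym : residue W y = 0 := by
        rw [residue_eq_zero_iff, mem_maximalIdeal]
        intro hu
        obtain ⟨u, hu'⟩ := hu
        have h2 : ((u⁻¹ : Wˣ) : W) * y = 1 := by rw [← hu', Units.inv_mul]
        have h3 := congrArg Subtype.val h2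
        simp only [MulMemClass.coe_mul, OneMemClass.coe_one, y] at h3
        rw [mul_inv_eq_one₀ hx0] at h3
        exact h (h3 ▸ ((u⁻¹ : Wˣ) : W).2)
      set w : W := ∑ i ∈ Finset.range k, y ^ i
      have hw : IsUnit w := by
        obtain ⟨j, rfl⟩ : ∃ j, k = j + 1 := ⟨k - 1, (Nat.succ_pred hk.ne_zero).symm⟩
        rw [← residue_ne_zero_iff_isUnit, map_sum, Finset.sum_range_succ']
        simp [hym]
      obtain ⟨u, hu⟩ := hw
      obtain ⟨j, hkj⟩ : ∃ j, k = j + 2 := ⟨k - 2, by have := hk.two_le; omega⟩
      have hfw : g • f = (g • x) ^ (k - 1) * (w : E) := by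
        rw [hgf, show (w : E) = ∑ i ∈ Finset.range k, ((g • x)⁻¹) ^ i by simp [w, y],
          Finset.mul_sum, ← Finset.sum_range_reflect]
        refine Finset.sum_congr rfl fun i hi => ?_
        rw [Finset.mem_range] at hi
        rw [inv_pow, ← div_eq_mul_inv, pow_sub₀ _ hx0 (by omega), ← div_eq_mul_inv]
      have hw0 : (w : E) ≠ 0 := by rw [← hu]; simp
      have hinv : (g • f)⁻¹ = ((y ^ (k - 1) * ((u⁻¹ : Wˣ) : W) : W) : E) := by
        rw [hfw, mul_inv, ← inv_pow, ← hu]
        simp only [MulMemClass.coe_mul, SubmonoidClass.coe_pow, y]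
        congr 1
        refine (eq_inv_of_mul_eq_one_left ?_).symm
        rw [← MulMemClass.coe_mul, Units.inv_mul, OneMemClass.coe_one]
      refine ⟨hinv ▸ SetLike.coe_mem _, ?_, ?_, fun h' => absurd h' h⟩
      · rw [hinv, show k - 1 = j + 1 by omega, pow_succ', mul_assoc, MulMemClass.coe_mul,
          show ((y : W) : E) = (g • x)⁻¹ from rfl, mul_inv_cancel_left₀ hx0]
        exact SetLike.coe_mem _
      · rw [hfw]
        exact mul_ne_zero (pow_ne_zero _ hx0) hw0
  refine ⟨x * f⁻¹, f⁻¹, fun g => (key g).2.1, fun g => (key g).1, rfl, ?_, fun g => (key g).2.2.2⟩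
  intro h0
  have := (key 1).2.2.1
  rw [one_smul] at this
  exact this (inv_eq_zero.mp h0)

/-- If `g` is outside the decomposition group, some element integral at all conjugates of `W` is
a unit at `W` and a nonunit at `g⁻¹ W`. -/
theorem exists_separating {g : G} (hg : g ∉ decompGroup G W) :
    ∃ e : E, (∀ h : G, h • e ∈ W) ∧ e ∉ W.nonunits ∧ g • e ∈ W.nonunits := by
  by_contra hne
  push Not at hne
  refine hg (mem_decompGroup_of_forall W fun x hx => ?_)
  obtain ⟨a, s, ha, hs, has, hs0, hunit⟩ := exists_div_mem_all (G := G) W x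
  have h1 : s ∉ W.nonunits := by simpa using hunit 1 (by rwa [one_smul])
  have h2 : g • s ∉ W.nonunits := fun h => hne s hs h1 h
  have hgs0 : g • s ≠ 0 := fun h => hs0 ((smul_eq_zero_iff_eq g).mp h)
  have hu : IsUnit (⟨g • s, hs g⟩ : W) := by
    by_contra hnu
    exact h2 (ValuationSubring.coe_mem_nonunits_iff.mpr hnu)
  obtain ⟨u, hu'⟩ := hu
  have hx' : g • x = (g • a) * ((u⁻¹ : Wˣ) : W) := by
    rw [has, smul_mul', mul_assoc, show (g • s : E) = ((u : W) : E) by rw [hu'],
      ← MulMemClass.coe_mul, Units.mul_inv, OneMemClass.coe_one, mul_one]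
  rw [hx']
  exact mul_mem (ha g) (SetLike.coe_mem _)

/-- The reduced characteristic polynomial of an element concentrated at `W`. -/
theorem pow_expChar_mem_of_concentrated (q : ℕ) [ExpChar (ResidueField W) q] (b : E)
    (hb : ∀ g : G, g • b ∈ W) (hb' : ∀ g : G, g ∉ decompGroup G W → g • b ∈ W.nonunits)
    (hfix : ∀ g : decompGroup G W, decompResidue W g (residue W ⟨b, by simpa using hb 1⟩) =
      residue W ⟨b, by simpa using hb 1⟩) :
    ∃ m : ℕ, residue W ⟨b, by simpa using hb 1⟩ ^ q ^ m ∈ fixedResidues G W := by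
  classical
  cases nonempty_fintype G
  set β := residue W ⟨b, by simpa using hb 1⟩
  set P : Polynomial W := ∏ g : G, (X - C ⟨g • b, hb g⟩) with hP
  have hcoeff : ∀ i, residue W (P.coeff i) ∈ fixedResidues G W := by
    intro i
    refine ⟨P.coeff i, fun g => ?_, rfl⟩
    have h1 : P.map W.subtype = ∏ h : G, (X - C (h • b)) := by
      rw [hP, Polynomial.map_prod]
      simp
    have h2 : ((P.coeff i : W) : E) = (∏ h : G, (X - C (h • b))).coeff i := by
      rw [← h1, coeff_map]; rfl
    rw [h2]
    have h3 : (∏ h : G, (X - C (h • b))).map (MulSemiringAction.toRingHom G E g)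
        = ∏ h : G, (X - C (h • b)) := by
      rw [Polynomial.map_prod]
      refine Fintype.prod_equiv (Equiv.mulLeft g) _ _ fun h => ?_
      simp [mul_smul]
    conv_rhs => rw [← h3, coeff_map]
    rfl
  set d := Fintype.card (decompGroup G W)
  have hmap : P.map (residue W) = (X - C β) ^ d * X ^ (Fintype.card G - d) := by
    rw [hP, Polynomial.map_prod, ← Finset.prod_filter_mul_prod_filter_not Finset.univ
      (fun g => g ∈ decompGroup G W)]
    congr 1
    · rw [Finset.prod_eq_pow_card (b := X - C β)]
      · congr 1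
        simp [d, Fintype.card_subtype]
      · intro g hg
        simp only [Finset.mem_filter, Finset.mem_univ, true_and] at hg
        have := hfix ⟨g, hg⟩
        rw [decompResidue_residue] at this
        rw [Polynomial.map_sub, map_X, map_C]
        exact congrArg (fun z => X - C z) this
    · rw [Finset.prod_eq_pow_card (b := (X : Polynomial (ResidueField W)))]
      · congr 1
        have h := Finset.card_filter_add_card_filter_not (s := (Finset.univ : Finset G))
          (fun g => g ∈ decompGroup G W)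
        rw [Finset.card_univ] at h
        have hd : (Finset.univ.filter fun g => g ∈ decompGroup G W).card = d := by
          simp [d, Fintype.card_subtype]
        omega
      · intro g hg
        simp only [Finset.mem_filter, Finset.mem_univ, true_and] at hg
        rw [Polynomial.map_sub, map_X, map_C, show residue W ⟨g • b, hb g⟩ = 0 from
          (residue_eq_zero_iff _).mpr ((mem_maximalIdeal _).mpr
            (ValuationSubring.coe_mem_nonunits_iff.mp (hb' g hg))), C_0, sub_zero]
  have hd0 : d ≠ 0 := Fintype.card_ne_zero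
  obtain ⟨m, r, hr, hdm⟩ : ∃ m r : ℕ, ((r : ResidueField W) ≠ 0) ∧ d = q ^ m * r := by
    rcases expChar_is_prime_or_one (ResidueField W) q with hq | hq
    · obtain ⟨m, r, hr, hdm⟩ := Nat.exists_eq_pow_mul_and_not_dvd hd0 q hq.ne_one
      have : CharP (ResidueField W) q := charP_of_expChar hq
      exact ⟨m, r, fun h => hr ((CharP.cast_eq_zero_iff _ q r).mp h), hdm⟩
    · subst hq
      have : CharZero (ResidueField W) := charZero_of_expChar_one' _
      exact ⟨0, d, Nat.cast_ne_zero.mpr hd0, by simp⟩
  have hr0 : r ≠ 0 := fun h => hr (by simp [h])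
  have hexp : (X - C β) ^ d = ((X ^ r).comp (X - C (β ^ q ^ m))).comp (X ^ q ^ m) := by
    rw [X_pow_comp, pow_comp, sub_comp, X_comp, C_comp, hdm, pow_mul, sub_pow_expChar_pow,
      ← C_pow]
  refine ⟨m, ?_⟩
  have hcd : ∀ i, ((X - C β) ^ d).coeff i ∈ fixedResidues G W := by
    intro i
    have := hcoeff (i + (Fintype.card G - d))
    rwa [← coeff_map, hmap, coeff_mul_X_pow] at this
  have hq0 : 0 < q ^ m := pow_pos (expChar_pos (ResidueField W) q) m
  have key := hcd (q ^ m * (r - 1))
  rw [hexp, ← expand_eq_comp_X_pow, Polynomial.coeff_expand_mul' hq0, X_pow_comp,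
    sub_eq_add_neg, ← map_neg, coeff_X_add_C_pow,
    show r - (r - 1) = 1 by omega, pow_one] at key
  rw [Nat.choose_symm (by omega : 1 ≤ r), Nat.choose_one_right] at key
  have hrmem : (r : ResidueField W) ∈ fixedResidues G W := natCast_mem _ r
  have h2 := (fixedResidues G W).neg_mem ((fixedResidues G W).mul_mem key
    ((fixedResidues G W).inv_mem hrmem))
  convert h2 using 1
  field_simp

/-- A residue fixed by the decomposition group has a `q`-power coming from a fixed element. -/
theorem exists_pow_expChar_mem_fixedResidues (q : ℕ) [ExpChar (ResidueField W) q]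
    (z : ResidueField W) (hz : ∀ g : decompGroup G W, decompResidue W g z = z) :
    ∃ m : ℕ, z ^ q ^ m ∈ fixedResidues G W := by
  classical
  cases nonempty_fintype G
  obtain ⟨⟨x, hx⟩, rfl⟩ := residue_surjective z
  obtain ⟨a, s, ha, hs, has, -, hsu⟩ := exists_div_mem_all (G := G) W x
  have hs1 : s ∉ W.nonunits := by simpa using hsu 1 (by rwa [one_smul])
  choose! e he using fun g : G => exists_separating (W := W) (g := g)
  set F := (Finset.univ : Finset G).filter fun g => g ∉ decompGroup G W with hF
  set E₀ := s * ∏ g ∈ F, e g with hE₀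
  have hE₀all : ∀ h : G, h • E₀ ∈ W := fun h => by
    rw [hE₀, smul_mul', Finset.smul_prod']
    exact mul_mem (hs h) (prod_mem fun g hg => (he g (Finset.mem_filter.mp hg).2).1 h)
  have hone : ∀ {b : E}, (∀ h : G, h • b ∈ W) → b ∈ W := fun {b} hb => by simpa using hb 1
  have hres0 : residue W ⟨E₀, hone hE₀all⟩ ≠ 0 := by
    have hprod : (⟨E₀, hone hE₀all⟩ : W) = (⟨s, hone hs⟩ : W) *
        ∏ g ∈ F.attach, (⟨e g.1, hone (he g.1 (Finset.mem_filter.mp g.2).2).1⟩ : W) := by
      apply Subtype.ext
      rw [MulMemClass.coe_mul, SubmonoidClass.coe_finsetProd]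
      simp only [hE₀]
      rw [Finset.prod_attach F (fun g => e g)]
    rw [hprod, map_mul, map_prod, mul_ne_zero_iff, Finset.prod_ne_zero_iff]
    refine ⟨fun h => hs1 ?_, fun g _ h => (he g.1 (Finset.mem_filter.mp g.2).2).2.1 ?_⟩ <;>
      exact ValuationSubring.coe_mem_nonunits_iff.mpr
        ((mem_maximalIdeal _).mp ((residue_eq_zero_iff _).mp h))
  have hE₀non : ∀ g : G, g ∉ decompGroup G W → g • E₀ ∈ W.nonunits := by
    intro g hg
    rw [ValuationSubring.mem_nonunits_iff, hE₀, smul_mul', Finset.smul_prod', map_mul, map_prod]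
    refine mul_lt_one_of_nonneg_of_lt_one_right ?_ zero_le ?_
    · exact (W.valuation_le_one_iff _).mpr (hs g)
    · have hgF : g ∈ F := by simp [hF, hg]
      rw [← Finset.mul_prod_erase F _ hgF]
      refine mul_lt_one_of_nonneg_of_lt_one_left zero_le
        (W.mem_nonunits_iff.mp (he g hg).2.2) ?_
      exact Finset.prod_le_one' fun i hi => (W.valuation_le_one_iff _).mpr
        ((he i (Finset.mem_filter.mp (Finset.mem_of_mem_erase hi)).2).1 g)
  -- symmetrise over the decomposition group
  set ε := ∏ h : decompGroup G W, (h : G) • E₀ with hε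
  have hεall : ∀ g : G, g • ε ∈ W := fun g => by
    rw [hε, Finset.smul_prod']
    exact prod_mem fun h _ => by rw [← mul_smul]; exact hE₀all _
  set b := x * ε with hb
  have hbsplit : b = a * ((∏ g ∈ F, e g) *
      ∏ h ∈ Finset.univ.erase (1 : decompGroup G W), (h : G) • E₀) := by
    rw [hb, hε, ← Finset.mul_prod_erase Finset.univ (fun h : decompGroup G W => (h : G) • E₀)
      (Finset.mem_univ 1), OneMemClass.coe_one, one_smul, hE₀, has]
    ring
  have hball : ∀ g : G, g • b ∈ W := fun g => by
    rw [hbsplit, smul_mul', smul_mul', Finset.smul_prod', Finset.smul_prod']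
    refine mul_mem (ha g) (mul_mem ?_ ?_)
    · exact prod_mem fun i hi => (he i (Finset.mem_filter.mp hi).2).1 g
    · exact prod_mem fun h _ => by rw [← mul_smul]; exact hE₀all _
  have hεnon : ∀ g : G, g ∉ decompGroup G W → g • ε ∈ W.nonunits := by
    intro g hg
    rw [ValuationSubring.mem_nonunits_iff, hε, Finset.smul_prod', map_prod,
      ← Finset.mul_prod_erase Finset.univ _ (Finset.mem_univ (1 : decompGroup G W)),
      OneMemClass.coe_one, one_smul]
    refine mul_lt_one_of_nonneg_of_lt_one_left zero_le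
      (W.mem_nonunits_iff.mp (hE₀non g hg)) ?_
    exact Finset.prod_le_one' fun h _ => (W.valuation_le_one_iff _).mpr
      (by rw [← mul_smul]; exact hE₀all _)
  have hbnon : ∀ g : G, g ∉ decompGroup G W → g • b ∈ W.nonunits := by
    intro g hg
    rw [ValuationSubring.mem_nonunits_iff, hbsplit, smul_mul', smul_mul', map_mul, map_mul]
    refine mul_lt_one_of_nonneg_of_lt_one_right ((W.valuation_le_one_iff _).mpr (ha g)) zero_le ?_
    refine mul_lt_one_of_nonneg_of_lt_one_left zero_le ?_ ?_
    · have hgF : g ∈ F := by simp [hF, hg]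
      rw [Finset.smul_prod', map_prod, ← Finset.mul_prod_erase F _ hgF]
      refine mul_lt_one_of_nonneg_of_lt_one_left zero_le
        (W.mem_nonunits_iff.mp (he g hg).2.2) ?_
      exact Finset.prod_le_one' fun i hi => (W.valuation_le_one_iff _).mpr
        ((he i (Finset.mem_filter.mp (Finset.mem_of_mem_erase hi)).2).1 g)
    · rw [Finset.smul_prod', map_prod]
      exact Finset.prod_le_one' fun h _ => (W.valuation_le_one_iff _).mpr
        (by rw [← mul_smul]; exact hE₀all _)
  set εW : W := ⟨ε, hone hεall⟩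
  have hεfix : ∀ g : decompGroup G W, decompResidue W g (residue W εW) = residue W εW := by
    intro g
    rw [decompResidue_residue]
    congr 1
    apply Subtype.ext
    rw [coe_decompEquiv]
    simp only [εW, hε, Finset.smul_prod', ← mul_smul]
    exact Fintype.prod_equiv (Equiv.mulLeft g) _ _ fun h => rfl
  have hbfix : ∀ g : decompGroup G W,
      decompResidue W g (residue W ⟨b, hone hball⟩) = residue W ⟨b, hone hball⟩ := by
    intro g
    have : (⟨b, hone hball⟩ : W) = ⟨x, hx⟩ * εW := Subtype.ext hb
    rw [this, map_mul, map_mul, hz g, hεfix g]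
  have hε0 : residue W εW ≠ 0 := by
    have : εW = ∏ h : decompGroup G W, decompEquiv W h ⟨E₀, hone hE₀all⟩ := by
      apply Subtype.ext
      rw [SubmonoidClass.coe_finsetProd]
      rfl
    rw [this, map_prod, Finset.prod_ne_zero_iff]
    intro h _
    rw [← decompResidue_residue, map_ne_zero_iff _ (decompResidue W h).injective]
    exact hres0
  obtain ⟨m₁, h₁⟩ := pow_expChar_mem_of_concentrated W q ε hεall hεnon hεfix
  obtain ⟨m₂, h₂⟩ := pow_expChar_mem_of_concentrated W q b hball hbnon hbfix
  refine ⟨m₁ + m₂, ?_⟩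
  have hzb : residue W ⟨x, hx⟩ = residue W ⟨b, hone hball⟩ * (residue W εW)⁻¹ := by
    rw [eq_mul_inv_iff_mul_eq₀ hε0, ← map_mul]
    rfl
  rw [hzb, mul_pow, inv_pow]
  refine mul_mem ?_ (inv_mem ?_)
  · rw [pow_add, mul_comm, pow_mul]
    exact pow_mem h₂ _
  · rw [pow_add, pow_mul]
    exact pow_mem h₁ _

/-- **Residue kill.** If `c` is a base residue and a `p`-th power in the residue field, a
multiplicative endomorphism commuting with the decomposition group, preserving the base and acting
by `e` on `p`-th roots of unity multiplies `c` by `e` modulo `p`-th powers of base residues. -/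
theorem residue_kill (p : ℕ) [Fact p.Prime] (hp : (p : ResidueField W) ≠ 0)
    (T : ResidueField W →* ResidueField W)
    (hTcomm : ∀ (g : decompGroup G W) (z : ResidueField W),
      T (decompResidue W g z) = decompResidue W g (T z))
    (hTbase : ∀ z ∈ fixedResidues G W, T z ∈ fixedResidues G W)
    (e : ℕ) (hTroot : ∀ ζ : ResidueField W, ζ ^ p = 1 → T ζ = ζ ^ e)
    {c r : ResidueField W} (hc : c ∈ fixedResidues G W) (hr : r ^ p = c) (hc0 : c ≠ 0) :
    ∃ d ∈ fixedResidues G W, d ≠ 0 ∧ T c = c ^ e * d ^ p := by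
  have hr0 : r ≠ 0 := fun h => hc0 (by rw [← hr, h, zero_pow (Fact.out : p.Prime).ne_zero])
  have hT0 : T r ≠ 0 := by
    intro h
    have := map_mul T r r⁻¹
    rw [mul_inv_cancel₀ hr0, map_one, h, zero_mul] at this
    exact one_ne_zero this
  set y := T r / r ^ e with hy
  have hfixc : ∀ g : decompGroup G W, ∀ z ∈ fixedResidues G W, decompResidue W g z = z := by
    rintro g _ ⟨x, hx, rfl⟩
    rw [decompResidue_residue]
    congr 1
    exact Subtype.ext (hx g)
  have hyfix : ∀ g : decompGroup G W, decompResidue W g y = y := by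
    intro g
    set ζ := decompResidue W g r / r
    have hζ : ζ ^ p = 1 := by
      rw [div_pow, ← map_pow, hr, hfixc g c hc, div_self hc0]
    have hgr : decompResidue W g r = ζ * r := (div_mul_cancel₀ _ hr0).symm
    have hζ0 : ζ ≠ 0 := fun h => by
      rw [h, zero_pow (Fact.out : p.Prime).ne_zero] at hζ
      exact zero_ne_one hζ
    rw [hy, map_div₀, map_pow, ← hTcomm, hgr, map_mul, hTroot ζ hζ, mul_pow,
      mul_div_mul_left _ _ (pow_ne_zero _ hζ0)]
  obtain ⟨q, hq⟩ := ExpChar.exists (ResidueField W)
  obtain ⟨m, hm⟩ := exists_pow_expChar_mem_fixedResidues W q y hyfix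
  have hyp : y ^ p = T c * (c ^ e)⁻¹ := by
    rw [hy, div_pow, ← map_pow, hr, ← pow_mul, mul_comm e p, pow_mul, hr, div_eq_mul_inv]
  have hypmem : y ^ p ∈ fixedResidues G W :=
    hyp ▸ mul_mem (hTbase c hc) (inv_mem (pow_mem hc e))
  have hy0 : y ≠ 0 := div_ne_zero hT0 (pow_ne_zero _ hr0)
  have hcop : Nat.Coprime (q ^ m) p := by
    refine Nat.Coprime.pow_left m ?_
    rcases expChar_is_prime_or_one (ResidueField W) q with hqp | hq1
    · refine (Nat.coprime_primes hqp Fact.out).mpr fun h => hp ?_
      subst h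
      have := charP_of_expChar (R := ResidueField W) hqp
      exact CharP.cast_eq_zero _ q
    · subst hq1
      exact Nat.coprime_one_left p
  refine ⟨y, ?_, hy0, ?_⟩
  · have hb := Nat.gcd_eq_gcd_ab (q ^ m) p
    rw [hcop, Nat.cast_one] at hb
    rw [← zpow_one y, hb, zpow_add₀ hy0, zpow_mul, zpow_mul, zpow_natCast, zpow_natCast]
    exact mul_mem (zpow_mem hm _) (zpow_mem hypmem _)
  · rw [hyp, mul_comm, mul_assoc, inv_mul_cancel₀ (pow_ne_zero _ hc0), mul_one]

end FermatLib.MLT.LGC

end
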