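import Fermat.Agent.Igusa.MonoNormSeries
import Fermat.Agent.MLT.LGC.ResidueKill
import Mathlib.RingTheory.RootsOfUnity.EnoughRootsOfUnity

/-!
# Hecke operators on the residue field of a series sheet

`T` is a multiplicative operator on `F` given on expansions by the norm series
`x (l z) * ∏ j, x ((z + j) / l)`. It preserves the valuation ring of the sheet, acts on the residue
field, raises constants to the power `l + 1`, and, when it commutes with a finite group `G` fixing
the constants, multiplies by `l + 1` every fixed residue that becomes a `p`-th power in the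
residue field, modulo `p`-th powers of fixed residues.
-/

set_option autoImplicit false
set_option linter.style.haveILetI false

noncomputable section

open ModularCurve IsLocalRing

namespace FermatLib.MLT.LGC

open FermatLib.Igusa FermatLib.Igusa.Mono

attribute [local instance 100000] monoLaurentModule monoLaurentSMul

variable {L k F Kb : Type*} [Field L] [CharZero L] [Field k] [Field F] [Algebra L F] [Field Kb]
  [Algebra k Kb] {A : ValuationSubring L} {π : A →+* k}

/-- A series sheet has ratios. -/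
theorem hasRatios_seriesSheet {ι : F →ₐ[L] LaurentSeries L} (hπ : ∀ a : A, π a = 0 ↔ ¬ IsUnit a)
    {q : ℕ} (hq : q.Prime) (hqk : (q : k) = 0)
    (hfr : ∀ f : F, ∃ z : F, z ≠ 0 ∧ ι z ∈ intSpan L ∧ ι (f * z) ∈ intSpan L) :
    HasRatios (seriesSheet ι hπ hq hqk hfr) ι (RingHom.id (LaurentSeries k)) := by
  intro f hf
  obtain ⟨y, z, h⟩ : f ∈ seriesRing A π ι := hf
  exact ⟨y, z, h, by
    rw [(seriesSheet_rd hπ hq hqk hfr h).2, RingHom.id_apply, div_mul_cancel₀ _ h.red_ne]⟩

/-- A primitive root in `L` and its inverse are integral. -/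
theorem exists_unit_of_pow_eq_one {l : ℕ} [NeZero l] {ζ : L} (hζ : ζ ^ l = 1) :
    ∃ ζA : Aˣ, ((ζA : A) : L) = ζ := by
  have hζ0 : ζ ≠ 0 := fun h => by
    rw [h, zero_pow (NeZero.ne l)] at hζ
    exact zero_ne_one hζ
  have h1 : A.valuation ζ = 1 := by
    refine (pow_eq_one_iff_left (NeZero.ne l)).mp ?_
    rw [← map_pow, hζ, map_one]
  exact ⟨⟨⟨ζ, (A.valuation_le_one_iff ζ).mp h1.le⟩,
    ⟨ζ⁻¹, (A.valuation_le_one_iff _).mp (by rw [map_inv₀, h1, inv_one])⟩,
    Subtype.ext (mul_inv_cancel₀ hζ0), Subtype.ext (inv_mul_cancel₀ hζ0)⟩, rfl⟩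

variable (s : Sheet π F Kb)

omit [CharZero L] in
/-- Residues of the valuation ring of a sheet are determined by their reductions. -/
theorem residue_eq_iff_rd_eq {f g : s.W} :
    residue s.W f = residue s.W g ↔ s.rd f = s.rd g := by
  rw [Sheet.rd_of_mem f.2, Sheet.rd_of_mem g.2, Subtype.coe_eta, Subtype.coe_eta,
    ← sub_eq_zero, ← map_sub, residue_eq_zero_iff, mem_maximalIdeal, mem_nonunits_iff]
  constructor
  · intro h
    by_contra hne
    refine h (s.isUnit_of_red_ne _ ?_)
    rw [map_sub]
    exact sub_ne_zero.mpr hne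
  · intro h hu
    have : IsUnit (s.red (f - g)) := hu.map s.red
    rw [map_sub, h, sub_self] at this
    exact not_isUnit_zero this

/-- `T` is the norm series of level `l` on expansions. -/
structure IsSeriesHecke (ι : F →ₐ[L] LaurentSeries L) (emb : Kb →+* LaurentSeries k) (l : ℕ)
    [NeZero l] (ζ : Lˣ) (T : F →* F) : Prop where
  hasRatios : HasRatios s ι emb
  pow_eq_one : ζ ^ l = 1
  qExpand_apply : ∀ f, qExpand L l (ι (T f)) =
    normSeries (q := l) ζ (qExpand L l (ι f)) (ι f)

variable {s} {ι : F →ₐ[L] LaurentSeries L} {emb : Kb →+* LaurentSeries k} {l : ℕ} [NeZero l]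
  {ζ : Lˣ} {T : F →* F}

theorem normSeries_algebraMap {R : Type*} [Field R] (c : Rˣ) (a : R) :
    normSeries (q := l) c (qExpand R l (algebraMap R (LaurentSeries R) a))
      (algebraMap R (LaurentSeries R) a) = algebraMap R (LaurentSeries R) (a ^ (l + 1)) := by
  have hscale : ∀ d : Rˣ, monoNewScale d (algebraMap R (LaurentSeries R) a) =
      algebraMap R (LaurentSeries R) a := fun d => by
    ext i
    rw [monoNewScale_coeff, algebraMap_laurentSeries_eq_single]
    rcases eq_or_ne i 0 with rfl | hi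
    · simp
    · simp [HahnSeries.coeff_single_of_ne hi]
  have hq : qExpand R l (algebraMap R (LaurentSeries R) a) = algebraMap R (LaurentSeries R) a := by
    rw [algebraMap_laurentSeries_eq_single, qExpand_single, mul_zero]
  simp only [normSeries, hq, hscale, Finset.prod_const, Finset.card_univ, Fintype.card_fin]
  rw [← map_pow, ← map_mul, pow_succ']

namespace IsSeriesHecke

variable (hT : IsSeriesHecke s ι emb l ζ T)
include hT

theorem mem_and_rd {f : F} (hf : f ∈ s.W) :
    T f ∈ s.W ∧ ∃ c : kˣ, c ^ l = 1 ∧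
      (∀ a : A, (a : L) = ζ → π a = c) ∧ qExpand k l (emb (s.rd (T f))) =
        normSeries (q := l) c (qExpand k l (emb (s.rd f))) (emb (s.rd f)) := by
  obtain ⟨ζA, hζA⟩ := exists_unit_of_pow_eq_one (A := A) (l := l) (ζ := (ζ : L))
    (by rw [← Units.val_pow_eq_pow_val, hT.pow_eq_one, Units.val_one])
  have hζmap : Units.map (A.subtype : A →* L) ζA = ζ := Units.ext hζA
  obtain ⟨y, z, hyz, hred⟩ := hT.hasRatios f hf
  set c := Units.map (π : A →* k) ζA with hc
  have hQπ : coeffMap π (normSeries (q := l) ζA (qExpand A l z) z) =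
      normSeries (q := l) c (qExpand k l (coeffMap π z)) (coeffMap π z) := by
    rw [coeffMap_normSeries, qExpand_coeffMap_eq]
  have hQ : coeffMap π (normSeries (q := l) ζA (qExpand A l z) z) ≠ 0 := by
    rw [hQπ, normSeries]
    refine mul_ne_zero ((map_ne_zero_iff _ (qExpand_injective l)).mpr
      ((map_ne_zero_iff _ (qExpand_injective l)).mpr hyz.red_ne)) ?_
    exact Finset.prod_ne_zero_iff.mpr fun i _ => (map_ne_zero _).mpr hyz.red_ne
  obtain ⟨hm, hr⟩ := hT.hasRatios.of_qExpand (h := T f)
    (R := normSeries (q := l) ζA (qExpand A l y) y) hQ (by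
      rw [coeffMap_normSeries, coeffMap_normSeries, qExpand_coeffMap_eq, qExpand_coeffMap_eq,
        hT.qExpand_apply, hζmap, ← hyz.eq, map_mul, normSeries_mul])
  refine ⟨hm, c, Units.ext ?_, fun a ha => ?_, ?_⟩
  · rw [Units.val_pow_eq_pow_val, hc, Units.coe_map, MonoidHom.coe_coe, ← map_pow, Units.val_one]
    convert map_one π
    exact Subtype.ext (by
      simp only [SubmonoidClass.coe_pow, hζA, OneMemClass.coe_one]
      rw [← Units.val_pow_eq_pow_val, hT.pow_eq_one, Units.val_one])
  · rw [hc, Units.coe_map, MonoidHom.coe_coe]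
    exact congrArg π (Subtype.ext (ha.trans hζA.symm))
  · rw [hr, div_eq_iff hQ, hQπ, coeffMap_normSeries, qExpand_coeffMap_eq, ← hc,
      ← normSeries_mul, ← map_mul, hred]

theorem mem {f : F} (hf : f ∈ s.W) : T f ∈ s.W := (hT.mem_and_rd hf).1

theorem rd_eq_of_rd_eq {f g : F} (hf : f ∈ s.W) (hg : g ∈ s.W) (h : s.rd f = s.rd g) :
    s.rd (T f) = s.rd (T g) := by
  obtain ⟨-, c, -, hc, h1⟩ := hT.mem_and_rd hf
  obtain ⟨-, c', -, hc', h2⟩ := hT.mem_and_rd hg
  obtain ⟨ζA, hζA⟩ := exists_unit_of_pow_eq_one (A := A) (l := l) (ζ := (ζ : L))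
    (by rw [← Units.val_pow_eq_pow_val, hT.pow_eq_one, Units.val_one])
  have hcc : c = c' := Units.ext ((hc _ hζA).symm.trans (hc' _ hζA))
  apply emb.injective
  apply qExpand_injective (R := k) l
  rw [h1, h2, h, hcc]

/-- The operator on the residue field. -/
def residueMap : ResidueField s.W →* ResidueField s.W where
  toFun z := residue s.W ⟨T (residue_surjective z).choose,
    hT.mem (residue_surjective z).choose.2⟩
  map_one' := by
    rw [← map_one (residue s.W), residue_eq_iff_rd_eq]
    have h := hT.rd_eq_of_rd_eq (residue_surjective (residue s.W 1)).choose.2 (one_mem s.W)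
      ((residue_eq_iff_rd_eq s).mp (residue_surjective (residue s.W 1)).choose_spec)
    simpa using h
  map_mul' z w := by
    rw [← map_mul, residue_eq_iff_rd_eq]
    show s.rd (T _) = s.rd (T _ * T _)
    rw [← map_mul]
    refine hT.rd_eq_of_rd_eq (SetLike.coe_mem _)
      (mul_mem (SetLike.coe_mem _) (SetLike.coe_mem _)) ?_
    refine (residue_eq_iff_rd_eq (g := (residue_surjective z).choose *
      (residue_surjective w).choose) s).mp ?_
    rw [map_mul, (residue_surjective _).choose_spec, (residue_surjective z).choose_spec,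
      (residue_surjective w).choose_spec]

theorem residueMap_residue (f : s.W) :
    hT.residueMap (residue s.W f) = residue s.W ⟨T f, hT.mem f.2⟩ := by
  show residue s.W _ = _
  rw [residue_eq_iff_rd_eq]
  exact hT.rd_eq_of_rd_eq (SetLike.coe_mem _) f.2
    ((residue_eq_iff_rd_eq s).mp (residue_surjective (residue s.W f)).choose_spec)

omit [CharZero L] in
/-- Constants are raised to the power `l + 1`. -/
theorem apply_algebraMap (c : L) : T (algebraMap L F c) = algebraMap L F c ^ (l + 1) := by
  apply ι.injective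
  apply qExpand_injective (R := L) l
  show qExpand L l (ι (T (algebraMap L F c))) = qExpand L l (ι (algebraMap L F c ^ (l + 1)))
  rw [hT.qExpand_apply, ι.commutes, normSeries_algebraMap, map_pow ι, ι.commutes, map_pow,
    map_pow, algebraMap_laurentSeries_eq_single, qExpand_single, mul_zero]

variable [IsAlgClosed k]

/-- Roots of unity in the residue field are constants, so `T` acts on them by `l + 1`. -/
theorem residueMap_root (hπ : Function.Surjective π)
    (hemb : ∀ a, emb (algebraMap k Kb a) = algebraMap k (LaurentSeries k) a)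
    {p : ℕ} [NeZero p] (hp : (p : k) ≠ 0) {ξ : ResidueField s.W} (hξ : ξ ^ p = 1) :
    hT.residueMap ξ = ξ ^ (l + 1) := by
  obtain ⟨f, rfl⟩ := residue_surjective ξ
  have hr : emb (s.rd (f : F)) ^ p = 1 := by
    rw [← map_pow (residue s.W), ← map_one (residue s.W), residue_eq_iff_rd_eq] at hξ
    rw [← map_pow emb, ← Sheet.rd_pow f.2, ← SubmonoidClass.coe_pow, hξ, OneMemClass.coe_one,
      Sheet.rd_one, map_one]
  have : NeZero (p : k) := ⟨hp⟩
  obtain ⟨z, hz⟩ := HasEnoughRootsOfUnity.exists_primitiveRoot k p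
  obtain ⟨i, -, hi⟩ := (hz.map_of_injective
    (algebraMap k (LaurentSeries k)).injective).eq_pow_of_pow_eq_one hr
  obtain ⟨a, ha⟩ := hπ (z ^ i)
  have hres : residue s.W f = residue s.W ⟨algebraMap L F (a : L), s.mem_algebraMap a⟩ := by
    rw [residue_eq_iff_rd_eq]
    apply emb.injective
    rw [← hi, Sheet.rd_algebraMap a.2, Subtype.coe_eta, hemb, ha, map_pow]
  rw [hres, hT.residueMap_residue, ← map_pow (residue s.W)]
  exact congrArg (residue s.W) (Subtype.ext (hT.apply_algebraMap a))

variable {G : Type*} [Group G] [MulSemiringAction G F]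

omit [IsAlgClosed k] in
theorem residueMap_decompResidue (hcomm : ∀ (g : G) (f : F), T (g • f) = g • T f)
    (g : decompGroup G s.W) (z : ResidueField s.W) :
    hT.residueMap (decompResidue s.W g z) = decompResidue s.W g (hT.residueMap z) := by
  obtain ⟨f, rfl⟩ := residue_surjective z
  rw [decompResidue_residue, hT.residueMap_residue, hT.residueMap_residue, decompResidue_residue]
  exact congrArg (residue s.W) (Subtype.ext (hcomm g f))

omit [IsAlgClosed k] in
theorem residueMap_mem_fixedResidues (hcomm : ∀ (g : G) (f : F), T (g • f) = g • T f)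
    {z : ResidueField s.W} (hz : z ∈ fixedResidues G s.W) :
    hT.residueMap z ∈ fixedResidues G s.W := by
  obtain ⟨f, hf, rfl⟩ := hz
  exact ⟨⟨T f, hT.mem f.2⟩, fun g => by rw [← hcomm, hf g], (hT.residueMap_residue f).symm⟩

/-- **Kernel to base residues modulo `p`-th powers is killed by `T - (l + 1)`.** -/
theorem rd_kill [Finite G] (hcomm : ∀ (g : G) (f : F), T (g • f) = g • T f)
    (hπ : Function.Surjective π)
    (hemb : ∀ a, emb (algebraMap k Kb a) = algebraMap k (LaurentSeries k) a)
    (p : ℕ) [Fact p.Prime] (hp : (p : k) ≠ 0)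
    {x : F} (hx : x ∈ s.W) (hxfix : ∀ g : G, g • x = x) (hx0 : s.rd x ≠ 0)
    {r : F} (hr : r ∈ s.W) (hrx : s.rd r ^ p = s.rd x) :
    ∃ y ∈ s.W, (∀ g : G, g • y = y) ∧ s.rd y ≠ 0 ∧
      s.rd (T x) = s.rd x ^ (l + 1) * s.rd y ^ p := by
  have hpW : (p : ResidueField s.W) ≠ 0 := by
    rw [← map_natCast (residue s.W), ← map_zero (residue s.W), Ne, residue_eq_iff_rd_eq,
      show ((p : s.W) : F) = algebraMap L F ((p : A) : L) by simp,
      Sheet.rd_algebraMap (p : A).2, ZeroMemClass.coe_zero, Sheet.rd_zero, Subtype.coe_eta,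
      map_natCast, map_natCast, ← map_natCast (algebraMap k Kb), map_eq_zero]
    exact hp
  have hc0 : residue s.W ⟨x, hx⟩ ≠ 0 := by
    rw [← map_zero (residue s.W), Ne, residue_eq_iff_rd_eq, ZeroMemClass.coe_zero, Sheet.rd_zero]
    exact hx0
  have hrc : residue s.W ⟨r, hr⟩ ^ p = residue s.W ⟨x, hx⟩ := by
    rw [← map_pow, residue_eq_iff_rd_eq, SubmonoidClass.coe_pow, Sheet.rd_pow hr]
    exact hrx
  have : NeZero p := ⟨(Fact.out : p.Prime).ne_zero⟩
  obtain ⟨_, ⟨y, hyfix, rfl⟩, hy0, hTx⟩ := residue_kill (G := G) s.W p hpW hT.residueMap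
    (hT.residueMap_decompResidue hcomm) (fun z hz => hT.residueMap_mem_fixedResidues hcomm hz)
    (l + 1) (fun ξ hξ => hT.residueMap_root hπ hemb hp hξ)
    (c := residue s.W ⟨x, hx⟩) (r := residue s.W ⟨r, hr⟩) ⟨⟨x, hx⟩, hxfix, rfl⟩ hrc hc0
  refine ⟨y, y.2, hyfix, ?_, ?_⟩
  · rw [← Sheet.rd_zero (s := s), ← ZeroMemClass.coe_zero s.W, Ne, ← residue_eq_iff_rd_eq,
      map_zero]
    exact hy0
  · rw [hT.residueMap_residue, ← map_pow, ← map_pow, ← map_mul, residue_eq_iff_rd_eq] at hTx
    rw [hTx, MulMemClass.coe_mul, SubmonoidClass.coe_pow, SubmonoidClass.coe_pow,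
      Sheet.rd_mul (pow_mem hx _) (pow_mem y.2 _), Sheet.rd_pow hx, Sheet.rd_pow y.2]

end IsSeriesHecke

end FermatLib.MLT.LGC

end
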