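import Fermat.Agent.MLT.LGC.SeriesHull
import Fermat.Agent.MLT.LGC.ResidueHecke

/-!
# Hecke operators on the hull of the series with integer coefficients

For a primitive `l`-th root of unity `ζ` the norm series `x (l z) * ∏ j, x ((z + j) / l)` of an
element of `seriesHull L` is the expansion in `u ^ l` of an element of `seriesHull L`.
-/

set_option autoImplicit false
set_option linter.style.haveILetI false

noncomputable section

open ModularCurve

namespace FermatLib.MLT.LGC

open FermatLib.Igusa FermatLib.Igusa.Mono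

attribute [local instance 100000] monoLaurentModule monoLaurentSMul

variable {L : Type*} [Field L] [CharZero L] {l : ℕ} [NeZero l] {ζ : Lˣ}

omit [CharZero L] in
theorem monoNewScale_monoNewScale (c d : Lˣ) (x : LaurentSeries L) :
    monoNewScale c (monoNewScale d x) = monoNewScale (c * d) x := by
  ext i
  simp only [monoNewScale_coeff, mul_zpow, Units.val_mul]
  ring

theorem monoNewScale_mem_intSpan (hζ : ζ ^ l = 1) {x : LaurentSeries L} (hx : x ∈ intSpan L) :
    monoNewScale ζ x ∈ intSpan L := by
  induction hx using Algebra.adjoin_induction with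
  | mem y hy =>
    obtain ⟨z, rfl⟩ := hy
    refine mem_intSpan_of_coeff_mem (fun i : Fin l => ((ζ ^ (i : ℕ) : Lˣ) : L)) fun k => ?_
    rw [monoNewScale_coeff, coeffMap_coeff]
    have hmem : ((ζ ^ k : Lˣ) : L) ∈ Submodule.span ℤ
        (Set.range fun i : Fin l => ((ζ ^ (i : ℕ) : Lˣ) : L)) := by
      have hl : (l : ℤ) ≠ 0 := by exact_mod_cast NeZero.ne l
      have h2 := Int.emod_nonneg k hl
      have hlt : (k % l).toNat < l := by
        have := Int.emod_lt_of_pos k (show (0 : ℤ) < l by exact_mod_cast NeZero.pos l)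
        omega
      refine Submodule.subset_span ⟨⟨(k % l).toNat, hlt⟩, ?_⟩
      simp only
      congr 1
      conv_rhs => rw [← Int.emod_add_mul_ediv k l, zpow_add, zpow_mul, zpow_natCast, hζ, one_zpow,
        mul_one]
      rw [← zpow_natCast, Int.toNat_of_nonneg h2]
    rw [eq_intCast, mul_comm, ← zsmul_eq_mul]
    exact Submodule.smul_mem _ _ hmem
  | algebraMap c =>
    suffices h : monoNewScale ζ (algebraMap L (LaurentSeries L) c) = algebraMap L _ c by
      rw [h]; exact Subalgebra.algebraMap_mem _ c
    ext i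
    rw [monoNewScale_coeff, algebraMap_laurentSeries_eq_single]
    rcases eq_or_ne i 0 with rfl | hi
    · simp
    · simp [HahnSeries.coeff_single_of_ne hi]
  | add y z _ _ hy hz => rw [map_add]; exact add_mem hy hz
  | mul y z _ _ hy hz => rw [map_mul]; exact mul_mem hy hz

theorem monoNewScale_pow_mem_seriesHull (hζ : ζ ^ l = 1) (i : ℕ) {x : LaurentSeries L}
    (hx : x ∈ seriesHull L) : monoNewScale (ζ ^ i) x ∈ seriesHull L := by
  have hi : (ζ ^ i) ^ l = 1 := by rw [← pow_mul, mul_comm, pow_mul, hζ, one_pow]
  obtain ⟨a, ha, b, hb, rfl⟩ := exists_div_intSpan hx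
  rw [map_div₀]
  exact div_mem (intSpan_le_seriesHull (monoNewScale_mem_intSpan hi ha))
    (intSpan_le_seriesHull (monoNewScale_mem_intSpan hi hb))

theorem qExpand_mem_intSpan {x : LaurentSeries L} (hx : x ∈ intSpan L) :
    qExpand L l x ∈ intSpan L := by
  induction hx using Algebra.adjoin_induction with
  | mem y hy =>
    obtain ⟨z, rfl⟩ := hy
    exact (coeffMap_qExpand (Int.castRingHom L) l z) ▸ coeffMap_mem_intSpan _
  | algebraMap c =>
    rw [algebraMap_laurentSeries_eq_single, qExpand_single, mul_zero,
      ← algebraMap_laurentSeries_eq_single]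
    exact Subalgebra.algebraMap_mem _ c
  | add y z _ _ hy hz => rw [map_add]; exact add_mem hy hz
  | mul y z _ _ hy hz => rw [map_mul]; exact mul_mem hy hz

theorem qExpand_mem_seriesHull {x : LaurentSeries L} (hx : x ∈ seriesHull L) :
    qExpand L l x ∈ seriesHull L := by
  obtain ⟨a, ha, b, hb, rfl⟩ := exists_div_intSpan hx
  rw [map_div₀]
  exact div_mem (intSpan_le_seriesHull (qExpand_mem_intSpan ha))
    (intSpan_le_seriesHull (qExpand_mem_intSpan hb))

/-- The series of `x (l z) * ∏ j, x ((z + j) / l)` in `u = q ^ (1 / l)`. -/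
abbrev heckeNormSeries (ζ : Lˣ) (l : ℕ) [NeZero l] (x : LaurentSeries L) : LaurentSeries L :=
  normSeries (q := l) ζ (qExpand L l x) x

omit [CharZero L] in
theorem qExpand_decimate_heckeNormSeries (hζ : IsPrimitiveRoot ζ l) (x : LaurentSeries L) :
    qExpand L l (decimate l (heckeNormSeries ζ l x)) = heckeNormSeries ζ l x := by
  set N := heckeNormSeries ζ l x with hN
  have hinv : monoNewScale ζ N = N := by
    rw [hN, heckeNormSeries, normSeries, map_mul, map_prod,
      monoNewScale_qExpand ζ l hζ.pow_eq_one]
    congr 1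
    have hstep : ∀ i : Fin l, monoNewScale ζ (monoNewScale (ζ ^ (i : ℕ)) x) =
        monoNewScale (ζ ^ ((i + 1 : Fin l) : ℕ)) x := fun i => by
      rw [monoNewScale_monoNewScale, ← pow_succ']
      congr 2
      rw [Fin.val_add, Fin.val_one', Nat.add_mod_mod]
      exact pow_eq_pow_mod _ hζ.pow_eq_one
    exact Fintype.prod_equiv (Equiv.addRight (1 : Fin l)) _ _ hstep
  ext k
  by_cases hd : (l : ℤ) ∣ k
  · obtain ⟨j, rfl⟩ := hd
    rw [qExpand_coeff_mul, decimate_coeff]
  · rw [qExpand_coeff_of_not_dvd l _ hd]
    have h := congrArg (fun z : LaurentSeries L => z.coeff k) hinv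
    simp only [monoNewScale_coeff] at h
    have hne : ((ζ ^ k : Lˣ) : L) ≠ 1 := fun h1 =>
      hd ((hζ.zpow_eq_one_iff_dvd k).mp (Units.ext h1))
    by_contra h0
    exact hne (mul_right_cancel₀ (Ne.symm h0) (by rw [h, one_mul]))

variable (L l) in
/-- The operator `x ↦ x (l z) * ∏ j, x ((z + j) / l)` on the hull. -/
def hullHecke (hζ : IsPrimitiveRoot ζ l) : seriesHull L →* seriesHull L where
  toFun x := ⟨decimate l (heckeNormSeries ζ l (x : LaurentSeries L)), by
    refine mem_seriesHull_of_qExpand l ?_
    rw [qExpand_decimate_heckeNormSeries hζ, heckeNormSeries, normSeries]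
    exact mul_mem (qExpand_mem_seriesHull (qExpand_mem_seriesHull x.2))
      (prod_mem fun i _ => monoNewScale_pow_mem_seriesHull hζ.pow_eq_one _ x.2)⟩
  map_one' := Subtype.ext <| qExpand_injective (R := L) l <| by
    show qExpand L l (decimate l (heckeNormSeries ζ l 1)) = qExpand L l 1
    rw [qExpand_decimate_heckeNormSeries hζ]
    simp [heckeNormSeries, normSeries]
  map_mul' x y := Subtype.ext <| qExpand_injective (R := L) l <| by
    show qExpand L l (decimate l (heckeNormSeries ζ l ((x : LaurentSeries L) * y))) =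
      qExpand L l (decimate l (heckeNormSeries ζ l x) * decimate l (heckeNormSeries ζ l y))
    rw [map_mul (qExpand L l), qExpand_decimate_heckeNormSeries hζ,
      qExpand_decimate_heckeNormSeries hζ, qExpand_decimate_heckeNormSeries hζ]
    show normSeries (q := l) ζ (qExpand L l ((x : LaurentSeries L) * y)) _ = _
    rw [map_mul, normSeries_mul]

theorem qExpand_hullHecke (hζ : IsPrimitiveRoot ζ l) (x : seriesHull L) :
    qExpand L l ((hullHecke L l hζ x : seriesHull L) : LaurentSeries L) =
      normSeries (q := l) ζ (qExpand L l (x : LaurentSeries L)) x :=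
  qExpand_decimate_heckeNormSeries hζ _

/-- The hull Hecke operator is the norm series on every series sheet of the hull. -/
theorem isSeriesHecke_hullHecke {k : Type*} [Field k] {A : ValuationSubring L} {π : A →+* k}
    {s : Sheet π (seriesHull L) (LaurentSeries k)}
    (hs : HasRatios s (seriesHull L).val (RingHom.id _)) (hζ : IsPrimitiveRoot ζ l) :
    IsSeriesHecke s (seriesHull L).val (RingHom.id _) l ζ (hullHecke L l hζ) :=
  ⟨hs, hζ.pow_eq_one, qExpand_hullHecke hζ⟩

end FermatLib.MLT.LGC

end
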