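import Fermat.Agent.MLT.LGC.ClassAction
import Fermat.Agent.MLT.LGC.Hull
import Fermat.Agent.MLT.LGC.HullHecke
import Fermat.Agent.MLT.LGC.NormFn
import Fermat.Agent.Galois.PlaceBasic

/-!
# `T l` on the class field and the residue kill

For a Hecke system of `T l` on `Γ` with the standard representatives the operator `hullHecke`
preserves `classField Γ`.  If it commutes with the translations by `Λ ⊇ Γ`, then it multiplies by
`l + 1` the classes of `Λ` whose reduction dies in `classField Γ`.
-/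

set_option autoImplicit false
set_option linter.style.haveILetI false
set_option linter.unusedSectionVars false

noncomputable section

open UpperHalfPlane hiding I
open CongruenceSubgroup ModularCurve IsLocalRing
open scoped MatrixGroups

namespace FermatLib.MLT.LGC

attribute [local instance 100000] HullInstances.hullSMulWithZero HullInstances.hullMulAction
  HullInstances.residueSeriesAlgebra HullInstances.hullWCommRing HullInstances.hullWMonoid
  HullInstances.powsInNormal HullInstances.unitsModPowAddCommGroup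

open FermatLib.Modular FermatLib.Igusa.Mono

local notation "Qbar" => AlgebraicClosure ℚ
local notation "ι₀" => complexEmbedding

attribute [local instance 100000] monoLaurentModule monoLaurentSMul

section Pullback

variable {L k F F' Kb : Type*} [Field L] [Field k] [Field F] [Algebra L F] [Field F'] [Algebra L F']
  [Field Kb] [Algebra k Kb] {A : ValuationSubring L} {π : A →+* k}

/-- The restriction of a sheet along an embedding. -/
def sheetPullback (s : Sheet π F Kb) (f : F' →ₐ[L] F) : Sheet π F' Kb where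
  W := s.W.comap f.toRingHom
  red := s.red.comp ((f.toRingHom.comp (s.W.comap f.toRingHom).subtype).codRestrict s.W fun x => x.2)
  mem_algebraMap a := by
    show f (algebraMap L F' (a : L)) ∈ s.W
    rw [AlgHom.commutes]
    exact s.mem_algebraMap a
  red_algebraMap a := by
    rw [← s.red_algebraMap a]
    exact congrArg s.red (Subtype.ext (f.commutes _))
  isUnit_of_red_ne x hx := by
    obtain ⟨u, hu⟩ := s.isUnit_of_red_ne _ hx
    have h1 : f (x : F') * ((u⁻¹ : (s.W)ˣ) : s.W).1 = 1 := by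
      have h := congrArg Subtype.val u.mul_inv
      rwa [MulMemClass.coe_mul, congrArg Subtype.val hu, OneMemClass.coe_one] at h
    have hx0 : (x : F') ≠ 0 := fun h0 => left_ne_zero_of_mul_eq_one h1 (by rw [h0, map_zero])
    have hy : (x : F')⁻¹ ∈ s.W.comap f.toRingHom := by
      show f ((x : F')⁻¹) ∈ s.W
      rw [map_inv₀, ← eq_inv_of_mul_eq_one_right h1]
      exact ((u⁻¹ : (s.W)ˣ) : s.W).2
    exact IsUnit.of_mul_eq_one ⟨_, hy⟩ (Subtype.ext (mul_inv_cancel₀ hx0))

theorem sheetPullback_rd (s : Sheet π F Kb) (f : F' →ₐ[L] F) {x : F'}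
    (hx : x ∈ (sheetPullback s f).W) : (sheetPullback s f).rd x = s.rd (f x) := by
  rw [Sheet.rd_of_mem hx, Sheet.rd_of_mem (show f x ∈ s.W from hx)]
  rfl

theorem hasRatios_sheetPullback {s : Sheet π F Kb} (f : F' →ₐ[L] F) {ι : F →ₐ[L] LaurentSeries L}
    {emb : Kb →+* LaurentSeries k} (hs : HasRatios s ι emb) :
    HasRatios (sheetPullback s f) (ι.comp f) emb := by
  intro x hx
  obtain ⟨y, z, h, hr⟩ := hs (f x) hx
  exact ⟨y, z, ⟨h.red_ne, h.eq⟩, by rwa [sheetPullback_rd s f hx]⟩

end Pullback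

/-- The primitive root of `ℚ̄` which maps to `exp (2 π i / l)`. -/
theorem exists_zeta_eq_zetaQ (l : ℕ) [NeZero l] : ∃ ζ : Qbarˣ, IsPrimitiveRoot ζ l ∧
    Units.map (ι₀).toRingHom.toMonoidHom ζ = zetaQ l := by
  obtain ⟨w, hw⟩ := HasEnoughRootsOfUnity.exists_primitiveRoot Qbar l
  have hQ := Complex.isPrimitiveRoot_exp l (NeZero.ne l)
  obtain ⟨i, -, hi⟩ := (hw.map_of_injective (ι₀).injective).eq_pow_of_pow_eq_one hQ.pow_eq_one
  have hp : IsPrimitiveRoot (w ^ i) l :=
    IsPrimitiveRoot.of_map_of_injective (f := (ι₀).toRingHom.toMonoidHom)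
      (by
        show IsPrimitiveRoot (ι₀ (w ^ i)) l
        rw [show ι₀ (w ^ i) = _ from (map_pow (ι₀) w i).trans hi]
        exact hQ) (ι₀).injective
  refine ⟨Units.mk0 (w ^ i) (hp.ne_zero (NeZero.ne l)), ?_, Units.ext ?_⟩
  · exact IsPrimitiveRoot.coe_units_iff.mp hp
  · exact (map_pow (ι₀) w i).trans hi

variable {Γ : Subgroup SL(2, ℤ)} {l : ℕ} [NeZero l] {ζ : Qbarˣ} (hζ : IsPrimitiveRoot ζ l)
  (hζ₀ : Units.map (ι₀).toRingHom.toMonoidHom ζ = zetaQ l) {ι : Type} [Fintype ι]

include hζ₀ in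
/-- The hull operator is the norm of `T l` on expansions. -/
theorem coeffMap_hullHecke (D : HeckeSystem Γ ι) (e : Option (Fin l) ≃ ι)
    (hrep : ∀ y, D.rep (e y) = heckeRepInt l y) (hT : ModularGroup.T ∈ Γ) {g : ℍ → ℂ}
    (hg : g ∈ weakMod Γ) {x : seriesHull Qbar}
    (hx : coeffMap (ι₀).toRingHom (x : LaurentSeries Qbar) = qExpL g) :
    coeffMap (ι₀).toRingHom ((hullHecke Qbar l hζ x : seriesHull Qbar) : LaurentSeries Qbar) =
      qExpL (normFn D g) := by
  refine qExpand_injective (R := ℂ) l ?_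
  rw [qExpand_qExpL_normFn_T D hT e hrep hg, ← qExpand_coeffMap_eq, qExpand_hullHecke,
    coeffMap_normSeries, qExpand_coeffMap_eq, hx, ← hζ₀]
  rfl

variable {N : ℕ} [NeZero N] (hC : ConjStable Γ N)

/-- The class field inside the hull. -/
def classToHull : classField Γ →ₐ[Qbar] seriesHull Qbar :=
  IntermediateField.inclusion (classField_le_seriesHull hC)

variable (D : HeckeSystem Γ ι) (e : Option (Fin l) ≃ ι)
  (hrep : ∀ y, D.rep (e y) = heckeRepInt l y)

theorem det_rep_pos (hrep : ∀ y, D.rep (e y) = heckeRepInt l y) (i : ι) : 0 < (D.rep i).det := by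
  obtain ⟨y, rfl⟩ := e.surjective i
  rw [hrep, det_heckeRepInt]
  exact_mod_cast NeZero.pos l

include hζ₀ hC hrep in
/-- `T l` on the algebra of expansions. -/
theorem exists_classAlg_hecke (x : classAlg hC) : ∃ y : classAlg hC,
    (y : LaurentSeries Qbar) = ((hullHecke Qbar l hζ
      (classToHull hC (algebraMap (classAlg hC) (classField Γ) x)) : seriesHull Qbar) :
        LaurentSeries Qbar) ∧
    (classFn hC y : ℍ → ℂ) = normFn D (classFn hC x : ℍ → ℂ) := by
  have hT : ModularGroup.T ∈ Γ := hC.gamma1_le (Galois.DS.modularGroup_T_mem_Gamma1 (M := N))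
  have hg := normFn_mem_weakMod D (det_rep_pos D e hrep) (classFn hC x).2
  have hy := coeffMap_hullHecke hζ hζ₀ D e hrep hT (classFn hC x).2
    (x := classToHull hC (algebraMap (classAlg hC) (classField Γ) x)) (coeffMap_classAlg hC x)
  exact ⟨⟨_, (mem_classAlg_iff hC).mpr ⟨_, hg, hy⟩⟩, rfl, classFn_eq hC hg hy⟩

include hζ₀ hrep in
theorem hullHecke_classToHull_mem (f : classField Γ) :
    ((hullHecke Qbar l hζ (classToHull hC f) : seriesHull Qbar) : LaurentSeries Qbar) ∈
      classField Γ := by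
  obtain ⟨a, b, hb, hf⟩ := exists_classAlg_div hC f
  obtain ⟨a', ha', -⟩ := exists_classAlg_hecke hζ hζ₀ hC D e hrep a
  obtain ⟨b', hb', -⟩ := exists_classAlg_hecke hζ hζ₀ hC D e hrep b
  set i := algebraMap (classAlg hC) (classField Γ)
  have hib : classToHull hC (i b) ≠ 0 :=
    (map_ne_zero _).mpr ((map_ne_zero_iff i (algebraMap_classAlg_injective hC)).mpr hb)
  have hne : hullHecke Qbar l hζ (classToHull hC (i b)) ≠ 0 := fun h0 => by
    have h := map_mul (hullHecke Qbar l hζ) (classToHull hC (i b)) (classToHull hC (i b))⁻¹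
    rw [mul_inv_cancel₀ hib, map_one, h0, zero_mul] at h
    exact one_ne_zero h
  have hmul : hullHecke Qbar l hζ (classToHull hC f) * hullHecke Qbar l hζ (classToHull hC (i b)) =
      hullHecke Qbar l hζ (classToHull hC (i a)) := by
    rw [← map_mul, ← map_mul, hf, div_mul_cancel₀ _ (fun h0 => hib (by rw [h0, map_zero]))]
  rw [(eq_div_iff hne).mpr hmul, IntermediateField.coe_div, ← ha', ← hb']
  exact div_mem (classAlg_le_classField hC a'.2) (classAlg_le_classField hC b'.2)

/-- `T l` on the class field. -/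
def classHecke : classField Γ →* classField Γ where
  toFun f := ⟨_, hullHecke_classToHull_mem hζ hζ₀ hC D e hrep f⟩
  map_one' := Subtype.ext (by
    show ((hullHecke Qbar l hζ (classToHull hC 1) : seriesHull Qbar) : LaurentSeries Qbar) = _
    rw [map_one, map_one]; rfl)
  map_mul' f g := Subtype.ext (by
    show ((hullHecke Qbar l hζ (classToHull hC (f * g)) : seriesHull Qbar) : LaurentSeries Qbar) = _
    rw [map_mul, map_mul]; rfl)

theorem classToHull_classHecke (f : classField Γ) :
    classToHull hC (classHecke hζ hζ₀ hC D e hrep f) = hullHecke Qbar l hζ (classToHull hC f) :=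
  Subtype.ext rfl

variable {Λ : Subgroup SL(2, ℤ)} (hΛ : ∀ γ ∈ Λ, ∀ x ∈ Γ, γ * x * γ⁻¹ ∈ Γ)

/-- Translations commute with `T l` if they do on functions. -/
theorem classHecke_fieldAut
    (hcomm : ∀ γ ∈ Λ, ∀ g ∈ weakMod Γ,
      normFn D (fun τ => g (γ • τ)) = fun τ => normFn D g (γ • τ))
    (γ : Λ) (f : classField Γ) :
    classHecke hζ hζ₀ hC D e hrep (fieldAut hC hΛ γ f) =
      fieldAut hC hΛ γ (classHecke hζ hζ₀ hC D e hrep f) := by
  set i := algebraMap (classAlg hC) (classField Γ)
  set T := classHecke hζ hζ₀ hC D e hrep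
  set σ := fieldAut hC hΛ γ
  have halg : ∀ x : classAlg hC, T (σ (i x)) = σ (T (i x)) := by
    intro x
    obtain ⟨y, hy, hyfn⟩ := exists_classAlg_hecke hζ hζ₀ hC D e hrep x
    obtain ⟨z, hz, hzfn⟩ := exists_classAlg_hecke hζ hζ₀ hC D e hrep (classAut hC hΛ γ x)
    have h1 : T (i x) = i y := Subtype.ext hy.symm
    have h2 : T (i (classAut hC hΛ γ x)) = i z := Subtype.ext hz.symm
    rw [show σ (i x) = _ from fieldAut_algebraMap hC hΛ γ x, h2, h1,
      show σ (i y) = _ from fieldAut_algebraMap hC hΛ γ y]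
    congr 1
    refine classFn_injective hC (Subtype.ext ?_)
    rw [hzfn, classFn_classAut, classFn_classAut, hyfn]
    exact hcomm _ (Λ.inv_mem γ.2) _ (classFn hC x).2
  obtain ⟨a, b, hb, hf⟩ := exists_classAlg_div hC f
  have hib : i b ≠ 0 := (map_ne_zero_iff i (algebraMap_classAlg_injective hC)).mpr hb
  have hTb : T (σ (i b)) ≠ 0 := fun h0 => by
    have h := map_mul T (σ (i b)) (σ (i b))⁻¹
    rw [mul_inv_cancel₀ ((map_ne_zero σ).mpr hib), map_one, h0, zero_mul] at h
    exact one_ne_zero h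
  refine mul_right_cancel₀ hTb ?_
  conv_rhs => rw [halg b, ← map_mul, ← map_mul]
  rw [← map_mul, ← map_mul, show f * i b = i a by rw [hf, div_mul_cancel₀ _ hib]]
  exact halg a

/-- Constants are fixed. -/
theorem fieldAut_algebraMap_const (γ : Λ) (c : Qbar) :
    fieldAut hC hΛ γ (algebraMap Qbar (classField Γ) c) = algebraMap Qbar (classField Γ) c := by
  have h0 : algebraMap Qbar (classField Γ) c =
      algebraMap (classAlg hC) (classField Γ) (algebraMap Qbar (classAlg hC) c) := Subtype.ext rfl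
  rw [h0, fieldAut_algebraMap]
  congr 1
  refine classFn_injective hC (Subtype.ext ?_)
  have hc : (classFn hC (algebraMap Qbar (classAlg hC) c) : ℍ → ℂ) = fun _ => ι₀ c := by
    refine classFn_eq hC ((weakMod Γ).algebraMap_mem (ι₀ c)) ?_
    have h := (weakExp hC).commutes (ι₀ c)
    rw [weakExp_apply] at h
    refine Eq.trans ?_ h.symm
    show coeffMap (ι₀).toRingHom (algebraMap Qbar (LaurentSeries Qbar) c) = _
    rw [algebraMap_laurentSeries_eq_single, coeffMap_single, ← algebraMap_laurentSeries_eq_single]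
    rfl
  rw [classFn_classAut, hc]

/-- An expansion of a function on `Λ` is fixed. -/
theorem fieldAut_eq_self_of_classSeries {x : classAlg hC}
    (hx : (x : LaurentSeries Qbar) ∈ classSeries Λ) (hle : Γ ≤ Λ) (γ : Λ) :
    fieldAut hC hΛ γ (algebraMap (classAlg hC) (classField Γ) x) =
      algebraMap (classAlg hC) (classField Γ) x := by
  rw [fieldAut_algebraMap]
  congr 1
  obtain ⟨g, hg, hgx⟩ := hx
  refine classFn_injective hC (Subtype.ext (funext fun τ => ?_))
  rw [classFn_classAut, classFn_eq hC (weakMod_mono hle hg) hgx]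
  exact (mem_weakMod.mp hg).2.1 _ (Λ.inv_mem γ.2) τ

variable {q : ℕ} [Fact q.Prime] {A : ValuationSubring Qbar} (hA : A.LiesOverPrime q)

include hζ₀ hrep hC hΛ in
/-- **Residue kill.** A class of `Λ` whose reduction dies in `classField Γ` is multiplied by
`l + 1` by `T l`, modulo what dies in `classField Λ`. -/
theorem redUnit_hullHecke_div_eq_zero (hle : Γ ≤ Λ)
    (hcomm : ∀ γ ∈ Λ, ∀ g ∈ weakMod Γ,
      normFn D (fun τ => g (γ • τ)) = fun τ => normFn D g (γ • τ))
    {p : ℕ} [Fact p.Prime] (hpq : p ≠ q) {x : seriesHull Qbar} (hx0 : x ≠ 0)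
    (hxΛ : (x : LaurentSeries Qbar) ∈ classSeries Λ)
    (hred : redUnit A hA (classField Γ) p x = 0) :
    redUnit A hA (classField Λ) p (hullHecke Qbar l hζ x / x ^ (l + 1)) = 0 := by
  haveI : IsAlgClosed (ResidueField A) := Galois.isAlgClosed_residueField A
  haveI : CharP (ResidueField A) q := Galois.charP_residueField Fact.out hA
  have hp : p.Prime := Fact.out
  have hpk : (p : ResidueField A) ≠ 0 := by
    rw [Ne, CharP.cast_eq_zero_iff _ q]
    exact fun h => hpq ((Nat.prime_dvd_prime_iff_eq Fact.out hp).mp h).symm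
  -- the scaled representative
  obtain ⟨c, hc0, hcm, hcu⟩ := exists_hull_scale A hA hx0
  rw [redUnit_eq A hA _ hp.ne_zero hx0 hcu.unit (congrArg Subtype.val hcu.unit_spec),
    ofMul_eq_zero, QuotientGroup.eq_one_iff] at hred
  obtain ⟨v, hvE, hv⟩ := hred
  have hv' : residue (hullW q A hA) v ^ p = residue (hullW q A hA) ⟨c • x, hcm⟩ := by
    have h := congrArg Units.val hv
    rwa [Units.val_pow_eq_pow_val, Units.coe_map, Units.coe_map, hcu.unit_spec] at h
  let xa : classAlg hC := ⟨_, (mem_classAlg_iff hC).mpr (show (x : LaurentSeries Qbar) ∈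
    classSeries Γ from let ⟨g, hg, h⟩ := hxΛ; ⟨g, weakMod_mono hle hg, h⟩)⟩
  set f : classField Γ :=
    algebraMap Qbar (classField Γ) c * algebraMap (classAlg hC) (classField Γ) xa
  have hf : classToHull hC f = c • x := by
    rw [map_mul, AlgHom.commutes, Algebra.smul_def]
    rfl
  set r : classField Γ := ⟨_, hvE⟩
  have hr : classToHull hC r = ((v : hullW q A hA) : seriesHull Qbar) := Subtype.ext rfl
  set S := sheetPullback (hullSheet q A hA) (classToHull hC)
  have hmem : ∀ g : classField Γ, g ∈ S.W ↔ classToHull hC g ∈ hullW q A hA := fun _ => Iff.rfl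
  have hfW : f ∈ S.W := by rw [hmem, hf]; exact hcm
  have hrW : r ∈ S.W := by rw [hmem, hr]; exact (v : hullW q A hA).2
  have hffix : ∀ g : fieldGroup hC hΛ, g • f = f := by
    rintro ⟨_, γ, rfl⟩
    show fieldAut hC hΛ γ f = f
    rw [map_mul, fieldAut_algebraMap_const hC hΛ, fieldAut_eq_self_of_classSeries hC hΛ hxΛ hle]
  have hrd : (hullSheet q A hA).rd ((v : hullW q A hA) : seriesHull Qbar) ^ p =
      (hullSheet q A hA).rd (c • x) := by
    rw [← map_pow] at hv'
    rw [← Sheet.rd_pow (v : hullW q A hA).2]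
    exact (residue_eq_iff_rd_eq (s := hullSheet q A hA)).mp hv'
  have hf0 : S.rd f ≠ 0 := by
    rw [sheetPullback_rd _ _ hfW, hf]
    refine Sheet.rd_ne_zero_of_inv_mem (s := hullSheet q A hA) hcm ((by rw [Algebra.smul_def]; exact mul_ne_zero ((map_ne_zero _).mpr hc0) hx0)) ?_
    obtain ⟨w, hw⟩ := hcu
    have h1 : c • x * ((w⁻¹ : (hullW q A hA)ˣ) : hullW q A hA).1 = 1 := by
      have h := congrArg Subtype.val w.mul_inv
      rwa [MulMemClass.coe_mul, congrArg Subtype.val hw, OneMemClass.coe_one] at h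
    rw [← eq_inv_of_mul_eq_one_right h1]
    exact ((w⁻¹ : (hullW q A hA)ˣ) : hullW q A hA).2
  have hTS : IsSeriesHecke S ((seriesHull Qbar).val.comp (classToHull hC)) (RingHom.id _) l ζ
      (classHecke hζ hζ₀ hC D e hrep) :=
    ⟨hasRatios_sheetPullback _ (hasRatios_seriesSheet (residue_eq_zero_iff_not_isUnit A) Fact.out
      (natCast_residue_eq_zero q A hA) exists_intSpan_fraction), hζ.pow_eq_one,
      fun g => qExpand_hullHecke hζ (classToHull hC g)⟩
  haveI := finite_fieldGroup hC hΛ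
  obtain ⟨y, hyW, hyfix, hy0, hTy⟩ := hTS.rd_kill (G := fieldGroup hC hΛ) (fun g h => by
      obtain ⟨_, γ, rfl⟩ := g
      exact classHecke_fieldAut hζ hζ₀ hC D e hrep hΛ hcomm γ h)
    residue_surjective (fun a => rfl) p hpk hfW hffix hf0 hrW
    (by rw [sheetPullback_rd _ _ hrW, sheetPullback_rd _ _ hfW, hr, hf]; exact hrd)
  have hTfW : classHecke hζ hζ₀ hC D e hrep f ∈ S.W := hTS.mem hfW
  rw [sheetPullback_rd _ _ hTfW, sheetPullback_rd _ _ hfW, sheetPullback_rd _ _ hyW,
    classToHull_classHecke, hf] at hTy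
  rw [sheetPullback_rd _ _ hyW] at hy0
  rw [sheetPullback_rd _ _ hfW, hf] at hf0
  -- the units
  have hym : classToHull hC y ∈ (hullSheet q A hA).W := hyW
  have hTm : hullHecke Qbar l hζ (c • x) ∈ (hullSheet q A hA).W := by
    have h := (hmem _).mp hTfW
    rwa [classToHull_classHecke, hf] at h
  have hT0 : (hullSheet q A hA).rd (hullHecke Qbar l hζ (c • x)) ≠ 0 := by
    rw [hTy]; exact mul_ne_zero (pow_ne_zero _ hf0) (pow_ne_zero _ hy0)
  obtain ⟨uy, huy⟩ : IsUnit (⟨_, hym⟩ : hullW q A hA) :=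
    (hullSheet q A hA).isUnit_of_red_ne _ (by rwa [Sheet.rd_of_mem hym] at hy0)
  obtain ⟨uT, huT⟩ : IsUnit (⟨_, hTm⟩ : hullW q A hA) :=
    (hullSheet q A hA).isUnit_of_red_ne _ (by rwa [Sheet.rd_of_mem hTm] at hT0)
  set w : (hullW q A hA)ˣ := uT * (hcu.unit ^ (l + 1))⁻¹
  have hwmul : ((w : hullW q A hA) : seriesHull Qbar) * (c • x) ^ (l + 1) =
      hullHecke Qbar l hζ (c • x) := by
    have h : w * hcu.unit ^ (l + 1) = uT := inv_mul_cancel_right _ _
    have h' := congrArg (fun u : (hullW q A hA)ˣ => ((u : hullW q A hA) : seriesHull Qbar)) h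
    simp only [Units.val_mul, Units.val_pow_eq_pow_val, MulMemClass.coe_mul,
      SubmonoidClass.coe_pow, hcu.unit_spec, huT] at h'
    exact h'
  have hcx : hullHecke Qbar l hζ (c • x) = c ^ (l + 1) • hullHecke Qbar l hζ x := by
    have hconst := (isSeriesHecke_hullHecke (hasRatios_seriesSheet
      (ι := (seriesHull Qbar).val) (residue_eq_zero_iff_not_isUnit A) Fact.out
      (natCast_residue_eq_zero q A hA) exists_intSpan_fraction) hζ).apply_algebraMap c
    rw [Algebra.smul_def, map_mul, hconst, Algebra.smul_def, map_pow]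
  have hw : ((w : hullW q A hA) : seriesHull Qbar) =
      (1 : Qbar) • (hullHecke Qbar l hζ x / x ^ (l + 1)) := by
    rw [one_smul, eq_div_iff (pow_ne_zero _ hx0)]
    refine mul_left_cancel₀ ((map_ne_zero (algebraMap Qbar (seriesHull Qbar))).mpr
      (pow_ne_zero (l + 1) hc0)) ?_
    rw [← Algebra.smul_def, ← Algebra.smul_def, ← hcx, ← hwmul, ← mul_smul_comm, ← smul_pow]
  have hne : hullHecke Qbar l hζ x / x ^ (l + 1) ≠ 0 := fun h0 => w.ne_zero (Subtype.ext (by
    rw [hw, h0, smul_zero]; rfl))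
  rw [redUnit_eq A hA _ hp.ne_zero hne w hw, ofMul_eq_zero, QuotientGroup.eq_one_iff]
  refine ⟨uy, ?_, ?_⟩
  · rw [huy]
    exact mem_classField_of_fixed (hC := hC) (hΛ := hΛ) (f := y) fun γ => hyfix ⟨_, ⟨γ, rfl⟩⟩
  · rw [map_mul, map_inv, eq_mul_inv_iff_mul_eq]
    refine Units.ext ?_
    rw [Units.val_mul, Units.val_pow_eq_pow_val, map_pow, Units.val_pow_eq_pow_val, Units.coe_map,
      Units.coe_map, Units.coe_map, huy, huT, hcu.unit_spec]
    show residue (hullW q A hA) _ ^ p * residue (hullW q A hA) _ ^ (l + 1) =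
      residue (hullW q A hA) _
    rw [← map_pow, ← map_pow, ← map_mul]
    refine (residue_eq_iff_rd_eq (s := hullSheet q A hA)).mpr ?_
    rw [MulMemClass.coe_mul, SubmonoidClass.coe_pow, SubmonoidClass.coe_pow,
      Sheet.rd_mul (pow_mem hym p) (pow_mem hcm (l + 1)), Sheet.rd_pow hym, Sheet.rd_pow hcm,
      mul_comm]
    exact hTy.symm

end FermatLib.MLT.LGC

end
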