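import Fermat.Agent.MLT.LGC.Gamma0HalfNorm
import Fermat.Agent.Igusa.RankOne
import Fermat.Agent.Modular.Kummer.KummerBar
import Fermat.Agent.Galois.MazurP.DegeneracyHecke
import Fermat.Agent.Modular.CorrPush

/-!
# The kernel of reduction at `∞` on `J₀(q M)[d]`

For a two-sheet datum of `X₀(q M)`, `q ∤ M`, whose sheets are read off from the expansions at `∞`
of `f` and of `w_q f`, the classes in `J₀(q M)[d]` reducing trivially on the first sheet are at most
`#J₀(M)[d] * d ^ (#nodes - 1)`, hence at most `d ^ g` for `g` the genus of `X₀(q M)`.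
-/

set_option autoImplicit false
set_option linter.style.haveILetI false

noncomputable section

open AlgebraicCurve ModularCurve FermatLib.Igusa FermatLib.Igusa.Mono

namespace FermatLib.MLT.LGC

open FermatLib.Modular FermatLib.Modular.Corr FermatLib.MazurP

attribute [local instance] FermatLib.Modular.Corr.neZero_mul'
attribute [local instance 100000] monoLaurentModule monoLaurentSMul

local notation "Qbar" => AlgebraicClosure ℚ

/-- Large powers of a non-unit are smaller than a given nonzero element. -/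
theorem exists_pow_div_small {L k : Type*} [Field L] [Field k] {A : ValuationSubring L}
    {π : A →+* k} (hπ : ∀ a : A, π a = 0 ↔ ¬ IsUnit a) (hA : IsRankOneLike A) {b : A}
    (hb : π b = 0) {c : L} (hc : c ≠ 0) :
    ∃ (N : ℕ) (h : (b : L) ^ N / c ∈ A), π ⟨_, h⟩ = 0 := by
  rcases eq_or_ne b 0 with rfl | hb0
  · refine ⟨1, by simp, ?_⟩
    convert map_zero π
    simp
  by_cases hcA : c ∈ A
  · obtain ⟨t, ht⟩ := hA b ((IsLocalRing.mem_maximalIdeal _).mpr ((hπ b).mp hb)) hb0 ⟨c, hcA⟩
      (fun h => hc (congrArg Subtype.val h))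
    have hbne : (b : L) ^ t ≠ 0 := pow_ne_zero _ fun h => hb0 (Subtype.ext h)
    rcases A.mem_or_inv_mem ((b : L) ^ t / c) with h | h
    · refine ⟨t, h, (hπ _).mpr fun hu => ?_⟩
      obtain ⟨u, hu⟩ := hu.exists_left_inv
      refine ht ⟨u, Subtype.ext ?_⟩
      have hu' : (u : L) * ((b : L) ^ t / c) = 1 := congrArg Subtype.val hu
      show c = (b : L) ^ t * (u : L)
      rw [← mul_div_assoc, div_eq_one_iff_eq hc] at hu'
      rw [← hu', mul_comm]
    · refine absurd ⟨⟨_, h⟩, Subtype.ext ?_⟩ ht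
      show c = (b : L) ^ t * ((b : L) ^ t / c)⁻¹
      rw [inv_div, mul_div_cancel₀ _ hbne]
  · have hci : c⁻¹ ∈ A := (A.mem_or_inv_mem c).resolve_left hcA
    have h : (b : L) ^ 1 / c ∈ A := by
      rw [pow_one, div_eq_mul_inv]; exact mul_mem b.2 hci
    refine ⟨1, h, ?_⟩
    have e : (⟨_, h⟩ : A) = b * ⟨c⁻¹, hci⟩ := Subtype.ext (by
      show (b : L) ^ 1 / c = ((b * ⟨c⁻¹, hci⟩ : A) : L)
      rw [pow_one, div_eq_mul_inv, MulMemClass.coe_mul])
    rw [e, map_mul, hb, zero_mul]

/-- The coefficientwise Frobenius is onto on the special fibre of `X₀(M)`. -/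
theorem exists_coeffMap_frobenius_eq {k : Type*} [Field k] (q : ℕ) [Fact q.Prime] [CharP k q]
    [PerfectRing k q] (M : ℕ) (x : modularFunctionFieldFullC k M) :
    ∃ y : modularFunctionFieldFullC k M,
      (x : LaurentSeries k) = coeffMap (frobenius k q) (y : LaurentSeries k) := by
  suffices h : (modularFunctionFieldFullC k M).toSubfield ≤
      (modularFunctionFieldFullC k M).toSubfield.map (coeffMap (frobenius k q)) by
    obtain ⟨y, hy, hxy⟩ := h x.2
    exact ⟨⟨y, hy⟩, hxy.symm⟩
  conv_lhs => rw [modularFunctionFieldFullC, IntermediateField.adjoin_toSubfield]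
  rw [Subfield.closure_le]
  rintro z (⟨c, rfl⟩ | ⟨e, hne, he, rfl⟩)
  · refine ⟨algebraMap k _ ((frobeniusEquiv k q).symm c),
      (modularFunctionFieldFullC k M).algebraMap_mem _, ?_⟩
    rw [algebraMap_laurentSeries_eq_single, coeffMap_single, algebraMap_laurentSeries_eq_single,
      frobenius_apply_frobeniusEquiv_symm]
  · haveI := hne
    exact ⟨_, jqModCd_mem_full k M he, by rw [coeffMap_qExpand, coeffMap_jqModC]⟩

variable {q M : ℕ} [Fact q.Prime] [NeZero q] [NeZero M]

/-- `w_q` carries the inclusion of level `M` to `u ↦ u ^ q`. -/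
theorem coe_monoSwap_alphaMap (hqM : ¬ q ∣ M) (x : fieldBar Qbar M) :
    ((monoSwap hqM (alphaMap q M x) : modularFunctionFieldBar (q * M)) : LaurentSeries Qbar) =
      qExpand Qbar q (x : LaurentSeries Qbar) := by
  have h₁ : M * 1 ∣ q * M := by rw [mul_one]; exact dvd_mul_left M q
  rw [show alphaMap q M x = barBeta Qbar 1 h₁ x from Subtype.ext (by
      rw [coe_barIncl, coe_barBeta, qExpand_one_apply]),
    show monoSwap hqM (barBeta Qbar 1 h₁ x) = barBeta Qbar q (dvd_of_eq (mul_comm M q)) x from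
      (DFunLike.congr_fun (barBeta_eq_monoSwap_comp hqM _ h₁) x).symm,
    coe_barBeta]

theorem finrankAlong_alphaMap (hqM : ¬ q ∣ M) : finrankAlong Qbar (alphaMap q M) = q + 1 := by
  have h := finrankAlong_barIncl_mul (L := Qbar) (levelFacts Qbar) (dvd_mul_left M q)
  rw [show dedekindPsi (q * M) = dedekindPsi (M * q) from congrArg dedekindPsi (mul_comm q M),
    dedekindPsi_mul_prime M (Fact.out : q.Prime), if_neg hqM] at h
  exact Nat.eq_of_mul_eq_mul_right (dedekindPsi_pos' M) h

/-- The expansion of the norm from level `q M` to level `M`. -/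
theorem qExpand_normAlong_alphaMap (hqM : ¬ q ∣ M) {ζ : (Qbar)ˣ} (hζ : IsPrimitiveRoot ζ q)
    (f : modularFunctionFieldBar (q * M)) :
    qExpand Qbar q ((normAlong (alphaMap q M) f : fieldBar Qbar M) : LaurentSeries Qbar) =
      qExpand Qbar q (f : LaurentSeries Qbar) * ∏ i : Fin q, monoNewScale (ζ ^ (i : ℕ))
        ((monoSwap hqM f : modularFunctionFieldBar (q * M)) : LaurentSeries Qbar) := by
  letI := algebraAlong (alphaMap q M)
  haveI : FiniteDimensional (fieldBar Qbar M) (fieldBar Qbar (q * M)) := finiteAlong_alphaMap q M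
  have hj : jqModC Qbar ∈ modularFunctionFieldBar M := by
    rw [show modularFunctionFieldBar M = modularFunctionFieldFullC Qbar M from
      laurentBaseChange_full_eq Qbar M]
    exact jqModC_mem_full Qbar M
  exact monoNew_qExpand_norm (Fact.out : q.Prime) (F := fieldBar Qbar M)
    (F' := fieldBar Qbar (q * M)) (fun x => coe_barIncl (L := Qbar) (dvd_mul_left M q) x)
    (finrankAlong_alphaMap hqM) (monoSwap hqM).toRingEquiv.toRingHom
    (fun x => coe_monoSwap_alphaMap hqM x)
    (fun x y hy => by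
      have e : y = monoSwap hqM (alphaMap q M x) :=
        Subtype.ext (by rw [coe_monoSwap_alphaMap]; exact hy)
      show ((monoSwap hqM y : modularFunctionFieldBar (q * M)) : LaurentSeries Qbar) = x
      rw [e, monoSwap_monoSwap]
      exact coe_barIncl _ _)
    ⟨jqModC Qbar, hj⟩ (by
      show (jqModC Qbar).coeff (-1) ≠ 0
      rw [coeff_jqModC_neg_one]; exact one_ne_zero) hζ f

variable {A : ValuationSubring Qbar} {k Kb : Type*} [Field k] [IsAlgClosed k] [CharP k q]
  [Field Kb] [Algebra k Kb] {π : A →+* k}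
  {D₀ : MonoDatum π (modularFunctionFieldBar (q * M)) Kb q} {emb : Kb →+* LaurentSeries k} {d : ℕ}

/-- **The kernel of reduction at `∞` on `J₀(q M)[d]`.** -/
theorem natCard_redKer₁_gamma0_le (hqM : ¬ q ∣ M) (hA : A.LiesOverPrime q)
    (h₁ : HasRatios D₀.s₁ (modularFunctionFieldBar (q * M)).val emb)
    (h₂ : HasRatios D₀.s₂
      ((modularFunctionFieldBar (q * M)).val.comp (monoSwap hqM).toAlgHom) emb)
    (hemb : ∀ c : k, emb (algebraMap k Kb c) = HahnSeries.single 0 c)
    (hdesc : ∀ x : Kb, ∃ y : Kb, emb x = coeffMap (frobenius k q) (emb y))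
    (hdk : (d : k) ≠ 0) :
    Finite (redKer₁ D₀ d) ∧
      Nat.card (redKer₁ D₀ d) ≤ d ^ cuspRank M * d ^ (D₀.nodeCount - 1) := by
  have hd0 : d ≠ 0 := fun h => hdk (by rw [h, Nat.cast_zero])
  haveI : NeZero d := ⟨hd0⟩
  obtain ⟨ζ, hζ⟩ := HasEnoughRootsOfUnity.exists_primitiveRoot Qbar q
  obtain ⟨ζu, hζu⟩ : ∃ u : (Qbar)ˣ, IsPrimitiveRoot u q :=
    ⟨(hζ.isUnit (NeZero.ne q)).unit, IsPrimitiveRoot.coe_units_iff.mp (by simpa using hζ)⟩
  let e : {b : JZero M // d • b = 0} ≃ Pic0.torsion Qbar (modularFunctionFieldBar M) d :=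
    Equiv.subtypeEquivRight fun b => by
      rw [← natCast_zsmul]; exact Pic0.mem_torsion.symm
  haveI := Kummer.finite_torsion_JZero M d
  haveI : Finite {b : JZero M // d • b = 0} := Finite.of_equiv _ e.symm
  haveI : Algebra.IsAlgebraic ℚ Qbar := AlgebraicClosure.isAlgebraic ℚ
  obtain ⟨hfin, hle⟩ := natCard_redKer₁_le (M := D₀)
    (fun b hb c hc => exists_pow_div_small D₀.π_eq_zero
      (LatAux.isRankOneLike A (Fact.out : q.Prime) hA) hb hc)
    (Nat.pos_of_ne_zero hd0) hdk (pushAlpha q M) fun D f hf hD hx hr => by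
    have hα := isIntegral_alphaMap q M
    obtain ⟨g, hg, hgD⟩ := isPrincipal_of_pic0Push_eq_zero _ _ _ _ hx
    set N := normAlong (alphaMap q M) f with hN
    have hN0 : N ≠ 0 := by
      letI := algebraAlong (alphaMap q M)
      haveI : FiniteDimensional (fieldBar Qbar M) (fieldBar Qbar (q * M)) :=
        finiteAlong_alphaMap q M
      exact Algebra.norm_ne_zero_iff.mpr hf
    have hord : ∀ v : Place Qbar (fieldBar Qbar M), v.ord N = (d : ℤ) * v.ord g := fun v => by
      rw [hN, ← pushforwardAlong_apply_of_normFormula hα (finiteAlong_alphaMap q M)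
        ((curveFacts Qbar).normFormula M (q * M) _ _) hf (D := d • (D : Divisor Qbar _))
        (fun w => by rw [Finsupp.smul_apply, nsmul_eq_mul]; exact hD w) v,
        map_nsmul, Finsupp.smul_apply, nsmul_eq_mul, hgD]
    have hgd : alphaMap q M g ^ d ≠ 0 :=
      pow_ne_zero _ ((map_ne_zero (alphaMap q M)).mpr hg)
    obtain ⟨b, hb⟩ := D₀.rrF.exists_eq_algebraMap
      (f := alphaMap q M N * (alphaMap q M g ^ d)⁻¹) (by
        rw [mem_riemannRochSpace_iff]
        intro w
        right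
        rw [w.ord_mul ((map_ne_zero (alphaMap q M)).mpr hN0) (inv_ne_zero hgd), w.ord_inv,
          ord_pow, Place.ord_restrictAlong (alphaMap q M) hα,
          Place.ord_restrictAlong (alphaMap q M) hα, hord]
        simp only [Finsupp.coe_zero, Pi.zero_apply, neg_zero]
        ring_nf
        rfl)
    have hb0 : b ≠ 0 := fun h0 => by
      rw [h0, map_zero] at hb
      exact mul_ne_zero ((map_ne_zero (alphaMap q M)).mpr hN0) (inv_ne_zero hgd) hb
    refine redPow_snd_of_norm h₁ h₂ hemb hdesc hζu hf (h := alphaMap q M N) ?_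
      ((map_ne_zero (alphaMap q M)).mpr hg) hb0 ?_ hr
    · rw [show (modularFunctionFieldBar (q * M)).val (alphaMap q M N) = (N : LaurentSeries Qbar)
        from coe_barIncl (L := Qbar) (dvd_mul_left M q) N]
      exact qExpand_normAlong_alphaMap hqM hζu f
    · rw [← hb, inv_mul_cancel_right₀ hgd]
  refine ⟨hfin, hle.trans_eq ?_⟩
  rw [Nat.card_congr e, Kummer.natCard_torsion_JZero]

/-- The bound by the genus of `X₀(q M)`, once the special fibre of `X₀(M)` has genus
`cuspRank M / 2`. -/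
theorem natCard_redKer₁_gamma0_le_genus (hqM : ¬ q ∣ M) (hA : A.LiesOverPrime q)
    (h₁ : HasRatios D₀.s₁ (modularFunctionFieldBar (q * M)).val emb)
    (h₂ : HasRatios D₀.s₂
      ((modularFunctionFieldBar (q * M)).val.comp (monoSwap hqM).toAlgHom) emb)
    (hemb : ∀ c : k, emb (algebraMap k Kb c) = HahnSeries.single 0 c)
    (hdesc : ∀ x : Kb, ∃ y : Kb, emb x = coeffMap (frobenius k q) (emb y))
    (hgK : cuspRank M = 2 * D₀.gK) (hdk : (d : k) ≠ 0) :
    Finite (redKer₁ D₀ d) ∧ Nat.card (redKer₁ D₀ d) ≤ d ^ D₀.gF := by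
  obtain ⟨hfin, hle⟩ := natCard_redKer₁_gamma0_le hqM hA h₁ h₂ hemb hdesc hdk
  refine ⟨hfin, hle.trans_eq ?_⟩
  haveI : Finite D₀.nodes := D₀.finite_nodes.to_subtype
  have hn : 0 < D₀.nodeCount :=
    Nat.card_pos_iff.mpr ⟨D₀.nodes_nonempty.to_subtype, inferInstance⟩
  have := gF_eq D₀
  rw [hgK, ← pow_add]
  congr 1
  omega

end FermatLib.MLT.LGC

end
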