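import Fermat.Agent.MLT.LGC.Gamma0HalfLabels
import Fermat.Agent.Igusa.MonoSqFrob

/-!
# The kernel of reduction on the first sheet

For a class killed by `d`, `d • D = div f`, reduction sends it to the class of the normalised
reduction of `f` modulo constants and `d`-th powers. If a homomorphism `Φ` to a smaller group is
such that `Φ x = 0` moves triviality from the first sheet to the second one, the kernel of the
first reduction has at most `#B[d] * d ^ (#nodes - 1)` elements.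
-/

set_option autoImplicit false
set_option linter.style.haveILetI false

noncomputable section

open AlgebraicCurve FermatLib.Igusa FermatLib.Igusa.Mono

namespace FermatLib.MLT.LGC

universe uL uF uk uKb uB

variable {L : Type uL} {k : Type uk} [Field L] [Field k] {A : ValuationSubring L} {π : A →+* k}
  {F : Type uF} {Kb : Type uKb} [Field F] [Algebra L F] [Field Kb] [Algebra k Kb] {q : ℕ}

/-- The normalised reduction of `f` is a nonzero constant times a `d`-th power. -/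
def RedPow (d : ℕ) (s : Sheet π F Kb) (f : F) : Prop :=
  ∃ (c : L) (a : k) (u : Kb), c • f ∈ s.W ∧ a ≠ 0 ∧ u ≠ 0 ∧
    s.rd (c • f) = algebraMap k Kb a * u ^ d

section RedPow

variable {d : ℕ} {s : Sheet π F Kb} {f g : F}

theorem RedPow.rd_ne {c : L} {a : k} {u : Kb} (ha : a ≠ 0) (hu : u ≠ 0)
    (h : s.rd (c • f) = algebraMap k Kb a * u ^ d) : s.rd (c • f) ≠ 0 := by
  rw [h]
  exact mul_ne_zero (by simpa using ha) (pow_ne_zero _ hu)

theorem redPow_one (d : ℕ) (s : Sheet π F Kb) : RedPow d s (1 : F) :=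
  ⟨1, 1, 1, by rw [one_smul]; exact one_mem _, one_ne_zero, one_ne_zero,
    by rw [one_smul, Sheet.rd_one, map_one, one_pow, one_mul]⟩

theorem RedPow.mul (hf : RedPow d s f) (hg : RedPow d s g) : RedPow d s (f * g) := by
  obtain ⟨c, a, u, hc, ha, hu, hr⟩ := hf
  obtain ⟨c', a', u', hc', ha', hu', hr'⟩ := hg
  refine ⟨c * c', a * a', u * u', ?_, mul_ne_zero ha ha', mul_ne_zero hu hu', ?_⟩
  · rw [← smul_mul_smul_comm]
    exact mul_mem hc hc'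
  · rw [← smul_mul_smul_comm, Sheet.rd_mul hc hc', hr, hr', map_mul, mul_pow]
    ring

theorem RedPow.inv (hf : RedPow d s f) : RedPow d s f⁻¹ := by
  obtain ⟨c, a, u, hc, ha, hu, hr⟩ := hf
  refine ⟨c⁻¹, a⁻¹, u⁻¹, ?_, inv_ne_zero ha, inv_ne_zero hu, ?_⟩
  · rw [← smul_inv₀]
    exact Sheet.inv_mem_of_rd_ne hc (RedPow.rd_ne ha hu hr)
  · rw [← smul_inv₀, Sheet.rd_inv hc (RedPow.rd_ne ha hu hr), hr, map_inv₀, inv_pow, mul_inv]

theorem redPow_algebraMap (d : ℕ) (s : Sheet π F Kb) {b : L} (hb : b ≠ 0) :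
    RedPow d s (algebraMap L F b) :=
  ⟨b⁻¹, 1, 1, by rw [Algebra.smul_def, ← map_mul, inv_mul_cancel₀ hb, map_one]; exact one_mem _,
    one_ne_zero, one_ne_zero, by rw [Algebra.smul_def, ← map_mul, inv_mul_cancel₀ hb, map_one,
      Sheet.rd_one, map_one, one_pow, one_mul]⟩

theorem redPow_pow (hscale : ∀ f : F, f ≠ 0 → ∃ c : L, c • f ∈ s.W ∧ s.rd (c • f) ≠ 0)
    {h : F} (hh : h ≠ 0) : RedPow d s (h ^ d) := by
  obtain ⟨c, hc, hc0⟩ := hscale h hh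
  refine ⟨c ^ d, 1, s.rd (c • h), ?_, one_ne_zero, hc0, ?_⟩
  · rw [← smul_pow]
    exact pow_mem hc d
  · rw [← smul_pow, Sheet.rd_pow hc, map_one, one_mul]

end RedPow

variable (M : MonoDatum π F Kb q)

/-- The first sheet's kernel on the classes killed by `d`. -/
def redKer₁ (d : ℕ) : AddSubgroup (Pic0 L F) where
  carrier := {x | ∃ (D : Divisor.degZero (K := L) (F := F)) (f : F), f ≠ 0 ∧
    (∀ v, (d : ℤ) * (D : Divisor L F) v = v.ord f) ∧ Pic0.mk D = x ∧ RedPow d M.s₁ f}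
  zero_mem' := ⟨0, 1, one_ne_zero, fun v => by simp, rfl, redPow_one d _⟩
  add_mem' := by
    rintro _ _ ⟨D, f, hf, hD, rfl, hr⟩ ⟨D', f', hf', hD', rfl, hr'⟩
    exact ⟨D + D', f * f', mul_ne_zero hf hf', fun v => by
      rw [v.ord_mul hf hf', ← hD, ← hD', AddSubgroup.coe_add, Finsupp.add_apply, mul_add],
      rfl, hr.mul hr'⟩
  neg_mem' := by
    rintro _ ⟨D, f, hf, hD, rfl, hr⟩
    exact ⟨-D, f⁻¹, inv_ne_zero hf, fun v => by
      rw [v.ord_inv, ← hD, AddSubgroup.coe_neg, Finsupp.neg_apply, mul_neg], rfl, hr.inv⟩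

variable {M} {d : ℕ}

theorem nsmul_eq_zero_of_mem_redKer₁ {x : Pic0 L F} (hx : x ∈ redKer₁ M d) : d • x = 0 := by
  obtain ⟨D, f, hf, hD, rfl, -⟩ := hx
  show Pic0.mk (d • D) = 0
  refine (QuotientAddGroup.eq_zero_iff _).mpr ?_
  rw [AddSubgroup.mem_addSubgroupOf, AddSubgroupClass.coe_nsmul]
  exact ⟨f, hf, fun v => by rw [Finsupp.smul_apply, nsmul_eq_mul]; exact hD v⟩

section Shift

variable [IsAlgClosed k]
  (hrank : ∀ b : A, π b = 0 → ∀ c : L, c ≠ 0 →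
    ∃ (N : ℕ) (h : (b : L) ^ N / c ∈ A), π ⟨_, h⟩ = 0)
include hrank

omit [IsAlgClosed k] in
theorem exists_shift_small {c : L} (hc : c ∈ A) (hc0 : c ≠ 0) (hπc : π ⟨c, hc⟩ = 0) :
    ∃ h : F, h ≠ 0 ∧ h ∈ M.s₁.W ∧ M.s₁.rd h ≠ 0 ∧ c⁻¹ • h ∈ M.s₂.W ∧
      M.s₂.rd (c⁻¹ • h) ≠ 0 := by
  obtain ⟨c₁, hc₁, hne⟩ := M.Φ_moves
  set φ := M.Φ (M.Φ c₁) - c₁ with hφ
  have hφ0 : φ ≠ 0 := sub_ne_zero.mpr hne
  have hreg : φ ∈ Reg M.P₁ := (Reg M.P₁).sub_mem (M.Φ_reg _ (M.Φ_reg _ hc₁)) hc₁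
  obtain ⟨-, -, -, a, -, hai, har⟩ := M.mem_U.mp (M.pair_zero_mem_U hreg fun v hv => hv.2 c₁ hc₁)
  have ha1 : M.s₁.rd a = φ := congrArg Prod.fst har
  have ha2 : M.s₂.rd a = 0 := congrArg Prod.snd har
  have ha0 : a ≠ 0 := fun h0 => hφ0 (by rw [← ha1, h0, Sheet.rd_zero])
  obtain ⟨e, he, he0⟩ := M.scale₂ a ha0
  have hene : e ≠ 0 := by rintro rfl; simp at he0
  have hea : a = e⁻¹ • (e • a) := (inv_smul_smul₀ hene a).symm
  have heA : e⁻¹ ∈ A := by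
    refine Sheet.mem_of_algebraMap_mem (s := M.s₂) M.π_eq_zero ?_
    have h1 := mul_mem hai.2 (Sheet.inv_mem_of_rd_ne he he0)
    have h2 : a * (e • a)⁻¹ = algebraMap L F e⁻¹ := by
      rw [Algebra.smul_def, mul_inv, map_inv₀, mul_left_comm, mul_inv_cancel₀ ha0, mul_one]
    rwa [h2] at h1
  have hπe : π ⟨e⁻¹, heA⟩ = 0 := by
    have h1 := Sheet.rd_smul (s := M.s₂) heA he
    rw [← hea, ha2, eq_comm, smul_eq_zero] at h1
    exact h1.resolve_right he0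
  obtain ⟨N, hN, hN0⟩ := hrank ⟨e⁻¹, heA⟩ hπe c hc0
  have hs : c⁻¹ • (a ^ N + algebraMap L F c) = ((e⁻¹) ^ N / c) • (e • a) ^ N + 1 := by
    rw [smul_add, Algebra.smul_def c⁻¹ (algebraMap L F c), ← map_mul, inv_mul_cancel₀ hc0, map_one]
    congr 1
    conv_lhs => rw [hea, smul_pow, smul_smul, inv_mul_eq_div]
  have hrd : M.s₁.rd (a ^ N + algebraMap L F c) = φ ^ N := by
    rw [Sheet.rd_add (pow_mem hai.1 N) (Sheet.algebraMap_mem hc), Sheet.rd_pow hai.1, ha1,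
      Sheet.rd_algebraMap hc, hπc, map_zero, add_zero]
  refine ⟨a ^ N + algebraMap L F c, fun h0 => ?_, add_mem (pow_mem hai.1 N)
    (Sheet.algebraMap_mem hc), by rw [hrd]; exact pow_ne_zero _ hφ0, ?_, ?_⟩
  · rw [h0, Sheet.rd_zero] at hrd
    exact pow_ne_zero _ hφ0 hrd.symm
  · rw [hs]
    exact add_mem (Sheet.smul_mem hN (pow_mem he N)) (one_mem _)
  · rw [hs, Sheet.rd_add (Sheet.smul_mem hN (pow_mem he N)) (one_mem _),
      Sheet.rd_smul hN (pow_mem he N), hN0, zero_smul, zero_add, Sheet.rd_one]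
    exact one_ne_zero

omit [IsAlgClosed k] in
/-- A function of norm `1` on the first sheet and norm `|c|` on the second one. -/
theorem exists_shift {c : L} (hc0 : c ≠ 0) :
    ∃ h : F, h ≠ 0 ∧ h ∈ M.s₁.W ∧ M.s₁.rd h ≠ 0 ∧ c⁻¹ • h ∈ M.s₂.W ∧
      M.s₂.rd (c⁻¹ • h) ≠ 0 := by
  have unit : ∀ {c : L} (hc : c ∈ A), π ⟨c, hc⟩ ≠ 0 → ∃ h : F, h ≠ 0 ∧ h ∈ M.s₁.W ∧
      M.s₁.rd h ≠ 0 ∧ c⁻¹ • h ∈ M.s₂.W ∧ M.s₂.rd (c⁻¹ • h) ≠ 0 := by
    intro c hc hπc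
    obtain ⟨ci, hci⟩ := exists_inv_of_red_ne M.π_eq_zero hπc
    have hci' : c⁻¹ = (ci : L) := (eq_inv_of_mul_eq_one_left hci).symm
    refine ⟨1, one_ne_zero, one_mem _, by rw [Sheet.rd_one]; exact one_ne_zero, ?_, ?_⟩
    · rw [hci']; exact Sheet.smul_mem ci.2 (one_mem _)
    · rw [hci', Sheet.rd_smul ci.2 (one_mem _), Sheet.rd_one, smul_ne_zero_iff]
      refine ⟨fun h0 => ?_, one_ne_zero⟩
      have h1 := congrArg π (show ci * ⟨c, hc⟩ = (1 : A) from Subtype.ext hci)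
      rw [map_mul, map_one] at h1
      rw [show π (⟨(ci : L), ci.2⟩ : A) = π ci from rfl] at h0
      rw [h0, zero_mul] at h1
      exact zero_ne_one h1
  rcases A.mem_or_inv_mem c with hc | hc
  · by_cases hπc : π ⟨c, hc⟩ = 0
    exacts [exists_shift_small hrank hc hc0 hπc, unit hc hπc]
  obtain ⟨h, hh0, h1, h1', h2, h2'⟩ : ∃ h : F, h ≠ 0 ∧ h ∈ M.s₁.W ∧ M.s₁.rd h ≠ 0 ∧
      c⁻¹⁻¹ • h ∈ M.s₂.W ∧ M.s₂.rd (c⁻¹⁻¹ • h) ≠ 0 := by
    by_cases hπc : π ⟨c⁻¹, hc⟩ = 0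
    exacts [exists_shift_small hrank hc (inv_ne_zero hc0) hπc, unit hc hπc]
  refine ⟨h⁻¹, inv_ne_zero hh0, Sheet.inv_mem_of_rd_ne h1 h1', ?_, ?_, ?_⟩
  · rw [Sheet.rd_inv h1 h1']; exact inv_ne_zero h1'
  · have e : c⁻¹ • h⁻¹ = (c⁻¹⁻¹ • h)⁻¹ := by rw [smul_inv₀, inv_inv]
    rw [e]; exact Sheet.inv_mem_of_rd_ne h2 h2'
  · have e : c⁻¹ • h⁻¹ = (c⁻¹⁻¹ • h)⁻¹ := by rw [smul_inv₀, inv_inv]
    rw [e, Sheet.rd_inv h2 h2']; exact inv_ne_zero h2'

variable [IsAlgClosed L]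

/-- A class with both reductions trivial is the class of a twist. -/
theorem exists_twist_of_redPow (hd : 1 ≤ d) (D : Divisor.degZero (K := L) (F := F)) {f : F}
    (hf : f ≠ 0) (hD : ∀ v, (d : ℤ) * (D : Divisor L F) v = v.ord f)
    (h₁ : RedPow d M.s₁ f) (h₂ : RedPow d M.s₂ f) :
    ∃ T : M.Twist d, T.cls = Pic0.mk D := by
  obtain ⟨c₁, a₁, u₁, hc₁, ha₁, hu₁, e₁⟩ := h₁
  obtain ⟨c₂, a₂, u₂, hc₂, ha₂, hu₂, e₂⟩ := h₂
  have hc₁0 : c₁ ≠ 0 := fun h => RedPow.rd_ne ha₁ hu₁ e₁ (by simp [h])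
  have hc₂0 : c₂ ≠ 0 := fun h => RedPow.rd_ne ha₂ hu₂ e₂ (by simp [h])
  obtain ⟨e, he⟩ := IsAlgClosed.exists_pow_nat_eq (c₂ / c₁) hd
  have he0 : e ≠ 0 := fun h => by
    rw [h, zero_pow (by omega), eq_comm, div_eq_zero_iff] at he
    tauto
  obtain ⟨h, hh0, hh1, hh1', hh2, hh2'⟩ := exists_shift hrank (M := M) he0
  set r₁ := M.s₁.rd h with hr₁
  set r₂ := M.s₂.rd (e⁻¹ • h) with hr₂
  obtain ⟨w, w', hwi, hwi', n₁, n₂, q₁, q₂⟩ :=
    M.exists_lift_pair (mul_ne_zero hu₁ hh1') (mul_ne_zero hu₂ hh2')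
  have m₁ : M.s₁.rd w ≠ 0 := by rw [q₁]; exact mul_ne_zero (mul_ne_zero hu₁ hh1') n₁
  have m₂ : M.s₂.rd w ≠ 0 := by rw [q₂]; exact mul_ne_zero (mul_ne_zero hu₂ hh2') n₂
  have hw0 : w ≠ 0 := by rintro rfl; simp at m₁
  have hw'0 : w' ≠ 0 := by rintro rfl; simp at n₁
  have hiinv : Integral₂ M.s₁ M.s₂ w⁻¹ :=
    ⟨Sheet.inv_mem_of_rd_ne hwi.1 m₁, Sheet.inv_mem_of_rd_ne hwi.2 m₂⟩
  have hmi := (hwi'.mul hiinv).pow d
  obtain ⟨Eh, hEh, hEh0⟩ := M.rrF.exists_div hh0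
  obtain ⟨Ew, hEw, hEw0⟩ := M.rrF.exists_div hw0
  obtain ⟨Ew', hEw', hEw'0⟩ := M.rrF.exists_div hw'0
  have g1 : c₁ • f * h ^ d ∈ M.s₁.W := mul_mem hc₁ (pow_mem hh1 d)
  have g2 : c₁ • f * h ^ d = (c₂ • f) * (e⁻¹ • h) ^ d := by
    rw [smul_pow, smul_mul_smul_comm, inv_pow, he, inv_div, mul_div_cancel₀ _ hc₂0,
      smul_mul_assoc]
  have hT : Integral₂ M.s₁ M.s₂ (c₁ • f * h ^ d * (w' * w⁻¹) ^ d) :=
    ⟨mul_mem g1 hmi.1, mul_mem (g2 ▸ mul_mem hc₂ (pow_mem hh2 d)) hmi.2⟩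
  have hD0 : Divisor.degree (D : Divisor L F) = 0 := D.2
  let T : M.Twist d :=
    { D := (D : Divisor L F) + Eh + (Ew' - Ew), g := c₁ • f * h ^ d * (w' * w⁻¹) ^ d
      g_ne := mul_ne_zero (mul_ne_zero (smul_ne_zero hc₁0 hf) (pow_ne_zero _ hh0))
        (pow_ne_zero _ (mul_ne_zero hw'0 (inv_ne_zero hw0)))
      div := fun v => by
        rw [v.ord_mul (mul_ne_zero (smul_ne_zero hc₁0 hf) (pow_ne_zero _ hh0))
            (pow_ne_zero _ (mul_ne_zero hw'0 (inv_ne_zero hw0))),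
          v.ord_mul (smul_ne_zero hc₁0 hf) (pow_ne_zero _ hh0), Algebra.smul_def,
          v.ord_mul (by simpa using hc₁0) hf, ord_algebraMap, ord_pow, ord_pow,
          v.ord_mul hw'0 (inv_ne_zero hw0), v.ord_inv, ← hD, ← hEh, ← hEw, ← hEw',
          Finsupp.add_apply, Finsupp.add_apply, Finsupp.sub_apply]
        ring
      degree_D := by rw [map_add, map_add, map_sub, hD0, hEh0, hEw0, hEw'0]; simp
      g_int := hT, c₁ := a₁, c₂ := a₂, c₁_ne := ha₁, c₂_ne := ha₂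
      rd_g := by
        refine Prod.ext ?_ ?_
        · show M.s₁.rd (c₁ • f * h ^ d * (w' * w⁻¹) ^ d) = _
          rw [Sheet.rd_mul g1 hmi.1, Sheet.rd_mul hc₁ (pow_mem hh1 d), Sheet.rd_pow hh1,
            Sheet.rd_pow (hwi'.mul hiinv).1, Sheet.rd_mul hwi'.1 hiinv.1,
            Sheet.rd_inv hwi.1 m₁, e₁, q₁, mul_assoc (algebraMap k Kb a₁), mul_assoc,
            ← mul_pow, ← mul_pow, ← hr₁,
            show u₁ * r₁ * (M.s₁.rd w' * (u₁ * r₁ * M.s₁.rd w')⁻¹) = 1 by field_simp,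
            one_pow, mul_one]
        · show M.s₂.rd (c₁ • f * h ^ d * (w' * w⁻¹) ^ d) = _
          rw [g2, Sheet.rd_mul (mul_mem hc₂ (pow_mem hh2 d)) hmi.2,
            Sheet.rd_mul hc₂ (pow_mem hh2 d), Sheet.rd_pow hh2,
            Sheet.rd_pow (hwi'.mul hiinv).2, Sheet.rd_mul hwi'.2 hiinv.2,
            Sheet.rd_inv hwi.2 m₂, e₂, q₂, mul_assoc (algebraMap k Kb a₂), mul_assoc,
            ← mul_pow, ← mul_pow, ← hr₂,
            show u₂ * r₂ * (M.s₂.rd w' * (u₂ * r₂ * M.s₂.rd w')⁻¹) = 1 by field_simp,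
            one_pow, mul_one] }
  refine ⟨T, (QuotientAddGroup.eq_iff_sub_mem).mpr ?_⟩
  rw [AddSubgroup.mem_addSubgroupOf]
  show (D : Divisor L F) + Eh + (Ew' - Ew) - D ∈ Divisor.principal (K := L) (F := F)
  rw [show (D : Divisor L F) + Eh + (Ew' - Ew) - D = Eh + (Ew' - Ew) by abel]
  exact add_mem ⟨h, hh0, hEh⟩ (sub_mem ⟨w', hw'0, hEw'⟩ ⟨w, hw0, hEw⟩)

/-- **The bound on the kernel of reduction.** -/
theorem natCard_redKer₁_le (hd : 1 ≤ d) (hdk : (d : k) ≠ 0) {B : Type uB} [AddCommGroup B]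
    (Φ : Pic0 L F →+ B) [Finite {b : B // d • b = 0}]
    (hΦ : ∀ (D : Divisor.degZero (K := L) (F := F)) (f : F), f ≠ 0 →
      (∀ v, (d : ℤ) * (D : Divisor L F) v = v.ord f) → Φ (Pic0.mk D) = 0 →
        RedPow d M.s₁ f → RedPow d M.s₂ f) :
    Finite (redKer₁ M d) ∧
      Nat.card (redKer₁ M d) ≤ Nat.card {b : B // d • b = 0} * d ^ (M.nodeCount - 1) := by
  let ψ : redKer₁ M d →+ B := Φ.comp (redKer₁ M d).subtype
  let e : ψ.range → {b : B // d • b = 0} := fun b => ⟨b, by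
    obtain ⟨x, hx⟩ := b.2
    rw [← hx, ← map_nsmul, show d • x = 0 from
      Subtype.ext (nsmul_eq_zero_of_mem_redKer₁ x.2), map_zero]⟩
  have he : Function.Injective e := fun a b h => Subtype.ext (congrArg (fun t : {b : B // d • b = 0} => (t : B)) h)
  have : Finite ψ.range := Finite.of_injective e he
  let W : Set (Pic0 L F) := {x | x ∈ redKer₁ M d ∧ Φ x = 0}
  obtain ⟨hWfin, hW⟩ := natCard_twist_le (M := M) hd hdk W (by
    rintro x ⟨⟨D, f, hf, hD, rfl, hr⟩, hx0⟩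
    exact exists_twist_of_redPow hrank hd D hf hD hr (hΦ D f hf hD hx0 hr))
  have : Finite W := hWfin.to_subtype
  let i : ψ.ker → W := fun x => ⟨(x : redKer₁ M d), ⟨(x : redKer₁ M d).2, x.2⟩⟩
  have hi : Function.Injective i := fun a b h =>
    Subtype.ext (Subtype.ext (congrArg (fun t : W => (t : Pic0 L F)) h))
  have : Finite ψ.ker := Finite.of_injective i hi
  have hquot : Finite (redKer₁ M d ⧸ ψ.ker) :=
    Finite.of_equiv _ (QuotientAddGroup.quotientKerEquivRange ψ).symm.toEquiv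
  refine ⟨Finite.of_equiv _ (AddSubgroup.addGroupEquivQuotientProdAddSubgroup (s := ψ.ker)).symm, ?_⟩
  rw [AddSubgroup.card_eq_card_quotient_mul_card_addSubgroup ψ.ker,
    Nat.card_congr (QuotientAddGroup.quotientKerEquivRange ψ).toEquiv]
  exact Nat.mul_le_mul (Nat.card_le_card_of_injective e he)
    ((Nat.card_le_card_of_injective i hi).trans hW)

end Shift

variable (M) in
/-- The genus of `F` is twice that of `Kb` plus the number of nodes minus one. -/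
theorem gF_eq [IsAlgClosed k] : M.gF + 1 = 2 * M.gK + M.nodeCount := by
  obtain ⟨N₁, -, h₁⟩ := M.exists_level
  obtain ⟨N₂, h₂⟩ := M.exists_finrank_gl
  set n := max N₁ N₂
  have e1 := ((h₁ n (le_max_left _ _)).2.2 MonoDatum.one').symm.trans
    (h₂ n (le_max_right _ _) MonoDatum.one')
  have e2 := ((h₁ (n + 1) (by omega)).2.2 MonoDatum.one').symm.trans
    (h₂ (n + 1) (by omega) MonoDatum.one')
  push_cast at e1 e2
  nlinarith

end FermatLib.MLT.LGC
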