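import Fermat.Agent.Igusa.MonoTwistClass

/-!
# Node labels of twists

A twist of exponent `d` whose function reduces to `1` on both sheets has at every node a label in
`μ_d(k)`. Labels are multiplicative and a twist with constant labels has trivial class, so the
classes of such twists number at most `d ^ (#nodes - 1)`.
-/

set_option autoImplicit false
set_option linter.style.haveILetI false

noncomputable section

open AlgebraicCurve FermatLib.Igusa FermatLib.Igusa.Mono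

namespace FermatLib.MLT.LGC

universe uL uF uk uKb

variable {L : Type uL} {k : Type uk} [Field L] [Field k] {A : ValuationSubring L} {π : A →+* k}
  {F : Type uF} {Kb : Type uKb} [Field F] [Algebra L F] [Field Kb] [Algebra k Kb] {q : ℕ}
  {M : MonoDatum π F Kb q} {d : ℕ}

theorem twist_c₁_eq_one (T : M.Twist d) (hT : rd₂ M.s₁ M.s₂ T.g = 1) : T.c₁ = 1 :=
  (algebraMap k Kb).injective (by rw [← T.rd₁_g, map_one]; exact congrArg Prod.fst hT)

theorem twist_c₂_eq_one (T : M.Twist d) (hT : rd₂ M.s₁ M.s₂ T.g = 1) : T.c₂ = 1 :=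
  (algebraMap k Kb).injective (by rw [← T.rd₂_g, map_one]; exact congrArg Prod.snd hT)

/-- `t` is the label of `T` at `z`. -/
def HasLabel (T : M.Twist d) (z : Place k Kb × Place k Kb) (t : k) : Prop :=
  ∃ n, 1 ≤ n ∧ ∃ f ∈ M.twistLevel T.D n,
    valAt z.1 f.1 ≠ 0 ∧ valAt z.2 f.2 = t * valAt z.1 f.1

variable [IsAlgClosed k] {T : M.Twist d} {z : Place k Kb × Place k Kb}

theorem HasLabel.relation (hd : 1 ≤ d) (hz : z ∈ M.nodes) {t : k} (h : HasLabel T z t) {m : ℕ}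
    (hm : 1 ≤ m) {b : Kb × Kb} (hb : b ∈ M.twistLevel T.D m) :
    valAt z.2 b.2 = t * valAt z.1 b.1 := by
  obtain ⟨n, hn, f, hf, hf0, hft⟩ := h
  have h1 := T.proportional hd (hn.trans (le_max_left n m))
    (M.twistLevel_mono T.D (le_max_left n m) hf) (M.twistLevel_mono T.D (le_max_right n m) hb) hz
  rw [hft] at h1
  refine mul_left_cancel₀ hf0 ?_
  rw [← h1]
  ring

theorem HasLabel.unique (hd : 1 ≤ d) (hz : z ∈ M.nodes) {t t' : k} (h : HasLabel T z t)
    (h' : HasLabel T z t') : t = t' := by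
  obtain ⟨m, hm, b, hb, hb0, hbt⟩ := h'
  exact mul_right_cancel₀ hb0 ((h.relation hd hz hm hb).symm.trans hbt)

theorem exists_hasLabel (hd : 1 ≤ d) (T : M.Twist d) (hz : z ∈ M.nodes) :
    ∃ t, HasLabel T z t := by
  obtain ⟨N, hN, h⟩ := MonoDatum.exists_twist_level T hd
  obtain ⟨l, hl, hex⟩ := h N le_rfl
  obtain ⟨f, hf, hf0⟩ := hex z hz
  have hf' : f ∈ M.gl l N := hl ▸ hf
  exact ⟨l z, N, hN, f, hf, hf0, hf'.2.2 z hz⟩

theorem HasLabel.pow_eq_one (hd : 1 ≤ d) (hz : z ∈ M.nodes) (hT : rd₂ M.s₁ M.s₂ T.g = 1)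
    {t : k} (h : HasLabel T z t) : t ^ d = 1 := by
  obtain ⟨n, hn, f, hf, hf0, hft⟩ := h
  obtain ⟨h1, h2⟩ := T.mem_rr hd hn hf
  have h3 := (M.mem_gl_one.mp (T.pow_smul_mem_gl hd hn hf)).2.2 z hz
  rw [twist_c₁_eq_one T hT, twist_c₂_eq_one T hT, one_smul, one_smul,
    valAt_pow_reg M.rrK.deg_one (rrSpace_nsmul_le_reg M.P₁ n h1) (M.P₁_of_node hz).1,
    valAt_pow_reg M.rrK.deg_one (rrSpace_nsmul_le_reg M.P₂ n h2)
      ((M.supp _).mp (M.P₁_of_node hz).2), hft, mul_pow] at h3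
  exact mul_right_cancel₀ (pow_ne_zero d hf0) (by rw [← h3, one_mul])

theorem HasLabel.add (hd : 1 ≤ d) (hz : z ∈ M.nodes) {T' : M.Twist d} {t t' : k}
    (h : HasLabel T z t) (h' : HasLabel T' z t') : HasLabel (T.add T') z (t * t') := by
  obtain ⟨n, hn, f, hf, hf0, hft⟩ := h
  obtain ⟨m, hm, b, hb, hb0, hbt⟩ := h'
  obtain ⟨f1, f2⟩ := T.mem_rr hd hn hf
  obtain ⟨b1, b2⟩ := T'.mem_rr hd hm hb
  have hz1 := (M.P₁_of_node hz).1
  have hz2 := (M.supp _).mp (M.P₁_of_node hz).2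
  refine ⟨n + m, by omega, f * b, ?_, ?_, ?_⟩
  · obtain ⟨a, ha, hai, rfl⟩ := hf
    obtain ⟨c, hc, hci, rfl⟩ := hb
    refine ⟨a * c, ?_, hai.mul hci, rd₂_mul hai hci⟩
    show a * c ∈ riemannRochSpace ((T.D + T'.D) + (n + m) • M.Px)
    rw [add_nsmul, show T.D + T'.D + (n • M.Px + m • M.Px)
      = T.D + n • M.Px + (T'.D + m • M.Px) by abel]
    exact mul_mem_riemannRochSpace ha hc
  · rw [Prod.fst_mul, valAt_mul_reg M.rrK.deg_one (rrSpace_nsmul_le_reg _ _ f1)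
      (rrSpace_nsmul_le_reg _ _ b1) hz1]
    exact mul_ne_zero hf0 hb0
  · rw [Prod.fst_mul, Prod.snd_mul, valAt_mul_reg M.rrK.deg_one (rrSpace_nsmul_le_reg _ _ f1)
      (rrSpace_nsmul_le_reg _ _ b1) hz1, valAt_mul_reg M.rrK.deg_one
      (rrSpace_nsmul_le_reg _ _ f2) (rrSpace_nsmul_le_reg _ _ b2) hz2, hft, hbt]
    ring

theorem hasLabel_triv (hz : z ∈ M.nodes) : HasLabel (MonoDatum.Twist.triv M d) z 1 := by
  refine ⟨1, le_rfl, 1, ⟨1, ?_, integral₂_one, rd₂_one⟩, ?_, ?_⟩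
  · show (1 : F) ∈ riemannRochSpace ((0 : Divisor L F) + 1 • M.Px)
    rw [zero_add]
    exact one_mem_riemannRochSpace (nsmul_nonneg M.Px_nonneg 1)
  · rw [Prod.fst_one, ← map_one (algebraMap k Kb), valAt_algebraMap]
    exact one_ne_zero
  · rw [Prod.fst_one, Prod.snd_one, ← map_one (algebraMap k Kb), valAt_algebraMap,
      valAt_algebraMap, one_mul]

theorem rd₂_add_g (T T' : M.Twist d) :
    rd₂ M.s₁ M.s₂ (T.add T').g = rd₂ M.s₁ M.s₂ T.g * rd₂ M.s₁ M.s₂ T'.g :=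
  rd₂_mul T.g_int T'.g_int

theorem rd₂_neg_g (T : M.Twist d) (hT : rd₂ M.s₁ M.s₂ T.g = 1) :
    rd₂ M.s₁ M.s₂ T.neg.g = 1 := by
  rw [T.neg.rd_g]
  show (algebraMap k Kb T.c₁⁻¹, algebraMap k Kb T.c₂⁻¹) = 1
  rw [twist_c₁_eq_one T hT, twist_c₂_eq_one T hT, inv_one, map_one]
  rfl

omit [IsAlgClosed k] in
/-- A twist with labels `1` everywhere is trivial. -/
theorem cls_eq_zero_of_labels_one [IsAlgClosed k] (hd : 1 ≤ d) (hdk : (d : k) ≠ 0)
    (T : M.Twist d) (hT : rd₂ M.s₁ M.s₂ T.g = 1) (h : ∀ z ∈ M.nodes, HasLabel T z 1) :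
    T.cls = 0 := by
  refine T.cls_eq_zero_of_rr_ne_bot (M.rr_ne_bot_of_trivial hd hdk T hT fun z hz => ?_)
  obtain ⟨n, -, f, hf, hf0, hft⟩ := h z hz
  exact ⟨n, f, hf, hf0, (hft.trans (one_mul _)).symm⟩

/-- A twist with constant labels is trivial. -/
theorem cls_eq_zero_of_labels_const (hd : 1 ≤ d) (hdk : (d : k) ≠ 0) (T : M.Twist d)
    (hT : rd₂ M.s₁ M.s₂ T.g = 1) (s : k) (hs : s ^ d = 1)
    (h : ∀ z ∈ M.nodes, HasLabel T z s) : T.cls = 0 := by
  obtain ⟨u, hu0, hui, hur⟩ := MonoDatum.exists_rd_one_const M s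
  obtain ⟨E, hE, hE0⟩ := M.rrF.exists_div hu0
  have hs0 : s ≠ 0 := fun h0 => by simp [h0, show d ≠ 0 by omega] at hs
  have hu1 : M.s₁.rd u ≠ 0 := by rw [show M.s₁.rd u = 1 from congrArg Prod.fst hur]; exact one_ne_zero
  have hu2 : M.s₂.rd u ≠ 0 := by
    rw [show M.s₂.rd u = _ from congrArg Prod.snd hur]; simpa using hs0
  have hg : rd₂ M.s₁ M.s₂ (T.g * u ^ d) = 1 := by
    rw [rd₂_mul T.g_int (hui.pow d), rd₂_pow hui, hT, one_mul, hur, Prod.pow_mk, one_pow,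
      ← map_pow, hs, map_one]
    rfl
  let T' : M.Twist d :=
    { D := T.D + E, g := T.g * u ^ d
      g_ne := mul_ne_zero T.g_ne (pow_ne_zero _ hu0)
      div := fun v => by
        rw [Finsupp.add_apply, mul_add, T.div, hE, v.ord_mul T.g_ne (pow_ne_zero _ hu0), ord_pow]
      degree_D := by rw [map_add, T.degree_D, hE0, add_zero]
      g_int := T.g_int.mul (hui.pow d), c₁ := 1, c₂ := 1
      c₁_ne := one_ne_zero, c₂_ne := one_ne_zero
      rd_g := by rw [hg, map_one]; rfl }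
  have hlab : ∀ z ∈ M.nodes, HasLabel T' z 1 := by
    intro z hz
    obtain ⟨n, hn, f, hf, hf0, hft⟩ := h z hz
    obtain ⟨f1, f2⟩ := T.mem_rr hd hn hf
    obtain ⟨a, ha, hai, rfl⟩ := hf
    have hinv : Integral₂ M.s₁ M.s₂ u⁻¹ :=
      ⟨Sheet.inv_mem_of_rd_ne hui.1 hu1, Sheet.inv_mem_of_rd_ne hui.2 hu2⟩
    refine ⟨n, hn, rd₂ M.s₁ M.s₂ (a * u⁻¹), ⟨a * u⁻¹, ?_, hai.mul hinv, rfl⟩, ?_⟩
    · rw [mem_riemannRochSpace_iff] at ha ⊢
      intro v
      rcases eq_or_ne a 0 with rfl | ha0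
      · exact Or.inl (zero_mul _)
      refine Or.inr ?_
      have h1 := (ha v).resolve_left ha0
      rw [v.ord_mul ha0 (inv_ne_zero hu0), v.ord_inv, ← hE]
      show -(T.D + E + n • M.Px) v ≤ _
      rw [Finsupp.add_apply, Finsupp.add_apply]
      rw [Finsupp.add_apply] at h1
      omega
    have e1 : M.s₁.rd (a * u⁻¹) = M.s₁.rd a := by
      rw [Sheet.rd_mul hai.1 hinv.1, Sheet.rd_inv hui.1 hu1,
        show M.s₁.rd u = 1 from congrArg Prod.fst hur, inv_one, mul_one]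
    have e2 : M.s₂.rd (a * u⁻¹) = s⁻¹ • M.s₂.rd a := by
      rw [Sheet.rd_mul hai.2 hinv.2, Sheet.rd_inv hui.2 hu2,
        show M.s₂.rd u = _ from congrArg Prod.snd hur, ← map_inv₀, mul_comm, Algebra.smul_def]
    refine ⟨?_, ?_⟩
    · show valAt z.1 (M.s₁.rd (a * u⁻¹)) ≠ 0
      rw [e1]; exact hf0
    · show valAt z.2 (M.s₂.rd (a * u⁻¹)) = 1 * valAt z.1 (M.s₁.rd (a * u⁻¹))
      have hv : valAt z.2 (M.s₂.rd a) = s * valAt z.1 (M.s₁.rd a) := hft
      have hreg : M.s₂.rd a ∈ Reg M.P₂ := rrSpace_nsmul_le_reg _ _ f2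
      rw [e1, e2, valAt_smul_reg M.rrK.deg_one _ hreg
        ((M.supp _).mp (M.P₁_of_node hz).2), hv, inv_mul_cancel_left₀ hs0, one_mul]
  have h0 := cls_eq_zero_of_labels_one hd hdk T' hg hlab
  rw [← h0]
  refine (QuotientAddGroup.eq_iff_sub_mem).mpr ?_
  rw [AddSubgroup.mem_addSubgroupOf]
  show T.D - (T.D + E) ∈ Divisor.principal (K := L) (F := F)
  rw [sub_add_cancel_left]
  exact neg_mem ⟨u, hu0, hE⟩

/-- Every twist class is the class of a twist reducing to `1`. -/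
theorem exists_normalised (hd : 1 ≤ d) (T : M.Twist d) :
    ∃ T' : M.Twist d, T'.cls = T.cls ∧ rd₂ M.s₁ M.s₂ T'.g = 1 := by
  obtain ⟨a, ha⟩ := M.π_surjective T.c₁⁻¹
  obtain ⟨s, hs⟩ := IsAlgClosed.exists_pow_nat_eq (T.c₁ / T.c₂) hd
  obtain ⟨h, hh0, hhi, hhr⟩ := MonoDatum.exists_rd_one_const M s
  obtain ⟨E, hE, hE0⟩ := M.rrF.exists_div hh0
  have ha0 : (a : L) ≠ 0 := fun h0 => by
    have ha' : a = 0 := Subtype.ext h0
    rw [ha', map_zero] at ha
    exact inv_ne_zero T.c₁_ne ha.symm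
  have haF : algebraMap L F (a : L) ≠ 0 := by simpa using ha0
  have hint : Integral₂ M.s₁ M.s₂ (algebraMap L F (a : L) * T.g * h ^ d) :=
    ((integral₂_algebraMap a.2).mul T.g_int).mul (hhi.pow d)
  have hone : rd₂ M.s₁ M.s₂ (algebraMap L F (a : L) * T.g * h ^ d) = 1 := by
    rw [rd₂_mul ((integral₂_algebraMap a.2).mul T.g_int) (hhi.pow d),
      rd₂_mul (integral₂_algebraMap a.2) T.g_int, rd₂_pow hhi, hhr]
    refine Prod.ext ?_ ?_
    · show M.s₁.rd (algebraMap L F (a : L)) * M.s₁.rd T.g * (1 : Kb) ^ d = 1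
      rw [one_pow, mul_one, Sheet.rd_algebraMap a.2, T.rd₁_g, ← map_mul, ha,
        inv_mul_cancel₀ T.c₁_ne, map_one]
    · show M.s₂.rd (algebraMap L F (a : L)) * M.s₂.rd T.g * algebraMap k Kb s ^ d = 1
      rw [Sheet.rd_algebraMap a.2, T.rd₂_g, ← map_pow, ← map_mul, ← map_mul, ha, hs,
        ← map_one (algebraMap k Kb)]
      congr 1
      field_simp [T.c₁_ne, T.c₂_ne]
  refine ⟨
    { D := T.D + E, g := algebraMap L F (a : L) * T.g * h ^ d
      g_ne := mul_ne_zero (mul_ne_zero haF T.g_ne) (pow_ne_zero _ hh0)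
      div := fun v => by
        rw [v.ord_mul (mul_ne_zero haF T.g_ne) (pow_ne_zero _ hh0), v.ord_mul haF T.g_ne,
          ord_algebraMap, ord_pow, zero_add, ← T.div, ← hE, Finsupp.add_apply, mul_add]
      degree_D := by rw [map_add, T.degree_D, hE0, add_zero]
      g_int := hint, c₁ := 1, c₂ := 1, c₁_ne := one_ne_zero, c₂_ne := one_ne_zero
      rd_g := by rw [hone, map_one]; rfl }, ?_, hone⟩
  refine (QuotientAddGroup.eq_iff_sub_mem).mpr ?_
  rw [AddSubgroup.mem_addSubgroupOf]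
  show T.D + E - T.D ∈ Divisor.principal (K := L) (F := F)
  rw [add_sub_cancel_left]
  exact ⟨h, hh0, hE⟩

/-- A set of classes of twists of exponent `d` has at most `d ^ (#nodes - 1)` elements. -/
theorem natCard_twist_le (hd : 1 ≤ d) (hdk : (d : k) ≠ 0) (W : Set (Pic0 L F))
    (hW : ∀ x ∈ W, ∃ T : M.Twist d, T.cls = x) :
    W.Finite ∧ Nat.card W ≤ d ^ (M.nodeCount - 1) := by
  classical
  have : NeZero d := ⟨by omega⟩
  haveI : Fintype ↥M.nodes := M.finite_nodes.fintype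
  obtain ⟨z₀, hz₀⟩ := M.nodes_nonempty
  have hrep : ∀ x : W, ∃ T : M.Twist d, T.cls = (x : Pic0 L F) ∧ rd₂ M.s₁ M.s₂ T.g = 1 := fun x => by
    obtain ⟨T, hT⟩ := hW x x.2
    obtain ⟨T', h1, h2⟩ := exists_normalised hd T
    exact ⟨T', h1.trans hT, h2⟩
  choose T hT hT1 using hrep
  choose l hl using fun (x : W) (z : ↥M.nodes) => exists_hasLabel hd (T x) z.2
  have hl1 : ∀ x z, l x z ∈ Polynomial.nthRootsFinset d (1 : k) := fun x z => by
    rw [Polynomial.mem_nthRootsFinset hd (1 : k)]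
    exact (hl x z).pow_eq_one hd z.2 (hT1 x)
  set μ : Finset k := Polynomial.nthRootsFinset d (1 : k)
  let Φ : W × μ → (↥M.nodes → μ) := fun p z => ⟨p.2 * l p.1 z, by
    have h1 := (Polynomial.mem_nthRootsFinset hd (1 : k)).mp p.2.2
    have h2 := (Polynomial.mem_nthRootsFinset hd (1 : k)).mp (hl1 p.1 z)
    rw [Polynomial.mem_nthRootsFinset hd (1 : k), mul_pow, h1, h2, one_mul]⟩
  have hμ0 : ∀ a : μ, (a : k) ≠ 0 := fun a h0 => by
    have h1 := (Polynomial.mem_nthRootsFinset hd (1 : k)).mp a.2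
    simp [h0, show d ≠ 0 by omega] at h1
  have hinj : Function.Injective Φ := by
    rintro ⟨x, a⟩ ⟨y, b⟩ h
    have he : ∀ z, (a : k) * l x z = b * l y z := fun z => congrArg Subtype.val (congrFun h z)
    have hy0 : ∀ z, l y z ≠ 0 := fun z => hμ0 ⟨_, hl1 y z⟩
    have hxy : (x : Pic0 L F) = y := by
      have h0 : ((T x).add (T y).neg).cls = 0 := by
        refine cls_eq_zero_of_labels_const hd hdk _ (by
          rw [rd₂_add_g, hT1, rd₂_neg_g _ (hT1 y), one_mul]) ((b : k) / a) ?_ fun z hz => ?_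
        · rw [div_pow, (Polynomial.mem_nthRootsFinset hd (1 : k)).mp a.2,
            (Polynomial.mem_nthRootsFinset hd (1 : k)).mp b.2, div_one]
        obtain ⟨t, ht⟩ := exists_hasLabel hd (T y).neg hz
        have hone : l y ⟨z, hz⟩ * t = 1 := by
          refine ((hl y ⟨z, hz⟩).add hd hz ht).unique hd hz ?_
          obtain ⟨n, hn, f, hf, hf0, hft⟩ := hasLabel_triv (M := M) (d := d) hz
          refine ⟨n, hn, f, ?_, hf0, hft⟩
          rw [show ((T y).add (T y).neg).D = 0 from add_neg_cancel _]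
          exact hf
        have hl' := (hl x ⟨z, hz⟩).add hd hz ht
        have : l x ⟨z, hz⟩ * t = b / a := by
          rw [eq_div_iff (hμ0 a), mul_right_comm, mul_comm _ (a : k), he, mul_assoc, hone, mul_one]
        rwa [this] at hl'
      rw [MonoDatum.Twist.cls_add, MonoDatum.Twist.cls_neg, hT, hT, add_neg_eq_zero] at h0
      exact h0
    obtain rfl : x = y := Subtype.ext hxy
    exact Prod.ext rfl (Subtype.ext (mul_right_cancel₀ (hy0 ⟨z₀, hz₀⟩) (he ⟨z₀, hz₀⟩)))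
  have : Finite (W × μ) := Finite.of_injective _ hinj
  have hμ1 : (1 : k) ∈ μ := (Polynomial.mem_nthRootsFinset hd (1 : k)).mpr (one_pow d)
  have : Nonempty μ := ⟨⟨1, hμ1⟩⟩
  have : Finite W := Finite.of_injective (fun x : W => (x, Classical.arbitrary μ))
    fun _ _ h => congrArg Prod.fst h
  refine ⟨Set.toFinite W, ?_⟩
  have hle := Nat.card_le_card_of_injective Φ hinj
  rw [Nat.card_prod, Nat.card_fun, show Nat.card ↥M.nodes = M.nodeCount from rfl] at hle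
  have hS : 1 ≤ M.nodeCount := by
    have : Nonempty ↥M.nodes := ⟨⟨z₀, hz₀⟩⟩
    exact Nat.one_le_iff_ne_zero.mpr (Nat.card_pos).ne'
  have hμd : Nat.card μ ≤ d := by
    rw [Nat.card_eq_fintype_card, Fintype.card_coe]
    exact (Multiset.toFinset_card_le _).trans (Polynomial.card_nthRoots d (1 : k))
  rw [show M.nodeCount = M.nodeCount - 1 + 1 by omega, pow_succ] at hle
  exact (Nat.le_of_mul_le_mul_right hle Nat.card_pos).trans (Nat.pow_le_pow_left hμd _)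

end FermatLib.MLT.LGC
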