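import Fermat.Agent.MLT.LGC.Gamma0HalfKernel
import Fermat.Agent.Igusa.MonoNormSeries

/-!
# Reduction of the norm to level `M`

If both sheets are read off from expansions `ι₁`, `ι₂` and the norm of `f` to level `M` has
expansion `ι₁ f (u^q) * ∏ ι₂ f (ζ^i u)`, then its reduction is `r₁ * Frob r₂`. So if it is a
constant times a `d`-th power, triviality passes from the first sheet to the second one.
-/

set_option autoImplicit false
set_option linter.style.haveILetI false
set_option linter.unusedSectionVars false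

noncomputable section

open AlgebraicCurve ModularCurve FermatLib.Igusa FermatLib.Igusa.Mono

namespace FermatLib.MLT.LGC

attribute [local instance 100000] monoLaurentModule monoLaurentSMul

universe uL uF uk uKb

variable {L : Type uL} {k : Type uk} [Field L] [Field k] {A : ValuationSubring L} {π : A →+* k}
  {F : Type uF} {Kb : Type uKb} [Field F] [Algebra L F] [Field Kb] [Algebra k Kb]
  {q : ℕ} {M : MonoDatum π F Kb q} {d : ℕ}

theorem monoNewScale_algebraMap {R : Type*} [Field R] (c : Rˣ) (a : R) :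
    monoNewScale c (algebraMap R (LaurentSeries R) a) = algebraMap R (LaurentSeries R) a := by
  ext i
  rw [monoNewScale_coeff]
  rw [algebraMap_laurentSeries_eq_single]
  rcases eq_or_ne i 0 with rfl | hi
  · simp
  · simp [HahnSeries.coeff_single_of_ne hi]

variable (M) in
include M in
/-- A unit at a sheet whose reduction class is trivial reduces to a constant times a `d`-th
power. -/
theorem RedPow.of_integral {s : Sheet π F Kb} {f : F} (hf : f ∈ s.W) (hf0 : s.rd f ≠ 0)
    (h : RedPow d s f) :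
    ∃ (a : k) (u : Kb), a ≠ 0 ∧ u ≠ 0 ∧ s.rd f = algebraMap k Kb a * u ^ d := by
  obtain ⟨c, a, u, hc, ha, hu, hr⟩ := h
  have hne : f ≠ 0 := by rintro rfl; simp at hf0
  have hc0 : c ≠ 0 := fun h0 => RedPow.rd_ne ha hu hr (by simp [h0])
  have hcA : c ∈ A := by
    refine Sheet.mem_of_algebraMap_mem (s := s) M.π_eq_zero ?_
    have := mul_mem hc (Sheet.inv_mem_of_rd_ne hf hf0)
    rwa [Algebra.smul_def, mul_inv_cancel_right₀ hne] at this
  rw [Sheet.rd_smul hcA hf, Algebra.smul_def] at hr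
  have hπ : π ⟨c, hcA⟩ ≠ 0 := fun h0 => by
    rw [h0, map_zero, zero_mul, eq_comm] at hr
    exact mul_ne_zero (by simpa using ha) (pow_ne_zero _ hu) hr
  refine ⟨a / π ⟨c, hcA⟩, u, div_ne_zero ha hπ, hu, ?_⟩
  rw [map_div₀, div_mul_eq_mul_div, eq_div_iff (by simpa using hπ), mul_comm, hr]

variable [CharZero L] [NeZero q] [Fact q.Prime] [CharP k q] [IsAlgClosed k]
  {ι₁ ι₂ : F →ₐ[L] LaurentSeries L} {emb : Kb →+* LaurentSeries k}

/-- **Triviality passes to the second sheet along the norm.** -/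
theorem redPow_snd_of_norm (h₁ : HasRatios M.s₁ ι₁ emb) (h₂ : HasRatios M.s₂ ι₂ emb)
    (hemb : ∀ c : k, emb (algebraMap k Kb c) = HahnSeries.single 0 c)
    (hdesc : ∀ x : Kb, ∃ y : Kb, emb x = coeffMap (frobenius k q) (emb y))
    {ζ : Lˣ} (hζ : IsPrimitiveRoot ζ q) {f h g : F} (hf : f ≠ 0)
    (hnorm : qExpand L q (ι₁ h) =
      qExpand L q (ι₁ f) * ∏ i : Fin q, monoNewScale (ζ ^ (i : ℕ)) (ι₂ f))
    (hg : g ≠ 0) {b : L} (hb : b ≠ 0) (hh : h = algebraMap L F b * g ^ d)
    (hr : RedPow d M.s₁ f) : RedPow d M.s₂ f := by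
  classical
  obtain ⟨c₁, hc₁, hc₁0⟩ := M.scale₁ f hf
  obtain ⟨c₂, hc₂, hc₂0⟩ := M.scale₂ f hf
  have hc₁ne : c₁ ≠ 0 := fun h0 => hc₁0 (by simp [h0])
  have hc₂ne : c₂ ≠ 0 := fun h0 => hc₂0 (by simp [h0])
  obtain ⟨y₁, z₁, i₁, j₁⟩ := h₁ _ hc₁
  obtain ⟨y₂, z₂, i₂, j₂⟩ := h₂ _ hc₂
  obtain ⟨ζA, hζA, hπζ⟩ := exists_unit_red (q := q) π hζ
  set H : F := algebraMap L F (c₁ * c₂ ^ q) * h with hH
  have hnum : qExpand L q (ι₁ H) =
      normSeries (q := q) ζ (ι₁ (c₁ • f)) (ι₂ (c₂ • f)) := by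
    rw [normSeries, Algebra.smul_def, Algebra.smul_def, hH, map_mul ι₁, map_mul ι₁, map_mul ι₂,
      AlgHom.commutes, AlgHom.commutes, AlgHom.commutes, map_mul, map_mul, hnorm]
    simp only [map_mul, monoNewScale_algebraMap, Finset.prod_mul_distrib, Finset.prod_const,
      Finset.card_univ, Fintype.card_fin, map_pow]
    have hq : ∀ a : L, qExpand L q (algebraMap L (LaurentSeries L) a) =
        algebraMap L (LaurentSeries L) a := fun a => by
      simp [algebraMap_laurentSeries_eq_single, qExpand_single]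
    simp only [hq]
    ring
  set Q : LaurentSeries A := normSeries (q := q) ζA z₁ z₂
  set R : LaurentSeries A := normSeries (q := q) ζA y₁ y₂
  have hmapL : ∀ a b : LaurentSeries A, coeffMap A.subtype (normSeries (q := q) ζA a b) =
      normSeries (q := q) ζ (coeffMap A.subtype a) (coeffMap A.subtype b) := fun a b => by
    rw [coeffMap_normSeries, hζA]
  have hmapk : ∀ a b : LaurentSeries A, coeffMap π (normSeries (q := q) ζA a b) =
      qExpand k q (coeffMap π a * coeffMap (frobenius k q) (coeffMap π b)) := fun a b => by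
    rw [coeffMap_normSeries, hπζ, normSeries_one_unit, monoNew_pow_char q, map_mul]
  have hQ : coeffMap π Q ≠ 0 := by
    rw [hmapk, map_ne_zero_iff _ (qExpand_injective q)]
    exact mul_ne_zero i₁.red_ne
      ((map_ne_zero_iff _ (coeffMap (frobenius k q)).injective).mpr i₂.red_ne)
  obtain ⟨hHW, hHr⟩ := h₁.of_qExpand (h := H) (R := R) (Q := Q) hQ (by
    rw [hnum, hmapL, hmapL, ← normSeries_mul, i₁.eq, i₂.eq])
  rw [hmapk, hmapk, ← map_div₀] at hHr
  have key : emb (M.s₁.rd H) =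
      emb (M.s₁.rd (c₁ • f)) * coeffMap (frobenius k q) (emb (M.s₂.rd (c₂ • f))) := by
    rw [show emb (M.s₁.rd (c₁ • f)) = coeffMap π y₁ / coeffMap π z₁ from
        (eq_div_iff i₁.red_ne).mpr j₁,
      show emb (M.s₂.rd (c₂ • f)) = coeffMap π y₂ / coeffMap π z₂ from
        (eq_div_iff i₂.red_ne).mpr j₂, map_div₀ (coeffMap (frobenius k q))]
    rw [qExpand_injective q hHr, div_mul_div_comm]
  have hH0 : M.s₁.rd H ≠ 0 := by
    rw [← map_ne_zero_iff _ emb.injective, key]
    exact mul_ne_zero (by simpa using hc₁0)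
      ((map_ne_zero_iff _ (coeffMap (frobenius k q)).injective).mpr (by simpa using hc₂0))
  have hHpow : RedPow d M.s₁ H := by
    rw [hH, hh, ← mul_assoc, ← map_mul]
    exact (redPow_algebraMap d M.s₁
      (mul_ne_zero (mul_ne_zero hc₁ne (pow_ne_zero _ hc₂ne)) hb)).mul (redPow_pow M.scale₁ hg)
  obtain ⟨a, u, ha, hu, hau⟩ := hHpow.of_integral M hHW hH0
  have hr' : RedPow d M.s₁ (c₁ • f) := by
    rw [Algebra.smul_def]
    exact (redPow_algebraMap d M.s₁ hc₁ne).mul hr
  obtain ⟨a₁, u₁, ha₁, hu₁, hau₁⟩ := hr'.of_integral M hc₁ hc₁0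
  obtain ⟨a', ha'⟩ := IsAlgClosed.exists_pow_nat_eq (a / a₁) (Fact.out : q.Prime).pos
  obtain ⟨yu, hyu⟩ := hdesc (u / u₁)
  have hyu0 : yu ≠ 0 := by
    rintro rfl
    rw [map_zero, map_zero, map_eq_zero_iff _ emb.injective, div_eq_zero_iff] at hyu
    tauto
  have ha'0 : a' ≠ 0 := fun h0 => by
    rw [h0, zero_pow (NeZero.ne q), eq_comm, div_eq_zero_iff] at ha'
    tauto
  have hconst : emb (algebraMap k Kb (a / a₁)) =
      coeffMap (frobenius k q) (emb (algebraMap k Kb a')) := by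
    rw [hemb, hemb, coeffMap_single, frobenius_def, ha']
  refine ⟨c₂, a', yu, hc₂, ha'0, hyu0, emb.injective
    ((coeffMap (frobenius k q)).injective ?_)⟩
  rw [map_mul emb, map_mul (coeffMap (frobenius k q)), ← hconst, map_pow emb,
    map_pow (coeffMap (frobenius k q)), ← hyu]
  refine mul_left_cancel₀ (show emb (M.s₁.rd (c₁ • f)) ≠ 0 by simpa using hc₁0) ?_
  rw [← key, hau, hau₁, ← map_pow emb, ← map_mul emb, ← map_mul emb]
  congr 1
  have h1 : algebraMap k Kb a₁ ≠ 0 := by simpa using ha₁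
  rw [map_div₀, div_pow]
  field_simp

end FermatLib.MLT.LGC
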