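import Fermat.Agent.MLT.LGC.CountTotal

/-!
# Half bound: from a complement in characteristic zero to the reduction

`L` spans `V` and reduces onto a subspace of `Vb`; `f` has image at least half on the complement of
an idempotent and the saturation of its image reduces into `K₁`, of dimension at most `g`, half of
the whole.  Then `K₁` meets the reduction of the summand in at most half of it.
-/

set_option autoImplicit false

noncomputable section

open Module

namespace FermatLib.MLT.LGC.Half

variable {O K k : Type*} [CommRing O] [IsDomain O] [IsPrincipalIdealRing O] [Field K] [Algebra O K]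
  [Field k] [Algebra O k]
  {L : Type*} [AddCommGroup L] [Module O L] [Module.Finite O L] [Module.IsTorsionFree O L]
  {V : Type*} [AddCommGroup V] [Module K V] [FiniteDimensional K V] [Module O V]
  [IsScalarTower O K V]

omit [IsDomain O] [IsPrincipalIdealRing O] [Algebra O K] [IsScalarTower O K V] [Module.Finite O L] [Module.IsTorsionFree O L]
  [FiniteDimensional K V] in
/-- The image of the lattice under the linear map extending a map of the lattice spans its
range. -/
theorem span_map_range_eq (ι : L →ₗ[O] V) (hspan : Submodule.span K (Set.range ι) = ⊤)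
    (h : Module.End O L) (h' : Module.End K V) (hh : ∀ x, ι (h x) = h' (ι x)) :
    Submodule.span K (ι '' (LinearMap.range h : Set L)) = LinearMap.range h' := by
  rw [LinearMap.range_eq_map h', ← hspan, Submodule.map_span]
  refine congrArg (Submodule.span K) ?_
  ext v
  simp only [Set.mem_image, SetLike.mem_coe, LinearMap.mem_range, Set.mem_range]
  constructor
  · rintro ⟨_, ⟨x, rfl⟩, rfl⟩
    exact ⟨_, ⟨x, rfl⟩, (hh x).symm⟩
  · rintro ⟨_, ⟨x, rfl⟩, rfl⟩
    exact ⟨_, ⟨x, rfl⟩, hh x⟩

omit [FiniteDimensional K V] in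
/-- The span of the image of a sublattice has dimension at most its rank. -/
theorem finrank_span_image_le (ι : L →ₗ[O] V) (T : Submodule O L) :
    finrank K ↥(Submodule.span K (ι '' (T : Set L))) ≤ finrank O T := by
  set b := Module.Free.chooseBasis O T
  have hle : Submodule.span K (ι '' (T : Set L)) ≤
      Submodule.span K (Set.range fun i => ι (b i)) := by
    refine Submodule.span_le.mpr ?_
    rintro _ ⟨x, hx, rfl⟩
    have h := congrArg (fun y : T => ι (y : L)) (b.sum_repr ⟨x, hx⟩)
    simp only [AddSubmonoidClass.coe_finsetSum, map_sum, SetLike.val_smul, map_smul] at h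
    rw [← h]
    refine Submodule.sum_mem _ fun i _ => ?_
    rw [← IsScalarTower.algebraMap_smul K]
    exact Submodule.smul_mem _ _ (Submodule.subset_span ⟨i, rfl⟩)
  have : FiniteDimensional K ↥(Submodule.span K (Set.range fun i => ι (b i))) :=
    FiniteDimensional.span_of_finite K (Set.finite_range _)
  refine (Submodule.finrank_mono hle).trans ?_
  rw [Module.finrank_eq_card_chooseBasisIndex O T]
  exact finrank_range_le_card _

/-- The saturation of a sublattice. -/
def saturation (T : Submodule O L) : Submodule O L where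
  carrier := {x | ∃ c : O, c ≠ 0 ∧ c • x ∈ T}
  zero_mem' := ⟨1, one_ne_zero, by simp⟩
  add_mem' := by
    rintro x y ⟨c, hc, hx⟩ ⟨d, hd, hy⟩
    refine ⟨c * d, mul_ne_zero hc hd, ?_⟩
    rw [smul_add]
    refine T.add_mem ?_ ?_
    · rw [mul_comm, mul_smul]; exact T.smul_mem d hx
    · rw [mul_smul]; exact T.smul_mem c hy
  smul_mem' := by
    rintro a x ⟨c, hc, hx⟩
    exact ⟨c, hc, by rw [smul_comm]; exact T.smul_mem a hx⟩

variable {Vb : Type*} [AddCommGroup Vb] [Module k Vb] [FiniteDimensional k Vb] [Module O Vb]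
  [IsScalarTower O k Vb]

/-- **Half of the reduction of a summand.** -/
theorem two_mul_finrank_inf_range_le {ϖ : O} (hϖ : ϖ ≠ 0)
    (hk : Function.Surjective (algebraMap O k)) (hϖ0 : algebraMap O k ϖ = 0)
    (ι : L →ₗ[O] V) (hspan : Submodule.span K (Set.range ι) = ⊤)
    (π : L →ₗ[O] Vb) (hπ : ∀ x, π x = 0 → ∃ y, x = ϖ • y)
    (fL eL : Module.End O L) (fV eV : Module.End K V) (eb : Module.End k Vb)
    (hf : ∀ x, ι (fL x) = fV (ι x)) (he : ∀ x, ι (eL x) = eV (ι x))
    (heb : ∀ x, π (eL x) = eb (π x))
    (hfe : Commute eL fL) (heL : IsIdempotentElem eL) (heV : IsIdempotentElem eV)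
    (hebi : IsIdempotentElem eb)
    {K₁ : Submodule k Vb} (hK₁ : ∀ (c : O) (x : L), c ≠ 0 → c • x ∈ LinearMap.range fL → π x ∈ K₁)
    {g : ℕ} (hg : finrank k K₁ ≤ g) (hV : finrank K V = 2 * g) (hVb : finrank k Vb = 2 * g)
    (hhalf : 2 * finrank K ↥(LinearMap.ker fV ⊓ LinearMap.range (1 - eV)) ≤
      finrank K ↥(LinearMap.range (1 - eV))) :
    2 * finrank k ↥(K₁ ⊓ LinearMap.range eb) ≤ finrank k ↥(LinearMap.range eb) := by
  set P := LinearMap.range (1 - eV) with hP
  -- the image of `f` on the complement
  let fe : Module.End O L := fL * (1 - eL)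
  have hfe' : ∀ x, ι (fe x) = (fV * (1 - eV)) (ι x) := fun x => by
    simp [fe, hf, he, map_sub]
  let S := saturation (LinearMap.range fe)
  have heS : ∀ x ∈ S, eL x = 0 := by
    rintro x ⟨c, hc, y, hy⟩
    have h0 : eL (fe y) = 0 := by
      have : eL * fe = 0 := by
        rw [← mul_assoc, hfe.eq, mul_assoc, mul_sub, mul_one, heL.eq, sub_self, mul_zero]
      exact LinearMap.congr_fun this y
    rw [hy, map_smul] at h0
    exact (smul_eq_zero.mp h0).resolve_left hc
  have h1 : finrank O ↥S ≤ finrank k ↥(K₁ ⊓ LinearMap.ker eb) := by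
    refine LGCCount.finrank_le_of_saturated hk hϖ0 π hπ (fun m hm => ?_) fun m hm => ⟨?_, ?_⟩
    · obtain ⟨c, hc, h⟩ := hm
      exact ⟨c * ϖ, mul_ne_zero hc hϖ, by rwa [mul_smul]⟩
    · obtain ⟨c, hc, y, hy⟩ := hm
      exact hK₁ c m hc ⟨(1 - eL) y, hy⟩
    · show eb (π m) = 0
      rw [← heb, heS m hm, map_zero]
  have h2 : finrank K ↥(LinearMap.range (fV * (1 - eV))) ≤ finrank O ↥S := by
    rw [← span_map_range_eq ι hspan fe _ hfe']
    refine (finrank_span_image_le ι _).trans (Submodule.finrank_mono fun x hx => ?_)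
    exact ⟨1, one_ne_zero, by rwa [one_smul]⟩
  have h3 : finrank K ↥(LinearMap.range (fV * (1 - eV))) +
      finrank K ↥(LinearMap.ker fV ⊓ P) = finrank K P := by
    have h := LinearMap.finrank_range_add_finrank_ker (fV.domRestrict P)
    rw [LinearMap.range_domRestrict, LinearMap.ker_domRestrict,
      ← Submodule.finrank_map_subtype_eq P (Submodule.comap P.subtype (LinearMap.ker fV)),
      Submodule.map_comap_subtype, inf_comm] at h
    rwa [show LinearMap.range (fV * (1 - eV)) = P.map fV from LinearMap.range_comp _ _]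
  -- the complement in characteristic zero is no smaller than the reduction
  have h4 : finrank k ↥(K₁ ⊓ LinearMap.range eb) + finrank k ↥(K₁ ⊓ LinearMap.ker eb) ≤ g := by
    refine le_trans ?_ hg
    have hd : (K₁ ⊓ LinearMap.range eb) ⊓ (K₁ ⊓ LinearMap.ker eb) = ⊥ := by
      refine (Submodule.eq_bot_iff _).mpr ?_
      rintro x ⟨⟨-, y, hy⟩, -, hx⟩
      have hx0 : eb x = 0 := hx
      rw [← hy, ← Module.End.mul_apply, hebi.eq, hy] at hx0
      exact hx0
    have h := Submodule.finrank_sup_add_finrank_inf_eq (K₁ ⊓ LinearMap.range eb)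
      (K₁ ⊓ LinearMap.ker eb)
    rw [hd, finrank_bot, add_zero] at h
    rw [← h]
    exact Submodule.finrank_mono (sup_le inf_le_left inf_le_left)
  -- the summand has the same dimension in both
  have hrange : ∀ (eL' : Module.End O L) (eV' : Module.End K V) (eb' : Module.End k Vb),
      IsIdempotentElem eL' → (∀ x, ι (eL' x) = eV' (ι x)) → (∀ x, π (eL' x) = eb' (π x)) →
      finrank K ↥(LinearMap.range eV') ≤ finrank k ↥(LinearMap.range eb') := by
    intro eL' eV' eb' hi h h'
    rw [← span_map_range_eq ι hspan eL' eV' h]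
    refine (finrank_span_image_le ι _).trans
      (LGCCount.finrank_le_of_saturated hk hϖ0 π hπ (fun m hm => ?_) fun m hm => ?_)
    · obtain ⟨y, hy⟩ := hm
      have hz : ϖ • (eL' m - m) = 0 := by
        rw [smul_sub, ← map_smul, ← hy, ← Module.End.mul_apply, hi.eq, sub_self]
      exact ⟨m, sub_eq_zero.mp ((smul_eq_zero.mp hz).resolve_left hϖ)⟩
    · obtain ⟨y, rfl⟩ := hm
      exact ⟨π y, (h' y).symm⟩
  have h5 := hrange eL eV eb heL he heb
  have hdV := LinearMap.finrank_range_add_finrank_ker eV
  have hdb := LinearMap.finrank_range_add_finrank_ker eb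
  rw [show LinearMap.ker eV = P from by rw [hP, LinearMap.IsIdempotentElem.ker_eq_range heV]; rfl] at hdV
  omega

end FermatLib.MLT.LGC.Half

end
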