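import Fermat.Agent.MLT.LGC.HalfDual
import Fermat.Agent.MLT.LGC.HalfLattice
import Fermat.Agent.Modular.HeckeDuality
import Fermat.Agent.Modular.LevelRaising.Equivariance
import Fermat.Agent.Modular.KummerHecke

/-!
# The reduction of a summand at level `q M` meets the kernel in at most half

`L = M q`, `q ∤ M`.  The Galois side enters through: an action on cuspidal homomorphisms commuting
with the Hecke algebra and with the trace to level `M`, the relation `g + e g • g⁻¹ ∈` Hecke span,
a complex conjugation acting by a multiple of the involution, the saturation of the image of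
`F - U q` reducing into `K₁`, and `K₁` of dimension at most `g`, half of the whole.
-/

set_option autoImplicit false
set_option linter.unusedSectionVars false

noncomputable section

open CongruenceSubgroup Module
open scoped MatrixGroups

namespace FermatLib.MLT.LGC.Half

open FermatLib.Modular FermatLib.Modular.Degeneracy FermatLib.Modular.LevelRaising

section Coeff

variable {O : Type*} [CommRing O] {B : Type*} [CommRing B] [Algebra O B] {N : ℕ} [NeZero N]

variable (O B N) in
/-- Change of coefficients, as an `O`-linear map. -/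
def coeffIncl : cuspidalHoms O (Gamma0 N) O →ₗ[O] cuspidalHoms B (Gamma0 N) B where
  toFun := cuspMap (algebraMap O B)
  map_add' := map_add _
  map_smul' c φ := Subtype.ext (AddMonoidHom.ext fun γ => by
    show algebraMap O B (c * φ.1 γ) = c • algebraMap O B (φ.1 γ)
    rw [map_mul, Algebra.smul_def])

theorem cuspidalHomsEquiv_coeffIncl (φ : cuspidalHoms O (Gamma0 N) O) (i : Fin (cuspRank N)) :
    cuspidalHomsEquiv N B B (coeffIncl O B N φ) i =
      algebraMap O B (cuspidalHomsEquiv N O O φ i) := rfl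

theorem span_range_coeffIncl :
    Submodule.span B (Set.range (coeffIncl O B N)) = ⊤ := by
  classical
  refine eq_top_iff.mpr fun v _ => ?_
  have hv : v = ∑ i, cuspidalHomsEquiv N B B v i •
      coeffIncl O B N ((cuspidalHomsEquiv N O O).symm (Pi.single i 1)) := by
    refine (cuspidalHomsEquiv N B B).injective (funext fun j => ?_)
    simp [map_sum, cuspidalHomsEquiv_coeffIncl, LinearEquiv.apply_symm_apply, Pi.single_apply]
  rw [hv]
  exact Submodule.sum_mem _ fun i _ => Submodule.smul_mem _ _ (Submodule.subset_span ⟨_, rfl⟩)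

theorem coeffIncl_injective (h : Function.Injective (algebraMap O B)) :
    Function.Injective (coeffIncl O B N) := fun φ ψ hφ =>
  (cuspidalHomsEquiv N O O).injective (funext fun i => h (by
    rw [← cuspidalHomsEquiv_coeffIncl, hφ, cuspidalHomsEquiv_coeffIncl]))

theorem exists_eq_smul_of_coeffIncl_eq_zero {ϖ : O}
    (hker : ∀ a, algebraMap O B a = 0 → ϖ ∣ a) (φ : cuspidalHoms O (Gamma0 N) O)
    (h : coeffIncl O B N φ = 0) : ∃ ψ, φ = ϖ • ψ := by
  choose a ha using fun i => hker (cuspidalHomsEquiv N O O φ i) (by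
    rw [← cuspidalHomsEquiv_coeffIncl, h]
    simp)
  refine ⟨(cuspidalHomsEquiv N O O).symm a, (cuspidalHomsEquiv N O O).injective (funext fun i => ?_)⟩
  rw [map_smul, LinearEquiv.apply_symm_apply, Pi.smul_apply, ha i, smul_eq_mul]

theorem finrank_cuspidalHoms (K : Type*) [Field K] (N : ℕ) [NeZero N] :
    finrank K (cuspidalHoms K (Gamma0 N) K) = cuspRank N := by
  rw [(cuspidalHomsEquiv N K K).finrank_eq, Module.finrank_fin_fun]

instance finiteDimensional_cuspidalHoms (K : Type*) [Field K] (N : ℕ) [NeZero N] :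
    FiniteDimensional K (cuspidalHoms K (Gamma0 N) K) :=
  Module.Finite.equiv (cuspidalHomsEquiv N K K).symm

instance finite_cuspidalHoms_lattice (N : ℕ) [NeZero N] (O : Type*) [CommRing O] :
    Module.Finite O (cuspidalHoms O (Gamma0 N) O) :=
  Module.Finite.equiv (cuspidalHomsEquiv N O O).symm

instance torsionFree_cuspidalHoms_lattice (N : ℕ) [NeZero N] (O : Type*) [CommRing O] :
    Module.IsTorsionFree O (cuspidalHoms O (Gamma0 N) O) :=
  (cuspidalHomsEquiv N O O).injective.moduleIsTorsionFree _ (map_smul _)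

end Coeff

section Transport

variable {M q L : ℕ} [NeZero M] [NeZero q] [Fact (Nat.Coprime q M)] (R : Type*) [CommRing R]

/-- The Atkin–Lehner operator at level `L = M q`. -/
def alEndAt (hL : L = M * q) : Module.End R (cuspidalHoms R (Gamma0 L) R) :=
  hL.symm ▸ cuspAL M q R

/-- Trace to level `M` followed by restriction, at level `L = M q`. -/
def resCoresAt (hL : L = M * q) : Module.End R (cuspidalHoms R (Gamma0 L) R) :=
  hL.symm ▸ (cuspRes M q R ∘ₗ cuspCores M q R :
    Module.End R (cuspidalHoms R (Gamma0 (M * q)) R))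

theorem alEndAt_rfl : alEndAt R (rfl : M * q = M * q) = cuspAL M q R := rfl

end Transport

variable {O K k : Type*} [CommRing O] [IsDomain O] [IsPrincipalIdealRing O] [Field K]
  [IsAlgClosed K] [CharZero K] [Algebra O K] [Field k] [Algebra O k]
  {G : Type*} [Group G] {M q L : ℕ} [Fact q.Prime] [NeZero M] [Fact (Nat.Coprime q M)] [NeZero L]

omit [IsDomain O] [IsPrincipalIdealRing O] [IsAlgClosed K] [CharZero K] in
/-- Intertwined endomorphisms commute if their images do. -/
theorem commute_of_intertwine {R S X Y : Type*} [Semiring R] [Semiring S] [AddCommMonoid X]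
    [Module R X] [AddCommMonoid Y] [Module S Y] (ι : X → Y) (hι : Function.Injective ι)
    {f f' : Module.End R X} {g g' : Module.End S Y} (h : ∀ x, ι (f x) = g (ι x))
    (h' : ∀ x, ι (f' x) = g' (ι x)) (hg : Commute g g') : Commute f f' :=
  LinearMap.ext fun x => hι (by
    show ι (f (f' x)) = ι (f' (f x))
    rw [h, h', h', h]
    exact LinearMap.congr_fun hg.eq (ι x))

omit [IsDomain O] [IsPrincipalIdealRing O] [IsAlgClosed K] [CharZero K] in
/-- Endomorphisms commute if they are intertwined with commuting ones on a spanning family. -/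
theorem commute_of_intertwine_span {R S X Y : Type*} [Semiring R] [Semiring S] [AddCommMonoid X]
    [Module R X] [AddCommMonoid Y] [Module S Y] (ι : X → Y)
    (hι : Submodule.span S (Set.range ι) = ⊤)
    {f f' : Module.End R X} {g g' : Module.End S Y} (h : ∀ x, ι (f x) = g (ι x))
    (h' : ∀ x, ι (f' x) = g' (ι x)) (hf : Commute f f') : Commute g g' :=
  LinearMap.ext_on_range hι fun x => by
    show g (g' (ι x)) = g' (g (ι x))
    rw [← h', ← h, ← h, ← h']
    exact congrArg ι (LinearMap.congr_fun hf.eq x)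

omit [IsDomain O] [IsPrincipalIdealRing O] [IsAlgClosed K] [CharZero K] in
/-- Combinations of Hecke operators extend to combinations of Hecke operators over `K`. -/
theorem exists_mem_span_coeffIncl {N : ℕ} [NeZero N]
    {f : Module.End O (cuspidalHoms O (Gamma0 N) O)}
    (hf : f ∈ Submodule.span O (Set.range (heckeCuspAct N O O))) :
    ∃ f' ∈ Submodule.span K (Set.range (heckeCuspAct N K K)),
      ∀ x, coeffIncl O K N (f x) = f' (coeffIncl O K N x) := by
  induction hf using Submodule.span_induction with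
  | mem f hf =>
    obtain ⟨t, rfl⟩ := hf
    exact ⟨heckeCuspAct N K K t, Submodule.subset_span ⟨t, rfl⟩,
      fun x => cuspMap_heckeCuspAct _ t x⟩
  | zero => exact ⟨0, zero_mem _, fun x => map_zero _⟩
  | add f f' _ _ hf hf' =>
    obtain ⟨a, ha, ha'⟩ := hf
    obtain ⟨b, hb, hb'⟩ := hf'
    exact ⟨a + b, add_mem ha hb, fun x =>
      (map_add (coeffIncl O K N) (f x) (f' x)).trans (congrArg₂ (· + ·) (ha' x) (hb' x))⟩
  | smul r f _ hf =>
    obtain ⟨a, ha, ha'⟩ := hf
    exact ⟨algebraMap O K r • a, Submodule.smul_mem _ _ ha, fun x =>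
      (map_smul (coeffIncl O K N) r (f x)).trans <| (congrArg (r • ·) (ha' x)).trans
        (algebraMap_smul K r (a (coeffIncl O K N x))).symm⟩

omit [IsDomain O] [IsPrincipalIdealRing O] [IsAlgClosed K] [CharZero K] [Fact q.Prime] [NeZero M]
  [Fact (Nat.Coprime q M)] in
/-- A multiple of the involution scales the cyclic coordinates by signs. -/
theorem cyclicMap_smul_invol {N : ℕ} [NeZero N] {f : Module.End K (cuspidalHoms K (Gamma0 N) K)}
    {ε : K} (h : f = ε • involCuspOp K K N) (φ : cuspidalHoms K (Gamma0 N) K) (s : Fin 2) :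
    cyclicMap N K K (f φ) s = (ε * (cyclicSign s : K)) • cyclicMap N K K φ s := by
  refine (congrArg (fun z => cyclicMap N K K z s) (LinearMap.congr_fun h φ)).trans ?_
  refine (congrFun ((cyclicMap N K K).map_smul ε _) s).trans ?_
  show ε • cyclicMap N K K (involCuspOp K K N φ) s = _
  rw [cyclicMap_invol, ← Int.cast_smul_eq_zsmul K, smul_smul]

omit [IsDomain O] [IsPrincipalIdealRing O] [IsAlgClosed K] [CharZero K] in
/-- An endomorphism commuting with `r ∘ c`, where `c ∘ r` is a scalar, descends along `c`. -/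
theorem comp_apply_eq_of_commute {R V W : Type*} [Field R] [AddCommGroup V] [Module R V]
    [AddCommGroup W] [Module R W] (c : V →ₗ[R] W) (r : W →ₗ[R] V) (f : Module.End R V)
    (h : Commute f (r ∘ₗ c)) {m : R} (hm : m ≠ 0) (hcr : ∀ y, c (r y) = m • y) (x : V) :
    c (f x) = (m⁻¹ • (c ∘ₗ f ∘ₗ r)) (c x) := by
  show c (f x) = m⁻¹ • c (f (r (c x)))
  rw [show f (r (c x)) = r (c (f x)) from LinearMap.congr_fun h.eq x, hcr, inv_smul_smul₀ hm]

omit [IsDomain O] [IsPrincipalIdealRing O] [IsAlgClosed K] [CharZero K] in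
/-- The image under `c` of `r c w - w`, where `c ∘ r = m + 1`. -/
theorem comp_apply_sub_eq_smul {R V W : Type*} [Ring R] [AddCommGroup V] [Module R V]
    [AddCommGroup W] [Module R W] (c : V →ₗ[R] W) (r : W →ₗ[R] V) (w : V →ₗ[R] V) {m : R}
    (hcr : ∀ y, c (r y) = (m + 1) • y) {u : V → V} (hu : ∀ x, u x = r (c (w x)) - w x) (x : V) :
    c (u x) = m • c (w x) := by
  rw [hu, map_sub, hcr, add_smul, one_smul, add_sub_cancel_right]

omit [IsDomain O] [IsPrincipalIdealRing O] [IsAlgClosed K] [CharZero K] in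
/-- The image under `c w` of `r c w - w`, where `c w r = T` and `w` is an involution. -/
theorem comp_apply_apply_sub_eq {R V W : Type*} [Ring R] [AddCommGroup V] [Module R V]
    [AddCommGroup W] [Module R W] (c : V →ₗ[R] W) (r : W →ₗ[R] V) (w : V →ₗ[R] V)
    (T : W →ₗ[R] W) (hcwr : ∀ y, c (w (r y)) = T y) (hw : ∀ x, w (w x) = x) {u : V → V}
    (hu : ∀ x, u x = r (c (w x)) - w x) (x : V) : c (w (u x)) = T (c (w x)) - c x := by
  rw [hu, map_sub w, map_sub c, hcwr, hw]

omit [IsDomain O] [IsPrincipalIdealRing O] [IsAlgClosed K] [CharZero K] in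
/-- `U q` as a difference at level `M q`. -/
theorem heckeCuspOp_qPrime_eq_sub [NeZero q] (x : cuspidalHoms K (Gamma0 (M * q)) K) :
    heckeCuspOp K K (M * q) (qPrime q) x =
      cuspRes M q K (cuspCores M q K (cuspAL M q K x)) - cuspAL M q K x := by
  refine Subtype.ext ?_
  rw [coe_heckeCuspOp, heckeHomOp_q_eq, Submodule.coe_sub, coe_cuspRes, coe_cuspAL]
  rfl

omit [IsDomain O] [IsPrincipalIdealRing O] in
/-- The bound on the complement of an idempotent of the Hecke algebra commuting with `w_q`. -/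
theorem two_mul_finrank_ker_sub_U_le
    (ρ : G →* Module.End K (cuspidalHoms K (Gamma0 (M * q)) K)) (e : G →* K)
    (hcomm : ∀ t g, Commute (heckeCuspAct (M * q) K K t) (ρ g))
    (htr : ∀ g, ρ g + e g • ρ g⁻¹ ∈ Submodule.span K (Set.range (heckeCuspAct (M * q) K K)))
    {cc : G} {ε : K} (hε : ε ≠ 0) (hcc : ρ cc = ε • involCuspOp K K (M * q))
    {F : G} (heF : e F = (q : K)) [NeZero q]
    (hFP : Commute (ρ F) (cuspRes M q K ∘ₗ cuspCores M q K))
    {uU : CuspForm.heckeAlgebra (M * q) 2 (∅ : Set ℕ)}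
    (huU : heckeCuspAct (M * q) K K uU = heckeCuspOp K K (M * q) (qPrime q))
    {eV : Module.End K (cuspidalHoms K (Gamma0 (M * q)) K)}
    (heVS : eV ∈ Submodule.span K (Set.range (heckeCuspAct (M * q) K K)))
    (heVi : IsIdempotentElem eV) (heVw : Commute eV (cuspAL M q K)) :
    2 * finrank K ↥(LinearMap.ker (ρ F - heckeCuspAct (M * q) K K uU) ⊓
        LinearMap.range (1 - eV)) ≤ finrank K ↥(LinearMap.range (1 - eV)) := by
  let act := heckeCuspAct (M * q) K K
  let c := cuspCores M q K
  let w := cuspAL M q K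
  let T := heckeCuspOp K K M (qPrime q)
  have hUx : ∀ x, act uU x = cuspRes M q K (c (w x)) - w x := fun x =>
    (LinearMap.congr_fun huU x).trans (heckeCuspOp_qPrime_eq_sub x)
  have hcr : ∀ y : cuspidalHoms K (Gamma0 M) K, c (cuspRes M q K y) = ((q : K) + 1) • y := fun y =>
    (show c (cuspRes M q K y) = (q + 1) • y from Subtype.ext (degCores_degRes (R := K) y.1)).trans
      ((Nat.cast_smul_eq_nsmul K (q + 1) y).symm.trans (congrArg (· • y) (Nat.cast_add_one q)))
  have hcwr : ∀ y : cuspidalHoms K (Gamma0 M) K, c (w (cuspRes M q K y)) = T y := fun y => Subtype.ext (by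
    show degCores M q K K (alOp M q K K (degRes M q K K y.1)) = heckeHomOp M K K (qPrime q) y.1
    rw [alOp_degRes, degCores_degTwist])
  have hq1 : ((q : K) + 1) ≠ 0 := by exact_mod_cast Nat.succ_ne_zero q
  let FA : Module.End K (cuspidalHoms K (Gamma0 M) K) :=
    ((q : K) + 1)⁻¹ • (c ∘ₗ ρ F ∘ₗ cuspRes M q K)
  have hFA : ∀ x, c (ρ F x) = FA (c x) :=
    comp_apply_eq_of_commute c (cuspRes M q K) (ρ F) hFP hq1 hcr
  let δ : Fin 2 → K := fun s => ε * (cyclicSign s : K)
  have hδ : δ 0 ≠ δ 1 := by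
    simp only [δ, cyclicSign, if_pos, one_ne_zero, if_false, Int.cast_one, Int.cast_neg, mul_one,
      mul_neg]
    exact fun h => hε (by linear_combination (1 / 2 : K) * h)
  have hδc := cyclicMap_smul_invol hcc
  have hs : IsIdempotentElem (1 - eV) := LinearMap.ext fun x => by
    show x - eV x - eV (x - eV x) = x - eV x
    rw [eV.map_sub, show eV (eV x) = eV x from LinearMap.congr_fun heVi.eq x, sub_self, sub_zero]
  refine two_mul_finrank_ker_le act (cyclicMap (M * q) K K)
    ⟨cyclicMap_injective (M * q) K K, cyclicMap_surjective (M * q) K K⟩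
    (fun u φ s t => cyclicMap_heckeCuspAct u φ s t) ρ e hcomm htr hδ hδc uU (1 - eV) ?_ F w c T FA
    heF (fun x => ?_) (fun x => ?_) (fun x h1 h2 => ?_) (fun x => cuspAL_cuspAL x) hFA
    (Nat.cast_ne_zero.mpr (NeZero.ne q)) (by
      exact_mod_cast (Fact.out : q.Prime).ne_one) hs (LinearMap.ext fun x =>
      ((map_sub w x (eV x)).trans
        (congrArg (w x - ·) (LinearMap.congr_fun heVw.eq x).symm)).symm)
  · rw [show (1 : Module.End K _) - eV = 1 + (-1 : K) • eV from LinearMap.ext fun x =>
      (sub_eq_add_neg x (eV x)).trans (congrArg (x + ·) (neg_one_smul K (eV x)).symm)]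
    exact Submodule.add_mem _ (Submodule.subset_span ⟨1, map_one act⟩) (Submodule.smul_mem _ _ heVS)
  · exact comp_apply_sub_eq_smul c (cuspRes M q K) w hcr hUx x
  · exact comp_apply_apply_sub_eq c (cuspRes M q K) w T hcwr (fun x => cuspAL_cuspAL x) hUx x
  · rw [huU]
    exact heckeCuspOp_q_sq_of_degBeta_eq_zero (Prod.ext h1 h2)

/-- **Half of a summand at level `q M`.** -/
theorem two_mul_finrank_red_inf_le (hL : L = M * q) (hqL : q ∣ L)
    (hOK : Function.Injective (algebraMap O K))
    {ϖ : O} (hϖ : ϖ ≠ 0) (hk : Function.Surjective (algebraMap O k))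
    (hϖ0 : algebraMap O k ϖ = 0) (hker : ∀ a, algebraMap O k a = 0 → ϖ ∣ a)
    (ρO : G →* Module.End O (cuspidalHoms O (Gamma0 L) O))
    (ρ : G →* Module.End K (cuspidalHoms K (Gamma0 L) K))
    (hρ : ∀ g x, coeffIncl O K L (ρO g x) = ρ g (coeffIncl O K L x))
    (e : G →* K)
    (hcomm : ∀ t g, Commute (heckeCuspAct L K K t) (ρ g))
    (htr : ∀ g, ρ g + e g • ρ g⁻¹ ∈ Submodule.span K (Set.range (heckeCuspAct L K K)))
    {cc : G} {ε : K} (hε : ε ≠ 0) (hcc : ρ cc = ε • involCuspOp K K L)
    {F : G} (heF : e F = (q : K))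
    (hF : Commute (ρ F) (haveI := NeZero.mk (Fact.out : q.Prime).ne_zero; resCoresAt K hL))
    (eL : Module.End O (cuspidalHoms O (Gamma0 L) O))
    (heS : eL ∈ Submodule.span O (Set.range (heckeCuspAct L O O)))
    (hew : Commute eL (haveI := NeZero.mk (Fact.out : q.Prime).ne_zero; alEndAt O hL))
    (hei : IsIdempotentElem eL)
    (eb : Module.End k (cuspidalHoms k (Gamma0 L) k))
    (heb : ∀ x, coeffIncl O k L (eL x) = eb (coeffIncl O k L x))
    (K₁ : Submodule k (cuspidalHoms k (Gamma0 L) k))
    (hK₁ : ∀ (c : O) (x y : cuspidalHoms O (Gamma0 L) O), c ≠ 0 →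
      c • x = ρO F y - heckeCuspOp O O L (qPrime q) y → coeffIncl O k L x ∈ K₁)
    {g : ℕ} (hg : cuspRank L = 2 * g) (hK₁g : finrank k K₁ ≤ g) :
    2 * finrank k ↥(K₁ ⊓ LinearMap.range eb) ≤ finrank k ↥(LinearMap.range eb) := by
  subst hL
  have : NeZero q := ⟨(Fact.out : q.Prime).ne_zero⟩
  have hFP : Commute (ρ F) (cuspRes M q K ∘ₗ cuspCores M q K) := hF
  have hew' : Commute eL (cuspAL M q O) := hew
  let act := heckeCuspAct (M * q) K K
  let ι := coeffIncl O K (M * q)
  have hspan : Submodule.span K (Set.range ι) = ⊤ := span_range_coeffIncl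
  -- the idempotent over `K`
  obtain ⟨eV, heVS, heV⟩ := exists_mem_span_coeffIncl (K := K) heS
  have hext : ∀ f f' : Module.End K (cuspidalHoms K (Gamma0 (M * q)) K),
      (∀ x, f (ι x) = f' (ι x)) → f = f' := fun f f' h => LinearMap.ext_on_range hspan h
  have heVi : IsIdempotentElem eV := hext _ _ fun x => by
    rw [Module.End.mul_apply, ← heV, ← heV, ← Module.End.mul_apply, hei.eq]
  have heVw : Commute eV (cuspAL M q K) :=
    commute_of_intertwine_span ι hspan heV (fun x => cuspMap_cuspAL (algebraMap O K) x) hew'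
  have hebi : IsIdempotentElem eb := by
    refine LinearMap.ext_on_range (span_range_coeffIncl (O := O)) fun x => ?_
    rw [Module.End.mul_apply, ← heb, ← heb, ← Module.End.mul_apply, hei.eq]
  -- `F - U q`
  have hqM : q ∣ M * q := dvd_mul_left q M
  let uU := CuspForm.heckeAlgebra.U (k := 2) (S := (∅ : Set ℕ)) (Fact.out : q.Prime) hqM
    (Set.notMem_empty _)
  have huU : act uU = heckeCuspOp K K (M * q) (qPrime q) := heckeCuspAct_U _ _ _ _ _
  let uO := CuspForm.heckeAlgebra.U (k := 2) (S := (∅ : Set ℕ)) (Fact.out : q.Prime) hqM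
    (Set.notMem_empty _)
  have huO : heckeCuspAct (M * q) O O uO = heckeCuspOp O O (M * q) (qPrime q) :=
    heckeCuspAct_U _ _ _ _ _
  let fL := ρO F - heckeCuspAct (M * q) O O uO
  let fV := ρ F - act uU
  have hf : ∀ x, ι (fL x) = fV (ι x) := fun x =>
    (map_sub ι (ρO F x) _).trans
      (congrArg₂ (· - ·) (hρ F x) (cuspMap_heckeCuspAct (algebraMap O K) uO x))
  have heVc : ∀ t, Commute eV (act t) ∧ Commute eV (ρ F) := fun t => by
    clear heVi heVw heV
    induction heVS using Submodule.span_induction with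
    | mem f hf =>
      obtain ⟨s, rfl⟩ := hf
      exact ⟨act_commute act s t, hcomm s F⟩
    | zero => exact ⟨Commute.zero_left _, Commute.zero_left _⟩
    | add f f' _ _ hf hf' => exact ⟨hf.1.add_left hf'.1, hf.2.add_left hf'.2⟩
    | smul r f _ hf => exact ⟨hf.1.smul_left r, hf.2.smul_left r⟩
  have hfe : Commute eL fL :=
    commute_of_intertwine ι (coeffIncl_injective hOK) heV hf
      (LinearMap.ext fun y => (map_sub eV (ρ F y) (act uU y)).trans
        (congrArg₂ (· - ·) (LinearMap.congr_fun (heVc uU).2.eq y)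
          (LinearMap.congr_fun (heVc uU).1.eq y)))
  refine two_mul_finrank_inf_range_le hϖ hk hϖ0 ι hspan (coeffIncl O k (M * q))
    (exists_eq_smul_of_coeffIncl_eq_zero hker) fL eL fV eV eb hf heV heb hfe hei heVi hebi
    (fun c x hc hx => ?_) hK₁g (by rw [finrank_cuspidalHoms, hg]) (by rw [finrank_cuspidalHoms, hg])
    ?_
  · obtain ⟨y, hy⟩ := hx
    exact hK₁ c x y hc (by rw [← hy, ← huO]; rfl)
  exact two_mul_finrank_ker_sub_U_le ρ e hcomm htr hε hcc heF hFP huU heVS heVi heVw

/-- **From the count of classes to the dimension.** -/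
theorem finrank_le_of_natCard_le {p : ℕ} [Fact p.Prime] {k : Type*} [Field k] [Finite k]
    [Algebra (ZMod p) k] {N n : ℕ} [NeZero N] {B : Type*} [AddCommGroup B] (μ : ZMod p ≃+ B)
    (K₁ : Submodule k (cuspidalHoms k (Gamma0 N) k)) (S : Set (cuspidalHoms ℤ (Gamma0 N) B))
    (hfin : S.Finite) (hS : Nat.card S ≤ p ^ n)
    (hK : ∀ x ∈ K₁, ∀ f : k →+ ZMod p,
      (⟨μ.toAddMonoidHom.comp (f.comp x.1), x.2.comp (μ.toAddMonoidHom.comp f)⟩ :
        cuspidalHoms ℤ (Gamma0 N) B) ∈ S) :
    finrank k K₁ ≤ n := by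
  classical
  have := Fintype.ofFinite k
  have : Finite S := hfin
  let b := Module.finBasis (ZMod p) k
  let f : Fin (finrank (ZMod p) k) → (k →+ ZMod p) := fun i => (b.coord i).toAddMonoidHom
  let Φ : K₁ → (Fin (finrank (ZMod p) k) → S) := fun x i => ⟨_, hK x.1 x.2 (f i)⟩
  have hΦ : Function.Injective Φ := fun x y h => by
    refine Subtype.ext (Subtype.ext (AddMonoidHom.ext fun γ => b.ext_elem fun i => ?_))
    have h2 := congrArg (fun z : S => ((z : cuspidalHoms ℤ (Gamma0 N) B) : _ →+ B) γ) (congrFun h i)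
    exact μ.injective h2
  have h1 := Nat.card_le_card_of_injective Φ hΦ
  rw [Nat.card_fun, Nat.card_fin] at h1
  have h2 : Nat.card k = p ^ finrank (ZMod p) k := by
    rw [Module.natCard_eq_pow_finrank (K := ZMod p) (V := k), Nat.card_zmod]
  rw [Module.natCard_eq_pow_finrank (K := k) (V := K₁), h2, ← pow_mul] at h1
  have h3 := h1.trans (Nat.pow_le_pow_left hS _)
  rw [← pow_mul, mul_comm n] at h3
  have h4 := (Nat.pow_le_pow_iff_right (Fact.out : p.Prime).one_lt).mp h3
  exact Nat.le_of_mul_le_mul_left h4 Module.finrank_pos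

end FermatLib.MLT.LGC.Half

end
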