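import Fermat.Agent.MLT.LGC.HalfLinear

/-!
# Half bound: components of a space dual to two copies of the Hecke algebra

`V` is in bijection with pairs of additive functions on a commutative ring of operators, `ρ`
commutes with it, `ρ g + e g • ρ g⁻¹` is in its span and some element is `diag (δ 0, δ 1)`.  Then
an element `F` and an operator `U` agree on at most half of every summand cut out by an
idempotent, given the degeneracy maps for the eigenvalues of square `e F`.
-/

set_option autoImplicit false

noncomputable section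

open Module LinearMap

namespace FermatLib.MLT.LGC.Half

variable {K : Type*} [Field K] {V : Type*} [AddCommGroup V] [Module K V] [FiniteDimensional K V]
  {G : Type*} [Group G] {TT : Type*} [CommRing TT] (act : TT →+* Module.End K V)
  (κ : V →ₗ[K] (Fin 2 → TT →+ K)) (hκ : Function.Bijective κ)
  (hκact : ∀ (u : TT) (φ : V) s (t : TT), κ (act u φ) s t = κ φ s (t * u))
  (ρ : G →* Module.End K V) (e : G →* K) (hcomm : ∀ t g, Commute (act t) (ρ g))
  (htr : ∀ g, ρ g + e g • ρ g⁻¹ ∈ Submodule.span K (Set.range act))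
  {cc : G} {δ : Fin 2 → K} (hδ : δ 0 ≠ δ 1) (hcc : ∀ φ s, κ (ρ cc φ) s = δ s • κ φ s)

omit [FiniteDimensional K V] in
theorem act_commute (s t : TT) : Commute (act s) (act t) := by
  rw [commute_iff_eq, ← map_mul, mul_comm, map_mul]

include hκ hκact hcomm htr hδ hcc in
/-- A component with eigenvalue `u` of `U`, `u ^ 2 ≠ e F`. -/
theorem two_mul_finrank_le_component (uU : TT) (F : G) {χ : TT → K}
    (hne : χ uU ^ 2 ≠ e F) {X : Submodule K V} (hX : ∀ t, ∀ x ∈ X, act t x ∈ X)
    (hXW : X ≤ jointEigen (fun t => act t) χ) (hXF : ∀ x ∈ X, ρ F x = act uU x) :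
    2 * finrank K X ≤ finrank K (jointEigen (fun t => act t) χ) := by
  classical
  set W := jointEigen (fun t => act t) χ with hW
  rcases eq_or_ne W ⊥ with hW0 | hW0
  · have hX0 : X = ⊥ := le_bot_iff.mp (hW0 ▸ hXW)
    rw [hX0, finrank_bot]
    omega
  obtain ⟨x₀, -, hx₀, hx₀e⟩ := exists_eigen_mem (fun i j => act_commute act i j) hW0
    (fun t x hx => jointEigen_stable (fun t => act t) (fun i => act_commute act i t) χ hx)
    le_rfl
  have key : ∀ {a b : K}, a • x₀ = b • x₀ → a = b := fun h => smul_left_injective K hx₀ h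
  have hadd : ∀ s t, χ (s + t) = χ s + χ t := fun s t => key (by
    rw [← hx₀e, map_add, LinearMap.add_apply, hx₀e, hx₀e, add_smul])
  have hmul : ∀ s t, χ (s * t) = χ s * χ t := fun s t => key (by
    rw [← hx₀e, map_mul, Module.End.mul_apply, hx₀e t, map_smul, hx₀e, smul_smul, mul_comm])
  have hone : χ 1 = 1 := key (by rw [← hx₀e, map_one, Module.End.one_apply, one_smul])
  -- the eigenspace and its coordinates
  let E : Submodule K V := ⨅ t, LinearMap.ker (act t - χ t • 1)
  have hE : ∀ {x}, x ∈ E ↔ ∀ t, act t x = χ t • x := fun {x} => by simp [E, sub_eq_zero]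
  have hEcoord : ∀ x ∈ E, ∀ s t, κ x s t = χ t * κ x s 1 := fun x hx s t => by
    have h := hκact t x s 1
    rw [hE.mp hx t, map_smul, one_mul] at h
    rw [← h]
    rfl
  let ev : V →ₗ[K] (Fin 2 → K) :=
    { toFun := fun x s => κ x s 1
      map_add' := fun x y => funext fun s => by simp
      map_smul' := fun a x => funext fun s => by simp }
  have hev : Function.Bijective (ev.domRestrict E) := by
    refine ⟨fun x y h => Subtype.ext (hκ.1 (funext fun s => AddMonoidHom.ext fun t => ?_)),
      fun v => ?_⟩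
    · rw [hEcoord x.1 x.2, hEcoord y.1 y.2]
      exact congrArg (χ t * ·) (congrFun h s)
    · obtain ⟨x, hx⟩ := hκ.2 fun s =>
        AddMonoidHom.mk' (fun t => χ t * v s) (fun a b => by rw [hadd, add_mul])
      have hxv : ∀ s t, κ x s t = χ t * v s := fun s t => by rw [hx]; rfl
      refine ⟨⟨x, hE.mpr fun u => hκ.1 (funext fun s => AddMonoidHom.ext fun t => ?_)⟩,
        funext fun s => ?_⟩
      · rw [hκact, map_smul, Pi.smul_apply, AddMonoidHom.smul_apply, hxv, hxv, hmul, smul_eq_mul]
        ring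
      · show κ x s 1 = v s
        rw [hxv, hone, one_mul]
  have hE2 : finrank K E = 2 := by
    rw [(LinearEquiv.ofBijective _ hev).finrank_eq, Module.finrank_fin_fun]
  have hEρ : ∀ g, ∀ x ∈ E, ρ g x ∈ E := fun g x hx => hE.mpr fun t => by
    rw [← Module.End.mul_apply, (hcomm t g).eq, Module.End.mul_apply, hE.mp hx t, map_smul]
  let ρE : G →* Module.End K E :=
    { toFun := fun g => (ρ g).restrict (hEρ g)
      map_one' := LinearMap.ext fun x => Subtype.ext (by simp)
      map_mul' := fun g h => LinearMap.ext fun x => Subtype.ext (by simp [map_mul]) }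
  have hrel : ∀ g, ∃ a : K, ρE g + e g • ρE g⁻¹ = a • 1 := by
    intro g
    have hscal : ∀ f ∈ Submodule.span K (Set.range act), ∃ a : K, ∀ x ∈ E, f x = a • x := by
      intro f hf
      induction hf using Submodule.span_induction with
      | mem f hf =>
        obtain ⟨t, rfl⟩ := hf
        exact ⟨χ t, fun x hx => hE.mp hx t⟩
      | zero => exact ⟨0, fun x _ => by simp⟩
      | add f f' _ _ hf hf' =>
        obtain ⟨a, ha⟩ := hf
        obtain ⟨b, hb⟩ := hf'
        exact ⟨a + b, fun x hx => by rw [LinearMap.add_apply, ha x hx, hb x hx, add_smul]⟩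
      | smul r f _ hf =>
        obtain ⟨a, ha⟩ := hf
        exact ⟨r * a, fun x hx => by rw [LinearMap.smul_apply, ha x hx, smul_smul]⟩
    obtain ⟨a, ha⟩ := hscal _ (htr g)
    exact ⟨a, LinearMap.ext fun x => Subtype.ext (by simpa [ρE] using ha x.1 x.2)⟩
  have hnsc : ∀ r : K, ρE cc ≠ r • 1 := by
    intro r hr
    have h : ∀ s : Fin 2, δ s = r := by
      intro s
      obtain ⟨x, hx⟩ := hev.2 (Pi.single s 1)
      have hx1 : κ x.1 s 1 = 1 := by
        have := congrFun hx s
        rwa [Pi.single_eq_same] at this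
      have h1 : ρ cc x.1 = r • x.1 := by
        have := congrArg Subtype.val (LinearMap.congr_fun hr x)
        simpa [ρE] using this
      have h2 := DFunLike.congr_fun (hcc x.1 s) 1
      rw [h1, map_smul, Pi.smul_apply, AddMonoidHom.smul_apply, AddMonoidHom.smul_apply, hx1,
        smul_eq_mul, smul_eq_mul, mul_one, mul_one] at h2
      exact h2.symm
    exact hδ ((h 0).trans (h 1).symm)
  -- the eigenvectors in `X` form at most a line
  have hlt : E ⊓ X < E := by
    refine inf_lt_left.mpr fun hle => hne ?_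
    refine (sq_eq_of_eq_smul hE2 ρE e hrel hnsc (u := χ uU)
      (LinearMap.ext fun x => Subtype.ext ?_)).symm
    show ρ F x.1 = χ uU • x.1
    rw [hXF x.1 (hle x.2), hE.mp x.2]
  have hline : finrank K ↥((E ⊓ X).map ev) ≤ 1 := by
    have h1 := Submodule.finrank_map_le ev (E ⊓ X)
    have h2 := Submodule.finrank_lt_finrank_of_lt hlt
    omega
  obtain ⟨v, hv⟩ := finrank_le_one_iff.mp hline
  have hs : ∃ s : Fin 2, (v : Fin 2 → K) s = 0 → (v : Fin 2 → K) = 0 := by
    by_cases h0 : (v : Fin 2 → K) 0 = 0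
    · exact ⟨1, fun h1 => funext fun i => by fin_cases i <;> simpa⟩
    · exact ⟨0, fun h => absurd h h0⟩
  obtain ⟨s, hs⟩ := hs
  let π : V →ₗ[K] (TT →+ K) := (LinearMap.proj s) ∘ₗ κ
  have h1 : finrank K X ≤ finrank K ↥(X.map π) := by
    refine finrank_le_of_eigen (fun i j => act_commute act i j) hX hXW π (fun t x hx => ?_) ?_
    · refine AddMonoidHom.ext fun t' => ?_
      show κ (act t x) s t' = 0
      rw [hκact]
      exact DFunLike.congr_fun hx _
    · intro x hx hxe hπx
      have hxE : x ∈ E := hE.mpr hxe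
      obtain ⟨a, ha⟩ := hv ⟨ev x, Submodule.mem_map_of_mem ⟨hxE, hx⟩⟩
      have ha' : a • (v : Fin 2 → K) = ev x := congrArg Subtype.val ha
      have h0 : a * (v : Fin 2 → K) s = 0 := by
        have := congrFun ha' s
        rw [Pi.smul_apply, smul_eq_mul] at this
        rw [this]
        exact DFunLike.congr_fun hπx 1
      have hevx : ev x = 0 := by
        rcases mul_eq_zero.mp h0 with h | h
        · rw [← ha', h, zero_smul]
        · rw [← ha', hs h, smul_zero]
      exact congrArg Subtype.val (hev.1 (a₁ := ⟨x, hxE⟩) (a₂ := 0) (by simpa using hevx))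
  -- the component is two copies of its image
  set n := finrank K V
  have hWn : ∀ x ∈ W, ∀ t, ((act t - χ t • 1) ^ n) x = 0 := by
    intro x hx t
    have h := (Submodule.mem_iInf _).mp hx t
    rw [Module.End.maxGenEigenspace_eq_genEigenspace_finrank,
      Module.End.mem_genEigenspace_nat] at h
    exact h
  have hsame : ∀ (t : TT) (k : ℕ) (φ ψ : V) (i j : Fin 2), κ ψ i = κ φ j →
      κ (((act t - χ t • 1) ^ k) ψ) i = κ (((act t - χ t • 1) ^ k) φ) j := by
    intro t k
    induction k with
    | zero => simp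
    | succ k ih =>
      intro φ ψ i j h
      rw [pow_succ, Module.End.mul_apply, Module.End.mul_apply]
      refine ih _ _ i j (AddMonoidHom.ext fun t' => ?_)
      simp [hκact, h]
  let κe : V ≃ₗ[K] (Fin 2 → TT →+ K) := LinearEquiv.ofBijective κ hκ
  let L : (↥(W.map π) × ↥(W.map π)) →ₗ[K] V :=
    κe.symm.toLinearMap ∘ₗ (LinearMap.pi
      ![(W.map π).subtype ∘ₗ LinearMap.fst K _ _, (W.map π).subtype ∘ₗ LinearMap.snd K _ _])
  have hL : ∀ p, κ (L p) 0 = p.1.1 ∧ κ (L p) 1 = p.2.1 := fun p => by
    constructor <;> simp [L, κe, LinearEquiv.apply_symm_apply, ← LinearEquiv.ofBijective_apply κ (hf := hκ)]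
  have hLinj : Function.Injective L := fun p p' h => Prod.ext
    (Subtype.ext (by rw [← (hL p).1, h, (hL p').1]))
    (Subtype.ext (by rw [← (hL p).2, h, (hL p').2]))
  have hLW : ∀ p, L p ∈ W := fun p => (mem_jointEigen (fun t => act t)).mpr fun t => ⟨n, by
    obtain ⟨φ₀, hφ₀, e0⟩ := p.1.2
    obtain ⟨φ₁, hφ₁, e1⟩ := p.2.2
    refine hκ.1 (funext fun i => ?_)
    fin_cases i
    · show κ _ 0 = κ 0 0
      rw [hsame t n φ₀ _ 0 s ((hL p).1.trans e0.symm), hWn φ₀ hφ₀]
      simp
    · show κ _ 1 = κ 0 1
      rw [hsame t n φ₁ _ 1 s ((hL p).2.trans e1.symm), hWn φ₁ hφ₁]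
      simp⟩
  have : Module.Free K ↥(W.map π) := Module.Free.of_divisionRing K ↥(W.map π)
  have h2 : 2 * finrank K ↥(W.map π) ≤ finrank K W := by
    have h := LinearMap.finrank_le_finrank_of_injective
      (f := L.codRestrict W hLW) (fun p p' h => hLinj (congrArg Subtype.val h))
    rw [Module.finrank_prod] at h
    omega
  have h3 : finrank K ↥(X.map π) ≤ finrank K ↥(W.map π) :=
    Submodule.finrank_mono (Submodule.map_mono hXW)
  omega

include hκ hκact hcomm htr hδ hcc in
/-- **`F` and `U` agree on at most half of a summand.** -/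
theorem two_mul_finrank_ker_le [IsAlgClosed K] (uU : TT) (eP : Module.End K V)
    (heS : eP ∈ Submodule.span K (Set.range act)) (F : G) (w : Module.End K V)
    {A : Type*} [AddCommGroup A] [Module K A] (c : V →ₗ[K] A) (T FA : Module.End K A) {qK : K}
    (heF : e F = qK) (hU : ∀ x, c (act uU x) = qK • c (w x))
    (hwU : ∀ x, c (w (act uU x)) = T (c (w x)) - c x)
    (hnew : ∀ x, c x = 0 → c (w x) = 0 → act uU (act uU x) = x) (hw : ∀ x, w (w x) = x)
    (hF : ∀ x, c (ρ F x) = FA (c x)) (hq0 : qK ≠ 0) (hq1 : qK ≠ 1)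
    (heP : IsIdempotentElem eP) (hwP : Commute eP w) :
    2 * finrank K ↥(LinearMap.ker (ρ F - act uU) ⊓ LinearMap.range eP) ≤
      finrank K ↥(LinearMap.range eP) := by
  have hec : ∀ t, Commute eP (act t) := fun t => by
    clear hwP heP
    induction heS using Submodule.span_induction with
    | mem f hf =>
      obtain ⟨s, rfl⟩ := hf
      exact act_commute act s t
    | zero => exact Commute.zero_left _
    | add f f' _ _ hf hf' => exact hf.add_left hf'
    | smul r f _ hf => exact hf.smul_left r
  set P := LinearMap.range eP with hPdef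
  set X := LinearMap.ker (ρ F - act uU) ⊓ P with hXdef
  have hPmem : ∀ {x}, x ∈ P ↔ eP x = x := fun {x} => by
    refine ⟨?_, fun h => ⟨x, h⟩⟩
    rintro ⟨y, rfl⟩
    rw [← Module.End.mul_apply, heP.eq]
  have hPstab : ∀ t, ∀ x ∈ P, act t x ∈ P := fun t x hx => hPmem.mpr (by
    rw [← Module.End.mul_apply, (hec t).eq, Module.End.mul_apply, hPmem.mp hx])
  have hPw : ∀ x ∈ P, w x ∈ P := fun x hx => hPmem.mpr (by
    rw [← Module.End.mul_apply, hwP.eq, Module.End.mul_apply, hPmem.mp hx])
  have hXmem : ∀ {x}, x ∈ X → ρ F x = act uU x ∧ x ∈ P := fun {x} hx =>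
    ⟨by simpa [sub_eq_zero] using hx.1, hx.2⟩
  have hXstab : ∀ t, ∀ x ∈ X, act t x ∈ X := fun t x hx => by
    obtain ⟨h1, h2⟩ := hXmem hx
    refine ⟨?_, hPstab t x h2⟩
    simp only [SetLike.mem_coe, LinearMap.mem_ker, LinearMap.sub_apply, sub_eq_zero]
    rw [← Module.End.mul_apply, ← (hcomm t F).eq, Module.End.mul_apply, h1,
      ← Module.End.mul_apply, (act_commute act t uU).eq, Module.End.mul_apply]
  let single : Unit → Module.End K V := fun _ => act uU
  refine two_mul_finrank_le_of_components (act := single) (fun _ _ => Commute.refl _)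
    (fun _ => hXstab uU) fun χ₁ => ?_
  set u := χ₁ ()
  have hWu : jointEigen single χ₁ = (act uU).maxGenEigenspace u := by
    simp [jointEigen, single, u]
  rw [hWu]
  have hXu : ∀ t, ∀ x ∈ X ⊓ (act uU).maxGenEigenspace u, act t x ∈
      X ⊓ (act uU).maxGenEigenspace u := fun t x hx => ⟨hXstab t x hx.1,
    Module.End.mapsTo_maxGenEigenspace_of_comm (act_commute act uU t) u hx.2⟩
  by_cases hu : u ^ 2 = qK
  · exact two_mul_finrank_le_old (act uU) (ρ F) w c T FA hU hwU hnew hw hF hu hq0 hq1
      (hPstab uU) hPw (inf_le_inf_right _ inf_le_right) (hXu uU) fun x hx => (hXmem hx.1).1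
  refine two_mul_finrank_le_of_components (act := fun t => act t)
    (fun i j => act_commute act i j) hXu fun χ => ?_
  rcases eq_or_ne (X ⊓ (act uU).maxGenEigenspace u ⊓ jointEigen (fun t => act t) χ) ⊥ with h0 | h0
  · rw [h0]; simp
  have hstab : ∀ t, ∀ x ∈ X ⊓ (act uU).maxGenEigenspace u ⊓ jointEigen (fun t => act t) χ,
      act t x ∈ X ⊓ (act uU).maxGenEigenspace u ⊓ jointEigen (fun t => act t) χ := fun t x hx =>
    ⟨hXu t x hx.1, jointEigen_stable (fun t => act t) (fun i => act_commute act i t) χ hx.2⟩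
  obtain ⟨x, hx, hx0, hxe⟩ := exists_eigen_mem (fun i j => act_commute act i j) h0 hstab
    inf_le_right
  have hχu : χ uU = u := by
    by_contra hne
    obtain ⟨k, hk⟩ := (Module.End.mem_maxGenEigenspace _ _ _).mp hx.1.2
    have hpow : ∀ k : ℕ, ((act uU - u • 1) ^ k) x = (χ uU - u) ^ k • x := by
      intro k
      induction k with
      | zero => simp
      | succ k ih =>
        rw [pow_succ, Module.End.mul_apply, LinearMap.sub_apply, LinearMap.smul_apply,
          Module.End.one_apply, hxe, ← sub_smul, map_smul, ih, smul_smul, ← pow_succ']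
    rw [hpow] at hk
    exact hx0 ((smul_eq_zero.mp hk).resolve_left (pow_ne_zero _ (sub_ne_zero.mpr hne)))
  have hle : jointEigen (fun t => act t) χ ≤ P ⊓ (act uU).maxGenEigenspace u := by
    refine le_inf ?_ (hχu ▸ iInf_le _ uU)
    -- the part killed by `eP` has no eigenvector
    have hscal : ∃ a : K, ∀ y : V, (∀ t, act t y = χ t • y) → eP y = a • y := by
      clear hwP heP hec hPdef hPmem hPstab hPw hXdef hXmem hXstab hXu hstab hx0 hxe hx h0
      induction heS using Submodule.span_induction with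
      | mem f hf =>
        obtain ⟨t, rfl⟩ := hf
        exact ⟨χ t, fun y hy => hy t⟩
      | zero => exact ⟨0, fun y _ => by simp⟩
      | add f f' _ _ hf hf' =>
        obtain ⟨a, ha⟩ := hf
        obtain ⟨b, hb⟩ := hf'
        exact ⟨a + b, fun y hy => by rw [LinearMap.add_apply, ha y hy, hb y hy, add_smul]⟩
      | smul r f _ hf =>
        obtain ⟨a, ha⟩ := hf
        exact ⟨r * a, fun y hy => by rw [LinearMap.smul_apply, ha y hy, smul_smul]⟩
    obtain ⟨a, ha⟩ := hscal
    have ha1 : a = 1 := smul_left_injective K hx0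
      (((ha x hxe).symm.trans (hPmem.mp (hXmem hx.1.1).2)).trans (one_smul K x).symm)
    intro y hy
    by_contra hyP
    set Y := jointEigen (fun t => act t) χ ⊓ LinearMap.ker eP with hY
    have hY0 : Y ≠ ⊥ := fun h => hyP (hPmem.mpr (by
      refine (sub_eq_zero.mp ((Submodule.eq_bot_iff _).mp h (y - eP y) ⟨?_, ?_⟩)).symm
      · exact sub_mem hy (jointEigen_stable (fun t => act t) (fun t => (hec t).symm) χ hy)
      · show eP (y - eP y) = 0
        rw [map_sub, ← Module.End.mul_apply, heP.eq, sub_self]))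
    obtain ⟨z, hz, hz0, hze⟩ := exists_eigen_mem (fun i j => act_commute act i j) hY0
      (fun t z hz => ⟨jointEigen_stable (fun t => act t) (fun i => act_commute act i t) χ hz.1, by
        show eP (act t z) = 0
        rw [← Module.End.mul_apply, (hec t).eq, Module.End.mul_apply,
          show eP z = 0 from hz.2, map_zero]⟩) inf_le_left
    have h := ha z hze
    rw [show eP z = 0 from hz.2, ha1, one_smul] at h
    exact hz0 h.symm
  refine le_trans ?_ (Submodule.finrank_mono (le_inf hle le_rfl))
  exact two_mul_finrank_le_component act κ hκ hκact ρ e hcomm htr hδ hcc uU F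
    (by rw [hχu, heF]; exact hu) hstab inf_le_right fun y hy => (hXmem hy.1.1).1

end FermatLib.MLT.LGC.Half

end
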