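import Fermat.Agent.MLT.LGC.HalfEPartHoms
import Fermat.Agent.MLT.LGC.ChiPartReduce
import Mathlib.RingTheory.OrzechProperty

/-!
# The reduced Betti part is the reduction of a summand of the cuspidal lattice

`lgcRedV` is the reduction of the image of the idempotent Hecke polynomial on the cuspidal
lattice of `Γ₀(q M)`: up to Hecke polynomials not killed by the residual character, classes lift
to trivial character and to `χ`, and those polynomials are invertible on both sides.
-/

set_option autoImplicit false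

noncomputable section

open CongruenceSubgroup ModularCurve.Period
open scoped MatrixGroups

namespace FermatLib.MLT.LGC.Half

open FermatLib.Modular FermatLib.Modular.Degeneracy FermatLib.Modular.LevelRaising

local notation "kk" => IsLocalRing.ResidueField

/-- An endomorphism surjective modulo a stable submodule preserves non-membership. -/
theorem mem_of_apply_mem {R N : Type*} [CommRing R] [AddCommGroup N] [Module R N]
    [Module.Finite R N] (f : Module.End R N) (S : Submodule R N) (hS : ∀ x ∈ S, f x ∈ S)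
    (hsurj : ∀ y, ∃ x, y - f x ∈ S) {x : N} (hx : f x ∈ S) : x ∈ S := by
  set F : Module.End R (N ⧸ S) := S.mapQ S f hS with hF
  have hFs : Function.Surjective F := fun z => by
    obtain ⟨y, rfl⟩ := Submodule.Quotient.mk_surjective S z
    obtain ⟨x, hx⟩ := hsurj y
    exact ⟨Submodule.Quotient.mk x, by
      rw [hF, Submodule.mapQ_apply, eq_comm, Submodule.Quotient.eq]; exact hx⟩
  rw [← Submodule.Quotient.mk_eq_zero]
  refine OrzechProperty.injective_of_surjective_endomorphism F hFs ?_
  rw [map_zero, hF, Submodule.mapQ_apply, Submodule.Quotient.mk_eq_zero]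
  exact hx

/-- A cuspidal homomorphism as a parabolic one. -/
def cuspToPar (R : Type*) [CommRing R] (Γ : Subgroup SL(2, ℤ)) :
    cuspidalHoms R Γ R →ₗ[R] parabolicHoms R Γ R where
  toFun φ := ⟨φ.1, φ.2.isParabolicHom⟩
  map_add' _ _ := rfl
  map_smul' _ _ := rfl

theorem cuspToPar_injective (R : Type*) [CommRing R] (Γ : Subgroup SL(2, ℤ)) :
    Function.Injective (cuspToPar R Γ) := fun _ _ h =>
  Subtype.ext (congrArg (fun v : parabolicHoms R Γ R => v.1) h)

variable {O : Type} [CommRing O] [IsDomain O] [IsDiscreteValuationRing O]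
  [IsAdicComplete (IsLocalRing.maximalIdeal O) O] [CharZero O]
  {p q M : ℕ} [NeZero q] [NeZero M] {χ : (ZMod q)ˣ →* Oˣ} {lam : Nat.Primes → O}

variable (hres : ∀ u, IsLocalRing.residue O ((χ u : Oˣ) : O) = 1)

include hres in
theorem classHom_map_residue (m : BettiMod (q * M) (lgcChi q M χ) O) :
    classHom (lgcChi_smul_residueField (M := M) hres)
      (BettiMod.map (Algebra.linearMap O (kk O)) m) = lgcRedHom hres m := by
  obtain ⟨c, rfl⟩ := BettiMod.mk_surjective m
  refine AddMonoidHom.ext fun γ => ?_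
  obtain ⟨γ, rfl⟩ := Additive.ofMul.surjective γ
  rw [lgcRedHom_mk, BettiMod.map_mk, classHom_mk, cocycleHom_apply, bettiCocyclesMap_apply]
  rfl

variable (hd : IsChiPartData p q M χ lam)

include hd in
theorem classHom_smul_lgcRedG (P : BettiHeckeAlg O) (a : LgcLoc p q M χ lam) :
    classHom (lgcChi_smul_residueField (M := M) hres)
      (P • BettiMod.map (Algebra.linearMap O (kk O)) (lgcSection p q M χ lam a)) =
      (lgcRedG hd hres (P • a)).1.1 := by
  rw [← map_smul, ← map_smul, classHom_map_residue hres, coe_lgcRedG]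

/-- **The reduced classes are cuspidal.** -/
theorem isCuspidalHom_lgcRedG (a : LgcLoc p q M χ lam) :
    IsCuspidalHom (lgcRedG hd hres a).1.1 := by
  haveI := (lgcLoc_free hd).2
  obtain ⟨l, hl, hl1, hP⟩ := hd.exists_sub_degree
  have hV := lgcChi_smul_residueField (M := M) hres
  let χ₁ : (ZMod (q * M))ˣ →* Oˣ := 1
  have hVk : ∀ u (v : kk O), (χ₁ u : O) • v = v := fun u v => one_smul O v
  have hVO : ∀ u (v : O), (χ₁ u : O) • v = v := fun u v => one_smul O v
  have hl' : ((l : ℕ) : ZMod (q * M)) = 1 := by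
    have h := congrArg (ZMod.castHom (⟨q, by ring⟩ : q * M ∣ q ^ 2 * M) (ZMod (q * M))) hl1
    rwa [map_natCast, map_one] at h
  set C : Submodule O (LgcLoc p q M χ lam) :=
    { carrier := {b | IsCuspidalHom (lgcRedG hd hres b).1.1}
      zero_mem' := by
        show IsCuspidalHom (lgcRedG hd hres 0).1.1
        rw [map_zero]
        exact fun γ hγ => rfl
      add_mem' := fun {b c} hb hc => by
        show IsCuspidalHom (lgcRedG hd hres (b + c)).1.1
        rw [map_add]
        exact (cuspidalHoms (kk O) (Gamma0 (q * M)) (kk O)).add_mem hb hc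
      smul_mem' := fun c b hb => by
        show IsCuspidalHom (lgcRedG hd hres (c • b)).1.1
        rw [map_smul]
        exact (cuspidalHoms O (Gamma0 (q * M)) (kk O)).smul_mem c hb }
  have hstab : ∀ P : BettiHeckeAlg O, ∀ b ∈ C, P • b ∈ C := fun P b hb => by
    show IsCuspidalHom _
    rw [← classHom_smul_lgcRedG hres hd]
    refine isCuspidalHom_classHom_smul _ ?_ P
    rw [classHom_map_residue hres, ← coe_lgcRedG hd hres]
    exact hb
  obtain ⟨x₁, hx₁⟩ := exists_classHom_eq hVk (lgcRedG hd hres a).1.1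
    fun γ hγ => lgcRedHom_neg_one hres _ γ hγ
  obtain ⟨s, hs, y, hy⟩ := bettiRightExact_residual χ₁ rfl (sysTheta lam) hd.elliptic O (kk O)
    (Algebra.linearMap O (kk O)) IsLocalRing.residue_surjective x₁
  set P₀ : BettiHeckeAlg O := MvPolynomial.X l - MvPolynomial.C (((l : ℕ) + 1 : ℕ) : O)
  have hmem : (P₀ * s) • a ∈ C := by
    show IsCuspidalHom (lgcRedG hd hres ((P₀ * s) • a)).1.1
    rw [← classHom_smul_lgcRedG hres hd, classHom_smul_congr hV hVk (x' := x₁)
      ((classHom_map_residue hres _).trans ((coe_lgcRedG hd hres a).symm.trans hx₁.symm)),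
      mul_smul, ← hy, ← map_smul, classHom_map hVO]
    exact (isCuspidalHom_classHom_sub_degree hVO l hl' (not_dvd_of_mem_goodPrimes hl).1 y).comp _
  set u := P₀ * s with hu
  have hbij := bettiResLoc_injective_smul (lgcChi q M χ) (goodPrimes q M p) (sysTheta lam)
    (Submonoid.mul_mem _ hP hs : u ∈ bettiResidualSubmonoid (goodPrimes q M p) (sysTheta lam))
  exact mem_of_apply_mem (Algebra.lsmul O O (LgcLoc p q M χ lam) u) C (hstab u)
    (fun y => by
      obtain ⟨x, rfl⟩ := hbij.2 y
      exact ⟨x, by rw [Algebra.lsmul_coe, sub_self]; exact zero_mem _⟩) hmem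

theorem mem_lgcRedV_of_eq {v : parabolicHoms (kk O) (Gamma0 (q * M)) (kk O)}
    {a : LgcLoc p q M χ lam} (h : (lgcRedG hd hres a).1.1 = v.1) : v ∈ lgcRedV hd hres := by
  have e : (lgcRedG hd hres a).1 = v := Subtype.ext h
  rw [← e]
  exact (lgcRedG hd hres a).2

/-- The reduction of the image of an idempotent of the residual character lies in the reduced
Betti part. -/
theorem cuspEval_red_mem {e : BettiHeckeAlg O}
    (hedvd : ∀ u ∈ bettiResidualSubmonoid (goodPrimes q M p) (sysTheta lam), ∀ ψ,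
      ∃ ξ, cuspEval O (q * M) e ψ = cuspEval O (q * M) u (cuspEval O (q * M) e ξ))
    (φ : cuspidalHoms O (Gamma0 (q * M)) O) :
    cuspToPar (kk O) (Gamma0 (q * M))
      (coeffIncl O (kk O) (q * M) (cuspEval O (q * M) e φ)) ∈ lgcRedV hd hres := by
  have hV := lgcChi_smul_residueField (M := M) hres
  let R : cuspidalHoms O (Gamma0 (q * M)) O →ₗ[O]
      parabolicHoms (kk O) (Gamma0 (q * M)) (kk O) :=
    ((cuspToPar (kk O) (Gamma0 (q * M))).restrictScalars O).comp
      ((coeffIncl O (kk O) (q * M)).comp (cuspEval O (q * M) e))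
  have hR : ∀ ψ, (R ψ).1 =
      (Algebra.linearMap O (kk O)).toAddMonoidHom.comp (cuspEval O (q * M) e ψ).1 := fun ψ => rfl
  have hsmul : ∀ P ψ, cuspEval O (q * M) e (cuspEval O (q * M) P ψ) =
      cuspEval O (q * M) P (cuspEval O (q * M) e ψ) := fun P ψ =>
    LinearMap.congr_fun ((Commute.all e P).map (cuspEval O (q * M))).eq ψ
  have hneg : ∀ γ : Gamma0 (q * M), (γ : SL(2, ℤ)) = -1 →
      (R φ).1 (Additive.ofMul γ) = 0 := fun γ hγ => by
    refine (R φ).2 γ ?_
    rw [hγ]
    simp
  obtain ⟨x, hx⟩ := exists_classHom_eq hV _ hneg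
  have hχ1 : lgcChi q M χ (-1) = 1 := by
    show χ (ZMod.unitsMap (dvd_mul_right q M) (-1)) = 1
    rw [show ZMod.unitsMap (dvd_mul_right q M) (-1) = -1 from Units.ext (by
      simp [ZMod.unitsMap_def]), hd.neg_one]
  obtain ⟨s, hs, y, hy⟩ := bettiRightExact_residual (lgcChi q M χ) hχ1 (sysTheta lam)
    hd.elliptic O (kk O) (Algebra.linearMap O (kk O)) IsLocalRing.residue_surjective x
  obtain ⟨u, hudef⟩ : ∃ u, u = lgcIdem p q M χ lam * s := ⟨_, rfl⟩
  have hu : u ∈ bettiResidualSubmonoid (goodPrimes q M p) (sysTheta lam) :=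
    hudef ▸ Submonoid.mul_mem _ lgcIdem_mem hs
  show R φ ∈ lgcRedV hd hres
  refine mem_of_apply_mem (cuspEval O (q * M) u) (((lgcRedV hd hres).restrictScalars O).comap R)
    (fun ψ hψ => ?_) (fun ψ => ?_) ?_
  · obtain ⟨b, hb⟩ := lgcRedG_surjective hd hres ⟨R ψ, hψ⟩
    refine mem_lgcRedV_of_eq hres hd (a := u • b) ?_
    rw [← classHom_smul_lgcRedG hres hd, hR, hsmul]
    refine classHom_smul_cuspEval hV (Algebra.linearMap O (kk O)) ?_ u
    rw [classHom_map_residue hres, ← coe_lgcRedG hd hres, hb]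
    exact hR ψ
  · obtain ⟨ξ, hξ⟩ := hedvd u hu ψ
    refine ⟨ξ, ?_⟩
    have h0 : R (ψ - cuspEval O (q * M) u ξ) = 0 := by
      show cuspToPar _ _ (coeffIncl O (kk O) (q * M)
        (cuspEval O (q * M) e (ψ - cuspEval O (q * M) u ξ))) = 0
      rw [LinearMap.map_sub (cuspEval O (q * M) e), hsmul, ← hξ, sub_self, map_zero, map_zero]
    show R (ψ - cuspEval O (q * M) u ξ) ∈ lgcRedV hd hres
    rw [h0]
    exact zero_mem _
  · set y₀ : LgcLoc p q M χ lam := LocalizedModule.mkLinearMap
      (bettiResidualSubmonoid (goodPrimes q M p) (sysTheta lam)) _ y with hy₀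
    refine mem_lgcRedV_of_eq hres hd (a := y₀) ?_
    have hsec : lgcSection p q M χ lam y₀ = lgcIdem p q M χ lam • y := lgcSection_mk y
    have hmap : BettiMod.map (Algebra.linearMap O (kk O)) (lgcIdem p q M χ lam • y) = u • x :=
      (map_smul _ _ _).trans
        ((congrArg (lgcIdem p q M χ lam • ·) hy).trans
          ((mul_smul _ _ _).symm.trans (congrArg (· • x) hudef.symm)))
    refine (coe_lgcRedG hd hres y₀).trans ?_
    refine ((congrArg (lgcRedHom hres) hsec).trans (classHom_map_residue hres _).symm).trans ?_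
    refine (congrArg (classHom hV) hmap).trans ?_
    rw [hR, hsmul]
    exact classHom_smul_cuspEval hV (Algebra.linearMap O (kk O)) (hx.trans (hR φ)) u

variable [Fact q.Prime] [Fact (Nat.Coprime q M)]

/-- **The reduced Betti part as the reduction of a summand of the cuspidal lattice.** -/
theorem exists_halfEPart (hL : q * M = M * q) :
    ∃ (eL : Module.End O (cuspidalHoms O (Gamma0 (q * M)) O))
      (eb : Module.End (kk O) (cuspidalHoms (kk O) (Gamma0 (q * M)) (kk O))),
      eL ∈ Submodule.span O (Set.range (heckeCuspAct (q * M) O O)) ∧ IsIdempotentElem eL ∧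
      Commute eL (alEndAt O hL) ∧
      (∀ x, coeffIncl O (kk O) (q * M) (eL x) = eb (coeffIncl O (kk O) (q * M) x)) ∧
      (LinearMap.range eb).map (cuspToPar (kk O) (Gamma0 (q * M))) = lgcRedV hd hres := by
  haveI := (lgcLoc_free hd).2
  have hV := lgcChi_smul_residueField (M := M) hres
  set Pr := goodPrimes q M p
  obtain ⟨e, he, hei, hedvd⟩ := exists_cusp_idempotent (L := q * M) Pr (sysTheta lam)
    (sysTheta_maximal lam)
  set ev := cuspEval O (q * M)
  obtain ⟨eb, heb⟩ := exists_reduce_of_mem_span (kk O) (cuspEval_mem_span (L := q * M) e)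
  have hsurj : Function.Surjective (coeffIncl O (kk O) (q * M)) :=
    cuspMap_cuspidalHoms_surjective IsLocalRing.residue_surjective
  refine ⟨ev e, eb, cuspEval_mem_span e, hei,
    commute_cuspEval_alEndAt O hL (fun l hl => (not_dvd_of_mem_goodPrimes hl).1) he.1, heb,
    le_antisymm ?_ ?_⟩
  · rintro _ ⟨_, ⟨w, rfl⟩, rfl⟩
    obtain ⟨φ, rfl⟩ := hsurj w
    rw [← heb]
    exact cuspEval_red_mem hres hd hedvd φ
  · intro v hv
    obtain ⟨a, ha⟩ := lgcRedG_surjective hd hres ⟨v, hv⟩
    obtain ⟨b, hb⟩ :=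
      (bettiResLoc_injective_smul (lgcChi q M χ) Pr (sysTheta lam) he).2 a
    subst hb
    obtain ⟨φ, hφ⟩ := hsurj ⟨_, isCuspidalHom_lgcRedG hres hd b⟩
    refine ⟨eb (coeffIncl O (kk O) (q * M) φ), ⟨_, rfl⟩, Subtype.ext ?_⟩
    rw [← heb, show v = (lgcRedG hd hres (e • b)).1 from congrArg Subtype.val ha.symm,
      ← classHom_smul_lgcRedG hres hd]
    refine (classHom_smul_cuspEval hV (Algebra.linearMap O (kk O)) (φ := φ) ?_ e).symm
    rw [classHom_map_residue hres, ← coe_lgcRedG hd hres]
    exact (congrArg Subtype.val hφ).symm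

/-- The form used by the half bound: `lgcRedV` and the range of `eb` have the same dimension, and
the half bound on the range gives it on `lgcRedV`. -/
theorem exists_halfEPart_le (hL : q * M = M * q) :
    ∃ (eL : Module.End O (cuspidalHoms O (Gamma0 (q * M)) O))
      (eb : Module.End (kk O) (cuspidalHoms (kk O) (Gamma0 (q * M)) (kk O))),
      eL ∈ Submodule.span O (Set.range (heckeCuspAct (q * M) O O)) ∧ IsIdempotentElem eL ∧
      Commute eL (alEndAt O hL) ∧
      (∀ x, coeffIncl O (kk O) (q * M) (eL x) = eb (coeffIncl O (kk O) (q * M) x)) ∧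
      Module.finrank (kk O) (LinearMap.range eb) ≤ Module.finrank (kk O) (lgcRedV hd hres) ∧
      ∀ v ∈ lgcRedV hd hres, ∃ x ∈ LinearMap.range eb, x.1 = v.1 := by
  obtain ⟨eL, eb, h1, h2, h3, h4, h5⟩ := exists_halfEPart hres hd hL
  refine ⟨eL, eb, h1, h2, h3, h4, ?_, fun v hv => ?_⟩
  · exact ((Submodule.equivMapOfInjective _ (cuspToPar_injective _ _) _).trans
      (LinearEquiv.ofEq _ _ h5)).finrank_eq.le
  · replace hv : v ∈ (LinearMap.range eb).map (cuspToPar (kk O) (Gamma0 (q * M))) := h5 ▸ hv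
    obtain ⟨x, hx, rfl⟩ := hv
    exact ⟨x, hx, rfl⟩

end FermatLib.MLT.LGC.Half

end
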