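import Fermat.Agent.MLT.Hecke.IharaCusp
import Fermat.Agent.MLT.LGC.Half
import Fermat.Agent.MLT.LGC.ChiPartSection

/-!
# Hecke polynomials on cuspidal homomorphisms and on classes with trivial action

Classes with trivially acting character are homomorphisms killing `-1`, compatibly with Hecke
polynomials.  The cuspidal lattice of `Γ₀(L)` has an idempotent Hecke polynomial for a residual
character, on whose image the polynomials not killed by the character are invertible.
-/

set_option autoImplicit false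

noncomputable section

open CongruenceSubgroup ModularCurve.Period
open scoped MatrixGroups

namespace FermatLib.MLT.LGC.Half

open FermatLib.Modular FermatLib.Modular.Degeneracy FermatLib.Modular.LevelRaising

/-! ### Classes as homomorphisms -/

section ClassHom

variable {A : Type} [CommRing A] {L : ℕ} {χ : (ZMod L)ˣ →* Aˣ} {V : Type} [AddCommGroup V]
  [Module A V] (hV : ∀ u v, (χ u : A) • (v : V) = v)

/-- The homomorphism of a cocycle, linear. -/
def cocycleHomLin :
    bettiCocycles (Gamma0 L) (nebenChar χ) V →ₗ[A] (Additive (Gamma0 L) →+ V) where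
  toFun := cocycleHom hV
  map_add' _ _ := rfl
  map_smul' _ _ := rfl

/-- A class under a trivial action is a homomorphism. -/
def classHom : BettiMod L χ V →ₗ[A] (Additive (Gamma0 L) →+ V) :=
  Submodule.liftQ (bettiBoundaries (Gamma0 L) (nebenChar χ) V) (cocycleHomLin hV) fun c hc => by
    have h0 := (mk_eq_zero_iff_of_trivial hV).1 ((Submodule.Quotient.mk_eq_zero _).2 hc)
    exact AddMonoidHom.ext fun γ => h0 (Additive.toMul γ)

theorem classHom_mk (c : bettiCocycles (Gamma0 L) (nebenChar χ) V) :
    classHom hV (BettiMod.mk c) = cocycleHom hV c := rfl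

theorem classHom_neg_one (x : BettiMod L χ V) (γ : Gamma0 L) (hγ : (γ : SL(2, ℤ)) = -1) :
    classHom hV x (Additive.ofMul γ) = 0 := by
  obtain ⟨c, rfl⟩ := BettiMod.mk_surjective x
  rw [classHom_mk, cocycleHom_apply, bettiCocycles.map_neg_one c hγ]

theorem exists_classHom_eq (φ : Additive (Gamma0 L) →+ V)
    (hneg : ∀ γ : Gamma0 L, (γ : SL(2, ℤ)) = -1 → φ (Additive.ofMul γ) = 0) :
    ∃ x : BettiMod L χ V, classHom hV x = φ :=
  ⟨BettiMod.mk (homCocycle hV φ hneg), AddMonoidHom.ext fun _ => rfl⟩

theorem classHom_X_smul (l : Nat.Primes) (x : BettiMod L χ V) :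
    classHom hV ((MvPolynomial.X l : BettiHeckeAlg A) • x) =
      heckeHomOp L A V l (classHom hV x) := by
  obtain ⟨c, rfl⟩ := BettiMod.mk_surjective x
  rw [BettiMod.X_smul_mk, classHom_mk, classHom_mk]
  refine AddMonoidHom.ext fun γ => ?_
  obtain ⟨γ, rfl⟩ := Additive.ofMul.surjective γ
  exact hecke_cocycle_apply_of_trivial hV l c γ

theorem classHom_map {W : Type} [AddCommGroup W] [Module A W]
    (hW : ∀ u w, (χ u : A) • (w : W) = w) (f : V →ₗ[A] W) (x : BettiMod L χ V) :
    classHom hW (BettiMod.map f x) = f.toAddMonoidHom.comp (classHom hV x) := by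
  obtain ⟨c, rfl⟩ := BettiMod.mk_surjective x
  rfl

theorem classHom_smul_congr {χ' : (ZMod L)ˣ →* Aˣ} (hV' : ∀ u v, (χ' u : A) • (v : V) = v)
    {x : BettiMod L χ V} {x' : BettiMod L χ' V} (h : classHom hV x = classHom hV' x')
    (P : BettiHeckeAlg A) : classHom hV (P • x) = classHom hV' (P • x') := by
  induction P using MvPolynomial.induction_on generalizing x x' with
  | C a => rw [← MvPolynomial.algebraMap_eq, algebraMap_smul, algebraMap_smul, map_smul, map_smul, h]
  | add P Q hP hQ => rw [add_smul, add_smul, map_add, map_add, hP h, hQ h]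
  | mul_X P l hP =>
    rw [mul_smul, mul_smul]
    exact hP (by rw [classHom_X_smul, classHom_X_smul, h])

theorem isCuspidalHom_classHom_smul [NeZero L] {x : BettiMod L χ V}
    (h : IsCuspidalHom (classHom hV x)) (P : BettiHeckeAlg A) :
    IsCuspidalHom (classHom hV (P • x)) := by
  induction P using MvPolynomial.induction_on generalizing x with
  | C a =>
    rw [← MvPolynomial.algebraMap_eq, algebraMap_smul, map_smul]
    exact (cuspidalHoms A (Gamma0 L) V).smul_mem a h
  | add P Q hP hQ =>
    rw [add_smul, map_add]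
    exact (cuspidalHoms A (Gamma0 L) V).add_mem (hP h) (hQ h)
  | mul_X P l hP =>
    rw [mul_smul]
    refine hP ?_
    rw [classHom_X_smul]
    exact op_mem_cuspidalHoms (R := A) _ h

theorem isCuspidalHom_classHom_sub_degree [NeZero L] [IsAddTorsionFree V] (l : Nat.Primes)
    (hl : ((l : ℕ) : ZMod L) = 1) (hlL : ¬ (l : ℕ) ∣ L) (x : BettiMod L χ V) :
    IsCuspidalHom (classHom hV ((MvPolynomial.X l -
      MvPolynomial.C (((l : ℕ) + 1 : ℕ) : A) : BettiHeckeAlg A) • x)) := by
  refine isCuspidalHom_of_isParabolicHom fun γ hγ => ?_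
  rw [sub_smul, map_sub, AddMonoidHom.sub_apply, classHom_X_smul,
    heckeHomOp_parabolic l hl hlL (classHom_neg_one hV x) γ hγ, ← MvPolynomial.algebraMap_eq,
    algebraMap_smul, map_smul, Nat.cast_smul_eq_nsmul, AddMonoidHom.smul_apply, sub_self]

end ClassHom

/-! ### Polynomials on the cuspidal lattice -/

section Cusp

variable (O : Type) [CommRing O] (L : ℕ) [NeZero L]

theorem isMulCommutative_adjoin_heckeCuspOp :
    IsMulCommutative (Algebra.adjoin O (Set.range (heckeCuspOp O O L))) :=
  Algebra.isMulCommutative_adjoin O (by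
    rintro _ ⟨a, rfl⟩ _ ⟨b, rfl⟩
    exact LinearMap.ext fun φ => Subtype.ext (heckeHomOp_comm (R := O) a b φ.1))

open scoped IsMulCommutative in
/-- Hecke polynomials on the cuspidal lattice. -/
def cuspEval : BettiHeckeAlg O →ₐ[O] Module.End O (cuspidalHoms O (Gamma0 L) O) :=
  haveI := isMulCommutative_adjoin_heckeCuspOp O L
  (Algebra.adjoin O (Set.range (heckeCuspOp O O L))).val.comp
    (MvPolynomial.aeval fun p =>
      (⟨heckeCuspOp O O L p, Algebra.subset_adjoin (Set.mem_range_self p)⟩ :
        Algebra.adjoin O (Set.range (heckeCuspOp O O L))))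

variable {O L}

open scoped IsMulCommutative in
theorem cuspEval_X (l : Nat.Primes) :
    cuspEval O L (MvPolynomial.X l) = heckeCuspOp O O L l := by
  haveI := isMulCommutative_adjoin_heckeCuspOp O L
  exact congrArg Subtype.val (MvPolynomial.aeval_X _ l)

theorem cuspEval_mem_span (P : BettiHeckeAlg O) :
    cuspEval O L P ∈ Submodule.span O (Set.range (heckeCuspAct L O O)) := by
  induction P using MvPolynomial.induction_on with
  | C a =>
    rw [← MvPolynomial.algebraMap_eq, AlgHom.commutes, Algebra.algebraMap_eq_smul_one]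
    exact Submodule.smul_mem _ _ (Submodule.subset_span ⟨1, map_one _⟩)
  | add P Q hP hQ => rw [map_add]; exact add_mem hP hQ
  | mul_X P l hP =>
    have hl : ∃ t, heckeCuspAct L O O t = heckeCuspOp O O L l := by
      by_cases h : (l : ℕ) ∣ L
      · exact ⟨_, heckeCuspAct_U L O O l.2 h⟩
      · exact ⟨_, heckeCuspAct_T L O O l.2 h⟩
    obtain ⟨t, ht⟩ := hl
    rw [map_mul, cuspEval_X, ← ht]
    generalize cuspEval O L P = F at hP ⊢
    induction hP using Submodule.span_induction with
    | mem f hf =>
      obtain ⟨s, rfl⟩ := hf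
      exact Submodule.subset_span ⟨s * t, map_mul _ s t⟩
    | zero => rw [zero_mul]; exact zero_mem _
    | add f g _ _ hf hg => rw [add_mul]; exact add_mem hf hg
    | smul r f _ hf => rw [smul_mul_assoc]; exact Submodule.smul_mem _ _ hf

/-- An element of the span of the Hecke algebra reduces. -/
theorem exists_reduce_of_mem_span (B : Type) [CommRing B] [Algebra O B]
    {f : Module.End O (cuspidalHoms O (Gamma0 L) O)}
    (hf : f ∈ Submodule.span O (Set.range (heckeCuspAct L O O))) :
    ∃ g : Module.End B (cuspidalHoms B (Gamma0 L) B),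
      ∀ x, coeffIncl O B L (f x) = g (coeffIncl O B L x) := by
  induction hf using Submodule.span_induction with
  | mem f hf =>
    obtain ⟨t, rfl⟩ := hf
    exact ⟨heckeCuspAct L B B t, fun x => cuspMap_heckeCuspAct _ t x⟩
  | zero => exact ⟨0, fun x => by simp⟩
  | add f g _ _ hf hg =>
    obtain ⟨a, ha⟩ := hf
    obtain ⟨b, hb⟩ := hg
    exact ⟨a + b, fun x => by rw [LinearMap.add_apply, map_add, ha, hb, LinearMap.add_apply]⟩
  | smul r f _ hf =>
    obtain ⟨a, ha⟩ := hf
    exact ⟨algebraMap O B r • a, fun x => by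
      rw [LinearMap.smul_apply, map_smul, ha, LinearMap.smul_apply, algebraMap_smul]⟩

theorem classHom_smul_cuspEval {χ : (ZMod L)ˣ →* Oˣ} {W : Type} [AddCommGroup W] [Module O W]
    (hW : ∀ u w, (χ u : O) • (w : W) = w) (f : O →ₗ[O] W) {x : BettiMod L χ W}
    {φ : cuspidalHoms O (Gamma0 L) O} (h : classHom hW x = f.toAddMonoidHom.comp φ.1)
    (P : BettiHeckeAlg O) :
    classHom hW (P • x) = f.toAddMonoidHom.comp (cuspEval O L P φ).1 := by
  induction P using MvPolynomial.induction_on generalizing x φ with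
  | C a =>
    rw [← MvPolynomial.algebraMap_eq, algebraMap_smul, map_smul, h, AlgHom.commutes,
      Module.algebraMap_end_apply]
    exact AddMonoidHom.ext fun γ => (f.map_smul a (φ.1 γ)).symm
  | add P Q hP hQ =>
    rw [add_smul, map_add, hP h, hQ h, map_add, LinearMap.add_apply, Submodule.coe_add,
      AddMonoidHom.comp_add]
  | mul_X P l hP =>
    rw [mul_smul, map_mul, Module.End.mul_apply]
    refine hP ?_
    rw [classHom_X_smul, h, cuspEval_X, coe_heckeCuspOp, heckeHomOp_comp_left]

variable (O) in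
/-- A Hecke polynomial away from the level commutes with the Atkin–Lehner operator. -/
theorem commute_cuspEval_alEndAt {M q : ℕ} [NeZero M] [NeZero q] [Fact q.Prime] [Fact (Nat.Coprime q M)]
    (hL : L = M * q) {Pr : Set Nat.Primes} (hPr : ∀ l ∈ Pr, ¬ (l : ℕ) ∣ L) {P : BettiHeckeAlg O}
    (hP : P ∈ MvPolynomial.supported O Pr) :
    Commute (cuspEval O L P) (alEndAt O hL) := by
  subst hL
  rw [alEndAt_rfl]
  unfold MvPolynomial.supported at hP
  induction hP using Algebra.adjoin_induction with
  | mem x hx =>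
    obtain ⟨l, hl, rfl⟩ := hx
    rw [cuspEval_X]
    exact LinearMap.ext fun φ => Subtype.ext (alOp_heckeHomOp (R := O) l (hPr l hl) φ.1)
  | algebraMap a => rw [AlgHom.commutes]; exact Algebra.commutes a _
  | add x y _ _ hx hy => rw [map_add]; exact hx.add_left hy
  | mul x y _ _ hx hy => rw [map_mul]; exact hx.mul_left hy

variable [IsDomain O] [IsPrincipalIdealRing O] [IsLocalRing O]
  [IsAdicComplete (IsLocalRing.maximalIdeal O) O] {k : Type} [Field k]

/-- **The idempotent of a residual character on the cuspidal lattice.** -/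
theorem exists_cusp_idempotent (Pr : Set Nat.Primes) (θ : BettiHeckeAlg O →+* k)
    (hθ : ∀ a ∈ IsLocalRing.maximalIdeal O, θ (MvPolynomial.C a) = 0) :
    ∃ e ∈ bettiResidualSubmonoid Pr θ, IsIdempotentElem (cuspEval O L e) ∧
      ∀ u ∈ bettiResidualSubmonoid Pr θ, ∀ φ,
        ∃ ψ, cuspEval O L e φ = cuspEval O L u (cuspEval O L e ψ) := by
  letI := Module.compHom (cuspidalHoms O (Gamma0 L) O) (cuspEval O L).toRingHom
  haveI : IsScalarTower O (BettiHeckeAlg O) (cuspidalHoms O (Gamma0 L) O) :=
    IsScalarTower.of_algebraMap_smul fun a φ => by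
      show cuspEval O L (algebraMap O (BettiHeckeAlg O) a) φ = _
      rw [AlgHom.commutes, Module.algebraMap_end_apply]
  obtain ⟨σ, e, heR, heθ, hmk, hσ⟩ := exists_charSubmonoid_section (MvPolynomial.supported O Pr) θ
    hθ (cuspidalHoms O (Gamma0 L) O)
  refine ⟨e, ⟨heR, heθ⟩, LinearMap.ext fun φ => ?_, fun u hu φ => ?_⟩
  · show e • (e • φ) = e • φ
    rw [← hσ (e • φ), ← hσ φ, hmk]
  · obtain ⟨ψ, hψ⟩ := mkLinearMap_charSubmonoid_surjective (MvPolynomial.supported O Pr) θ hθ
      (cuspidalHoms O (Gamma0 L) O)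
      (LocalizedModule.mk φ ⟨u, hu⟩)
    refine ⟨ψ, ?_⟩
    show e • φ = u • (e • ψ)
    rw [← hσ φ, ← hσ ψ, ← map_smul, hψ, LocalizedModule.smul'_mk,
      LocalizedModule.mkLinearMap_apply]
    congr 1
    exact (LocalizedModule.mk_cancel ⟨u, hu⟩ φ).symm

end Cusp

end FermatLib.MLT.LGC.Half

end
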