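import Fermat.Agent.MLT.LGC.RedKernel
import Fermat.Agent.MLT.LGC.LatticeGalois

/-!
# From the half bound on residual classes of the large group to the lattice of the small one

`A₀` is a lattice of parabolic homomorphisms on `Γ` whose reduction comes by restriction from
residual classes `V₀` on `Γ₀ ≥ Γ`.  An operator on classes of `Γ₀`, invertible on `V₀`, maps classes
whose restriction has reduction `0` to classes with reduction `0`; so the kernel of the reduction
in the `K`-span of `A₀` has at most the dimension of the classes of `V₀` with reduction `0`.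
-/

set_option autoImplicit false
set_option linter.unusedSectionVars false

noncomputable section

open CongruenceSubgroup ModularCurve ModularCurve.Period
open scoped MatrixGroups

namespace FermatLib.MLT.LGC

open FermatLib.Modular

local notation "Qbar" => AlgebraicClosure ℚ

variable {q : ℕ} [Fact q.Prime] {A : ValuationSubring Qbar} {Γ Γ₀ : Subgroup SL(2, ℤ)} {N N₀ : ℕ}
  [NeZero N] [NeZero N₀] (hC : ConjStable Γ N) (hC₀ : ConjStable Γ₀ N₀)
  {p : ℕ} [Fact p.Prime] [NeZero p] (hA : A.LiesOverPrime q)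

/-- Residual homomorphisms all of whose classes of order `p` have reduction `0`. -/
def redKerRes (k : Type) [CommRing k] : Submodule k (parabolicHoms k Γ k) where
  carrier := {y | ∀ f : k →+ ZMod (p ^ 1), lgcRed (p ^ 1) hC A hA (valRoot f y) = 0}
  zero_mem' := fun f => by rw [map_zero, map_zero]
  add_mem' := fun {x y} hx hy f => by
    rw [map_add (valRoot f), map_add, hx f, hy f]
    exact add_zero (M := UnitsModPow A hA (classField Γ) (p ^ 1)) _
  smul_mem' := fun c x hx f => by
    rw [valRoot_smul]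
    exact hx _

theorem valRoot_parNormOp {k : Type} [CommRing k] {ι : Type} [Fintype ι] (D : HeckeSystem Γ ι)
    {n : ℕ} [NeZero n] (f : k →+ ZMod n) (x : parabolicHoms k Γ k) :
    valRoot f (parNormOp D k x) = normHom D (valRoot f x) := by
  refine Subtype.ext (AddMonoidHom.ext fun γ => ?_)
  obtain ⟨γ, rfl⟩ := Additive.ofMul.surjective γ
  show muVal n (f (∑ i, x.1 (Additive.ofMul (D.elt γ i)))) =
    ∑ i, muVal n (f (x.1 (Additive.ofMul (D.elt γ i))))
  rw [map_sum, map_sum]

variable {O : Type} [CommRing O] [IsDomain O] [IsDiscreteValuationRing O] [CharZero O]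
  {K : Type} [Field K] [Algebra O K]

/-- **The kernel in the lattice of the small group from the residual classes of the large one.** -/
theorem finrank_redKerK_inf_span_le_comap (hO : Function.Injective (algebraMap O K)) (hqp : q ≠ p)
    (hp : (p : O) ∈ IsLocalRing.maximalIdeal O) (hle : Γ ≤ Γ₀)
    {A₀ : Type} [AddCommGroup A₀] [Module O A₀] [Module.Finite O A₀] [Module.IsTorsionFree O A₀]
    (ι : A₀ →ₗ[O] parabolicHoms O Γ O)
    {V₀ : Type} [AddCommGroup V₀] [Module (IsLocalRing.ResidueField O) V₀]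
    [FiniteDimensional (IsLocalRing.ResidueField O) V₀] [Module O V₀]
    [IsScalarTower O (IsLocalRing.ResidueField O) V₀]
    (ι₀ : V₀ →ₗ[IsLocalRing.ResidueField O]
      parabolicHoms (IsLocalRing.ResidueField O) Γ₀ (IsLocalRing.ResidueField O))
    {ϖ : O} (hϖ : Irreducible ϖ) (g : A₀ →ₗ[O] V₀) (hg : ∀ a, g a = 0 → ∃ a', a = ϖ • a')
    (hcompat : ∀ (a : A₀) (γ : Γ), IsLocalRing.residue O ((ι a).1 (Additive.ofMul γ)) =
      (ι₀ (g a)).1 (Additive.ofMul (Subgroup.inclusion hle γ)))
    {κ : Type} [Fintype κ] (D : HeckeSystem Γ₀ κ) (c : ℕ)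
    (T₀ : Module.End (IsLocalRing.ResidueField O) V₀) (hT₀i : Function.Injective T₀)
    (hT₀ : ∀ v, ι₀ (T₀ v) = parNormOp D _ (ι₀ v) - c • ι₀ v)
    (hkill : ∀ φ : RootHom Γ₀ (p ^ 1), lgcRed (p ^ 1) hC A hA (restrictRoot hle φ) = 0 →
      lgcRed (p ^ 1) hC₀ A hA (normHom D φ - c • φ) = 0) :
    Module.finrank K ↥(redKerK (O := O) hC (fun n => muVal (p ^ n)) hA K ⊓
        Submodule.span K (Set.range fun a => latK O K Γ (ι a))) ≤
      Module.finrank (IsLocalRing.ResidueField O)
        ↥((redKerRes hC₀ hA (p := p) (IsLocalRing.ResidueField O)).comap ι₀) := by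
  set S₀ := (redKerRes hC₀ hA (p := p) (IsLocalRing.ResidueField O)).comap ι₀
  have hrange : (Set.range fun a => latK O K Γ (ι a)) =
      Set.range (redLatticeIncl Γ O K ∘ₗ ι) := rfl
  rw [hrange]
  refine (finrank_redKerK_inf_span_le hC (fun n => muVal (p ^ n)) hA
    (fun n a => powMu_muVal _ a) hO hqp hp ι (k := IsLocalRing.ResidueField O)
    IsLocalRing.residue_surjective (ϖ := ϖ) ?_ hϖ.ne_zero g hg (K₁ := S₀.comap T₀) ?_).trans ?_
  · show IsLocalRing.residue O ϖ = 0
    rw [IsLocalRing.residue_eq_zero_iff, hϖ.maximalIdeal_eq]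
    exact Ideal.mem_span_singleton_self ϖ
  · intro a ha f
    have h1 : lgcRed (p ^ 1) hC A hA
        (restrictRoot hle (valRoot f (ι₀ (g a)))) = 0 := by
      have h := lgcRed_residue_eq_zero hC (fun n => muVal (p ^ n)) hA ι ha f
      rwa [show pushRoot (fun n => muVal (p ^ n))
          (f.comp (IsLocalRing.residue O).toAddMonoidHom) (ι a) =
        restrictRoot hle (valRoot f (ι₀ (g a))) from
        Subtype.ext (AddMonoidHom.ext fun γ => by
          obtain ⟨γ, rfl⟩ := Additive.ofMul.surjective γ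
          show muVal (p ^ 1) (f (IsLocalRing.residue O ((ι a).1 (Additive.ofMul γ)))) =
            muVal (p ^ 1) (f ((ι₀ (g a)).1 (Additive.ofMul (Subgroup.inclusion hle γ))))
          rw [hcompat])] at h
    have h2 := hkill _ h1
    rwa [← valRoot_parNormOp,
      ← map_nsmul (valRoot (R := IsLocalRing.ResidueField O) (Γ := Γ₀) f),
      ← map_sub (valRoot (R := IsLocalRing.ResidueField O) (Γ := Γ₀) f), ← hT₀] at h2
  · exact le_of_eq (LinearEquiv.finrank_eq
      ((LinearEquiv.ofBijective T₀ ⟨hT₀i, LinearMap.injective_iff_surjective.mp hT₀i⟩).submoduleMap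
        (S₀.comap T₀)) |>.trans (congrArg (fun S : Submodule _ V₀ => Module.finrank _ S)
          (Submodule.map_comap_eq_of_surjective (LinearMap.injective_iff_surjective.mp hT₀i) S₀)))

/-- **The half bound on the lattice of the small group.** -/
theorem two_mul_finrank_redKerK_inf_span_le (hO : Function.Injective (algebraMap O K))
    (hqp : q ≠ p) (hp : (p : O) ∈ IsLocalRing.maximalIdeal O) (hle : Γ ≤ Γ₀)
    {A₀ : Type} [AddCommGroup A₀] [Module O A₀] [Module.Finite O A₀] [Module.IsTorsionFree O A₀]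
    (ι : A₀ →ₗ[O] parabolicHoms O Γ O)
    {V₀ : Type} [AddCommGroup V₀] [Module (IsLocalRing.ResidueField O) V₀]
    [FiniteDimensional (IsLocalRing.ResidueField O) V₀] [Module O V₀]
    [IsScalarTower O (IsLocalRing.ResidueField O) V₀]
    (ι₀ : V₀ →ₗ[IsLocalRing.ResidueField O]
      parabolicHoms (IsLocalRing.ResidueField O) Γ₀ (IsLocalRing.ResidueField O))
    {ϖ : O} (hϖ : Irreducible ϖ) (g : A₀ →ₗ[O] V₀) (hg : ∀ a, g a = 0 → ∃ a', a = ϖ • a')
    (hcompat : ∀ (a : A₀) (γ : Γ), IsLocalRing.residue O ((ι a).1 (Additive.ofMul γ)) =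
      (ι₀ (g a)).1 (Additive.ofMul (Subgroup.inclusion hle γ)))
    {κ : Type} [Fintype κ] (D : HeckeSystem Γ₀ κ) (c : ℕ)
    (T₀ : Module.End (IsLocalRing.ResidueField O) V₀) (hT₀i : Function.Injective T₀)
    (hT₀ : ∀ v, ι₀ (T₀ v) = parNormOp D _ (ι₀ v) - c • ι₀ v)
    (hkill : ∀ φ : RootHom Γ₀ (p ^ 1), lgcRed (p ^ 1) hC A hA (restrictRoot hle φ) = 0 →
      lgcRed (p ^ 1) hC₀ A hA (normHom D φ - c • φ) = 0)
    (hhalf₀ : 2 * Module.finrank (IsLocalRing.ResidueField O)
        ↥((redKerRes hC₀ hA (p := p) (IsLocalRing.ResidueField O)).comap ι₀) ≤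
      Module.finrank (IsLocalRing.ResidueField O) V₀)
    (hrank : Module.finrank (IsLocalRing.ResidueField O) V₀ ≤
      Module.finrank K ↥(Submodule.span K (Set.range fun a => latK O K Γ (ι a)))) :
    2 * Module.finrank K ↥(redKerK (O := O) hC (fun n => muVal (p ^ n)) hA K ⊓
        Submodule.span K (Set.range fun a => latK O K Γ (ι a))) ≤
      Module.finrank K ↥(Submodule.span K (Set.range fun a => latK O K Γ (ι a))) :=
  (Nat.mul_le_mul_left 2 (finrank_redKerK_inf_span_le_comap hC hC₀ hA hO hqp hp hle ι ι₀ hϖ g hg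
    hcompat D c T₀ hT₀i hT₀ hkill)).trans (hhalf₀.trans hrank)

end FermatLib.MLT.LGC

end
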