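import Fermat.Agent.MLT.LGC.FieldHecke
import Fermat.Agent.MLT.LGC.Group
import Fermat.Agent.Modular.HeckeReps

/-!
# The residue kill for `{γ ∈ Γ₀(q² M) | d ≡ ±1 (mod q)}` inside `Γ₀(q M)`

For a prime `l ≡ 1 (mod q² M)` the representatives of `T l` are congruent to powers of `T`, so the
transfer on the small group commutes with the translations by `Γ₀(q M)`.
-/

set_option autoImplicit false
set_option linter.style.haveILetI false

noncomputable section

open UpperHalfPlane hiding I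
open CongruenceSubgroup ModularCurve
open scoped MatrixGroups

namespace FermatLib.MLT.LGC

open FermatLib.Modular FermatLib.Modular.Corr FermatLib.Igusa.Mono

local notation "Qbar" => AlgebraicClosure ℚ
local notation "ι₀" => complexEmbedding
local notation "M2Z" => Matrix (Fin 2) (Fin 2) ℤ

attribute [local instance 100000] monoLaurentModule monoLaurentSMul

/-- `Γ₀(L)` is stable at level `20 L`. -/
theorem conjStable_gamma0 (L : ℕ) [NeZero L] : ConjStable (Gamma0 L) (20 * L) :=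
  deltaKer_one (L := L) (Δ := Unit) ▸ conjStable_deltaKer (1 : (ZMod L)ˣ →* Unit) rfl

variable {q M : ℕ}

theorem mem_lgcGroup_of_mem_Gamma {γ : SL(2, ℤ)} (h : γ ∈ Gamma (q ^ 2 * M)) :
    γ ∈ lgcGroup q M := by
  rw [Gamma_mem] at h
  obtain ⟨-, -, hc, hd⟩ := h
  refine mem_lgcGroup.mpr ⟨Gamma0_mem.mpr hc, Or.inl ?_⟩
  have hq : q ∣ q ^ 2 * M := dvd_mul_of_dvd_left (dvd_pow_self q two_ne_zero) M
  have h1 := congrArg (ZMod.castHom hq (ZMod q)) hd
  rwa [map_intCast, map_one] at h1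

variable {l : ℕ} (hl : l.Prime) (hl1 : ((l : ℕ) : ZMod (q ^ 2 * M)) = 1)

include hl hl1 in
theorem not_dvd_of_natCast_eq_one : ¬ l ∣ q * M := fun h => by
  have hd : l ∣ q ^ 2 * M := h.trans ⟨q, by ring⟩
  have h1 := congrArg (ZMod.castHom hd (ZMod l)) hl1
  rw [map_natCast, map_one, ZMod.natCast_self] at h1
  haveI : Fact (1 < l) := ⟨hl.one_lt⟩
  exact zero_ne_one h1

/-- The exponent of the power of `T` congruent to a representative. -/
def repShift : Option (Fin l) → ℤ
  | some j => (j : ℕ)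
  | none => 0

include hl1 in
theorem map_heckeRepInt_eq (x : Option (Fin l)) :
    (heckeRepInt l x).map (Int.cast : ℤ → ZMod (q ^ 2 * M)) =
      ((ModularGroup.T ^ repShift x : SL(2, ℤ)) : M2Z).map Int.cast := by
  rw [ModularGroup.coe_T_zpow]
  cases x <;> ext i j <;> fin_cases i <;> fin_cases j <;> simp [heckeRepInt, repShift, hl1]

include hl1 in
/-- An element moving a representative by `γ ∈ Γ₀(q M)` lies in the coset of `γ`. -/
theorem mul_inv_mem_lgcGroup {γ h : SL(2, ℤ)} (hγ : γ ∈ Gamma0 (q * M)) {x y : Option (Fin l)}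
    (e : heckeRepInt l x * (γ : M2Z) = (h : M2Z) * heckeRepInt l y) :
    h * γ⁻¹ ∈ lgcGroup q M := by
  set f := Matrix.SpecialLinearGroup.map (n := Fin 2) (Int.castRingHom (ZMod (q ^ 2 * M)))
  have hf : f (ModularGroup.T ^ repShift x * γ) = f (h * ModularGroup.T ^ repShift y) := by
    refine Subtype.ext ?_
    have e' := congrArg (fun X : M2Z => X.map (Int.castRingHom (ZMod (q ^ 2 * M)))) e
    simp only [Matrix.map_mul] at e'
    show (((ModularGroup.T ^ repShift x * γ : SL(2, ℤ)) : M2Z)).map _ =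
      (((h * ModularGroup.T ^ repShift y : SL(2, ℤ)) : M2Z)).map _
    rw [Matrix.SpecialLinearGroup.coe_mul, Matrix.SpecialLinearGroup.coe_mul, Matrix.map_mul,
      Matrix.map_mul]
    simp only [Int.coe_castRingHom] at e' ⊢
    rwa [map_heckeRepInt_eq hl1, map_heckeRepInt_eq hl1] at e'
  have hT : ∀ k : ℤ, ModularGroup.T ^ k ∈ lgcGroup q M :=
    fun k => Subgroup.zpow_mem _ modularGroup_T_mem_lgcGroup k
  set k := ModularGroup.T ^ repShift x * (γ * (ModularGroup.T ^ repShift y)⁻¹ * γ⁻¹) with hk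
  have hkm : k ∈ lgcGroup q M :=
    Subgroup.mul_mem _ (hT _) (conj_mem_lgcGroup hγ (Subgroup.inv_mem _ (hT _)))
  have hfk : f (h * γ⁻¹) = f k := by
    rw [hk, show ModularGroup.T ^ repShift x * (γ * (ModularGroup.T ^ repShift y)⁻¹ * γ⁻¹) =
        ModularGroup.T ^ repShift x * γ * ((ModularGroup.T ^ repShift y)⁻¹ * γ⁻¹) by group,
      map_mul f (ModularGroup.T ^ repShift x * γ), hf, ← map_mul]
    congr 1
    group
  have hgam : h * γ⁻¹ * k⁻¹ ∈ Gamma (q ^ 2 * M) := by
    rw [Gamma_mem']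
    show f _ = 1
    rw [map_mul, hfk, ← map_mul, mul_inv_cancel, map_one]
  simpa using Subgroup.mul_mem _ (mem_lgcGroup_of_mem_Gamma hgam) hkm

include hl hl1 in
theorem exists_rep_mul_eq {γ : SL(2, ℤ)} (hγ : γ ∈ Gamma0 (q * M)) (x : Option (Fin l)) :
    ∃ (y : Option (Fin l)) (h : SL(2, ℤ)),
      heckeRepInt l x * (γ : M2Z) = (h : M2Z) * heckeRepInt l y ∧ h * γ⁻¹ ∈ lgcGroup q M := by
  obtain ⟨y, h, e⟩ := exists_eq_mul_rep (N := q * M) hl (heckeRepInt l x * (γ : M2Z))
    (by simp [det_heckeRepInt])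
    (by
      simp only [Matrix.mul_apply, Fin.sum_univ_two, heckeRepInt_one_zero, zero_mul, zero_add]
      exact (mem_Gamma0_iff_dvd.mp hγ).mul_left _)
    fun h => absurd h (not_dvd_of_natCast_eq_one hl hl1)
  exact ⟨y.1, h, e, mul_inv_mem_lgcGroup hl1 hγ e⟩

variable [NeZero l]

/-- `T l` on the small group. -/
def lgcHeckeSystem : HeckeSystem (lgcGroup q M) (Option (Fin l)) where
  rep := heckeRepInt l
  det_ne_zero x := by
    rw [det_heckeRepInt]
    exact_mod_cast hl.ne_zero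
  eq_of_mul_rep := heckeRepInt_eq_of_mul_eq hl.one_lt
  exists_mul_eq x γ := by
    obtain ⟨y, h, e, hm⟩ := exists_rep_mul_eq hl hl1 (lgcGroup_le_gamma0 γ.2) x
    exact ⟨y, ⟨h, by simpa using Subgroup.mul_mem _ hm γ.2⟩, e⟩

omit [NeZero l] in
/-- The norm commutes with the translations by `Γ₀(q M)`. -/
theorem normFn_lgcHeckeSystem_comp_smul {γ : SL(2, ℤ)} (hγ : γ ∈ Gamma0 (q * M)) {g : ℍ → ℂ}
    (hg : g ∈ weakMod (lgcGroup q M)) :
    normFn (lgcHeckeSystem hl hl1) (fun τ => g (γ • τ)) =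
      fun τ => normFn (lgcHeckeSystem hl hl1) g (γ • τ) := by
  choose nx h e hm using exists_rep_mul_eq hl hl1 hγ
  have hdet : ∀ x, (heckeRepInt l x).det ≠ 0 := (lgcHeckeSystem hl hl1).det_ne_zero
  have hinj : Function.Injective nx := fun a b hab => by
    refine heckeRepInt_eq_of_mul_eq hl.one_lt a b (h b * (h a)⁻¹) ?_
    refine matMul_right_cancel (δ := (γ : M2Z)) (det_coe_ne_zero γ) ?_
    rw [Matrix.mul_assoc, e a, e b, hab, ← Matrix.mul_assoc,
      ← Matrix.SpecialLinearGroup.coe_mul, inv_mul_cancel_right]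
  funext τ
  rw [normFn_apply, normFn_apply]
  refine ((Finset.prod_congr rfl fun x _ => ?_).trans
    (Equiv.prod_comp (Equiv.ofBijective nx (Finite.injective_iff_bijective.mp hinj))
      fun j => g (γ • (glOfInt (heckeRepInt l j) • τ)))).symm
  show g (glOfInt (heckeRepInt l x) • (γ • τ)) = g (γ • (glOfInt (heckeRepInt l (nx x)) • τ))
  rw [sl_smul_eq_glOfInt γ, ← mul_smul, ← glOfInt_mul (hdet x) (det_coe_ne_zero _), e x,
    glOfInt_mul (det_coe_ne_zero _) (hdet _), mul_smul, ← sl_smul_eq_glOfInt]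
  conv_lhs => rw [show h x = h x * γ⁻¹ * γ by group, mul_smul, hg.2.1 _ (hm x)]

variable [NeZero M] [Fact q.Prime] {A : ValuationSubring Qbar} (hA : A.LiesOverPrime q)

include hl hl1 in
/-- **Residue injectivity at `q`.** A class of `Γ₀(q M)` whose reduction dies in the class field of
the small group is multiplied by `l + 1` by `T l`, modulo what already dies at level `q M`. -/
theorem redUnit_gamma0_hecke_div_eq_zero {ζ : Qbarˣ} (hζ : IsPrimitiveRoot ζ l)
    (hζ₀ : Units.map (ι₀).toRingHom.toMonoidHom ζ = zetaQ l) {p : ℕ} [Fact p.Prime] (hpq : p ≠ q)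
    {x : seriesHull Qbar} (hx0 : x ≠ 0)
    (hx : (x : LaurentSeries Qbar) ∈ classSeries (Gamma0 (q * M)))
    (hred : redUnit A hA (classField (lgcGroup q M)) p x = 0) :
    redUnit A hA (classField (Gamma0 (q * M))) p (hullHecke Qbar l hζ x / x ^ (l + 1)) = 0 :=
  redUnit_hullHecke_div_eq_zero hζ hζ₀ (conjStable_lgcGroup q M) (lgcHeckeSystem hl hl1)
    (Equiv.refl _) (fun _ => rfl) (Λ := Gamma0 (q * M)) (fun _ hγ _ h => conj_mem_lgcGroup hγ h)
    hA lgcGroup_le_gamma0 (fun _ hγ _ hg => normFn_lgcHeckeSystem_comp_smul hl hl1 hγ hg)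
    hpq hx0 hx hred

include hl hl1 in
omit [Fact q.Prime] [NeZero M] in
/-- The hull operator is the norm of `heckeSystem (q M) l` on expansions. -/
theorem coeffMap_hullHecke_gamma0 {ζ : Qbarˣ} (hζ : IsPrimitiveRoot ζ l)
    (hζ₀ : Units.map (ι₀).toRingHom.toMonoidHom ζ = zetaQ l) {g : ℍ → ℂ}
    (hg : g ∈ weakMod (Gamma0 (q * M))) {x : seriesHull Qbar}
    (hx : coeffMap (ι₀).toRingHom (x : LaurentSeries Qbar) = qExpL g) :
    coeffMap (ι₀).toRingHom ((hullHecke Qbar l hζ x : seriesHull Qbar) : LaurentSeries Qbar) =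
      qExpL (normFn (heckeSystem (q * M) ⟨l, hl⟩) g) :=
  coeffMap_hullHecke hζ hζ₀ (heckeSystem (q * M) ⟨l, hl⟩)
    (Equiv.subtypeUnivEquiv (fun _ _ => not_dvd_of_natCast_eq_one hl hl1)).symm (fun _ => rfl)
    (modularGroup_T_mem_Gamma0 _) hg hx

end FermatLib.MLT.LGC

end
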