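import Fermat.Agent.MLT.LGC.Half
import Fermat.Agent.MLT.LGC.HalfGlue
import Fermat.Agent.MLT.LGC.Ops
import Fermat.Agent.MLT.LGC.LgcHecke

/-!
# The Galois action on cuspidal homomorphisms of `Γ₀(L)` commutes with the Hecke algebra

In characteristic zero parabolic and cuspidal homomorphisms agree; `galCuspO` and `galCuspK` are
`galO` and `galK` there.  The norms of the standard Hecke systems commute with conjugation of
expansions, so both commute with every operator of the Hecke algebra of level `L`.
-/

set_option autoImplicit false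
set_option linter.unusedSectionVars false
set_option linter.style.haveILetI false

noncomputable section

open UpperHalfPlane hiding I
open CongruenceSubgroup ModularCurve
open scoped MatrixGroups

namespace FermatLib.MLT.LGC.Half

open FermatLib.Modular FermatLib.Modular.Corr FermatLib.Galois.DS

local notation "Γℚ" => (AlgebraicClosure ℚ ≃ₐ[ℚ] AlgebraicClosure ℚ)

section Root

variable {L M : ℕ} [NeZero L] [NeZero M] (hC : ConjStable (Gamma0 L) M)

/-- The norms of `T l` and `U l` commute with conjugation of expansions. -/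
theorem isConjSeries_normFn_heckeSystem (l : Nat.Primes) {σ : ℂ ≃+* ℂ} {g g' : ℍ → ℂ}
    (hg : g ∈ weakMod (Gamma0 L)) (hg' : g' ∈ weakMod (Gamma0 L)) (hc : IsConjSeries σ g g') :
    IsConjSeries σ (normFn (heckeSystem L l) g) (normFn (heckeSystem L l) g') := by
  haveI : NeZero (l : ℕ) := ⟨l.2.ne_zero⟩
  have hT : ModularGroup.T ∈ Gamma0 L := by simp [Gamma0_mem, ModularGroup.coe_T]
  have hc' : qExpL g' = coeffMap (σ : ℂ →+* ℂ) (qExpL g) := hc
  refine qExpand_injective l ?_
  rw [← coeffMap_qExpand (σ : ℂ →+* ℂ) l]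
  by_cases hl : (l : ℕ) ∣ L
  · let e : Fin l ≃ HeckeIdx L l := Equiv.ofBijective
      (fun j => ⟨some j, fun h => (Option.some_ne_none _ h).elim⟩)
      ⟨fun a b h => Option.some_injective _ (congrArg Subtype.val h), fun x => by
        rcases x with ⟨_ | j, hx⟩
        · exact absurd hl (hx rfl)
        · exact ⟨j, rfl⟩⟩
    rw [qExpand_qExpL_normFn_U _ hT e (fun j => heckeSystem_rep _ _ _) hg,
      qExpand_qExpL_normFn_U _ hT e (fun j => heckeSystem_rep _ _ _) hg', coeffMap_prod_qTwist,
      hc']
  · let e : Option (Fin l) ≃ HeckeIdx L l := Equiv.ofBijective (fun x => ⟨x, fun _ => hl⟩)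
      ⟨fun a b h => congrArg Subtype.val h, fun x => ⟨x.1, rfl⟩⟩
    rw [qExpand_qExpL_normFn_T _ hT e (fun j => heckeSystem_rep _ _ _) hg,
      qExpand_qExpL_normFn_T _ hT e (fun j => heckeSystem_rep _ _ _) hg', normSeries_zetaQ_eq,
      normSeries_zetaQ_eq, map_mul, coeffMap_prod_qTwist, coeffMap_qExpand, coeffMap_qExpand, hc']

theorem det_heckeSystem_pos (l : Nat.Primes) (i : HeckeIdx L l) :
    0 < ((heckeSystem L l).rep i).det := by
  rw [heckeSystem_rep, det_heckeRepInt]
  exact_mod_cast l.2.pos

/-- **`T l` and `U l` commute with the Galois action on classes.** -/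
theorem rootRep_normHom_heckeSystem {n : ℕ} [NeZero n] (l : Nat.Primes) (σ : Γℚ)
    (φ : RootHom (Gamma0 L) n) :
    rootRep hC n σ (normHom (heckeSystem L l) φ) =
      normHom (heckeSystem L l) (rootRep hC n σ φ) := by
  obtain ⟨a, ha, -⟩ := exists_isRootClass_bounded hC.neg_one_mem φ
  obtain ⟨a', ha', hca⟩ := exists_isConjSeries hC _ ha.mem
  exact galRoot_eq hC (ha.norm _ (det_heckeSystem_pos l))
    (isConjSeries_normFn_heckeSystem l ha.mem ha' hca)
    ((ha.galRoot hC ha' hca).norm _ (det_heckeSystem_pos l))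

end Root

variable {L M : ℕ} [NeZero L] [NeZero M] (hC : ConjStable (Gamma0 L) M)
  {O : Type} [CommRing O] [IsDomain O] [IsDiscreteValuationRing O]
  [IsAdicComplete (IsLocalRing.maximalIdeal O) O] [Finite (IsLocalRing.ResidueField O)]
  [CharZero O] {p : ℕ} [Fact p.Prime] (hp : (p : O) ∈ IsLocalRing.maximalIdeal O)
  {K : Type} [Field K] [CharZero K] [Algebra O K]

/-- Parabolic homomorphisms with torsion free values are cuspidal. -/
def parCuspEquiv (R : Type) [CommRing R] [IsDomain R] [CharZero R] :
    Period.parabolicHoms R (Gamma0 L) R ≃ₗ[R] cuspidalHoms R (Gamma0 L) R :=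
  LinearEquiv.ofEq _ _ (parabolicHoms_eq_cuspidalHoms R (Gamma0 L))

@[simp] theorem coe_parCuspEquiv {R : Type} [CommRing R] [IsDomain R] [CharZero R]
    (x : Period.parabolicHoms R (Gamma0 L) R) :
    ((parCuspEquiv R x : cuspidalHoms R (Gamma0 L) R) : Additive (Gamma0 L) →+ R) = x.1 := rfl

@[simp] theorem coe_parCuspEquiv_symm {R : Type} [CommRing R] [IsDomain R] [CharZero R]
    (x : cuspidalHoms R (Gamma0 L) R) :
    (((parCuspEquiv R).symm x : Period.parabolicHoms R (Gamma0 L) R) :
      Additive (Gamma0 L) →+ R) = x.1 := rfl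

/-- The Galois action on the cuspidal lattice. -/
def galCuspO : Γℚ →* Module.End O (cuspidalHoms O (Gamma0 L) O) :=
  (parCuspEquiv O).conjAlgEquiv O |>.toMonoidHom.comp (galO hC hp)

variable (K) in
/-- The Galois action on cuspidal homomorphisms with values in `K`. -/
def galCuspK : Γℚ →* Module.End K (cuspidalHoms K (Gamma0 L) K) :=
  (parCuspEquiv K).conjAlgEquiv K |>.toMonoidHom.comp (galK K hC hp)

theorem galCuspO_apply (σ : Γℚ) (x : cuspidalHoms O (Gamma0 L) O) :
    galCuspO hC hp σ x = parCuspEquiv O (galO hC hp σ ((parCuspEquiv O).symm x)) := rfl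

theorem galCuspK_apply (σ : Γℚ) (x : cuspidalHoms K (Gamma0 L) K) :
    galCuspK hC hp K σ x = parCuspEquiv K (galK K hC hp σ ((parCuspEquiv K).symm x)) := rfl

theorem coeffIncl_galCuspO (σ : Γℚ) (x : cuspidalHoms O (Gamma0 L) O) :
    coeffIncl O K L (galCuspO hC hp σ x) = galCuspK hC hp K σ (coeffIncl O K L x) := by
  rw [galCuspO_apply, galCuspK_apply,
    show (parCuspEquiv K).symm (coeffIncl O K L x) = latK O K (Gamma0 L) ((parCuspEquiv O).symm x)
      from rfl, galK_latK]
  rfl

theorem galO_parNormOp_heckeSystem (l : Nat.Primes) (σ : Γℚ)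
    (x : Period.parabolicHoms O (Gamma0 L) O) :
    galO hC hp σ (parNormOp (heckeSystem L l) O x) =
      parNormOp (heckeSystem L l) O (galO hC hp σ x) :=
  galO_natural hC hp hC (fun _ => (normHom (heckeSystem L l)).toAddMonoidHom)
    (fun _ => (normHom (heckeSystem L l)).toAddMonoidHom)
    (fun _ f x => valRoot_parNormOp (heckeSystem L l) f x)
    (fun _ f x => valRoot_parNormOp (heckeSystem L l) f x)
    (fun _ φ => rootRep_normHom_heckeSystem hC l σ φ) x

theorem commute_heckeCuspOp_galCuspK (l : Nat.Primes) (σ : Γℚ) :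
    Commute (heckeCuspOp K K L l) (galCuspK hC hp K σ) := LinearMap.ext fun y => by
  have h := galK_natural hC hp hC (K := K) (T := parNormOp (heckeSystem L l) O)
    (U := parNormOp (heckeSystem L l) O) (TK := parNormOp (heckeSystem L l) K)
    (UK := parNormOp (heckeSystem L l) K) (σ := σ) (σ' := σ)
    (fun x => parNormOp_redLatticeIncl (heckeSystem L l) x)
    (fun x => parNormOp_redLatticeIncl (heckeSystem L l) x)
    (galO_parNormOp_heckeSystem hC hp l σ) ((parCuspEquiv K).symm y)
  refine Subtype.ext ?_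
  exact (congrArg Subtype.val h).symm

/-- **The Galois action commutes with the Hecke algebra.** -/
theorem commute_heckeCuspAct_galCuspK (t : CuspForm.heckeAlgebra L 2 (∅ : Set ℕ)) (σ : Γℚ) :
    Commute (heckeCuspAct L K K t) (galCuspK hC hp K σ) := by
  obtain ⟨P, rfl⟩ := heckeEvalForms_surjective L t
  induction P using MvPolynomial.induction_on with
  | C a =>
    rw [show (MvPolynomial.C a : HeckeAlg) = (a : HeckeAlg) from rfl, map_intCast, map_intCast]
    exact Int.cast_commute a _
  | add a b ha hb => rw [map_add, map_add]; exact ha.add_left hb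
  | mul_X a l ha =>
    rw [map_mul, map_mul, show (MvPolynomial.X l : HeckeAlg) = heckeGen l from rfl,
      CuspForm.heckeEvalForms_heckeGen, heckeCuspAct_heckeFormsGen]
    exact ha.mul_left (commute_heckeCuspOp_galCuspK hC hp l σ)

end FermatLib.MLT.LGC.Half

end
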