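import Fermat.Agent.MLT.LGC.HalfKer
import Fermat.Agent.Igusa.MonoTopTop2
import Fermat.Agent.Igusa.MonoModular
import Fermat.Agent.Igusa.MonoSheetRatios
import Fermat.Agent.Igusa.ReductionInputs
import Fermat.Agent.Modular.GenusBar
import Fermat.Agent.Curve.HurwitzGenus

/-!
# The kernel on residual cuspidal homomorphisms of `Γ₀(q M)` is at most half

The two-sheet datum of level `q M` has the genus of `X₀(q M)`, and its special field the genus of
`X₀(M)`.
-/

set_option autoImplicit false
set_option linter.style.haveILetI false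
set_option linter.unusedSectionVars false

noncomputable section

open CongruenceSubgroup ModularCurve AlgebraicCurve
open FermatLib.Igusa FermatLib.Igusa.Mono
open scoped MatrixGroups

namespace FermatLib.MLT.LGC.Half

open FermatLib.Modular FermatLib.Modular.Corr

attribute [local instance] FermatLib.Modular.Corr.neZero_mul'
attribute [local instance 100000] monoLaurentModule monoLaurentSMul

local notation "Qbar" => AlgebraicClosure ℚ

/-- The genus in `RRField` is unique. -/
theorem rrField_genus_unique {K F : Type*} [Field K] [Field F] [Algebra K F] {g g' : ℕ}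
    (h : RRField K F g) (h' : RRField K F g') : g = g' := by
  obtain ⟨v⟩ := h.nonempty_place
  set D : Divisor K F := Finsupp.single v (2 * (g : ℤ) + 2 * (g' : ℤ))
  have hD : Divisor.degree D = 2 * (g : ℤ) + 2 * (g' : ℤ) := by
    rw [show D = Finsupp.single v (2 * (g : ℤ) + 2 * (g' : ℤ)) from rfl, Divisor.degree_single,
      h.deg_one v, Nat.cast_one, mul_one]
  have e := h.finrank_space D (by omega)
  have e' := h'.finrank_space D (by omega)
  omega

/-- The genus of `X₀(N)` is half the rank of cuspidal homomorphisms. -/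
theorem cuspRank_eq_two_mul_genus (N : ℕ) [NeZero N] {g : ℕ}
    (h : RRField Qbar (modularFunctionFieldBar N) g) : cuspRank N = 2 * g := by
  haveI : CharZero Qbar := algebraRat.charZero Qbar
  haveI : IsCurveOver Qbar (modularFunctionFieldOver Qbar N) :=
    isCurveOver_modularFunctionFieldOver N
  haveI := finiteDimensional_adjoin_jElem Qbar N
  haveI : Algebra.IsSeparable ↥(IntermediateField.adjoin Qbar {jElem Qbar N})
      ↥(modularFunctionFieldOver Qbar N) :=
    haveI : Algebra.IsAlgebraic ↥(IntermediateField.adjoin Qbar {jElem Qbar N})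
      ↥(modularFunctionFieldOver Qbar N) := Algebra.IsAlgebraic.of_finite _ _
    Algebra.IsAlgebraic.isSeparable_of_perfectField
  haveI : HasCanonicalDivisor (K := Qbar) (F := ↥(modularFunctionFieldOver Qbar N)) :=
    Curve.hasCanonicalDivisor_of_separating (transcendental_jElem Qbar N)
      IsCurveOver.deg_eq_one_of_isAlgClosed
  haveI := isFunctionFieldOne_fieldBar Qbar N
  have h1 := genus_modularFunctionFieldOver Qbar complexEmbedding.toRingHom N
  rw [Curve.genus_eq_genusFF] at h1
  have hg : g = genusFF Qbar (modularFunctionFieldOver Qbar N) :=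
    rrField_genus_unique h (rrField_genusFF Qbar _)
  rw [← hg] at h1
  have h2 := cast_cuspRank N
  rw [← h1] at h2
  exact_mod_cast h2

variable {q : ℕ} [Fact q.Prime] [NeZero q] {M : ℕ} [NeZero M] {A : ValuationSubring Qbar}
  {N₀ : ℕ} [NeZero N₀] {p : ℕ} [Fact p.Prime] [NeZero p]
  {O : Type} [CommRing O] [IsDomain O] [IsDiscreteValuationRing O]
  [IsAdicComplete (IsLocalRing.maximalIdeal O) O] [Finite (IsLocalRing.ResidueField O)]
  [CharZero O]

/-- **The kernel is at most half.** -/
theorem exists_finrank_redKerCusp_le (hqM : ¬ q ∣ M) (hA : A.LiesOverPrime q)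
    (hp : (p : O) ∈ IsLocalRing.maximalIdeal O) (hqp : q ≠ p)
    (hC : ConjStable (Gamma0 (q * M)) N₀) :
    ∃ g : ℕ, cuspRank (q * M) = 2 * g ∧ Module.finrank (IsLocalRing.ResidueField O)
      (redKerCusp hC hA (p := p) (IsLocalRing.ResidueField O)) ≤ g := by
  haveI := monoResidue_charP (q := q) hA
  haveI := FermatLib.Galois.isAlgClosed_residueField A
  letI : Algebra (IsLocalRing.ResidueField A)
      (modularFunctionFieldFullC (IsLocalRing.ResidueField A) M) :=
    SubalgebraClass.toAlgebra _
  let D := monoDatum hqM hA (mono_lift_exists hqM hA) (mono_top_exists hqM hA)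
  obtain ⟨g, hgF, hgK⟩ := exists_rrField_modL M hqM A hA
  refine ⟨D.gF, cuspRank_eq_two_mul_genus (q * M) D.rrF,
    finrank_redKerCusp_le hA hp (D₀ := D) (emb := specialEmb M A) hC hqM hqp
      (hasRatios_monoSheetInf hqM hA) (hasRatios_monoSheetZero hqM hA) (fun c => ?_)
      (fun x => ?_) ?_⟩
  · exact algebraMap_laurentSeries_eq_single (IsLocalRing.ResidueField A) c
  · haveI : ExpChar (IsLocalRing.ResidueField A) q := ExpChar.prime Fact.out
    exact exists_coeffMap_frobenius_eq q M x
  · rw [cuspRank_eq_two_mul_genus M hgF, rrField_genus_unique hgK D.rrK]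

end FermatLib.MLT.LGC.Half

end
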