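import Fermat.Agent.MLT.LGC.RedBridgeClass
import Fermat.Agent.MLT.LGC.Gamma0Half
import Fermat.Agent.MLT.LGC.Hull
import Fermat.Agent.MLT.LGC.Field
import Fermat.Agent.Modular.Kummer.CoeffDescent

/-!
# The half bound for the reduction of classes at `∞`

The classes on `Γ₀(q M)` whose normalised residue at `∞` is an `n`-th power of a residue of
`classField (Γ₀(q M))` inject into the kernel of reduction of the two-sheet datum.
-/

set_option autoImplicit false
set_option linter.style.haveILetI false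

noncomputable section

open CongruenceSubgroup ModularCurve AlgebraicCurve FermatLib.Igusa FermatLib.Igusa.Mono
open scoped MatrixGroups

namespace FermatLib.MLT.LGC

open scoped HullInstances

open FermatLib.Modular FermatLib.Modular.Kummer

attribute [local instance] FermatLib.Modular.Corr.neZero_mul'
attribute [local instance] FermatLib.Curve.qbarAlgebraComplex
attribute [local instance 100000] monoLaurentModule monoLaurentSMul

local notation "Qbar" => AlgebraicClosure ℚ

/-- The class field of `Γ₀(N)` is `ℚ̄(X₀(N))`. -/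
theorem classField_gamma0_le (N : ℕ) [NeZero N] :
    classField (Gamma0 N) ≤ modularFunctionFieldBar N := by
  refine IntermediateField.adjoin_le_iff.mpr ?_
  rintro x ⟨g, hg, hx⟩
  refine mem_laurentBaseChange_of_coeffMap_mem (K := ℂ) ?_
  rw [show algebraMap Qbar ℂ = complexEmbedding.toRingHom from rfl, hx]
  exact qExpL_mem_modularFunctionFieldCx N hg

theorem coeffMap_eq_zero_iff_of_eq_zero_iff {R S T : Type*} [CommRing R] [CommRing S] [CommRing T]
    {f : R →+* S} {g : R →+* T} (h : ∀ r, f r = 0 ↔ g r = 0) (y : LaurentSeries R) :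
    coeffMap f y = 0 ↔ coeffMap g y = 0 := by
  rw [HahnSeries.ext_iff, HahnSeries.ext_iff, funext_iff, funext_iff]
  simp [h]

set_option linter.unusedSectionVars false

variable {q : ℕ} [Fact q.Prime] [NeZero q] {M : ℕ} [NeZero M]
  {A : ValuationSubring Qbar} {k Kb : Type*} [Field k] [Field Kb] [Algebra k Kb] {π : A →+* k}
  {D₀ : MonoDatum π (modularFunctionFieldBar (q * M)) Kb q} {emb : Kb →+* LaurentSeries k}

/-- A unit of the Gauss valuation is a unit of the first sheet. -/
theorem mem_sheet_of_hull_isUnit (hA : A.LiesOverPrime q)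
    (h₁ : HasRatios D₀.s₁ (modularFunctionFieldBar (q * M)).val emb)
    {f : modularFunctionFieldBar (q * M)} {u : (hullW q A hA)ˣ}
    (hu : (((u : hullW q A hA) : seriesHull Qbar) : LaurentSeries Qbar) = f) :
    f ∈ D₀.s₁.W ∧ D₀.s₁.rd f ≠ 0 := by
  have hf : f ≠ 0 := fun h0 => u.ne_zero (Subtype.ext (Subtype.ext (by rw [hu, h0]; rfl)))
  obtain ⟨d, hd, hd0⟩ := D₀.scale₁ f hf
  obtain ⟨y, z, hyz, hred⟩ := h₁ _ hd
  have hdne : d ≠ 0 := fun h0 => hd0 (by simp [h0])
  have hy : coeffMap π y ≠ 0 := by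
    rw [← hred]
    exact mul_ne_zero (by simpa using hd0) hyz.red_ne
  have hiff := coeffMap_eq_zero_iff_of_eq_zero_iff (f := π) (g := IsLocalRing.residue A)
    fun a => (D₀.π_eq_zero a).trans (residue_eq_zero_iff_not_isUnit A a).symm
  set F : seriesHull Qbar := d • ((u : hullW q A hA) : seriesHull Qbar) with hF
  have hratio : IsRatio A (IsLocalRing.residue A) (seriesHull Qbar).val F y z := by
    refine ⟨fun h0 => hyz.red_ne ((hiff z).mpr h0), ?_⟩
    rw [← hyz.eq]
    congr 1
    rw [hF, map_smul, map_smul]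
    exact congrArg (d • ·) hu
  obtain ⟨hm, hr⟩ := seriesSheet_rd (residue_eq_zero_iff_not_isUnit A) Fact.out
    (natCast_residue_eq_zero q A hA) exists_intSpan_fraction hratio
  have hr0 : (hullSheet q A hA).rd F ≠ 0 := by
    intro h0
    exact div_ne_zero (fun h0 => hy ((hiff y).mpr h0)) hratio.red_ne (hr.symm.trans h0)
  rw [Sheet.rd_of_mem (s := hullSheet q A hA) hm] at hr0
  obtain ⟨v, hv⟩ : IsUnit (⟨F, hm⟩ : hullW q A hA) := (hullSheet q A hA).isUnit_of_red_ne _ hr0
  have hdA : d⁻¹ ∈ A := by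
    refine (hullSheet q A hA).mem_of_algebraMap_mem (residue_eq_zero_iff_not_isUnit A) ?_
    have h := mul_mem (u : hullW q A hA).2 ((v⁻¹ : (hullW q A hA)ˣ) : hullW q A hA).2
    have hu0 : ((u : hullW q A hA) : seriesHull Qbar) ≠ 0 := fun h0 => u.ne_zero (Subtype.ext h0)
    have he : algebraMap Qbar (seriesHull Qbar) d⁻¹ =
        ((u : hullW q A hA) : seriesHull Qbar) * ((v⁻¹ : (hullW q A hA)ˣ) : hullW q A hA).1 := by
      have h1 : ((v : hullW q A hA) : seriesHull Qbar) * ((v⁻¹ : (hullW q A hA)ˣ) : hullW q A hA).1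
          = 1 := by
        rw [← MulMemClass.coe_mul, ← Units.val_mul, mul_inv_cancel, Units.val_one,
          OneMemClass.coe_one]
      rw [eq_inv_of_mul_eq_one_right h1, show ((v : hullW q A hA) : seriesHull Qbar) = F from
        congrArg Subtype.val hv, hF, Algebra.smul_def, mul_inv, ← map_inv₀,
        mul_left_comm, mul_inv_cancel₀ hu0, mul_one]
    rwa [← he] at h
  have hw := Sheet.smul_mem (s := D₀.s₁) hdA hd
  rw [inv_smul_smul₀ hdne] at hw
  refine ⟨hw, fun h0 => ?_⟩
  have hv1 : d ∈ A := by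
    refine (hullSheet q A hA).mem_of_algebraMap_mem (residue_eq_zero_iff_not_isUnit A) ?_
    have h := mul_mem (v : hullW q A hA).2 ((u⁻¹ : (hullW q A hA)ˣ) : hullW q A hA).2
    have h1 : ((u : hullW q A hA) : seriesHull Qbar) * ((u⁻¹ : (hullW q A hA)ˣ) : hullW q A hA).1
        = 1 := by
      rw [← MulMemClass.coe_mul, ← Units.val_mul, mul_inv_cancel, Units.val_one,
        OneMemClass.coe_one]
    rw [show ((v : hullW q A hA) : seriesHull Qbar) = F from congrArg Subtype.val hv, hF,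
      Algebra.smul_def, mul_assoc, h1, mul_one] at h
    exact h
  apply hd0
  rw [Sheet.rd_smul hv1 hw, h0, smul_zero]

/-- A trivial normalised residue is a trivial reduction on the first sheet. -/
theorem redPow_of_redUnit_eq_zero {n : ℕ} [NeZero n] (hA : A.LiesOverPrime q)
    (h₁ : HasRatios D₀.s₁ (modularFunctionFieldBar (q * M)).val emb)
    {x : modularFunctionFieldBar (q * M)} (hx0 : x ≠ 0)
    (hxH : (x : LaurentSeries Qbar) ∈ seriesHull Qbar)
    (h : redUnit A hA (classField (Gamma0 (q * M))) n ⟨_, hxH⟩ = 0) :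
    RedPow n D₀.s₁ x := by
  have hxh0 : (⟨_, hxH⟩ : seriesHull Qbar) ≠ 0 := fun h0 => by
    have h1 : (x : LaurentSeries Qbar) = 0 := congrArg Subtype.val h0
    exact hx0 (Subtype.ext h1)
  obtain ⟨c, -, hc, hcu⟩ := exists_hull_scale A hA hxh0
  rw [redUnit_eq A hA _ (NeZero.ne n) hxh0 hcu.unit (congrArg Subtype.val hcu.unit_spec),
    ← ofMul_one, Additive.ofMul.apply_eq_iff_eq, QuotientGroup.eq_one_iff] at h
  obtain ⟨u, huE, hpow⟩ := h
  set a : modularFunctionFieldBar (q * M) := ⟨_, classField_gamma0_le (q * M) huE⟩ with ha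
  obtain ⟨ha1, ha0⟩ := mem_sheet_of_hull_isUnit hA h₁ (f := a) (u := u) rfl
  obtain ⟨hb1, hb0⟩ := mem_sheet_of_hull_isUnit hA h₁ (f := c • x) (u := hcu.unit) (by
    rw [hcu.unit_spec]; rfl)
  set w := a ^ n - c • x with hw
  have hwW : w ∈ D₀.s₁.W := sub_mem (pow_mem ha1 n) hb1
  obtain ⟨y, z, hyz, hred⟩ := h₁ _ hwW
  have hiff := coeffMap_eq_zero_iff_of_eq_zero_iff (f := π) (g := IsLocalRing.residue A)
    fun b => (D₀.π_eq_zero b).trans (residue_eq_zero_iff_not_isUnit A b).symm
  set W : hullW q A hA := (u : hullW q A hA) ^ n - hcu.unit with hW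
  have hres : IsLocalRing.residue (hullW q A hA) W = 0 := by
    rw [hW, map_sub, map_pow, sub_eq_zero]
    exact congrArg Units.val hpow
  have hWrd : (hullSheet q A hA).red W = 0 := by
    by_contra hne
    exact (IsLocalRing.residue_ne_zero_iff_isUnit W).mpr
      ((hullSheet q A hA).isUnit_of_red_ne _ hne) hres
  have hratio : IsRatio A (IsLocalRing.residue A) (seriesHull Qbar).val (W : seriesHull Qbar) y z :=
    ⟨fun h0 => hyz.red_ne ((hiff z).mpr h0), by
      rw [← hyz.eq]
      rfl⟩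
  obtain ⟨hm, hr⟩ := seriesSheet_rd (residue_eq_zero_iff_not_isUnit A) Fact.out
    (natCast_residue_eq_zero q A hA) exists_intSpan_fraction hratio
  rw [Sheet.rd_of_mem hm] at hr
  have hy : coeffMap π y = 0 := by
    refine (hiff y).mpr ?_
    have h1 : (0 : LaurentSeries (IsLocalRing.ResidueField A)) =
        coeffMap (IsLocalRing.residue A) y / coeffMap (IsLocalRing.residue A) z := hWrd.symm.trans hr
    exact (div_eq_zero_iff.mp h1.symm).resolve_right hratio.red_ne
  have hw0 : D₀.s₁.rd w = 0 := by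
    rw [hy, mul_eq_zero] at hred
    exact (map_eq_zero_iff _ emb.injective).mp (hred.resolve_right hyz.red_ne)
  refine ⟨c, 1, D₀.s₁.rd a, hb1, one_ne_zero, ha0, ?_⟩
  have h2 := Sheet.rd_add (s := D₀.s₁) hb1 hwW
  rw [show c • x + w = a ^ n by rw [hw]; ring, hw0, add_zero, Sheet.rd_pow ha1] at h2
  rw [← h2, map_one, one_mul]

variable [IsAlgClosed k] [CharP k q]

/-- **The half bound for classes on `Γ₀(q M)`.** -/
theorem natCard_redUnit_ker_le {n : ℕ} [NeZero n] (hqM : ¬ q ∣ M) (hA : A.LiesOverPrime q)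
    (h₁ : HasRatios D₀.s₁ (modularFunctionFieldBar (q * M)).val emb)
    (h₂ : HasRatios D₀.s₂
      ((modularFunctionFieldBar (q * M)).val.comp (monoSwap hqM).toAlgHom) emb)
    (hemb : ∀ c : k, emb (algebraMap k Kb c) = HahnSeries.single 0 c)
    (hdesc : ∀ x : Kb, ∃ y : Kb, emb x = coeffMap (frobenius k q) (emb y))
    (hgK : cuspRank M = 2 * D₀.gK) (hnk : (n : k) ≠ 0) :
    Nat.card {φ : cuspidalHoms ℤ (Gamma0 (q * M)) (muC n) //
      ∃ (g : UpperHalfPlane → ℂ) (x : LaurentSeries Qbar) (hx : x ∈ seriesHull Qbar),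
        IsRootClass (Gamma0 (q * M)) n g φ.1 ∧
        coeffMap complexEmbedding.toRingHom x = qExpL g ∧
        redUnit A hA (classField (Gamma0 (q * M))) n ⟨x, hx⟩ = 0} ≤ n ^ D₀.gF := by
  obtain ⟨hfin, hle⟩ := natCard_redKer₁_gamma0_le_genus (d := n) hqM hA h₁ h₂ hemb hdesc hgK hnk
  refine le_trans ?_ hle
  refine Nat.card_le_card_of_injective (fun φ => ⟨(((kummerEquiv (q * M) n).symm φ.1 :
      Pic0.torsion Qbar (modularFunctionFieldBar (q * M)) n) : JZero (q * M)), ?_⟩)
    fun φ ψ h => Subtype.ext ((kummerEquiv (q * M) n).symm.injective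
      (Subtype.ext (congrArg (fun t : redKer₁ D₀ n => (t : JZero (q * M))) h)))
  obtain ⟨g, x, hxH, hg, hx, hred⟩ := φ.2
  have hxF : x ∈ modularFunctionFieldBar (q * M) :=
    classField_gamma0_le (q * M) (subset_classField ⟨g, hg.mem, hx⟩)
  obtain ⟨hx0, D, hD, hDmk⟩ := exists_divisor_of_isRootClass hg ⟨x, hxF⟩ hx
  rw [← hDmk]
  exact ⟨D, ⟨x, hxF⟩, hx0, hD, rfl, redPow_of_redUnit_eq_zero hA h₁ hx0 hxH hred⟩

end FermatLib.MLT.LGC

end
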