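import Fermat.Agent.MLT.LGC.HalfGalois
import Fermat.Agent.MLT.LGC.RedBridge

/-!
# The kernel of the reduction on residual cuspidal homomorphisms of `Γ₀(q M)`

It contains the reduction of the saturation of the image of `F - U q`, and has at most the
dimension given by the count of classes with trivial reduction.
-/

set_option autoImplicit false
set_option linter.unusedSectionVars false
set_option linter.style.haveILetI false

noncomputable section

open CongruenceSubgroup ModularCurve ModularCurve.Period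
open FermatLib.Igusa FermatLib.Igusa.Mono
open scoped MatrixGroups

namespace FermatLib.MLT.LGC.Half

open FermatLib.Modular FermatLib.Modular.Degeneracy FermatLib.Modular.Kummer FermatLib.Galois.DS

attribute [local instance] FermatLib.Modular.Corr.neZero_mul'

local notation "Qbar" => AlgebraicClosure ℚ
local notation "Γℚ" => (AlgebraicClosure ℚ ≃ₐ[ℚ] AlgebraicClosure ℚ)

/-- Cuspidal homomorphisms are parabolic. -/
def cuspIncl (k : Type) [CommRing k] (L : ℕ) :
    cuspidalHoms k (Gamma0 L) k →ₗ[k] parabolicHoms k (Gamma0 L) k :=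
  Submodule.inclusion fun _ h => IsCuspidalHom.isParabolicHom h

variable {q : ℕ} [Fact q.Prime] [NeZero q] {A : ValuationSubring Qbar} {L N₀ : ℕ} [NeZero L]
  [NeZero N₀] (hC : ConjStable (Gamma0 L) N₀) {p : ℕ} [Fact p.Prime] [NeZero p]
  (hA : A.LiesOverPrime q)

/-- The residual cuspidal homomorphisms with trivial reductions. -/
def redKerCusp (k : Type) [CommRing k] : Submodule k (cuspidalHoms k (Gamma0 L) k) :=
  (redKerRes hC hA (p := p) k).comap (cuspIncl k L)

variable {O : Type} [CommRing O] [IsDomain O] [IsDiscreteValuationRing O]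
  [IsAdicComplete (IsLocalRing.maximalIdeal O) O] [Finite (IsLocalRing.ResidueField O)]
  [CharZero O] (hp : (p : O) ∈ IsLocalRing.maximalIdeal O)

/-- **The saturation of the image of `F - U q` reduces into the kernel.** -/
theorem coeffIncl_mem_redKerCusp (hqp : q ≠ p) (hqL : q ∣ L) {F : Γℚ}
    (hF : A.IsFrobeniusAt F q) {c : O} (hc : c ≠ 0) {x y : cuspidalHoms O (Gamma0 L) O}
    (h : c • x = galCuspO hC hp F y - heckeCuspOp O O L (qPrime q) y) :
    coeffIncl O (IsLocalRing.ResidueField O) L x ∈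
      redKerCusp hC hA (p := p) (IsLocalRing.ResidueField O) := by
  set x' := (parCuspEquiv O).symm x
  set y' := (parCuspEquiv O).symm y
  let e : Fin q ≃ HeckeIdx L (qPrime q) := Equiv.ofBijective
    (fun j => ⟨some j, fun h => (Option.some_ne_none _ h).elim⟩)
    ⟨fun a b h => Option.some_injective _ (congrArg Subtype.val h), fun z => by
      rcases z with ⟨_ | j, hz⟩
      · exact absurd hqL (hz rfl)
      · exact ⟨j, rfl⟩⟩
  have h' : c • x' = galO hC hp F y' - parNormOp (heckeSystem L (qPrime q)) O y' :=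
    (parCuspEquiv O).injective (Subtype.ext (congrArg Subtype.val h))
  have hmem : x' ∈ redKerO hC (fun n => muVal (p ^ n)) hA := by
    refine mem_redKerO_of_smul hC (fun n => muVal (p ^ n)) hA (fun n a => powMu_muVal _ a)
      hqp hp hc ?_
    rw [h']
    intro n f
    rw [pushRoot_sub, pushRoot_parNormOp,
      show pushRoot (fun n => muVal (p ^ n)) f (galO hC hp F y') =
        rootRep hC (p ^ n) F (pushRoot (fun n => muVal (p ^ n)) f y') from
        valRoot_galO hC hp F y' n f]
    exact lgcRed_rootRep_sub_normHom hC hA hF (heckeSystem L (qPrime q)) e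
      (fun j => heckeSystem_rep _ _ _) _
  intro f
  exact lgcRed_residue_eq_zero hC (fun n => muVal (p ^ n)) hA LinearMap.id (a := x') hmem f

variable {M : ℕ} [NeZero M] {kq Kb : Type*} [Field kq] [IsAlgClosed kq] [CharP kq q] [Field Kb]
  [Algebra kq Kb] {π : A →+* kq}
  {D₀ : MonoDatum π (modularFunctionFieldBar (q * M)) Kb q} {emb : Kb →+* LaurentSeries kq}

include hp in
/-- **The kernel has at most the dimension of the count.** -/
theorem finrank_redKerCusp_le (hC₁ : ConjStable (Gamma0 (q * M)) N₀) (hqM : ¬ q ∣ M)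
    (hqp : q ≠ p)
    (h₁ : HasRatios D₀.s₁ (modularFunctionFieldBar (q * M)).val emb)
    (h₂ : HasRatios D₀.s₂
      ((modularFunctionFieldBar (q * M)).val.comp (monoSwap hqM).toAlgHom) emb)
    (hemb : ∀ c : kq, emb (algebraMap kq Kb c) = HahnSeries.single 0 c)
    (hdesc : ∀ x : Kb, ∃ y : Kb, emb x = coeffMap (frobenius kq q) (emb y))
    (hgK : cuspRank M = 2 * D₀.gK) :
    Module.finrank (IsLocalRing.ResidueField O)
      (redKerCusp hC₁ hA (p := p) (IsLocalRing.ResidueField O)) ≤ D₀.gF := by
  have hp0 : (p : IsLocalRing.ResidueField O) = 0 := by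
    rw [← map_natCast (IsLocalRing.residue O)]
    exact Ideal.Quotient.eq_zero_iff_mem.mpr hp
  haveI : CharP (IsLocalRing.ResidueField O) p :=
    (CharP.charP_iff_prime_eq_zero Fact.out).mpr hp0
  letI := ZMod.algebra (IsLocalRing.ResidueField O) p
  have hnk : ((p ^ 1 : ℕ) : kq) ≠ 0 := fun h => hqp
    ((Nat.prime_dvd_prime_iff_eq Fact.out Fact.out).mp
      ((CharP.cast_eq_zero_iff kq q p).mp (by rwa [pow_one] at h)))
  let μ : ZMod p ≃+ muC (p ^ 1) :=
    (ZMod.ringEquivCongr (pow_one p).symm).toAddEquiv.trans (muVal (p ^ 1))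
  haveI : Finite (muC (p ^ 1)) := Finite.of_equiv _ (muVal (p ^ 1)).toEquiv
  haveI : Finite (cuspidalHoms ℤ (Gamma0 (q * M)) (muC (p ^ 1))) :=
    Nat.finite_of_card_ne_zero (by
      rw [natCard_cuspidalHoms_gamma0]
      exact pow_ne_zero _ Nat.card_pos.ne')
  refine finrank_le_of_natCard_le μ _
    {φ | ∃ (g : UpperHalfPlane → ℂ) (x : LaurentSeries Qbar) (hx : x ∈ seriesHull Qbar),
      IsRootClass (Gamma0 (q * M)) (p ^ 1) g φ.1 ∧
      coeffMap complexEmbedding.toRingHom x = qExpL g ∧
      redUnit A hA (classField (Gamma0 (q * M))) (p ^ 1) ⟨x, hx⟩ = 0}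
    (Set.toFinite _) ((natCard_redUnit_ker_le hqM hA h₁ h₂ hemb hdesc hgK hnk).trans_eq
      (by rw [pow_one])) fun x hx f => ?_
  set f' : IsLocalRing.ResidueField O →+ ZMod (p ^ 1) :=
    (ZMod.ringEquivCongr (pow_one p).symm).toAddEquiv.toAddMonoidHom.comp f
  obtain ⟨y, hy⟩ := exists_isClassRep hC₁
    (valRoot f' (cuspIncl (IsLocalRing.ResidueField O) (q * M) x))
  obtain ⟨g, hg, hgy⟩ := id hy
  exact ⟨g, _, y.2, hg, hgy, (lgcRed_eq hC₁ A hA hy).symm.trans (hx f')⟩

end FermatLib.MLT.LGC.Half

end
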