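import Fermat.Agent.MLT.LGC.CountTotal

/-!
# Half bound: linear algebra

* a subspace stable under a commuting family embeds by any map injective on its simultaneous
  eigenvectors;
* an endomorphism of a plane satisfying the trace relation, in a group containing a non-scalar,
  has determinant the multiplier;
* the operators `F` and `U` agree on at most half of a generalised eigenspace of `U` whose
  eigenvalue squares to `q ≠ 1` (degeneracy maps to the lower level).
-/

set_option autoImplicit false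

noncomputable section

open Module LinearMap

namespace FermatLib.MLT.LGC.Half

variable {K : Type*} [Field K] {V : Type*} [AddCommGroup V] [Module K V]

section Family

variable {ι : Type*} (act : ι → Module.End K V)

/-- The simultaneous generalised eigenspace of a family. -/
def jointEigen (χ : ι → K) : Submodule K V := ⨅ i, (act i).maxGenEigenspace (χ i)

theorem mem_jointEigen {χ : ι → K} {x : V} :
    x ∈ jointEigen act χ ↔ ∀ i, ∃ k : ℕ, ((act i - χ i • 1) ^ k) x = 0 := by
  simp [jointEigen, Module.End.mem_maxGenEigenspace]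

theorem jointEigen_stable {f : Module.End K V} (hf : ∀ i, Commute (act i) f) (χ : ι → K) {x : V}
    (hx : x ∈ jointEigen act χ) : f x ∈ jointEigen act χ := by
  rw [jointEigen, Submodule.mem_iInf] at hx ⊢
  exact fun i => Module.End.mapsTo_maxGenEigenspace_of_comm (hf i) (χ i) (hx i)

variable [FiniteDimensional K V] {act}

/-- A nonzero stable subspace of a simultaneous generalised eigenspace has an eigenvector. -/
theorem exists_eigen_mem (hcomm : ∀ i j, Commute (act i) (act j)) {χ : ι → K} {X : Submodule K V}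
    (hX0 : X ≠ ⊥) (hX : ∀ i, ∀ x ∈ X, act i x ∈ X) (hXχ : X ≤ jointEigen act χ) :
    ∃ x ∈ X, x ≠ 0 ∧ ∀ i, act i x = χ i • x := by
  obtain ⟨Y, ⟨hY0, hYX, hY⟩, hmin⟩ := IsArtinian.set_has_minimal
    {Y : Submodule K V | Y ≠ ⊥ ∧ Y ≤ X ∧ ∀ i, ∀ x ∈ Y, act i x ∈ Y} ⟨X, hX0, le_rfl, hX⟩
  obtain ⟨x, hx, hx0⟩ := Y.ne_bot_iff.mp hY0
  refine ⟨x, hYX hx, hx0, fun i => ?_⟩
  suffices h : Y ⊓ LinearMap.ker (act i - χ i • 1) = Y by
    rw [← h] at hx
    simpa [sub_eq_zero] using hx.2
  by_contra hlt
  refine hmin _ ⟨?_, inf_le_left.trans hYX, fun j y hy => ⟨hY j y hy.1, ?_⟩⟩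
    (lt_of_le_of_ne inf_le_left hlt)
  · intro h0
    have hpow : ∀ (k : ℕ), ∀ y ∈ Y, ((act i - χ i • 1) ^ k) y = 0 → y = 0 := by
      intro k
      induction k with
      | zero => intro y _ h; simpa using h
      | succ k ih =>
        intro y hy h
        rw [pow_succ, Module.End.mul_apply] at h
        have h1 := ih _ (Y.sub_mem (hY i y hy) (Y.smul_mem _ hy)) (by simpa using h)
        refine (Submodule.eq_bot_iff _).mp h0 y ⟨hy, ?_⟩
        simpa [sub_eq_zero] using sub_eq_zero.mp h1
    obtain ⟨k, hk⟩ := (mem_jointEigen act).mp (hXχ (hYX hx)) i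
    exact hx0 (hpow k x hx hk)
  · have hy2 : (act i - χ i • 1) y = 0 := hy.2
    show (act i - χ i • 1) (act j y) = 0
    rw [← Module.End.mul_apply,
      ((hcomm i j).sub_left ((Commute.one_left _).smul_left _)).eq, Module.End.mul_apply, hy2,
      map_zero]

/-- A map injective on the eigenvectors of a stable subspace of one component is injective on
it, when its kernel is stable. -/
theorem finrank_le_of_eigen {N : Type*} [AddCommGroup N] [Module K N]
    (hcomm : ∀ i j, Commute (act i) (act j)) {χ : ι → K} {X : Submodule K V}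
    (hX : ∀ i, ∀ x ∈ X, act i x ∈ X) (hXχ : X ≤ jointEigen act χ) (π : V →ₗ[K] N)
    (hπ : ∀ i x, π x = 0 → π (act i x) = 0)
    (hsoc : ∀ x ∈ X, (∀ i, act i x = χ i • x) → π x = 0 → x = 0) :
    finrank K X ≤ finrank K ↥(X.map π) := by
  have hinj : Function.Injective (π.domRestrict X) := by
    rw [← LinearMap.ker_eq_bot, LinearMap.ker_domRestrict]
    by_contra hne
    have hne' : X ⊓ LinearMap.ker π ≠ ⊥ := fun h => hne (by
      refine (Submodule.eq_bot_iff _).mpr fun x hx => Subtype.ext ?_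
      exact (Submodule.eq_bot_iff _).mp h x.1 ⟨x.2, hx⟩)
    obtain ⟨x, hx, hx0, hxe⟩ := exists_eigen_mem hcomm hne'
      (fun i x hx => ⟨hX i x hx.1, hπ i x hx.2⟩) (inf_le_left.trans hXχ)
    exact hx0 (hsoc x hx.1 hxe hx.2)
  rw [← LinearMap.range_domRestrict]
  exact (LinearMap.finrank_range_of_inj hinj).ge

/-- A bound by half in every component is a bound by half. -/
theorem two_mul_finrank_le_of_components [IsAlgClosed K] (hcomm : ∀ i j, Commute (act i) (act j))
    {X P : Submodule K V} (hX : ∀ i, ∀ x ∈ X, act i x ∈ X)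
    (h : ∀ χ, 2 * finrank K ↥(X ⊓ jointEigen act χ) ≤ finrank K ↥(P ⊓ jointEigen act χ)) :
    2 * finrank K X ≤ finrank K P := by
  classical
  have hmaps : ∀ (i j : ι) φ, Set.MapsTo (act i) ((act j).maxGenEigenspace φ)
      ((act j).maxGenEigenspace φ) := fun i j φ =>
    Module.End.mapsTo_maxGenEigenspace_of_comm (hcomm j i) φ
  let J := {χ : ι → K // jointEigen act χ ≠ ⊥}
  have hind : iSupIndep fun χ : J => jointEigen act χ.1 :=
    (Module.End.independent_iInf_maxGenEigenspace_of_forall_mapsTo _ hmaps).comp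
      Subtype.val_injective
  have : Finite J := WellFoundedGT.finite_of_iSupIndep hind fun χ => χ.2
  have := Fintype.ofFinite J
  have htop : X ≤ ⨆ χ : J, X ⊓ jointEigen act χ.1 := by
    let act' : ι → Module.End K X := fun i => (act i).restrict (hX i)
    have hmaps' : ∀ (i j : ι) φ, Set.MapsTo (act' i) ((act' j).maxGenEigenspace φ)
        ((act' j).maxGenEigenspace φ) := fun i j φ =>
      Module.End.mapsTo_maxGenEigenspace_of_comm
        (LinearMap.ext fun x => Subtype.ext (LinearMap.congr_fun (hcomm j i).eq x.1)) φ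
    have htop' := Module.End.iSup_iInf_maxGenEigenspace_eq_top_of_forall_mapsTo act' hmaps'
      fun i => Module.End.iSup_maxGenEigenspace_eq_top (act' i)
    conv_lhs => rw [← Submodule.map_subtype_top X, ← htop', Submodule.map_iSup]
    refine iSup_le fun χ => ?_
    rintro _ ⟨x, hx, rfl⟩
    have hxW : (x : V) ∈ jointEigen act χ := by
      refine (mem_jointEigen act).mpr fun i => ?_
      have hxi := (Submodule.mem_iInf _).mp hx i
      obtain ⟨k, hk⟩ := (Module.End.mem_maxGenEigenspace _ _ _).mp hxi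
      refine ⟨k, ?_⟩
      suffices ∀ (k : ℕ) (y : X),
          (((act' i - χ i • 1) ^ k) y : V) = ((act i - χ i • 1) ^ k) y.1 by
        show ((act i - χ i • 1) ^ k) x.1 = 0
        rw [← this, hk]; rfl
      intro k
      induction k with
      | zero => simp
      | succ k ih =>
        intro y
        rw [pow_succ, pow_succ, Module.End.mul_apply, Module.End.mul_apply, ih]
        rfl
    by_cases hχ : jointEigen act χ = ⊥
    · rw [hχ, Submodule.mem_bot] at hxW
      rw [show X.subtype x = 0 from hxW]; exact zero_mem _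
    · exact Submodule.mem_iSup_of_mem ⟨χ, hχ⟩ ⟨x.2, hxW⟩
  have hXsum : finrank K X ≤ ∑ χ : J, finrank K ↥(X ⊓ jointEigen act χ.1) := by
    rw [← LGCCount.finrank_finset_sup_of_indep (hind.mono fun χ => inf_le_right),
      Finset.sup_univ_eq_iSup]
    exact Submodule.finrank_mono htop
  have hPsum : ∑ χ : J, finrank K ↥(P ⊓ jointEigen act χ.1) ≤ finrank K P := by
    rw [← LGCCount.finrank_finset_sup_of_indep (hind.mono fun χ => inf_le_right),
      Finset.sup_univ_eq_iSup]
    exact Submodule.finrank_mono (iSup_le fun χ => inf_le_left)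
  calc 2 * finrank K X ≤ 2 * ∑ χ : J, finrank K ↥(X ⊓ jointEigen act χ.1) := by omega
    _ = ∑ χ : J, 2 * finrank K ↥(X ⊓ jointEigen act χ.1) := Finset.mul_sum _ _ _
    _ ≤ ∑ χ : J, finrank K ↥(P ⊓ jointEigen act χ.1) := Finset.sum_le_sum fun χ _ => h χ.1
    _ ≤ _ := hPsum

end Family

section Plane

variable {G : Type*} [Group G]

theorem eq_smul_or_det_eq {M : Matrix (Fin 2) (Fin 2) K} {a e : K}
    (h : M * M - a • M + e • 1 = 0) : (∃ r : K, M = r • 1) ∨ M.det = e := by
  have hCH : M * M - M.trace • M + M.det • 1 = 0 := by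
    ext i j
    fin_cases i <;> fin_cases j <;>
      simp [Matrix.mul_apply, Matrix.trace_fin_two, Matrix.det_fin_two] <;> ring
  have h2 : (M.trace - a) • M = (M.det - e) • (1 : Matrix (Fin 2) (Fin 2) K) := by
    rw [sub_smul, sub_smul]
    linear_combination (norm := module) h - hCH
  by_cases ha : M.trace = a
  · right
    have h3 := congrFun (congrFun h2 0) 0
    simp [ha] at h3
    exact sub_eq_zero.mp h3.symm
  · left
    refine ⟨(M.trace - a)⁻¹ * (M.det - e), ?_⟩
    rw [mul_smul, ← h2, inv_smul_smul₀ (sub_ne_zero.mpr ha)]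

/-- If `ρ g + e g • ρ g⁻¹` is scalar for all `g` on a plane and some element acts by a
non-scalar, then an element acting by the scalar `u` has `e = u ^ 2`. -/
theorem sq_eq_of_eq_smul {E : Type*} [AddCommGroup E] [Module K E] [FiniteDimensional K E]
    (hE : finrank K E = 2) (ρ : G →* Module.End K E) (e : G →* K)
    (hrel : ∀ g, ∃ a : K, ρ g + e g • ρ g⁻¹ = a • 1) {c : G} (hc : ∀ r : K, ρ c ≠ r • 1)
    {F : G} {u : K} (hF : ρ F = u • 1) : e F = u ^ 2 := by
  set φ := LinearMap.toMatrixAlgEquiv (Module.finBasisOfFinrankEq K E hE)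
  have key : ∀ g, (∀ r : K, ρ g ≠ r • 1) → (φ (ρ g)).det = e g := by
    intro g hg
    obtain ⟨a, ha⟩ := hrel g
    have h := congrArg (fun f => φ (f * ρ g)) ha
    rw [add_mul, smul_mul_assoc, ← map_mul ρ g⁻¹, inv_mul_cancel, map_one ρ, smul_mul_assoc,
      one_mul, map_add, map_smul, map_smul, map_one, map_mul] at h
    rcases eq_smul_or_det_eq (a := a) (e := e g) (M := φ (ρ g)) (by
      rw [← h]; abel) with ⟨r, hr⟩ | h'
    · exact absurd (φ.injective (hr.trans (by rw [map_smul, map_one]))) (hg r)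
    · exact h'
  have hu : u ≠ 0 := by
    intro h0
    rw [h0, zero_smul] at hF
    refine hc 0 ?_
    rw [zero_smul, ← inv_mul_cancel_left F c, ← mul_assoc, map_mul, map_mul, hF, mul_zero,
      zero_mul]
  have hFc : ∀ r : K, ρ (F * c) ≠ r • 1 := fun r hr => hc (u⁻¹ * r) (by
    rw [map_mul, hF, smul_mul_assoc, one_mul] at hr
    rw [mul_smul, ← hr, inv_smul_smul₀ hu])
  have h1 := key c hc
  have h2 := key (F * c) hFc
  rw [map_mul ρ, map_mul φ, Matrix.det_mul, hF, map_smul, map_one, Matrix.det_smul, Matrix.det_one,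
    mul_one, Fintype.card_fin, h1, map_mul e] at h2
  have hec : e c ≠ 0 := fun h0 => by
    have h3 := congrArg e (mul_inv_cancel c)
    rw [map_mul, h0, zero_mul, map_one] at h3
    exact zero_ne_one h3
  exact (mul_right_cancel₀ hec h2).symm

end Plane

section Old

variable [FiniteDimensional K V] {A : Type*} [AddCommGroup A] [Module K A]

/-- **The critical eigenvalue.** With `c` and `c ∘ w` the degeneracy maps to the lower level, `F`
and `U` agree on at most half of the generalised eigenspace of `U` at `u`, `u ^ 2 = q ≠ 1`. -/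
theorem two_mul_finrank_le_old (U F w : Module.End K V) (c : V →ₗ[K] A) (T FA : Module.End K A)
    {qK u : K} (hU : ∀ x, c (U x) = qK • c (w x))
    (hwU : ∀ x, c (w (U x)) = T (c (w x)) - c x)
    (hnew : ∀ x, c x = 0 → c (w x) = 0 → U (U x) = x) (hw : ∀ x, w (w x) = x)
    (hF : ∀ x, c (F x) = FA (c x)) (hu : u ^ 2 = qK) (hq0 : qK ≠ 0) (hq1 : qK ≠ 1)
    {P : Submodule K V} (hPU : ∀ x ∈ P, U x ∈ P) (hPw : ∀ x ∈ P, w x ∈ P)
    {X : Submodule K V} (hX : X ≤ P ⊓ U.maxGenEigenspace u) (hXU : ∀ x ∈ X, U x ∈ X)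
    (hXF : ∀ x ∈ X, F x = U x) :
    2 * finrank K X ≤ finrank K ↥(P ⊓ U.maxGenEigenspace u) := by
  set W := P ⊓ U.maxGenEigenspace u with hW
  set n := finrank K V
  set A₀ : Module.End K V := U - u • 1 with hA₀
  set B₀ : Module.End K V := U + u • 1 with hB₀
  set D : Module.End K A := T - (2 * u) • 1 with hD
  have hu0 : u ≠ 0 := by rintro rfl; exact hq0 (by simp [← hu])
  have hWn : ∀ x ∈ W, (A₀ ^ n) x = 0 := fun x hx => by
    have h := hx.2
    rw [Module.End.maxGenEigenspace_eq_genEigenspace_finrank, SetLike.mem_coe,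
      Module.End.mem_genEigenspace_nat] at h
    simpa [hA₀, n] using h
  have hWU : ∀ x ∈ W, U x ∈ W := fun x hx => ⟨hPU x hx.1,
    Module.End.mapsTo_maxGenEigenspace_of_comm (Commute.refl U) u hx.2⟩
  -- `Φ = (c, c ∘ w)` and its kernel
  let N : Submodule K V := LinearMap.ker c ⊓ LinearMap.ker (c ∘ₗ w)
  have hN : ∀ {x}, x ∈ N ↔ c x = 0 ∧ c (w x) = 0 := fun {x} => Iff.rfl
  have hNU : ∀ x ∈ N, U x ∈ N := fun x hx => hN.mpr
    ⟨by rw [hU, (hN.mp hx).2, smul_zero],
      by rw [hwU, (hN.mp hx).2, (hN.mp hx).1, map_zero, sub_zero]⟩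
  have hAB : Commute A₀ B₀ :=
    ((Commute.refl U).add_right ((Commute.one_right U).smul_right u)).sub_left
      (((Commute.one_left _).smul_left u))
  have hNmem : ∀ (k : ℕ), ∀ x ∈ N, (A₀ ^ k) x ∈ N ∧ (B₀ ^ k) x ∈ N := by
    intro k
    induction k with
    | zero => intro x hx; simp [hx]
    | succ k ih =>
      intro x hx
      rw [pow_succ, pow_succ, Module.End.mul_apply, Module.End.mul_apply]
      exact ⟨(ih _ (N.sub_mem (hNU x hx) (N.smul_mem u hx))).1,
        (ih _ (N.add_mem (hNU x hx) (N.smul_mem u hx))).2⟩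
  have hNpow : ∀ (k : ℕ), ∀ x ∈ N, (A₀ ^ k) ((B₀ ^ k) x) = (1 - qK) ^ k • x := by
    intro k
    induction k with
    | zero => simp
    | succ k ih =>
      intro x hx
      have h1 : A₀ (B₀ x) = (1 - qK) • x := by
        have hxx := hnew x (hN.mp hx).1 (hN.mp hx).2
        simp only [hA₀, hB₀, LinearMap.sub_apply, LinearMap.add_apply, LinearMap.smul_apply,
          Module.End.one_apply, map_add, map_smul, hxx]
        rw [← hu]
        module
      rw [← Module.End.mul_apply, ← hAB.mul_pow, pow_succ, Module.End.mul_apply,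
        Module.End.mul_apply, h1, map_smul, hAB.mul_pow, Module.End.mul_apply, ih x hx, smul_smul,
        ← pow_succ']
  have h1q : (1 : K) - qK ≠ 0 := sub_ne_zero.mpr (Ne.symm hq1)
  have hdisj : ∀ x ∈ W, c x = 0 → c (w x) = 0 → x = 0 := by
    intro x hx h1 h2
    have h := hNpow n x (hN.mpr ⟨h1, h2⟩)
    rw [← Module.End.mul_apply, (hAB.pow_pow n n).eq, Module.End.mul_apply, hWn x hx, map_zero,
      eq_comm] at h
    exact (smul_eq_zero.mp h).resolve_left (pow_ne_zero _ h1q)
  -- `T - 2 u` is nilpotent on the images of `W`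
  have hA1 : ∀ y, c (A₀ (A₀ y)) = qK • D (c (w y)) := fun y => by
    simp only [hA₀, hD, LinearMap.sub_apply, LinearMap.smul_apply, Module.End.one_apply, map_sub,
      map_smul, hU, hwU, smul_sub, smul_smul, ← hu]
    module
  have hA2 : ∀ y, c (w (A₀ (A₀ y))) = D (c (w (U y))) := fun y => by
    simp only [hA₀, hD, LinearMap.sub_apply, LinearMap.smul_apply, Module.End.one_apply, map_sub,
      map_smul, hU, hwU, smul_sub, smul_smul, ← hu]
    module
  have hAU : ∀ (k : ℕ) x, (A₀ ^ k) (U x) = U ((A₀ ^ k) x) := fun k x => LinearMap.congr_fun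
    ((((Commute.refl U).sub_left ((Commute.one_left U).smul_left u)).pow_left k).eq) x
  have hAUk : ∀ (j k : ℕ) x, (A₀ ^ j) ((U ^ k) x) = (U ^ k) ((A₀ ^ j) x) := fun j k x =>
    LinearMap.congr_fun
      ((((Commute.refl U).sub_left ((Commute.one_left U).smul_left u)).pow_pow j k).eq) x
  have hDk : ∀ (k : ℕ) x, (D ^ k) (c (w ((U ^ k) x))) = c (w ((A₀ ^ (2 * k)) x)) := by
    intro k
    induction k with
    | zero => simp
    | succ k ih =>
      intro x
      rw [pow_succ D, pow_succ' U, Module.End.mul_apply, Module.End.mul_apply, ← hA2]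
      have h := hAUk 2 k x
      rw [pow_two, Module.End.mul_apply, Module.End.mul_apply] at h
      rw [h, ih, Nat.mul_succ, pow_add, Module.End.mul_apply, pow_two, Module.End.mul_apply]
  have hsurj : ∀ (k : ℕ), ∀ x ∈ W, ∃ z ∈ W, (U ^ k) z = x := by
    intro k
    induction k with
    | zero => exact fun x hx => ⟨x, hx, by simp⟩
    | succ k ih =>
      intro x hx
      have hinj : Function.Injective (U.restrict hWU) := by
        rw [← LinearMap.ker_eq_bot, Submodule.eq_bot_iff]
        intro y hy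
        have hy0 : U y.1 = 0 := congrArg Subtype.val hy
        have hk : ∀ j : ℕ, (A₀ ^ j) y.1 = (-u) ^ j • y.1 := by
          intro j
          induction j with
          | zero => simp
          | succ j ihj =>
            rw [pow_succ, Module.End.mul_apply, show A₀ y.1 = (-u) • y.1 by simp [hA₀, hy0],
              map_smul, ihj, smul_smul, ← pow_succ']
        have h := hk n
        rw [hWn y.1 y.2, eq_comm] at h
        exact Subtype.ext ((smul_eq_zero.mp h).resolve_left (pow_ne_zero _ (neg_ne_zero.mpr hu0)))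
      obtain ⟨y, hy⟩ := LinearMap.surjective_of_injective hinj ⟨x, hx⟩
      obtain ⟨z, hz, hzy⟩ := ih y.1 y.2
      exact ⟨z, hz, by
        rw [pow_succ', Module.End.mul_apply, hzy]; exact congrArg Subtype.val hy⟩
  have hzero : ∀ (j : ℕ), n ≤ j → ∀ x ∈ W, (A₀ ^ j) x = 0 := fun j hj x hx => by
    rw [← Nat.sub_add_cancel hj, pow_add, Module.End.mul_apply, hWn x hx, map_zero]
  have hDw : ∀ x ∈ W, (D ^ n) (c (w x)) = 0 := by
    intro x hx
    obtain ⟨z, hz, rfl⟩ := hsurj n x hx
    rw [hDk, hzero _ (by omega) z hz, map_zero, map_zero]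
  have hDc : ∀ x ∈ W, (D ^ n) (c x) = 0 := by
    intro x hx
    obtain ⟨z, hz, rfl⟩ := hsurj 1 x hx
    rw [pow_one, hU, map_smul, hDw z hz, smul_zero]
  have hTD : ∀ (k : ℕ) a, (D ^ k) (T a) = T ((D ^ k) a) := fun k a => LinearMap.congr_fun
    ((((Commute.refl T).sub_left ((Commute.one_left T).smul_left (2 * u))).pow_left k).eq) a
  have hAN : ∀ (k : ℕ) y, (D ^ k) (c y) = 0 → (D ^ k) (c (w y)) = 0 → (A₀ ^ (2 * k)) y ∈ N := by
    intro k
    induction k with
    | zero => intro y h1 h2; exact hN.mpr ⟨by simpa using h1, by simpa using h2⟩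
    | succ k ih =>
      intro y h1 h2
      have h := ih (A₀ (A₀ y))
        (by rw [hA1, map_smul, ← Module.End.mul_apply, ← pow_succ, h2, smul_zero])
        (by
          rw [hA2, hwU, ← Module.End.mul_apply, ← pow_succ, map_sub, hTD, h2, h1, map_zero,
            sub_zero])
      rwa [Nat.mul_succ, pow_add, Module.End.mul_apply, pow_two, Module.End.mul_apply]
  -- the twin of `x` in the same eigenspace
  let J : Module.End K V :=
    (1 - ((1 - qK) ^ (2 * n))⁻¹ • (B₀ ^ (2 * n) * A₀ ^ (2 * n))) * w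
  have hJN : ∀ x ∈ W, (A₀ ^ (2 * n)) (w x) ∈ N := fun x hx =>
    hAN n (w x) (hDw x hx) (by rw [hw]; exact hDc x hx)
  have hJc : ∀ x ∈ W, c (J x) = c (w x) ∧ c (w (J x)) = c x := by
    intro x hx
    obtain ⟨h1, h2⟩ := hN.mp (hNmem (2 * n) _ (hJN x hx)).2
    simp [J, h1, h2, hw]
  have hPA : ∀ (k : ℕ), ∀ x ∈ P, (A₀ ^ k) x ∈ P ∧ (B₀ ^ k) x ∈ P := by
    intro k
    induction k with
    | zero => intro x hx; simp [hx]
    | succ k ih =>
      intro x hx
      rw [pow_succ, pow_succ, Module.End.mul_apply, Module.End.mul_apply]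
      exact ⟨(ih _ (P.sub_mem (hPU x hx) (P.smul_mem u hx))).1,
        (ih _ (P.add_mem (hPU x hx) (P.smul_mem u hx))).2⟩
  have hJW : ∀ x ∈ W, J x ∈ W := by
    intro x hx
    refine ⟨?_, (Module.End.mem_maxGenEigenspace _ _ _).mpr ⟨2 * n, ?_⟩⟩
    · have h := (hPA (2 * n) _ (hPA (2 * n) _ (hPw x hx.1)).1).2
      simpa [J] using P.sub_mem (hPw x hx.1) (P.smul_mem _ h)
    · show (A₀ ^ (2 * n)) (J x) = 0
      simp only [J, Module.End.mul_apply, LinearMap.sub_apply, Module.End.one_apply,
        LinearMap.smul_apply, map_sub, map_smul]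
      rw [hNpow _ _ (hJN x hx), inv_smul_smul₀ (pow_ne_zero _ h1q), sub_self]
  -- `X` and its twin are disjoint
  have hXJ : ∀ x ∈ X, J x ∈ X → x = 0 := by
    intro x hx hJx
    have hxW := hX hx
    have e1 : qK • c (w x) = FA (c x) := by rw [← hU, ← hXF x hx, hF]
    have e2 : qK • c x = FA (c (w x)) := by
      rw [← (hJc x hxW).2, ← hU, ← hXF _ hJx, hF, (hJc x hxW).1]
    have e3 : c (U (U x)) = qK ^ 2 • c x := by
      rw [← hXF _ (hXU x hx), hF, hU, map_smul, ← e2, smul_smul, pow_two]
    set z := U (U x) - qK ^ 2 • x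
    have hzX : z ∈ X := X.sub_mem (hXU _ (hXU x hx)) (X.smul_mem _ hx)
    have hcz : c z = 0 := by rw [map_sub, map_smul, e3, sub_self]
    have hwz : c (w z) = 0 := by
      have h : qK • c (w z) = 0 := by rw [← hU, ← hXF z hzX, hF, hcz, map_zero]
      exact (smul_eq_zero.mp h).resolve_left hq0
    have hz0 : U (U x) = qK ^ 2 • x := sub_eq_zero.mp (hdisj z (hX hzX) hcz hwz)
    have h1 : (B₀ * A₀) x = (qK ^ 2 - qK) • x := by
      simp only [Module.End.mul_apply, hA₀, hB₀, LinearMap.sub_apply, LinearMap.add_apply,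
        LinearMap.smul_apply, Module.End.one_apply, map_sub, map_smul, hz0]
      rw [← hu]
      module
    have hk : ∀ k : ℕ, ((B₀ * A₀) ^ k) x = (qK ^ 2 - qK) ^ k • x := by
      intro k
      induction k with
      | zero => simp
      | succ k ih => rw [pow_succ, Module.End.mul_apply, h1, map_smul, ih, smul_smul, ← pow_succ']
    have h := hk n
    rw [hAB.symm.mul_pow, Module.End.mul_apply, hWn x hxW, map_zero, eq_comm] at h
    refine (smul_eq_zero.mp h).resolve_left (pow_ne_zero _ ?_)
    rw [pow_two, ← mul_sub_one]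
    exact mul_ne_zero hq0 (sub_ne_zero.mpr hq1)
  have hinj : Function.Injective (J.domRestrict X) := by
    rw [← LinearMap.ker_eq_bot, Submodule.eq_bot_iff]
    intro x hx
    have h0 : J x.1 = 0 := hx
    exact Subtype.ext (hdisj x.1 (hX x.2) (by rw [← (hJc x.1 (hX x.2)).2, h0, map_zero, map_zero])
      (by rw [← (hJc x.1 (hX x.2)).1, h0, map_zero]))
  have hdisjX : X ⊓ X.map J = ⊥ := by
    refine (Submodule.eq_bot_iff _).mpr ?_
    rintro _ ⟨hy, x, hx, rfl⟩
    rw [hXJ x hx hy, map_zero]
  have h1 := Submodule.finrank_sup_add_finrank_inf_eq X (X.map J)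
  rw [hdisjX, finrank_bot, add_zero] at h1
  have h2 : finrank K ↥(X.map J) = finrank K X := by
    rw [← LinearMap.range_domRestrict]; exact LinearMap.finrank_range_of_inj hinj
  have h3 : finrank K ↥(X ⊔ X.map J) ≤ finrank K W := by
    refine Submodule.finrank_mono (sup_le hX ?_)
    rintro _ ⟨x, hx, rfl⟩
    exact hJW x (hX hx)
  omega

end Old

end FermatLib.MLT.LGC.Half

end
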