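import Fermat.Agent.MLT.LGC.HalfTrace
import Fermat.Agent.MLT.LGC.HalfEPart
import Fermat.Agent.MLT.LGC.HalfGenus
import Fermat.Agent.Basic.FrobeniusExists

/-!
# The half bound on the reduced classes

The reduced Betti part is the reduction of an idempotent summand of the cuspidal lattice of
`Γ₀(q M)`; it meets the classes with trivial reduction in at most half of itself.
-/

set_option autoImplicit false
set_option linter.unusedSectionVars false
set_option linter.style.haveILetI false

noncomputable section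

open CongruenceSubgroup ModularCurve ModularCurve.Period
open scoped MatrixGroups

namespace FermatLib.MLT.LGC.Half

open FermatLib.Modular FermatLib.Modular.Degeneracy FermatLib.Galois.DS

local notation "Qbar" => AlgebraicClosure ℚ
local notation "Γℚ" => (AlgebraicClosure ℚ ≃ₐ[ℚ] AlgebraicClosure ℚ)
local notation "kk" => IsLocalRing.ResidueField

variable {O : Type} [CommRing O] [IsDomain O] [IsDiscreteValuationRing O]
  [IsAdicComplete (IsLocalRing.maximalIdeal O) O] [Finite (IsLocalRing.ResidueField O)]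
  [CharZero O] {p q M : ℕ} [Fact p.Prime] [Fact q.Prime] [NeZero M]
  {χ : (ZMod q)ˣ →* Oˣ} {lam : Nat.Primes → O}

/-- Galois commutes with the trace to level `M`. -/
theorem commute_galCuspK_resCoresAt [NeZero q] [Fact (Nat.Coprime q M)]
    (hp : (p : O) ∈ IsLocalRing.maximalIdeal O) {K : Type} [Field K] [CharZero K] [Algebra O K]
    {L N₀ : ℕ} [NeZero L] [NeZero N₀] (hL : L = M * q) (hC : ConjStable (Gamma0 L) N₀) (σ : Γℚ) :
    Commute (galCuspK hC hp K σ) (resCoresAt K hL) := by
  subst hL
  exact commute_galCuspK_res_cores hp M q hC σ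

/-- **The half bound on the reduced classes.** -/
theorem two_mul_finrank_redKerRes_comap_lgcRedV_le
    (hd : IsChiPartData p q M χ lam)
    (hres : ∀ u, IsLocalRing.residue O ((χ u : Oˣ) : O) = 1)
    (hp : (p : O) ∈ IsLocalRing.maximalIdeal O) (hqp : q ≠ p) (hqM : ¬ q ∣ M)
    {A : ValuationSubring Qbar} (hA : A.LiesOverPrime q) {N₀ : ℕ} [NeZero N₀]
    (hC₀ : ConjStable (Gamma0 (q * M)) N₀) :
    2 * Module.finrank (kk O)
        ↥((redKerRes hC₀ hA (p := p) (kk O)).comap (lgcRedV hd hres).subtype) ≤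
      Module.finrank (kk O) (lgcRedV hd hres) := by
  haveI : NeZero q := ⟨(Fact.out : q.Prime).ne_zero⟩
  haveI : NeZero (q * M) := ⟨mul_ne_zero (NeZero.ne q) (NeZero.ne M)⟩
  haveI : NeZero p := ⟨(Fact.out : p.Prime).ne_zero⟩
  haveI : Fact (Nat.Coprime q M) := ⟨(Fact.out : q.Prime).coprime_iff_not_dvd.mpr hqM⟩
  have hL : q * M = M * q := mul_comm q M
  -- a field of characteristic zero containing the lattice
  let K := AlgebraicClosure (FractionRing O)
  haveI : CharZero (FractionRing O) :=
    charZero_of_injective_algebraMap (IsFractionRing.injective O (FractionRing O))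
  haveI : CharZero K :=
    charZero_of_injective_algebraMap (algebraMap (FractionRing O) K).injective
  have hOK : Function.Injective (algebraMap O K) := by
    rw [IsScalarTower.algebraMap_eq O (FractionRing O) K]
    exact (algebraMap (FractionRing O) K).injective.comp
      (IsFractionRing.injective O (FractionRing O))
  obtain ⟨F, hF⟩ := FermatLib.Basic.exists_isFrobeniusAt (Fact.out : q.Prime) A hA
  obtain ⟨e, hfr, hlev⟩ := exists_cycloHom hp
  obtain ⟨eL, eb, heS, hei, hew, heb, hle, hmem⟩ := exists_halfEPart_le hres hd hL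
  obtain ⟨g, hg, hKg⟩ := exists_finrank_redKerCusp_le hqM hA hp hqp hC₀
  obtain ⟨ϖ, hϖ⟩ := IsDiscreteValuationRing.exists_irreducible O
  have hϖ0 : algebraMap O (kk O) ϖ = 0 := by
    show IsLocalRing.residue O ϖ = 0
    rw [IsLocalRing.residue_eq_zero_iff, hϖ.maximalIdeal_eq]
    exact Ideal.mem_span_singleton_self ϖ
  have hker : ∀ a, algebraMap O (kk O) a = 0 → ϖ ∣ a := fun a ha => by
    have h : a ∈ IsLocalRing.maximalIdeal O := (IsLocalRing.residue_eq_zero_iff a).mp ha
    rwa [hϖ.maximalIdeal_eq, Ideal.mem_span_singleton] at h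
  have hhalf := two_mul_finrank_red_inf_le (K := K) (k := kk O) hL (dvd_mul_right q M) hOK
    hϖ.ne_zero IsLocalRing.residue_surjective hϖ0 hker (galCuspO hC₀ hp) (galCuspK hC₀ hp K)
    (coeffIncl_galCuspO hC₀ hp) ((algebraMap O K).toMonoidHom.comp e)
    (commute_heckeCuspAct_galCuspK hC₀ hp)
    (fun σ => galCuspK_add_smul_inv_mem hp hC₀ σ (galCuspO_add_smul_inv_mem hp hC₀ e hfr hlev σ))
    (cc := complexConjugation) (ε := -1) (neg_ne_zero.mpr one_ne_zero)
    (LinearMap.ext fun φ => by
      rw [galCuspK_complexConj hp hC₀, LinearMap.smul_apply, neg_one_smul])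
    (F := F) (by
      show algebraMap O K (e F) = _
      rw [hfr q Fact.out hqp A hA F hF, map_natCast])
    (commute_galCuspK_resCoresAt hp hL hC₀ F) eL heS hew hei eb heb
    (redKerCusp hC₀ hA (p := p) (kk O))
    (fun c x y hc h => coeffIncl_mem_redKerCusp hC₀ hA hp hqp (dvd_mul_right q M) hF hc h)
    hg hKg
  refine (Nat.mul_le_mul_left 2 ?_).trans (hhalf.trans hle)
  -- classes of `lgcRedV` with trivial reduction come from the range of `eb`
  refine le_trans ?_ (Submodule.finrank_map_le (cuspIncl (kk O) (q * M))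
    (redKerCusp hC₀ hA (p := p) (kk O) ⊓ LinearMap.range eb))
  rw [(Submodule.equivMapOfInjective (lgcRedV hd hres).subtype Subtype.coe_injective _).finrank_eq]
  refine Submodule.finrank_mono ?_
  rintro _ ⟨v, hv, rfl⟩
  obtain ⟨x, hx, hxv⟩ := hmem v.1 v.2
  have h : cuspIncl (kk O) (q * M) x = v.1 := Subtype.ext hxv
  exact ⟨x, ⟨show cuspIncl (kk O) (q * M) x ∈ redKerRes hC₀ hA (p := p) (kk O) from h ▸ hv, hx⟩, h⟩

end FermatLib.MLT.LGC.Half

end
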