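import Fermat.Agent.MLT.LGC.TwistSeries
import Fermat.Agent.Modular.TwistSystemOp
import Fermat.Agent.Modular.Kummer.KummerChar
import Fermat.Agent.Modular.CorrTranslate
import Mathlib.RingTheory.RootsOfUnity.Complex

/-!
# Kummer pairs for subgroups of `SL(2, ℤ)` and their twists

`x` is the expansion of a quotient `A / B` of forms on `G` and `χ` is the character of an `n`-th
root of `A * B ^ (n - 1)`. Twisting by the translations `τ ↦ τ + u / q` maps pairs of level
`levelH L H` to pairs of level `levelH (L * q) _`, on expansions by `twistMul`.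
-/

set_option autoImplicit false

noncomputable section

open Complex hiding I
open UpperHalfPlane hiding I
open CongruenceSubgroup Filter Function
open scoped Topology MatrixGroups ModularForm Manifold

namespace FermatLib.MLT.LGC

open FermatLib.Modular.Kummer FermatLib.Modular.Corr

local notation "M2Z" => Matrix (Fin 2) (Fin 2) ℤ

/-- A holomorphic form of weight `k` on `G` with character `χ`. -/
structure IsTwistedOn (G : Subgroup SL(2, ℤ)) (χ : G →* ℂˣ) (k : ℤ) (r : ℍ → ℂ) : Prop where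
  mdiff : MDiff r
  slash : ∀ γ : G, r ∣[k] (γ : SL(2, ℤ)) = (χ γ : ℂ) • r
  bdd : ∀ A : SL(2, ℤ), IsBoundedAtImInfty (r ∣[k] A)

variable {G G' : Subgroup SL(2, ℤ)}

namespace IsTwistedOn

variable {χ χ' : G →* ℂˣ} {k k' : ℤ} {r r' : ℍ → ℂ}

theorem mul (h : IsTwistedOn G χ k r) (h' : IsTwistedOn G χ' k' r') :
    IsTwistedOn G (χ * χ') (k + k') (r * r') where
  mdiff := h.mdiff.mul h'.mdiff
  slash γ := by
    rw [ModularForm.mul_slash_SL2, h.slash, h'.slash, MonoidHom.mul_apply, Units.val_mul]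
    funext z
    simp only [Pi.mul_apply, Pi.smul_apply, smul_eq_mul]
    ring
  bdd A := by
    rw [ModularForm.mul_slash_SL2]
    exact (h.bdd A).mul (h'.bdd A)

theorem cast_weight (h : IsTwistedOn G χ k r) (hk : k = k') : IsTwistedOn G χ k' r := hk ▸ h

theorem mul_trivial (h : IsTwistedOn G χ k r) (h' : IsTwistedOn G (1 : G →* ℂˣ) k' r') :
    IsTwistedOn G χ (k + k') (r * r') := by
  have h2 := h.mul h'
  rwa [show χ * (1 : G →* ℂˣ) = χ from MonoidHom.ext fun γ => mul_one (χ γ)] at h2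

theorem pow (h : IsTwistedOn G (1 : G →* ℂˣ) k r) :
    ∀ m : ℕ, IsTwistedOn G (1 : G →* ℂˣ) ((m : ℤ) * k) (r ^ m)
  | 0 => by
    rw [pow_zero, Nat.cast_zero, zero_mul]
    exact ⟨mdifferentiable_const, fun γ => by
      rw [MonoidHom.one_apply, Units.val_one, one_smul]
      exact ModularForm.is_invariant_one _, fun A => by
      rw [ModularForm.is_invariant_one]; exact const_boundedAtFilter _ 1⟩
  | m + 1 => by
    rw [pow_succ]
    exact ((h.pow m).mul_trivial h).cast_weight (by push_cast; ring)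

theorem restrict_trivial (h : IsTwistedOn G (1 : G →* ℂˣ) k r) (hG : G' ≤ G) :
    IsTwistedOn G' (1 : G' →* ℂˣ) k r :=
  ⟨h.mdiff, fun γ => h.slash (Subgroup.inclusion hG γ), h.bdd⟩

theorem restrict (h : IsTwistedOn G χ k r) (hG : G' ≤ G) :
    IsTwistedOn G' (χ.comp (Subgroup.inclusion hG)) k r :=
  ⟨h.mdiff, fun γ => h.slash (Subgroup.inclusion hG γ), h.bdd⟩

theorem isCuspFn (h : IsTwistedOn G (1 : G →* ℂˣ) k r) (hT : ModularGroup.T ∈ G) :
    IsCuspFn 1 r where
  per := by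
    refine periodic_comp_ofComplex_of_vadd fun z => ?_
    have h1 : (r ∣[k] (ModularGroup.T ^ (1 : ℤ))) z = r z := by
      rw [zpow_one]
      simpa using congrFun (h.slash ⟨ModularGroup.T, hT⟩) z
    rw [slash_T_zpow_apply] at h1
    simpa using h1
  mdiff := h.mdiff
  bdd := by simpa using h.bdd 1

end IsTwistedOn

/-- `x` is the expansion of a quotient of forms of equal weight on `G`. -/
def InField (G : Subgroup SL(2, ℤ)) (x : LaurentSeries ℂ) : Prop :=
  ∃ (k : ℤ) (A B : ℍ → ℂ), IsTwistedOn G 1 k A ∧ IsTwistedOn G 1 k B ∧ B ≠ 0 ∧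
    x * qL B = qL A

/-- `χ` is the character of an `n`-th root attached to the function with expansion `x`. -/
def IsKummerPair (G : Subgroup SL(2, ℤ)) (n : ℕ) (x : LaurentSeries ℂ) (χ : G →* ℂˣ) : Prop :=
  ∃ (k : ℤ) (A B r : ℍ → ℂ), IsTwistedOn G 1 k A ∧ IsTwistedOn G 1 k B ∧ A ≠ 0 ∧ B ≠ 0 ∧
    x * qL B = qL A ∧ IsTwistedOn G χ k r ∧ r ^ n = A * B ^ (n - 1)

variable {n : ℕ} {x x' : LaurentSeries ℂ} {χ χ' : G →* ℂˣ}

theorem InField.restrict (h : InField G x) (hG : G' ≤ G) : InField G' x := by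
  obtain ⟨k, A, B, hA, hB, hB0, hx⟩ := h
  exact ⟨k, A, B, hA.restrict_trivial hG, hB.restrict_trivial hG, hB0, hx⟩

theorem IsKummerPair.restrict (h : IsKummerPair G n x χ) (hG : G' ≤ G) :
    IsKummerPair G' n x (χ.comp (Subgroup.inclusion hG)) := by
  obtain ⟨k, A, B, r, hA, hB, hA0, hB0, hx, hr, hrn⟩ := h
  exact ⟨k, A, B, r, hA.restrict_trivial hG, hB.restrict_trivial hG, hA0, hB0, hx,
    hr.restrict hG, hrn⟩

section

variable (hT : ModularGroup.T ∈ G)
include hT

theorem IsKummerPair.ne_zero (h : IsKummerPair G n x χ) : x ≠ 0 := by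
  obtain ⟨k, A, B, r, hA, -, hA0, -, hx, -, -⟩ := h
  rintro rfl
  rw [zero_mul, eq_comm, qL_eq_zero_iff (hA.isCuspFn hT)] at hx
  exact hA0 hx

theorem IsKummerPair.mul (h : IsKummerPair G n x χ) (h' : IsKummerPair G n x' χ') :
    IsKummerPair G n (x * x') (χ * χ') := by
  obtain ⟨k, A, B, r, hA, hB, hA0, hB0, hx, hr, hrn⟩ := h
  obtain ⟨k', A', B', r', hA', hB', hA0', hB0', hx', hr', hrn'⟩ := h'
  refine ⟨k + k', A * A', B * B', r * r', hA.mul_trivial hA', hB.mul_trivial hB',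
    mdiff_mul_ne_zero hA.mdiff hA'.mdiff hA0 hA0', mdiff_mul_ne_zero hB.mdiff hB'.mdiff hB0 hB0',
    ?_, hr.mul hr', ?_⟩
  · rw [qL_mul (hB.isCuspFn hT) (hB'.isCuspFn hT), qL_mul (hA.isCuspFn hT) (hA'.isCuspFn hT),
      mul_mul_mul_comm, hx, hx']
  · rw [mul_pow, mul_pow, hrn, hrn', mul_mul_mul_comm]

/-- A pair with trivial character is an `n`-th power. -/
theorem IsKummerPair.exists_pow_eq (hn : n ≠ 0) (h : IsKummerPair G n x 1) :
    ∃ w, InField G w ∧ w ^ n = x := by
  obtain ⟨k, A, B, r, hA, hB, -, hB0, hx, hr, hrn⟩ := h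
  have hcB := hB.isCuspFn hT
  have hB1 : qL B ≠ 0 := fun h0 => hB0 ((qL_eq_zero_iff hcB).mp h0)
  refine ⟨qL r / qL B, ⟨k, r, B, hr, hB, hB0, div_mul_cancel₀ _ hB1⟩, ?_⟩
  rw [div_pow, div_eq_iff (pow_ne_zero n hB1), ← isCuspFn_pow_one (hr.isCuspFn hT), hrn,
    qL_mul (hA.isCuspFn hT) (hcB.pow _), isCuspFn_pow_one hcB, ← hx, mul_assoc, ← pow_succ',
    Nat.sub_add_cancel (Nat.one_le_iff_ne_zero.mpr hn)]

end

/-! ### Products of translates -/

theorem pullSlash_prod_weights {ι : Type*} (s : Finset ι) (α : GL (Fin 2) ℝ) (w : ι → ℤ)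
    (F : ι → ℍ → ℂ) :
    pullSlash α (∑ i ∈ s, w i) (∏ i ∈ s, F i) = ∏ i ∈ s, pullSlash α (w i) (F i) := by
  classical
  induction s using Finset.induction with
  | empty =>
      funext τ
      simp [pullSlash]
  | @insert a s ha ih =>
      rw [Finset.prod_insert ha, Finset.prod_insert ha, Finset.sum_insert ha, ← ih, ← pullSlash_mul]

section CosetSystem

variable {ι : Type} [Fintype ι] (D : CosetSystem G' G ι) (e : ι → ℕ)

/-- `γ ↦ ∏ i, χ (h i γ) ^ e i`. -/
def expChar (he : ∀ γ i, e (D.next γ i) = e i) (χ : G →* ℂˣ) : G' →* ℂˣ where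
  toFun γ := ∏ i, χ (D.elt γ i) ^ e i
  map_one' := by
    refine Finset.prod_eq_one fun i _ => ?_
    rw [(D.next_elt_eq_of_eq (γ := 1) (h := 1) (i := i) (j := i) (by simp)).2, map_one, one_pow]
  map_mul' γ δ := by
    simp only [(D.next_elt_mul _ _ _).2, map_mul, mul_pow, Finset.prod_mul_distrib]
    congr 1
    rw [← Equiv.prod_comp (Equiv.ofBijective _ (D.next_bijective γ))
      (fun i => χ (D.elt δ i) ^ e i)]
    simp [he]

theorem expChar_apply (he : ∀ γ i, e (D.next γ i) = e i) (χ : G →* ℂˣ) (γ : G') :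
    expChar D e he χ γ = ∏ i, χ (D.elt γ i) ^ e i := rfl

theorem expChar_one (he : ∀ γ i, e (D.next γ i) = e i) :
    expChar D e he (1 : G →* ℂˣ) = 1 := by
  ext γ
  simp [expChar_apply]

/-- `∏ i, (f ∣ α i) ^ e i`. -/
def expProd (k : ℤ) (f : ℍ → ℂ) : ℍ → ℂ :=
  ∏ i, pullSlash (glOfInt (D.rep i)) k f ^ e i

variable (hdet : ∀ i, 0 < (D.rep i).det) (he : ∀ γ i, e (D.next γ i) = e i)

include hdet in
theorem mdifferentiable_expProd {k : ℤ} {f : ℍ → ℂ} (hf : MDiff f) : MDiff (expProd D e k f) := by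
  unfold expProd
  classical
  induction (Finset.univ : Finset ι) using Finset.induction with
  | empty => rw [Finset.prod_empty]; exact mdifferentiable_const
  | @insert a s ha ih =>
      rw [Finset.prod_insert ha]
      refine MDifferentiable.mul ?_ ih
      induction e a with
      | zero => rw [pow_zero]; exact mdifferentiable_const
      | succ m ihm =>
          rw [pow_succ]
          exact ihm.mul (mdifferentiable_pullSlash (det_glOfInt_pos (hdet a)) hf)

include hdet in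
theorem expProd_ne_zero {k : ℤ} {f : ℍ → ℂ} (hf : MDiff f) (hf0 : f ≠ 0) :
    expProd D e k f ≠ 0 :=
  finset_prod_pow_ne_zero
    (fun i => mdifferentiable_pullSlash (det_glOfInt_pos (hdet i)) hf)
    (fun i => pullSlash_ne_zero hf0)
where
  finset_prod_pow_ne_zero {F : ι → ℍ → ℂ} (hF : ∀ i, MDiff (F i)) (hF0 : ∀ i, F i ≠ 0) :
      (∏ i, F i ^ e i) ≠ 0 := by
    have : ∀ s : Finset ι, MDiff (∏ i ∈ s, F i ^ e i) ∧ (∏ i ∈ s, F i ^ e i) ≠ 0 := by
      classical
      intro s
      induction s using Finset.induction with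
      | empty =>
          rw [Finset.prod_empty]
          exact ⟨mdifferentiable_const, one_ne_zero⟩
      | @insert a s ha ih =>
          rw [Finset.prod_insert ha]
          have hp : MDiff (F a ^ e a) := by
            induction e a with
            | zero => rw [pow_zero]; exact mdifferentiable_const
            | succ m ihm => rw [pow_succ]; exact ihm.mul (hF a)
          exact ⟨hp.mul ih.1, mdiff_mul_ne_zero hp ih.1 (pow_ne_zero_fun (hF0 a) _) ih.2⟩
    exact (this _).2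

include hdet he in
theorem isTwistedOn_expProd {k : ℤ} {r : ℍ → ℂ} (hr : IsTwistedOn G χ k r) :
    IsTwistedOn G' (expChar D e he χ) ((∑ i, (e i : ℤ)) * k) (expProd D e k r) where
  mdiff := mdifferentiable_expProd D e hdet hr.mdiff
  slash γ := by
    rw [← pullSlash_mapGL, expProd, Finset.sum_mul, pullSlash_prod_weights, ← glOfInt_coe]
    have key : ∀ i, pullSlash (glOfInt ((γ : SL(2, ℤ)) : M2Z)) ((e i : ℤ) * k)
          (pullSlash (glOfInt (D.rep i)) k r ^ e i)
        = ((χ (D.elt γ i) ^ e i : ℂˣ) : ℂ) •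
            (pullSlash (glOfInt (D.rep (D.next γ i))) k r ^ e (D.next γ i)) := by
      intro i
      rw [pullSlash_pow, pullSlash_pullSlash (det_glOfInt_pos (by simp)),
        ← glOfInt_mul (hdet i).ne' (det_coe_ne_zero _), D.rep_mul,
        glOfInt_mul (det_coe_ne_zero _) (hdet _).ne',
        ← pullSlash_pullSlash (det_glOfInt_pos (hdet _)), glOfInt_coe, pullSlash_mapGL, hr.slash,
        pullSlash_const_smul, smul_pow, he, Units.val_pow_eq_pow_val]
    simp only [key]
    funext τ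
    simp only [Finset.prod_apply, Pi.smul_apply, smul_eq_mul, Finset.prod_mul_distrib]
    rw [expChar_apply, Units.coe_prod]
    congr 1
    exact Equiv.prod_comp (Equiv.ofBijective _ (D.next_bijective γ))
      (fun i => (pullSlash (glOfInt (D.rep i)) k r ^ e i) τ)
  bdd A := by
    rw [← pullSlash_mapGL, expProd, Finset.sum_mul, pullSlash_prod_weights]
    classical
    induction (Finset.univ : Finset ι) using Finset.induction with
    | empty => rw [Finset.prod_empty]; exact const_boundedAtFilter _ 1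
    | @insert a s ha ih =>
        rw [Finset.prod_insert ha]
        refine Filter.BoundedAtFilter.mul ?_ ih
        rw [pullSlash_pow]
        have hb : IsBoundedAtImInfty (pullSlash (Matrix.SpecialLinearGroup.mapGL ℝ A) k
            (pullSlash (glOfInt (D.rep a)) k r)) := by
          rw [pullSlash_pullSlash (by rw [← glOfInt_coe]; exact det_glOfInt_pos (by simp)),
            ← glOfInt_coe, ← glOfInt_mul (hdet a).ne' (det_coe_ne_zero A)]
          exact isBoundedAtImInfty_pullSlash (by simp [hdet a]) hr.bdd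
        induction e a with
        | zero => rw [pow_zero]; exact const_boundedAtFilter _ 1
        | succ m ihm => rw [pow_succ]; exact ihm.mul hb

theorem expProd_mul (k k' : ℤ) (f g : ℍ → ℂ) :
    expProd D e (k + k') (f * g) = expProd D e k f * expProd D e k' g := by
  simp only [expProd, pullSlash_mul, mul_pow, Finset.prod_mul_distrib]

theorem expProd_pow (k : ℤ) (f : ℍ → ℂ) (m : ℕ) :
    expProd D e ((m : ℤ) * k) (f ^ m) = expProd D e k f ^ m := by
  simp only [expProd, pullSlash_pow, ← Finset.prod_pow, ← pow_mul]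
  simp only [mul_comm m]

end CosetSystem

/-! ### Expansions of translates -/

/-- `exp (2 π i / q)`. -/
def zetaQ (q : ℕ) : ℂˣ :=
  Units.mk0 (Complex.exp (2 * Real.pi * Complex.I / q)) (Complex.exp_ne_zero _)

theorem zetaQ_pow_self (q : ℕ) [NeZero q] : zetaQ q ^ q = 1 :=
  Units.ext (Complex.isPrimitiveRoot_exp q (NeZero.ne q)).pow_eq_one

section Translate

variable {q : ℕ} [NeZero q]

theorem twistRep_det_pos (u : (ZMod q)ˣ) : 0 < (FermatLib.Modular.Twist.twistRep q u).det := by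
  simp [FermatLib.Modular.Twist.offsetRep, Matrix.det_fin_two_of, NeZero.pos q]

theorem val_glOfInt_twistRep (u : (ZMod q)ˣ) :
    ((glOfInt (FermatLib.Modular.Twist.twistRep q u) : GL (Fin 2) ℝ) : Matrix (Fin 2) (Fin 2) ℝ) =
      !![(q : ℝ), ((u : ZMod q).val : ℝ); 0, (q : ℝ)] := by
  rw [val_glOfInt (twistRep_det_pos u).ne', FermatLib.Modular.Twist.twistRep,
    FermatLib.Modular.Twist.offsetRep]
  ext i j
  fin_cases i <;> fin_cases j <;> simp

theorem pullSlash_twistRep_apply (u : (ZMod q)ˣ) (k : ℤ) (f : ℍ → ℂ) (τ : ℍ) :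
    pullSlash (glOfInt (FermatLib.Modular.Twist.twistRep q u)) k f τ =
      (q : ℂ) ^ (-k) * f (((u : ZMod q).val : ℝ) / q +ᵥ τ) := by
  have hd := twistRep_det_pos u
  have hq : (q : ℂ) ≠ 0 := Nat.cast_ne_zero.mpr (NeZero.ne q)
  rw [pullSlash_apply, mul_comm]
  congr 1
  · congr 1
    simp [denom, val_glOfInt_twistRep]
  · congr 1
    refine UpperHalfPlane.ext ?_
    rw [UpperHalfPlane.coe_smul_of_det_pos (det_glOfInt_pos hd), UpperHalfPlane.coe_vadd]
    simp [num, denom, val_glOfInt_twistRep]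
    field_simp
    ring

theorem isCuspFn_pullSlash_twistRep (u : (ZMod q)ˣ) {k : ℤ} {f : ℍ → ℂ}
    (hf : IsCuspFn 1 f) (hbdd : ∀ A : SL(2, ℤ), IsBoundedAtImInfty (f ∣[k] A)) :
    IsCuspFn 1 (pullSlash (glOfInt (FermatLib.Modular.Twist.twistRep q u)) k f) where
  per := by
    refine periodic_comp_ofComplex_of_vadd fun z => ?_
    rw [pullSlash_twistRep_apply, pullSlash_twistRep_apply, vadd_comm]
    congr 1
    have h := hf.per (((((u : ZMod q).val : ℝ) / q +ᵥ z : ℍ)) : ℂ)
    rw [Function.comp_apply, Function.comp_apply, UpperHalfPlane.ofComplex_apply] at h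
    rw [← h, ← UpperHalfPlane.ofComplex_apply ((1 : ℝ) +ᵥ _)]
    congr 2
    rw [UpperHalfPlane.coe_vadd, add_comm]
  mdiff := mdifferentiable_pullSlash (det_glOfInt_pos (twistRep_det_pos u)) hf.mdiff
  bdd := isBoundedAtImInfty_pullSlash (twistRep_det_pos u) hbdd

/-- The expansion of the translate by `u / q`. -/
theorem qL_pullSlash_twistRep (u : (ZMod q)ˣ) {k : ℤ} {f : ℍ → ℂ} (hf : IsCuspFn 1 f)
    (hbdd : ∀ A : SL(2, ℤ), IsBoundedAtImInfty (f ∣[k] A)) :
    qL (pullSlash (glOfInt (FermatLib.Modular.Twist.twistRep q u)) k f) =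
      HahnSeries.C ((q : ℂ) ^ (-k)) * qTwist (zetaQ q ^ (u : ZMod q).val) (qL f) := by
  set c : ℕ → ℂ := fun m =>
    (q : ℂ) ^ (-k) * ((((zetaQ q ^ (u : ZMod q).val) ^ m : ℂˣ) : ℂ) * (qExpansion 1 f).coeff m)
    with hc
  have hsum : ∀ τ : ℍ, HasSum (fun m => c m • Periodic.qParam 1 τ ^ m)
      (pullSlash (glOfInt (FermatLib.Modular.Twist.twistRep q u)) k f τ) := by
    intro τ
    rw [pullSlash_twistRep_apply]
    have h := (UpperHalfPlane.hasSum_qExpansion one_pos hf.per hf.mdiff hf.bdd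
      (((u : ZMod q).val : ℝ) / q +ᵥ τ)).mul_left ((q : ℂ) ^ (-k))
    refine h.congr_fun fun m => ?_
    have hz : Periodic.qParam 1 (((((u : ZMod q).val : ℝ) / q +ᵥ τ : ℍ)) : ℂ) =
        ((zetaQ q ^ (u : ZMod q).val : ℂˣ) : ℂ) * Periodic.qParam 1 τ := by
      rw [Units.val_pow_eq_pow_val, zetaQ, Units.val_mk0, ← Complex.exp_nat_mul,
        Periodic.qParam, Periodic.qParam, UpperHalfPlane.coe_vadd, ← Complex.exp_add]
      congr 1
      push_cast
      ring
    rw [hc, hz]
    simp only [smul_eq_mul, Units.val_pow_eq_pow_val, mul_pow, ← pow_mul]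
    ring
  have hg := isCuspFn_pullSlash_twistRep u hf hbdd
  have hcoeff : ∀ m, c m = (qExpansion 1
      (pullSlash (glOfInt (FermatLib.Modular.Twist.twistRep q u)) k f)).coeff m :=
    UpperHalfPlane.qExpansion_coeff_unique
      (ContinuousMap.mk (pullSlash (glOfInt (FermatLib.Modular.Twist.twistRep q u)) k f)
        hg.mdiff.continuous) (c := c) one_pos (hg.analyticAt one_pos) hsum
  ext m
  rw [HahnSeries.C_mul_eq_smul, HahnSeries.coeff_smul, qTwist_coeff, qL, qL, smul_eq_mul]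
  rcases m with m | m
  · rw [Int.ofNat_eq_natCast, HahnSeries.ofPowerSeries_apply_coeff,
      HahnSeries.ofPowerSeries_apply_coeff, ← hcoeff m, hc, zpow_natCast]
  · have hneg : ∀ P : PowerSeries ℂ,
        (HahnSeries.ofPowerSeries ℤ ℂ P).coeff (Int.negSucc m) = 0 := fun P =>
      HahnSeries.embDomain_of_notMem_range fun ⟨j, hj⟩ => by simp at hj
    rw [hneg, hneg, mul_zero, mul_zero]

end Translate

/-! ### The twist between the levels `L` and `L q` -/

/-- The elements of `Γ₀(L)` whose lower right entry lies in `H` modulo `L`. -/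
def levelH (L : ℕ) (H : Subgroup (ZMod L)ˣ) : Subgroup SL(2, ℤ) :=
  (H.comap (gamma0UnitsHom L)).map (Gamma0 L).subtype

theorem mem_levelH {L : ℕ} {H : Subgroup (ZMod L)ˣ} {g : SL(2, ℤ)} :
    g ∈ levelH L H ↔ ∃ h : g ∈ Gamma0 L, gamma0UnitsHom L ⟨g, h⟩ ∈ H := by
  constructor
  · rintro ⟨γ, hγ, rfl⟩
    exact ⟨γ.2, hγ⟩
  · rintro ⟨h, hH⟩
    exact ⟨⟨g, h⟩, hH, rfl⟩

theorem levelH_le {L : ℕ} {H : Subgroup (ZMod L)ˣ} : levelH L H ≤ Gamma0 L :=
  Subgroup.map_subtype_le _

theorem T_mem_levelH {L : ℕ} {H : Subgroup (ZMod L)ˣ} : ModularGroup.T ∈ levelH L H := by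
  refine mem_levelH.mpr ⟨by simp [Gamma0_mem, ModularGroup.T], ?_⟩
  convert one_mem H
  exact Units.ext (by simp [ModularGroup.T])

variable (L q : ℕ) [NeZero q] (hqL : q ∣ L) (H : Subgroup (ZMod L)ˣ)

/-- The preimage of `H` modulo `L q`. -/
abbrev liftH : Subgroup (ZMod (L * q))ˣ := H.comap (ZMod.unitsMap (dvd_mul_right L q))

/-- The coset system of the twist between the groups `levelH`. -/
def twistSystemH : CosetSystem (levelH (L * q) (liftH L q H)) (levelH L H) (ZMod q)ˣ where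
  rep := FermatLib.Modular.Twist.twistRep q
  det_ne_zero u := (twistRep_det_pos u).ne'
  eq_of_mul_rep u u' h _ e := FermatLib.Modular.Twist.twistRep_eq_of_mul q u u' h e
  exists_mul_eq u γ := by
    obtain ⟨hγ, hH⟩ := mem_levelH.mp γ.2
    obtain ⟨u', h, e, -, hh⟩ := FermatLib.Modular.Twist.exists_twistRep_mul L q hqL u ⟨γ, hγ⟩
    exact ⟨u', ⟨h, mem_levelH.mpr ⟨h.2, by rw [Subtype.coe_eta, hh]; exact hH⟩⟩, e⟩

theorem twistSystemH_next (γ : levelH (L * q) (liftH L q H)) (u : (ZMod q)ˣ) :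
    (twistSystemH L q hqL H).next γ u = u * ZMod.unitsMap (dvd_mul_left q L)
        (gamma0UnitsHom (L * q) ⟨γ, levelH_le γ.2⟩) ^ 2 ∧
      ((twistSystemH L q hqL H).elt γ u : SL(2, ℤ)) =
        ((FermatLib.Modular.Twist.twistSystem L q hqL).elt ⟨γ, levelH_le γ.2⟩ u : SL(2, ℤ)) := by
  obtain ⟨u', h, e, hu', hh⟩ :=
    FermatLib.Modular.Twist.exists_twistRep_mul L q hqL u ⟨γ, levelH_le γ.2⟩
  obtain ⟨hH0, hH⟩ := mem_levelH.mp γ.2
  have hmem : (h : SL(2, ℤ)) ∈ levelH L H :=
    mem_levelH.mpr ⟨h.2, by rw [Subtype.coe_eta, hh]; exact hH⟩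
  obtain ⟨h1, h2⟩ := (twistSystemH L q hqL H).next_elt_eq_of_eq (γ := γ) (h := ⟨h, hmem⟩)
    (i := u) (j := u') e
  obtain ⟨-, h4⟩ := (FermatLib.Modular.Twist.twistSystem L q hqL).next_elt_eq_of_eq
    (γ := ⟨γ, levelH_le γ.2⟩) (i := u) (j := u') e
  exact ⟨h1.trans hu', by rw [h2, h4]⟩

/-- The exponents which may be used for twisting pairs of level `levelH L H`. -/
def IsTwistExp (e : (ZMod q)ˣ → ℕ) : Prop :=
  ∀ d ∈ H, ∀ u, e (u * ZMod.unitsMap hqL d ^ 2) = e u

variable {L q hqL H}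

theorem IsTwistExp.apply_next {e : (ZMod q)ˣ → ℕ} (he : IsTwistExp L q hqL H e)
    (γ : levelH (L * q) (liftH L q H)) (u : (ZMod q)ˣ) :
    e ((twistSystemH L q hqL H).next γ u) = e u := by
  obtain ⟨hγ, hH⟩ := mem_levelH.mp γ.2
  rw [(twistSystemH_next L q hqL H γ u).1]
  have h := he _ hH u
  rwa [← MonoidHom.comp_apply, ZMod.unitsMap_comp] at h

/-- The twist of characters. -/
def twistCharH {e : (ZMod q)ˣ → ℕ} (he : IsTwistExp L q hqL H e) (χ : levelH L H →* ℂˣ) :
    levelH (L * q) (liftH L q H) →* ℂˣ :=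
  expChar (twistSystemH L q hqL H) e he.apply_next χ

theorem qL_expProd_twist {e : (ZMod q)ˣ → ℕ} {k : ℤ} {f : ℍ → ℂ} (hf : IsCuspFn 1 f)
    (hbdd : ∀ A : SL(2, ℤ), IsBoundedAtImInfty (f ∣[k] A)) :
    qL (expProd (twistSystemH L q hqL H) e k f) =
      HahnSeries.C (((q : ℂ) ^ (-k)) ^ ∑ u, e u) * twistMul (zetaQ q) e (qL f) := by
  have hc : ∀ u, IsCuspFn 1 (pullSlash (glOfInt ((twistSystemH L q hqL H).rep u)) k f ^ e u) :=
    fun u => (isCuspFn_pullSlash_twistRep u hf hbdd).pow _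
  have key : ∀ s : Finset (ZMod q)ˣ,
      IsCuspFn 1 (∏ u ∈ s, pullSlash (glOfInt ((twistSystemH L q hqL H).rep u)) k f ^ e u) ∧
      qL (∏ u ∈ s, pullSlash (glOfInt ((twistSystemH L q hqL H).rep u)) k f ^ e u) =
        ∏ u ∈ s, (HahnSeries.C ((q : ℂ) ^ (-k)) *
          qTwist (zetaQ q ^ (u : ZMod q).val) (qL f)) ^ e u := by
    intro s
    induction s using Finset.induction with
    | empty =>
        rw [Finset.prod_empty, Finset.prod_empty, qL, UpperHalfPlane.qExpansion_one, map_one]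
        exact ⟨⟨fun z => rfl, mdifferentiable_const, Filter.const_boundedAtFilter _ 1⟩, rfl⟩
    | @insert a s ha ih =>
        rw [Finset.prod_insert ha, Finset.prod_insert ha]
        refine ⟨(hc a).mul ih.1, ?_⟩
        rw [qL_mul (hc a) ih.1, ih.2]
        congr 1
        exact (isCuspFn_pow_one (isCuspFn_pullSlash_twistRep a hf hbdd) _).trans
          (congrArg (· ^ e a) (qL_pullSlash_twistRep a hf hbdd))
  rw [expProd, (key Finset.univ).2, twistMul]
  simp only [mul_pow, Finset.prod_mul_distrib, Finset.prod_pow_eq_pow_sum, map_pow]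

/-- **The twist of a Kummer pair.** -/
theorem IsKummerPair.twist {e : (ZMod q)ˣ → ℕ} (he : IsTwistExp L q hqL H e) {χ : levelH L H →* ℂˣ}
    (hn : n ≠ 0) (h : IsKummerPair (levelH L H) n x χ) :
    IsKummerPair (levelH (L * q) (liftH L q H)) n (twistMul (zetaQ q) e x) (twistCharH he χ) := by
  obtain ⟨k, A, B, r, hA, hB, hA0, hB0, hx, hr, hrn⟩ := h
  set D := twistSystemH L q hqL H
  have hdet : ∀ u, 0 < (D.rep u).det := twistRep_det_pos
  have h1 : ∀ {F : ℍ → ℂ}, IsTwistedOn (levelH L H) 1 k F →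
      IsTwistedOn (levelH (L * q) (liftH L q H)) 1 ((∑ u, (e u : ℤ)) * k) (expProd D e k F) :=
    fun {F} hF => by simpa [expChar_one] using isTwistedOn_expProd D e hdet he.apply_next hF
  refine ⟨(∑ u, (e u : ℤ)) * k, expProd D e k A, expProd D e k B, expProd D e k r, h1 hA, h1 hB,
    expProd_ne_zero D e hdet hA.mdiff hA0, expProd_ne_zero D e hdet hB.mdiff hB0, ?_,
    isTwistedOn_expProd D e hdet he.apply_next hr, ?_⟩
  · rw [qL_expProd_twist (hA.isCuspFn T_mem_levelH) hA.bdd,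
      qL_expProd_twist (hB.isCuspFn T_mem_levelH) hB.bdd, ← hx, twistMul_mul]
    ring
  · rw [← expProd_pow, ← expProd_pow, ← expProd_mul, hrn]
    congr 1
    rw [Nat.cast_sub (Nat.one_le_iff_ne_zero.mpr hn)]
    push_cast
    ring

end FermatLib.MLT.LGC
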