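import Fermat.Agent.MLT.LGC.DictionaryDefs
import Fermat.Agent.MLT.LGC.TwistPair
import Fermat.Agent.Modular.PlaceCuspAux

/-!
# Translations by `k / q` on root classes

For a group `Γ` normalised by the translations `τ ↦ τ + k / q`, translates of root classes are
root classes; on expansions at `∞` translation is `t ↦ ζ ^ k t`, so an automorphism of the
coefficients sending `ζ` to `ζ ^ c` sends the translate by `k` to the one by `c k`.
-/

set_option autoImplicit false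

noncomputable section

open UpperHalfPlane hiding I
open CongruenceSubgroup ModularCurve Filter
open scoped MatrixGroups Manifold ModularForm

namespace FermatLib.MLT.LGC

open FermatLib.Modular FermatLib.Modular.Corr

local notation "M2Z" => Matrix (Fin 2) (Fin 2) ℤ
local notation "Δ" => ModularForm.discriminant

/-- The matrix `(q k; 0 q)`. -/
def shiftMat (q : ℕ) (k : ℤ) : M2Z := !![(q : ℤ), k; 0, (q : ℤ)]

/-- The translate by `k / q`. -/
def shiftFn (q : ℕ) (k : ℤ) (G : ℍ → ℂ) : ℍ → ℂ := fun τ => G (((k : ℝ) / q) +ᵥ τ)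

/-- The translations by multiples of `1 / q` normalise `Γ`. -/
def ShiftStable (Γ : Subgroup SL(2, ℤ)) (q : ℕ) : Prop :=
  ∀ (k : ℤ), ∀ γ ∈ Γ, ∃ γ' ∈ Γ, (γ' : M2Z) * shiftMat q k = shiftMat q k * (γ : M2Z)

variable {q : ℕ} [NeZero q] {Γ : Subgroup SL(2, ℤ)}

theorem det_shiftMat_pos (k : ℤ) : 0 < (shiftMat q k).det := by
  simp [shiftMat, Matrix.det_fin_two_of, NeZero.pos q]

theorem glOfInt_shiftMat_smul (k : ℤ) (τ : ℍ) :
    glOfInt (shiftMat q k) • τ = ((k : ℝ) / q) +ᵥ τ := by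
  have hq : (q : ℂ) ≠ 0 := Nat.cast_ne_zero.mpr (NeZero.ne q)
  refine UpperHalfPlane.ext ?_
  rw [UpperHalfPlane.coe_smul_of_det_pos (det_glOfInt_pos (det_shiftMat_pos k)),
    UpperHalfPlane.coe_vadd]
  simp [num, denom, val_glOfInt (det_shiftMat_pos (q := q) k).ne']
  simp [shiftMat]
  field_simp
  ring

omit [NeZero q] in
theorem sl_smul_eq_glOfInt (A : SL(2, ℤ)) (τ : ℍ) : A • τ = glOfInt (A : M2Z) • τ := by
  rw [glOfInt_coe]
  rfl

theorem shift_vadd_smul {k : ℤ} {γ γ' : SL(2, ℤ)}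
    (h : (γ' : M2Z) * shiftMat q k = shiftMat q k * (γ : M2Z)) (τ : ℍ) :
    ((k : ℝ) / q) +ᵥ (γ • τ) = γ' • (((k : ℝ) / q) +ᵥ τ) := by
  rw [← glOfInt_shiftMat_smul, ← glOfInt_shiftMat_smul, sl_smul_eq_glOfInt γ,
    sl_smul_eq_glOfInt γ', ← mul_smul, ← mul_smul,
    ← glOfInt_mul (det_shiftMat_pos k).ne' (det_coe_ne_zero _),
    ← glOfInt_mul (det_coe_ne_zero _) (det_shiftMat_pos k).ne', h]

theorem mdifferentiable_shiftFn (k : ℤ) {G : ℍ → ℂ} (hG : MDiff G) :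
    MDiff (shiftFn q k G) := by
  rw [show shiftFn q k G = fun τ => G (glOfInt (shiftMat q k) • τ) from
    funext fun τ => by rw [glOfInt_shiftMat_smul]; rfl]
  exact hG.comp (UpperHalfPlane.mdifferentiable_smul (det_glOfInt_pos (det_shiftMat_pos k)))

theorem shiftFn_mem_weakMod (hs : ShiftStable Γ q) (k : ℤ) {G : ℍ → ℂ} (hG : G ∈ weakMod Γ) :
    shiftFn q k G ∈ weakMod Γ := by
  refine ⟨mdifferentiable_shiftFn k hG.1, fun γ hγ τ => ?_, fun A => ?_⟩
  · obtain ⟨γ', hγ', h⟩ := hs k γ hγ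
    rw [shiftFn, shiftFn, shift_vadd_smul h, hG.2.1 γ' hγ']
  · have hM : 0 < (shiftMat q k * (A : M2Z)).det := by
      rw [Matrix.det_mul, Matrix.SpecialLinearGroup.det_coe, mul_one]
      exact det_shiftMat_pos k
    obtain ⟨B, U, hMU, hU0, hU⟩ := exists_upperTriangular _ hM
    obtain ⟨m, hm⟩ := hG.2.2 B
    have hUd : (0 : ℤ) < U 0 0 * U 1 1 := by
      have := Matrix.det_fin_two U
      rw [hU0, mul_zero, sub_zero] at this
      rw [← this]; exact hU
    have hd : (0 : ℝ) < (U 0 0 : ℝ) / (U 1 1 : ℝ) := by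
      have h2 : (0 : ℝ) < (U 0 0 : ℝ) * (U 1 1 : ℝ) := by exact_mod_cast hUd
      rcases pos_and_pos_or_neg_and_neg_of_mul_pos h2 with ⟨ha, hb⟩ | ⟨ha, hb⟩
      · exact div_pos ha hb
      · exact div_pos_of_neg_of_neg ha hb
    have h11 : (U 1 1 : ℂ) ≠ 0 := by exact_mod_cast (mul_ne_zero_iff.mp hUd.ne').2
    refine ⟨⌈(U 0 0 : ℝ) / (U 1 1 : ℝ)⌉₊ * m, ?_⟩
    have h := isBoundedAtImInfty_comp_triangular (b := (U 0 1 : ℝ) / (U 1 1 : ℝ)) hm hd one_pos
      (k := ⌈(U 0 0 : ℝ) / (U 1 1 : ℝ)⌉₊) (by simpa using Nat.le_ceil _)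
    rwa [show (fun τ => shiftFn q k G (A • τ)) = fun τ => G (B • (ModularForm.upperTriangularGL
        ((U 0 0 : ℝ) / (U 1 1 : ℝ)) ((U 0 1 : ℝ) / (U 1 1 : ℝ)) 1 (mul_pos hd one_pos).ne' • τ))
      from funext fun τ => ?_]
    rw [shiftFn, ← glOfInt_shiftMat_smul, sl_smul_eq_glOfInt A, sl_smul_eq_glOfInt B,
      ← mul_smul,
      ← glOfInt_mul (det_shiftMat_pos k).ne' (det_coe_ne_zero _), hMU,
      glOfInt_mul (det_coe_ne_zero _) hU.ne', mul_smul]
    congr 2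
    refine UpperHalfPlane.ext ?_
    rw [UpperHalfPlane.coe_smul_of_det_pos (det_glOfInt_pos hU),
      coe_upperTriangularGL_smul hd one_pos]
    simp [num, denom, val_glOfInt hU.ne', hU0]
    field_simp

/-! ### Expansions -/

omit [NeZero q] in
theorem rot_intCast_div (k : ℤ) : rot ((k : ℝ) / q) = ((zetaQ q ^ k : ℂˣ) : ℂ) := by
  rw [rot, zetaQ, Units.val_zpow_eq_zpow_val, Units.val_mk0, ← Complex.exp_int_mul]
  congr 1
  push_cast
  ring

omit [NeZero q] in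
theorem qExpL_shiftFn_of_bounded (k : ℤ) {F : ℍ → ℂ} (hF : F ∈ qMero)
    (hb : IsBoundedAtImInfty F) :
    qExpL (shiftFn q k F) = qTwist (zetaQ q ^ k) (qExpL F) := by
  obtain ⟨hmem, hbd⟩ := comp_vadd_mem_qMero hF hb ((k : ℝ) / q)
  unfold shiftFn
  rw [qExpL_of_bounded hmem hbd, qExpL_of_bounded hF hb, qExpansion_comp_vadd hF hb,
    rot_intCast_div]
  ext j
  rw [qTwist_coeff]
  rcases le_or_gt 0 j with hj | hj
  · lift j to ℕ using hj
    rw [HahnSeries.ofPowerSeries_apply_coeff, HahnSeries.ofPowerSeries_apply_coeff,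
      PowerSeries.coeff_rescale, zpow_natCast, Units.val_pow_eq_pow_val]
  · rw [ofPowerSeries_coeff_of_neg _ hj, ofPowerSeries_coeff_of_neg _ hj, mul_zero]

omit [NeZero q] in
/-- The expansion of the translate. -/
theorem qExpL_shiftFn (k : ℤ) {F : ℍ → ℂ} (hF : F ∈ qMero) :
    qExpL (shiftFn q k F) = qTwist (zetaQ q ^ k) (qExpL F) := by
  obtain ⟨m, hm⟩ := hF.2.2
  have hΔ : ((Δ : ℍ → ℂ) ^ m) ∈ qMero := pow_mem discriminant_mem_qMero m
  have h0 : qExpL ((Δ : ℍ → ℂ) ^ m) ≠ 0 := fun h =>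
    pow_ne_zero m (ModularForm.discriminant_ne_zero UpperHalfPlane.I)
      (congrFun ((qExpL_eq_zero_iff hΔ).mp h) UpperHalfPlane.I)
  have h : qExpL (shiftFn q k F * shiftFn q k ((Δ : ℍ → ℂ) ^ m)) =
      qTwist (zetaQ q ^ k) (qExpL F * qExpL ((Δ : ℍ → ℂ) ^ m)) := by
    rw [← qExpL_mul hF hΔ, ← qExpL_shiftFn_of_bounded k (mul_mem hF hΔ) hm]
    rfl
  have hF' : shiftFn q k F ∈ qMero := comp_vadd_mem hF _
  have hΔ' : shiftFn q k ((Δ : ℍ → ℂ) ^ m) ∈ qMero := comp_vadd_mem hΔ _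
  rw [qExpL_mul hF' hΔ', map_mul,
    qExpL_shiftFn_of_bounded k hΔ (isBoundedAtImInfty_discriminant_pow m)] at h
  exact mul_right_cancel₀ ((map_ne_zero _).mpr h0) h

omit [NeZero q] in
/-- An automorphism acting on `ζ` by `c` sends the translate by `k` to the one by `c k`. -/
theorem IsConjSeries.shift {σ : ℂ ≃+* ℂ} {c : ℤ}
    (hσ : σ ((zetaQ q : ℂˣ) : ℂ) = ((zetaQ q ^ c : ℂˣ) : ℂ)) {g g' : ℍ → ℂ} (hg : g ∈ qMero)
    (hg' : g' ∈ qMero) (h : IsConjSeries σ g g') (k : ℤ) :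
    IsConjSeries σ (shiftFn q k g) (shiftFn q (c * k) g') := by
  have h' : qExpL g' = coeffMap (σ : ℂ →+* ℂ) (qExpL g) := h
  show qExpL (shiftFn q (c * k) g') = coeffMap (σ : ℂ →+* ℂ) (qExpL (shiftFn q k g))
  rw [qExpL_shiftFn _ hg, qExpL_shiftFn _ hg', h', coeffMap_qTwist, zpow_mul]
  congr 2
  rw [map_zpow]
  exact congrArg (· ^ k) (Units.ext hσ.symm)

/-! ### Classes -/

theorem eq_of_mul_shiftMat {a b : SL(2, ℤ)} {k : ℤ}
    (h : (a : M2Z) * shiftMat q k = (b : M2Z) * shiftMat q k) : a = b := by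
  have h' := congrArg (· * (shiftMat q k).adjugate) h
  simp only [Matrix.mul_assoc, Matrix.mul_adjugate, Matrix.mul_smul, Matrix.mul_one] at h'
  exact Subtype.ext (smul_right_injective _ (det_shiftMat_pos k).ne' h')

/-- Conjugation by the translation. -/
def shiftConj (hs : ShiftStable Γ q) (k : ℤ) : Γ →* Γ where
  toFun γ := ⟨(hs k γ γ.2).choose, (hs k γ γ.2).choose_spec.1⟩
  map_one' := Subtype.ext (eq_of_mul_shiftMat (k := k) (q := q) (by
    have h := (hs k 1 (one_mem Γ)).choose_spec.2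
    simpa using h))
  map_mul' a b := Subtype.ext (eq_of_mul_shiftMat (k := k) (q := q) (by
    have ha := (hs k a a.2).choose_spec.2
    have hb := (hs k b b.2).choose_spec.2
    have hab := (hs k (a * b : Γ) (a * b).2).choose_spec.2
    simp only [Subgroup.coe_mul, Matrix.SpecialLinearGroup.coe_mul] at hab ⊢
    rw [hab, Matrix.mul_assoc, hb, ← Matrix.mul_assoc, ← Matrix.mul_assoc, ha]))

theorem shiftConj_spec (hs : ShiftStable Γ q) (k : ℤ) (γ : Γ) :
    ((shiftConj hs k γ : SL(2, ℤ)) : M2Z) * shiftMat q k =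
      shiftMat q k * ((γ : SL(2, ℤ)) : M2Z) :=
  (hs k γ γ.2).choose_spec.2

theorem trace_shiftConj (hs : ShiftStable Γ q) (k : ℤ) (γ : Γ) :
    ((shiftConj hs k γ : SL(2, ℤ)) : M2Z).trace = ((γ : SL(2, ℤ)) : M2Z).trace := by
  have h := congrArg (fun X => (X * (shiftMat q k).adjugate).trace) (shiftConj_spec hs k γ)
  simp only [Matrix.mul_assoc, Matrix.mul_adjugate, Matrix.mul_smul, Matrix.mul_one] at h
  rw [Matrix.trace_mul_comm (shiftMat q k), Matrix.mul_assoc, Matrix.adjugate_mul,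
    Matrix.mul_smul, Matrix.mul_one, Matrix.trace_smul, Matrix.trace_smul] at h
  exact mul_left_cancel₀ (det_shiftMat_pos k).ne' h

variable {n : ℕ}

/-- The translate of a class. -/
def shiftHom (hs : ShiftStable Γ q) (k : ℤ) : RootHom Γ n →ₗ[ℤ] RootHom Γ n where
  toFun φ := ⟨φ.1.comp (MonoidHom.toAdditive (shiftConj hs k)), fun γ hγ => by
    show φ.1 (Additive.ofMul (shiftConj hs k γ)) = 0
    exact φ.2 _ (by rw [trace_shiftConj]; exact hγ)⟩
  map_add' _ _ := Subtype.ext (AddMonoidHom.ext fun _ => rfl)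
  map_smul' _ _ := Subtype.ext (AddMonoidHom.ext fun _ => rfl)

theorem shiftHom_apply (hs : ShiftStable Γ q) (k : ℤ) (φ : RootHom Γ n) (γ : Γ) :
    (shiftHom hs k φ).1 (Additive.ofMul γ) = φ.1 (Additive.ofMul (shiftConj hs k γ)) := rfl

/-- The translate only depends on `k` modulo `q`. -/
theorem shiftHom_congr (hs : ShiftStable Γ q) (hT : ModularGroup.T ∈ Γ) {k k' : ℤ}
    (h : (k : ZMod q) = (k' : ZMod q)) (φ : RootHom Γ n) : shiftHom hs k φ = shiftHom hs k' φ := by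
  obtain ⟨j, hj⟩ := (ZMod.intCast_eq_intCast_iff_dvd_sub k k' q).mp h
  obtain rfl : k' = k + q * j := by rw [← hj]; ring
  refine Subtype.ext (AddMonoidHom.ext fun γ => ?_)
  obtain ⟨γ, rfl⟩ := Additive.ofMul.surjective γ
  rw [shiftHom_apply, shiftHom_apply]
  set t : Γ := ⟨ModularGroup.T ^ j, zpow_mem hT j⟩
  have hmat : shiftMat q (k + q * j) = ((t : SL(2, ℤ)) : M2Z) * shiftMat q k := by
    simp only [t, ModularGroup.coe_T_zpow, shiftMat, Matrix.mul_fin_two]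
    congrm !![?_, ?_; ?_, ?_] <;> ring
  have : shiftConj hs (k + q * j) γ = t * shiftConj hs k γ * t⁻¹ := by
    refine Subtype.ext (eq_of_mul_shiftMat (k := k + q * j) (q := q) ?_)
    rw [shiftConj_spec, Subgroup.coe_mul, Matrix.SpecialLinearGroup.coe_mul, Matrix.mul_assoc,
      hmat]
    rw [← Matrix.mul_assoc (((t⁻¹ : Γ) : SL(2, ℤ)) : M2Z), ← Matrix.SpecialLinearGroup.coe_mul,
      ← Subgroup.coe_mul _ t⁻¹ t, inv_mul_cancel, Subgroup.coe_one,
      Matrix.SpecialLinearGroup.coe_one, Matrix.one_mul, Subgroup.coe_mul,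
      Matrix.SpecialLinearGroup.coe_mul]
    simp only [Matrix.mul_assoc, shiftConj_spec]
  rw [this, ofMul_mul, ofMul_mul, map_add, map_add, ofMul_inv, map_neg, add_neg_cancel_comm]

/-- **Translates of root classes are root classes.** -/
theorem IsRootClass.shift (hs : ShiftStable Γ q) (k : ℤ) {g : ℍ → ℂ} {φ : RootHom Γ n}
    (h : IsRootClass Γ n g φ.1) : IsRootClass Γ n (shiftFn q k g) (shiftHom hs k φ).1 := by
  obtain ⟨hg, hg0, r, hr, hrφ, hrn⟩ := h
  refine ⟨shiftFn_mem_weakMod hs k hg, fun h0 => hg0 (funext fun τ => ?_), shiftFn q k r,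
    mdifferentiable_shiftFn k hr, fun γ τ => ?_, fun τ => hrn _⟩
  · have := congrFun h0 ((-((k : ℝ) / q)) +ᵥ τ)
    simpa [shiftFn, ← add_vadd] using this
  · show r _ = _ * r _
    rw [shift_vadd_smul (shiftConj_spec hs k γ) τ, hrφ (shiftConj hs k γ)]
    rfl

omit [NeZero q] in
/-- `Γ_H` is normalised by the translations if `q ^ 2 ∣ L` and the diamond character only sees
squares modulo `q`. -/
theorem shiftStable_deltaKer {L : ℕ} {D : Type} [CommGroup D] (hq : q * q ∣ L)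
    (δ : (ZMod q)ˣ →* D) (hδ : ∀ u, δ u = 1 → u ^ 2 = 1) :
    ShiftStable (deltaKer (δ.comp (ZMod.unitsMap (Dvd.dvd.trans (dvd_mul_right q q) hq)))) q := by
  intro k γ hγ
  obtain ⟨hγ0, hγ1⟩ := mem_deltaKer.mp hγ
  have hdet := Matrix.SpecialLinearGroup.det_coe γ
  rw [Matrix.det_fin_two] at hdet
  obtain ⟨c', hc⟩ : ((q * q : ℕ) : ℤ) ∣ γ 1 0 :=
    dvd_trans (Int.natCast_dvd_natCast.mpr hq)
      ((ZMod.intCast_zmod_eq_zero_iff_dvd _ _).mp (Gamma0_mem.mp hγ0))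
  push_cast at hc
  set u : (ZMod q)ˣ := ZMod.unitsMap (Dvd.dvd.trans (dvd_mul_right q q) hq)
    (gamma0UnitsHom L ⟨γ, hγ0⟩) with hu
  have hd : ((γ 1 1 : ℤ) : ZMod q) = u := by
    rw [hu, ZMod.unitsMap_val, coe_gamma0UnitsHom,
      ZMod.cast_intCast (Dvd.dvd.trans (dvd_mul_right q q) hq)]
  have had : ((γ 0 0 : ℤ) : ZMod q) * (γ 1 1 : ℤ) = 1 := by
    have h := congrArg (Int.cast : ℤ → ZMod q) hdet
    rw [hc] at h
    push_cast at h
    simpa [ZMod.natCast_self] using h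
  obtain ⟨e, he⟩ : (q : ℤ) ∣ γ 1 1 - γ 0 0 := by
    rw [← ZMod.intCast_zmod_eq_zero_iff_dvd, Int.cast_sub, sub_eq_zero]
    have h2 : (u : ZMod q) ^ 2 = 1 := by
      rw [← Units.val_pow_eq_pow_val, hδ u (by simpa using hγ1), Units.val_one]
    rw [hd] at had ⊢
    linear_combination ((γ 0 0 : ℤ) : ZMod q) * h2 - (u : ZMod q) * had
  let γ' : SL(2, ℤ) := ⟨!![γ 0 0 + k * (q * c'), γ 0 1 + k * e - k * k * c';
      γ 1 0, γ 1 1 - k * (q * c')], by
    rw [Matrix.det_fin_two_of]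
    linear_combination hdet + k * (q : ℤ) * c' * he + (k * k * c' - k * e) * hc⟩
  have h10 : γ' 1 0 = γ 1 0 := rfl
  refine ⟨γ', mem_deltaKer.mpr ⟨by rw [Gamma0_mem, h10]; exact Gamma0_mem.mp hγ0, ?_⟩, ?_⟩
  · rw [MonoidHom.comp_apply] at hγ1 ⊢
    rw [show ZMod.unitsMap (Dvd.dvd.trans (dvd_mul_right q q) hq)
        (gamma0UnitsHom L ⟨γ', _⟩) = u from Units.ext ?_]
    · exact hγ1
    rw [ZMod.unitsMap_val, coe_gamma0UnitsHom,
      ZMod.cast_intCast (Dvd.dvd.trans (dvd_mul_right q q) hq), ← hd]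
    simp [γ']
  · rw [Matrix.eta_fin_two (γ : M2Z)]
    simp only [γ', shiftMat, Matrix.mul_fin_two]
    congrm !![?_, ?_; ?_, ?_]
    · rw [hc]; ring
    · linear_combination -k * he
    · rw [hc]; ring
    · rw [hc]; ring

theorem modularGroup_T_mem_deltaKer {L : ℕ} {D : Type} [CommGroup D] (δ : (ZMod L)ˣ →* D) :
    ModularGroup.T ∈ deltaKer δ := by
  refine mem_deltaKer.mpr ⟨modularGroup_T_mem_Gamma0 L, ?_⟩
  rw [show gamma0UnitsHom L ⟨ModularGroup.T, modularGroup_T_mem_Gamma0 L⟩ = 1 from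
    Units.ext (by simp [ModularGroup.T]), map_one]

end FermatLib.MLT.LGC

end
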