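import Fermat.Agent.MLT.LGC.HullFrob
import Fermat.Agent.MLT.LGC.Field
import Fermat.Agent.MLT.LGC.DictionaryNat
import Fermat.Agent.MLT.LGC.TwistShift

/-!
# The reduction of classes at a place over `q`

`lgcRed` sends a class of `Γ` to the normalised residue of any of its functions with algebraic
coefficients at `∞`, modulo `n`-th powers of residues from `classField Γ`.  Inertia at the place
does not change it, a Frobenius element acts on it as the norm from `t ^ (1 / q)`, and an element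
killed by `p` dies one level of roots below.
-/

set_option autoImplicit false

noncomputable section

open UpperHalfPlane hiding I
open CongruenceSubgroup ModularCurve
open scoped MatrixGroups Manifold

namespace FermatLib.MLT.LGC

open scoped HullInstances

open FermatLib.Modular FermatLib.Galois.DS
open FermatLib.Igusa.Mono (monoLaurentModule monoLaurentSMul)

local notation "Qbar" => AlgebraicClosure ℚ
local notation "Γℚ" => (AlgebraicClosure ℚ ≃ₐ[ℚ] AlgebraicClosure ℚ)
local notation "ι₀" => complexEmbedding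

attribute [local instance 100000] monoLaurentModule monoLaurentSMul

/-! ### Algebraic series -/

/-- A series with algebraic coefficients comes from `ℚ̄`. -/
theorem exists_coeffMap_eq_of_forall {K : LaurentSeries ℂ}
    (h : ∀ i, K.coeff i ∈ (ι₀).range) :
    ∃ y : LaurentSeries Qbar, coeffMap (ι₀).toRingHom y = K := by
  choose a ha using h
  refine ⟨⟨a, K.isPWO_support.mono fun i hi h0 => hi ?_⟩, ?_⟩
  · refine (ι₀).injective ?_
    rw [map_zero]
    exact (ha i).trans h0
  · ext i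
    rw [coeffMap_coeff]
    exact ha i

/-- An `n`-th root of a series from `ℚ̄` comes from `ℚ̄`. -/
theorem exists_coeffMap_eq_of_pow_eq {n : ℕ} (hn : n ≠ 0) {x : LaurentSeries Qbar}
    {K : LaurentSeries ℂ} (h : K ^ n = coeffMap (ι₀).toRingHom x) :
    ∃ y : LaurentSeries Qbar, coeffMap (ι₀).toRingHom y = K ∧ y ^ n = x := by
  have hrange : ∀ i, K.coeff i ∈ (ι₀).range := fun i => by
    letI := FermatLib.Curve.qbarAlgebraComplex
    obtain ⟨a, ha⟩ := FermatLib.Curve.mem_range_of_finite_orbit (K := Qbar) (x := K.coeff i) <|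
      (Set.finite_range fun j : Fin n =>
        Complex.exp (2 * Real.pi * Complex.I / n) ^ (j : ℕ) * K.coeff i).subset <| by
        rintro _ ⟨σ, rfl⟩
        set s : ℂ →+* ℂ := σ.toAlgHom.toRingHom
        have hs : (coeffMap s K) ^ n = K ^ n := by
          rw [← map_pow, h, coeffMap_coeffMap]
          exact coeffMap_congr (RingHom.ext fun a => σ.commutes a) x
        by_cases hK : K = 0
        · exact ⟨⟨0, Nat.pos_of_ne_zero hn⟩, by simp [hK]⟩
        · have hp : IsPrimitiveRoot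
              (algebraMap ℂ (LaurentSeries ℂ) (Complex.exp (2 * Real.pi * Complex.I / n))) n :=
            (Complex.isPrimitiveRoot_exp n hn).map_of_injective (algebraMap ℂ _).injective
          haveI : NeZero n := ⟨hn⟩
          obtain ⟨j, hj, hj'⟩ := hp.eq_pow_of_pow_eq_one (ξ := coeffMap s K / K)
            (by rw [div_pow, hs, div_self (pow_ne_zero n hK)])
          refine ⟨⟨j, hj⟩, ?_⟩
          have h1 := (eq_div_iff hK).mp hj'
          rw [← map_pow, algebraMap_laurentSeries_eq_single] at h1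
          have h2 := congrArg (fun z : LaurentSeries ℂ => z.coeff i) h1
          simp only [HahnSeries.coeff_single_zero_mul, coeffMap_coeff] at h2
          exact h2
    exact ⟨a, ha⟩
  obtain ⟨y, hy⟩ := exists_coeffMap_eq_of_forall hrange
  exact ⟨y, hy, (coeffMap (ι₀).toRingHom).injective (by rw [map_pow, hy, h])⟩

/-! ### Series of classes -/

variable {Γ : Subgroup SL(2, ℤ)} {n : ℕ}

/-- `x` is the expansion of a function of the class `φ`. -/
def IsClassRep (φ : RootHom Γ n) (x : seriesHull Qbar) : Prop :=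
  ∃ g, IsRootClass Γ n g φ.1 ∧ coeffMap (ι₀).toRingHom (x : LaurentSeries Qbar) = qExpL g

theorem IsClassRep.mem_classField {φ : RootHom Γ n} {x : seriesHull Qbar} (h : IsClassRep φ x) :
    (x : LaurentSeries Qbar) ∈ classField Γ := by
  obtain ⟨g, hg, hx⟩ := h
  exact subset_classField ⟨g, hg.1, hx⟩

theorem IsClassRep.powRoot {m : ℕ} (hnm : n ∣ m) {φ : RootHom Γ m} {x : seriesHull Qbar}
    (h : IsClassRep φ x) : IsClassRep (LGC.powRoot hnm φ) x := by
  obtain ⟨g, hg, hx⟩ := h
  exact ⟨g, hg.powRoot hnm, hx⟩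

variable {M : ℕ} [NeZero M] (hC : ConjStable Γ M) [NeZero n]
include hC

omit [NeZero n] in
theorem IsClassRep.ne_zero {φ : RootHom Γ n} {x : seriesHull Qbar} (h : IsClassRep φ x) :
    x ≠ 0 := by
  obtain ⟨g, hg, hx⟩ := h
  rintro rfl
  rw [ZeroMemClass.coe_zero, map_zero, eq_comm,
    qExpL_eq_zero_iff (weakMod_le_qMero' hC hg.1)] at hx
  exact hg.2.1 hx

theorem exists_isClassRep (φ : RootHom Γ n) : ∃ x, IsClassRep φ x := by
  obtain ⟨g, hg, hco⟩ := exists_isRootClass_algebraic hC φ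
  obtain ⟨y, hy⟩ := exists_coeffMap_eq_of_forall hco
  exact ⟨⟨y, classSeries_subset_seriesHull hC ⟨g, hg.mem, hy⟩⟩, g, hg, hy⟩

theorem IsClassRep.mul {φ ψ : RootHom Γ n} {x y : seriesHull Qbar} (hx : IsClassRep φ x)
    (hy : IsClassRep ψ y) : IsClassRep (φ + ψ) (x * y) := by
  obtain ⟨g, hg, hgx⟩ := hx
  obtain ⟨k, hk, hky⟩ := hy
  refine ⟨g * k, hg.mul hk, ?_⟩
  rw [MulMemClass.coe_mul, map_mul, hgx, hky, qExpL_mul_weakMod hC hg.mem hk.mem]

/-- A representative of the zero class is an `n`-th power in the class field. -/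
theorem IsClassRep.exists_pow_eq {x : seriesHull Qbar} (h : IsClassRep (0 : RootHom Γ n) x) :
    ∃ y : seriesHull Qbar, (y : LaurentSeries Qbar) ∈ classField Γ ∧ y ^ n = x := by
  obtain ⟨g, hg, hgx⟩ := h
  obtain ⟨k, hk, rfl⟩ := IsRootClass.exists_pow_eq hg
  rw [qExpL_pow (weakMod_le_qMero' hC hk)] at hgx
  obtain ⟨y, hy, hyx⟩ := exists_coeffMap_eq_of_pow_eq (NeZero.ne n) hgx.symm
  exact ⟨⟨y, classSeries_subset_seriesHull hC ⟨k, hk, hy⟩⟩, subset_classField ⟨k, hk, hy⟩,
    Subtype.ext (by rw [SubmonoidClass.coe_pow]; exact hyx)⟩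

/-- Conjugating the coefficients conjugates the class. -/
theorem IsClassRep.coeffMap {φ : RootHom Γ n} {x : seriesHull Qbar} (h : IsClassRep φ x)
    (σ : Γℚ) : IsClassRep (rootRep hC n σ φ)
      ⟨ModularCurve.coeffMap (σ : Qbar →+* Qbar) (x : LaurentSeries Qbar),
        coeffMap_mem_seriesHull _ x.2⟩ := by
  obtain ⟨g, hg, hx⟩ := h
  obtain ⟨g', hg', hc⟩ := exists_isConjSeries hC (qbarExt σ) hg.mem
  refine ⟨g', hg.rootRep hC (qbarExt_apply σ) hg' hc, ?_⟩
  rw [show qExpL g' = _ from hc, ← hx, coeffMap_coeffMap, coeffMap_coeffMap]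
  exact coeffMap_congr (RingHom.ext fun a => (qbarExt_apply σ a).symm) _

variable {q : ℕ} [Fact q.Prime] (A : ValuationSubring Qbar) (hA : A.LiesOverPrime q)

theorem redUnit_eq_of_isClassRep {φ : RootHom Γ n} {x₁ x₂ : seriesHull Qbar}
    (h₁ : IsClassRep φ x₁) (h₂ : IsClassRep φ x₂) :
    redUnit A hA (classField Γ) n x₁ = redUnit A hA (classField Γ) n x₂ := by
  obtain ⟨m, hm⟩ := Nat.exists_eq_succ_of_ne_zero (NeZero.ne n)
  have hrep : ∀ k : ℕ, IsClassRep ((k + 1) • φ) (x₂ ^ (k + 1)) := by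
    intro k
    induction k with
    | zero => rw [zero_add, one_nsmul, pow_one]; exact h₂
    | succ k ih => rw [succ_nsmul, pow_succ]; exact ih.mul hC h₂
  have h0 : φ + m • φ = 0 := by
    rw [add_comm, ← succ_nsmul, ← Nat.succ_eq_add_one, ← hm]
    exact Subtype.ext (nsmul_rootHom_eq_zero φ.1)
  have hy : ∃ y : seriesHull Qbar,
      (y : LaurentSeries Qbar) ∈ classField Γ ∧ y ^ n = x₁ * x₂ ^ m := by
    rcases m with _ | k
    · rw [zero_nsmul, add_zero] at h0
      rw [pow_zero, mul_one]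
      exact (h0 ▸ h₁).exists_pow_eq hC
    · exact (h0 ▸ h₁.mul hC (hrep k)).exists_pow_eq hC
  obtain ⟨y, hyE, hy⟩ := hy
  have hn := NeZero.ne n
  have hx₁ := h₁.ne_zero hC
  have hx₂ := h₂.ne_zero hC
  have hy0 : y ≠ 0 := fun h0 => mul_ne_zero hx₁ (pow_ne_zero m hx₂) (by rw [← hy, h0, zero_pow hn])
  have e : x₁ * x₂ ^ n = y ^ n * x₂ := by
    rw [hy, hm, pow_succ, mul_assoc]
  have h := congrArg (redUnit A hA (classField Γ) n) e
  rw [redUnit_mul A hA _ hn hx₁ (pow_ne_zero _ hx₂),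
    redUnit_mul A hA _ hn (pow_ne_zero _ hy0) hx₂,
    redUnit_pow_self A hA _ hn hx₂ h₂.mem_classField,
    redUnit_pow_self A hA _ hn hy0 hyE] at h
  exact (add_zero (redUnit A hA (classField Γ) n x₁)).symm.trans
    (h.trans (zero_add (redUnit A hA (classField Γ) n x₂)))

variable (n) in
/-- **The reduction of classes.** -/
def lgcRed : RootHom Γ n →+ UnitsModPow A hA (classField Γ) n :=
  AddMonoidHom.mk' (fun φ => redUnit A hA (classField Γ) n (exists_isClassRep hC φ).choose)
    fun φ ψ => by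
      have hφ := (exists_isClassRep hC φ).choose_spec
      have hψ := (exists_isClassRep hC ψ).choose_spec
      rw [redUnit_eq_of_isClassRep hC A hA (exists_isClassRep hC (φ + ψ)).choose_spec
        (hφ.mul hC hψ), redUnit_mul A hA _ (NeZero.ne n) (hφ.ne_zero hC) (hψ.ne_zero hC)]

theorem lgcRed_eq {φ : RootHom Γ n} {x : seriesHull Qbar} (h : IsClassRep φ x) :
    lgcRed n hC A hA φ = redUnit A hA (classField Γ) n x :=
  redUnit_eq_of_isClassRep hC A hA (exists_isClassRep hC φ).choose_spec h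

/-- **Inertia does not change the reduction.** -/
theorem lgcRed_rootRep_of_mem_inertia {σ : Γℚ} (hσ : σ ∈ A.inertiaSubgroupIn ℚ)
    (φ : RootHom Γ n) : lgcRed n hC A hA (rootRep hC n σ φ) = lgcRed n hC A hA φ := by
  obtain ⟨x, hx⟩ := exists_isClassRep hC φ
  rw [lgcRed_eq hC A hA (hx.coeffMap hC σ), lgcRed_eq hC A hA hx]
  exact redUnit_coeffMap_of_mem_inertia A hA _ (NeZero.ne n) hσ x

/-- **A Frobenius element acts on reductions as the norm from `t ^ (1 / q)`.** -/
theorem lgcRed_rootRep_of_isFrobeniusAt {F : Γℚ} (hF : A.IsFrobeniusAt F q) {ζ : Qbarˣ}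
    (hζ : IsPrimitiveRoot (ζ : Qbar) q) {φ ψ : RootHom Γ n} {x y : seriesHull Qbar}
    (hx : IsClassRep φ x) (hy : IsClassRep ψ y)
    (h : qExpand Qbar q (y : LaurentSeries Qbar) = twistNorm q ζ (x : LaurentSeries Qbar)) :
    lgcRed n hC A hA (rootRep hC n F φ) = lgcRed n hC A hA ψ := by
  rw [lgcRed_eq hC A hA (hx.coeffMap hC F), lgcRed_eq hC A hA hy]
  exact (redUnit_eq_of_qExpand_eq_twistNorm A hA _ (NeZero.ne n) hζ hF h).symm

/-- The same with the identity of complex expansions. -/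
theorem lgcRed_rootRep_of_qExpL {F : Γℚ} (hF : A.IsFrobeniusAt F q) {φ ψ : RootHom Γ n}
    {x : seriesHull Qbar} {g g' : ℍ → ℂ} (hg : IsRootClass Γ n g φ.1)
    (hx : ModularCurve.coeffMap (ι₀).toRingHom (x : LaurentSeries Qbar) = qExpL g)
    (hg' : IsRootClass Γ n g' ψ.1)
    (h : qExpand ℂ q (qExpL g') = ∏ j ∈ Finset.range q, qTwist (zetaQ q ^ j) (qExpL g)) :
    lgcRed n hC A hA (rootRep hC n F φ) = lgcRed n hC A hA ψ := by
  haveI : NeZero q := ⟨(Fact.out : q.Prime).ne_zero⟩
  obtain ⟨ξ, hξ⟩ := HasEnoughRootsOfUnity.exists_primitiveRoot Qbar q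
  have hz : IsPrimitiveRoot ((zetaQ q : ℂˣ) : ℂ) q := by
    rw [zetaQ, Units.val_mk0]
    exact Complex.isPrimitiveRoot_exp q (NeZero.ne q)
  obtain ⟨j, -, hj⟩ := (hξ.map_of_injective (f := ι₀) (ι₀).injective).eq_pow_of_pow_eq_one
    hz.pow_eq_one
  set ζ : Qbarˣ := Units.mk0 (ξ ^ j) (pow_ne_zero _ (hξ.ne_zero (NeZero.ne q)))
  have hζι : Units.map ((ι₀).toRingHom : Qbar →* ℂ) ζ = zetaQ q :=
    Units.ext ((map_pow (ι₀) ξ j).trans hj)
  have hζ : IsPrimitiveRoot (ζ : Qbar) q :=
    IsPrimitiveRoot.of_map_of_injective (f := ι₀)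
      (by rw [show (ι₀) (ζ : Qbar) = ((zetaQ q : ℂˣ) : ℂ) from congrArg Units.val hζι]; exact hz)
      (ι₀).injective
  have hT : qExpand ℂ q (qExpL g') =
      ModularCurve.coeffMap (ι₀).toRingHom (twistNorm q ζ (x : LaurentSeries Qbar)) := by
    rw [h, twistNorm, map_prod, ← hx]
    exact Finset.prod_congr rfl fun u _ => by
      rw [LGC.coeffMap_qTwist, map_pow, ← hζι]
      rfl
  obtain ⟨y, hy⟩ := exists_coeffMap_eq_of_forall (K := qExpL g') fun i => by
    refine ⟨(twistNorm q ζ (x : LaurentSeries Qbar)).coeff ((q : ℤ) * i), ?_⟩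
    have := congrArg (fun z : LaurentSeries ℂ => z.coeff ((q : ℤ) * i)) hT
    simp only [qExpand_coeff_mul, coeffMap_coeff] at this
    exact this.symm
  refine lgcRed_rootRep_of_isFrobeniusAt hC A hA hF hζ ⟨g, hg, hx⟩
    (y := ⟨y, classSeries_subset_seriesHull hC ⟨g', hg'.mem, hy⟩⟩) ⟨g', hg', hy⟩ ?_
  refine (ModularCurve.coeffMap (ι₀).toRingHom).injective ?_
  rw [coeffMap_qExpand, hy, hT]

/-! ### Torsion -/

omit hC [NeZero n] [NeZero M] in
/-- A root of unity of order prime to `q` which is `1` in a residue field of characteristic `q`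
is `1`. -/
theorem eq_one_of_residue_eq_one (hA : A.LiesOverPrime q) {p : ℕ} (hp : ¬ q ∣ p) {a : A}
    (ha : a ^ p = 1) (h : IsLocalRing.residue A a = 1) : a = 1 := by
  by_contra hne
  have hsum : ∑ i ∈ Finset.range p, a ^ i = 0 := by
    have h1 := geom_sum_mul a p
    rw [ha, sub_self, mul_eq_zero] at h1
    exact h1.resolve_right (sub_ne_zero.mpr hne)
  have h2 : (p : IsLocalRing.ResidueField A) = 0 := by
    simpa [h] using congrArg (IsLocalRing.residue A) hsum
  haveI : CharP (IsLocalRing.ResidueField A) q := by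
    obtain ⟨l, hl⟩ := CharP.exists (IsLocalRing.ResidueField A)
    rcases (Nat.dvd_prime Fact.out).mp
      ((CharP.cast_eq_zero_iff _ l q).mp (natCast_residue_eq_zero q A hA)) with rfl | rfl
    · exact absurd rfl (CharP.char_ne_one (IsLocalRing.ResidueField A) 1)
    · exact hl
  exact hp ((CharP.cast_eq_zero_iff _ q p).mp h2)

omit hC [NeZero M] in
/-- If `p` kills the residue modulo `n p`-th powers, the residue is an `n`-th power. -/
theorem redUnit_eq_zero_of_nsmul {E : IntermediateField Qbar (LaurentSeries Qbar)} {p : ℕ}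
    (hp : ¬ q ∣ p) {f : seriesHull Qbar} (hf : f ≠ 0)
    (h : p • redUnit A hA E (n * p) f = 0) : redUnit A hA E n f = 0 := by
  have hp0 : p ≠ 0 := fun h0 => hp (h0 ▸ dvd_zero q)
  haveI : NeZero p := ⟨hp0⟩
  have hn := NeZero.ne n
  obtain ⟨c, -, h', hu⟩ := exists_hull_scale A hA hf
  rw [redUnit_eq A hA E (mul_ne_zero hn hp0) hf hu.unit (congrArg Subtype.val hu.unit_spec),
    ← ofMul_pow, ← QuotientGroup.mk_pow, ofMul_eq_zero, QuotientGroup.eq_one_iff] at h
  obtain ⟨w, hwE, hw⟩ := h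
  rw [redUnit_eq A hA E hn hf hu.unit (congrArg Subtype.val hu.unit_spec), ofMul_eq_zero,
    QuotientGroup.eq_one_iff]
  set res := IsLocalRing.residue (hullW q A hA)
  set z := Units.map res.toMonoidHom hu.unit * (Units.map res.toMonoidHom w ^ n)⁻¹
  have hz : ((z : (IsLocalRing.ResidueField (hullW q A hA))ˣ) :
      IsLocalRing.ResidueField (hullW q A hA)) ^ p = 1 := by
    rw [← Units.val_pow_eq_pow_val, show z ^ p = 1 by
      rw [mul_pow, inv_pow, ← pow_mul, hw, mul_inv_cancel], Units.val_one]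
  -- primitive roots of unity of order `p` reduce to primitive ones
  obtain ⟨ξ, hξ⟩ := HasEnoughRootsOfUnity.exists_primitiveRoot Qbar p
  have hroot : ∀ {r : Qbar} {k : ℕ}, k ≠ 0 → r ^ k = 1 → r ∈ A := by
    intro r k hk hr
    rcases A.mem_or_inv_mem r with hr' | hr'
    · exact hr'
    · rw [show r = r⁻¹ ^ (k - 1) by
        rw [inv_pow]
        refine eq_inv_of_mul_eq_one_left ?_
        rw [← pow_succ', Nat.sub_add_cancel (Nat.one_le_iff_ne_zero.mpr hk), hr]]
      exact pow_mem hr' _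
  have hξA : ξ ∈ A := hroot hp0 hξ.pow_eq_one
  set ξW : hullW q A hA := ⟨_, (hullSheet q A hA).algebraMap_mem hξA⟩
  have hξW : IsPrimitiveRoot (res ξW) p := by
    refine IsPrimitiveRoot.iff_def _ _ |>.mpr ⟨?_, fun l hl => hξ.dvd_of_pow_eq_one l ?_⟩
    · rw [← map_pow, show ξW ^ p = 1 from Subtype.ext (by
        show algebraMap Qbar (seriesHull Qbar) ξ ^ p = 1
        rw [← map_pow, hξ.pow_eq_one, map_one]), map_one]
    have hmem := (hullSheet q A hA).algebraMap_mem (pow_mem hξA l)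
    have e : (ξW ^ l : hullW q A hA) = ⟨_, hmem⟩ :=
      Subtype.ext (map_pow (algebraMap Qbar (seriesHull Qbar)) ξ l).symm
    have h1 : res ⟨_, hmem⟩ = 1 := by rw [← e, map_pow, hl]
    have h2 : IsLocalRing.residue A (⟨ξ ^ l, pow_mem hξA l⟩ : A) = 1 := by
      by_contra hne
      have hu1 : IsUnit ((⟨ξ ^ l, pow_mem hξA l⟩ : A) - 1) := by
        rw [← IsLocalRing.residue_ne_zero_iff_isUnit, map_sub, map_one, sub_ne_zero]
        exact hne
      obtain ⟨b, hb⟩ := hu1.exists_right_inv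
      have hbW := (hullSheet q A hA).algebraMap_mem b.2
      have hprod : ((⟨_, hmem⟩ : hullW q A hA) - 1) * ⟨_, hbW⟩ = 1 := Subtype.ext (by
        show (algebraMap Qbar (seriesHull Qbar) (ξ ^ l) - 1) *
          algebraMap Qbar (seriesHull Qbar) (b : Qbar) = 1
        rw [← map_one (algebraMap Qbar (seriesHull Qbar)), ← map_sub, ← map_mul]
        exact congrArg _ (congrArg Subtype.val hb))
      have h3 := congrArg res hprod
      rw [map_mul, map_sub, map_one, h1, sub_self, zero_mul] at h3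
      exact zero_ne_one h3
    exact congrArg Subtype.val (eq_one_of_residue_eq_one A hA hp
      (a := ⟨ξ ^ l, pow_mem hξA l⟩) (Subtype.ext (by
        show (ξ ^ l) ^ p = 1
        rw [← pow_mul, mul_comm, pow_mul, hξ.pow_eq_one, one_pow])) h2)
  obtain ⟨i, -, hi⟩ := hξW.eq_pow_of_pow_eq_one hz
  obtain ⟨r, hr⟩ := IsAlgClosed.exists_pow_nat_eq (ξ ^ i) (Nat.pos_of_ne_zero hn)
  have hr1 : r ^ (n * p) = 1 := by
    rw [pow_mul, hr, ← pow_mul, mul_comm, pow_mul, hξ.pow_eq_one, one_pow]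
  set rW : hullW q A hA := ⟨_, (hullSheet q A hA).algebraMap_mem
    (hroot (mul_ne_zero hn hp0) hr1)⟩
  have hrW : rW ^ n = ξW ^ i := Subtype.ext (by
    show algebraMap Qbar (seriesHull Qbar) r ^ n = algebraMap Qbar (seriesHull Qbar) ξ ^ i
    rw [← map_pow, hr, map_pow])
  have hrU : IsUnit rW := IsUnit.of_pow_eq_one (n := n * p) (Subtype.ext (by
    show algebraMap Qbar (seriesHull Qbar) r ^ (n * p) = 1
    rw [← map_pow, hr1, map_one])) (mul_ne_zero hn hp0)
  refine ⟨w * hrU.unit, ?_, Units.ext ?_⟩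
  · rw [Units.val_mul, hrU.unit_spec]
    exact mul_mem hwE (E.algebraMap_mem r)
  · have hz' : Units.map res.toMonoidHom hu.unit = z * Units.map res.toMonoidHom w ^ n :=
      (inv_mul_cancel_right _ _).symm
    rw [hz']
    simp only [Units.val_pow_eq_pow_val, Units.val_mul, map_mul, Units.coe_map, mul_pow]
    rw [← hi, mul_comm]
    congr 1
    show res (hrU.unit : hullW q A hA) ^ n = res ξW ^ i
    rw [hrU.unit_spec, ← map_pow, ← map_pow, hrW]

/-- **A class whose reduction is killed by `p` reduces to `0` one level below.** -/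
theorem lgcRed_powRoot_eq_zero {p : ℕ} [NeZero (n * p)] (hp : ¬ q ∣ p) {φ : RootHom Γ (n * p)}
    (h : p • lgcRed (n * p) hC A hA φ = 0) :
    lgcRed n hC A hA (powRoot (dvd_mul_right n p) φ) = 0 := by
  obtain ⟨x, hx⟩ := exists_isClassRep hC φ
  rw [lgcRed_eq hC A hA (hx.powRoot (dvd_mul_right n p))]
  rw [lgcRed_eq hC A hA hx] at h
  exact redUnit_eq_zero_of_nsmul A hA hp (hx.ne_zero hC) h

end FermatLib.MLT.LGC

end
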