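import Fermat.Agent.MLT.LGC.LgcHecke
import Fermat.Agent.MLT.LGC.Red

/-!
# Residue injectivity on classes

A class of `Γ₀(q M)` whose restriction to the small group reduces to `0` has, for a prime
`l ≡ 1 (mod q² M)`, an image under `T l - (l + 1)` which already reduces to `0` at level `q M`.
-/

set_option autoImplicit false
set_option linter.style.haveILetI false

noncomputable section

open CongruenceSubgroup ModularCurve
open scoped MatrixGroups

namespace FermatLib.MLT.LGC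

open FermatLib.Modular FermatLib.Igusa.Mono

local notation "Qbar" => AlgebraicClosure ℚ
local notation "ι₀" => complexEmbedding

attribute [local instance 100000] monoLaurentModule monoLaurentSMul

variable {q M : ℕ} [Fact q.Prime] [NeZero M] {A : ValuationSubring Qbar}
  (hA : A.LiesOverPrime q) {p : ℕ} [Fact p.Prime]

omit [NeZero M] [Fact p.Prime] in
theorem redUnit_pow_eq_nsmul {E : IntermediateField Qbar (LaurentSeries Qbar)} {n : ℕ}
    (hn : n ≠ 0) {f : seriesHull Qbar} (hf : f ≠ 0) (k : ℕ) :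
    redUnit A hA E n (f ^ (k + 1)) = (k + 1) • redUnit A hA E n f := by
  induction k with
  | zero => rw [zero_add, pow_one, one_nsmul]
  | succ k ih =>
    rw [pow_succ, succ_nsmul, redUnit_mul A hA E hn (pow_ne_zero _ hf) hf, ih]

/-- **Residue injectivity.** -/
theorem lgcRed_normHom_sub_eq_zero {N₀ N₁ : ℕ} [NeZero N₀] [NeZero N₁]
    (hC₀ : ConjStable (Gamma0 (q * M)) N₀) (hC₁ : ConjStable (lgcGroup q M) N₁) (hpq : p ≠ q)
    {l : Nat.Primes} (hl1 : (((l : ℕ)) : ZMod (q ^ 2 * M)) = 1)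
    {φ : RootHom (Gamma0 (q * M)) p}
    (h : lgcRed p hC₁ A hA (restrictRoot lgcGroup_le_gamma0 φ) = 0) :
    lgcRed p hC₀ A hA (normHom (heckeSystem (q * M) l) φ - ((l : ℕ) + 1) • φ) = 0 := by
  obtain ⟨l, hl⟩ := l
  haveI : NeZero l := ⟨hl.ne_zero⟩
  obtain ⟨ζ, hζ, hζ₀⟩ := exists_zeta_eq_zetaQ l
  have hp := (Fact.out : p.Prime).ne_zero
  obtain ⟨x, g, hg, hx⟩ := exists_isClassRep hC₀ φ
  have hrep : IsClassRep φ x := ⟨g, hg, hx⟩
  have hres : IsClassRep (restrictRoot lgcGroup_le_gamma0 φ) x := ⟨g, hg.restrict _, hx⟩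
  rw [lgcRed_eq hC₁ A hA hres] at h
  have hkill := redUnit_gamma0_hecke_div_eq_zero hl hl1 hA hζ hζ₀ hpq (hrep.ne_zero hC₀)
    ⟨g, hg.mem, hx⟩ h
  have hdet : ∀ i, 0 < ((heckeSystem (q * M) ⟨l, hl⟩).rep i).det := fun i => by
    rw [heckeSystem_rep, det_heckeRepInt]
    exact_mod_cast hl.pos
  have hTrep : IsClassRep (normHom (heckeSystem (q * M) ⟨l, hl⟩) φ) (hullHecke Qbar l hζ x) :=
    ⟨_, hg.norm _ hdet, coeffMap_hullHecke_gamma0 hl hl1 hζ hζ₀ hg.mem hx⟩
  have hy0 := hTrep.ne_zero hC₀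
  have hxl : x ^ (l + 1) ≠ 0 := pow_ne_zero _ (hrep.ne_zero hC₀)
  have key : redUnit A hA (classField (Gamma0 (q * M))) p (hullHecke Qbar l hζ x) =
      redUnit A hA (classField (Gamma0 (q * M))) p (x ^ (l + 1)) := by
    conv_lhs => rw [← div_mul_cancel₀ (hullHecke Qbar l hζ x) hxl]
    rw [redUnit_mul A hA _ hp (div_ne_zero hy0 hxl) hxl, hkill]
    exact zero_add (redUnit A hA (classField (Gamma0 (q * M))) p (x ^ (l + 1)))
  rw [map_sub, map_nsmul, lgcRed_eq hC₀ A hA hTrep, lgcRed_eq hC₀ A hA hrep, key,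
    redUnit_pow_eq_nsmul hA hp (hrep.ne_zero hC₀)]
  exact sub_self ((l + 1) • redUnit A hA (classField (Gamma0 (q * M))) p x)

/-- The same at the index `p ^ 1`. -/
theorem lgcRed_normHom_sub_eq_zero_pow_one {N₀ N₁ : ℕ} [NeZero N₀] [NeZero N₁]
    (hC₀ : ConjStable (Gamma0 (q * M)) N₀) (hC₁ : ConjStable (lgcGroup q M) N₁) (hpq : p ≠ q)
    {l : Nat.Primes} (hl1 : ((l : ℕ) : ZMod (q ^ 2 * M)) = 1)
    [NeZero p] {φ : RootHom (Gamma0 (q * M)) (p ^ 1)}
    (h : lgcRed (p ^ 1) hC₁ A hA (restrictRoot lgcGroup_le_gamma0 φ) = 0) :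
    lgcRed (p ^ 1) hC₀ A hA (normHom (heckeSystem (q * M) l) φ - ((l : ℕ) + 1) • φ) = 0 := by
  haveI : Fact (p ^ 1).Prime := ⟨by rw [pow_one]; exact Fact.out⟩
  exact lgcRed_normHom_sub_eq_zero hA hC₀ hC₁ (by rwa [pow_one]) hl1 h

end FermatLib.MLT.LGC

end
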