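import Fermat.Agent.MLT.LGC.HalfGlue
import Fermat.Agent.MLT.LGC.KillClass
import Fermat.Agent.MLT.LGC.ChiPartReduce

/-!
# The half bound on the Betti part

The kernel of the reduction on `lgcVm` has at most half its dimension, given the half bound on
the reduced classes at level `q M`: `T l - (l + 1)` of the non-Eisenstein prime is invertible on
these and carries the kernel of restriction into the kernel of the reduction.
-/

set_option autoImplicit false

noncomputable section

open CongruenceSubgroup ModularCurve.Period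
open scoped MatrixGroups

namespace FermatLib.MLT.LGC

open FermatLib.Modular

local notation "Qbar" => AlgebraicClosure ℚ
local notation "kk" => IsLocalRing.ResidueField

variable {O : Type} [CommRing O] [IsDomain O] [IsDiscreteValuationRing O]
  [IsAdicComplete (IsLocalRing.maximalIdeal O) O] [CharZero O]
  {p q M : ℕ} [Fact p.Prime] [Fact q.Prime] [NeZero M] [NeZero p]
  {χ : (ZMod q)ˣ →* Oˣ} {lam : Nat.Primes → O} {K : Type} [Field K] [Algebra O K]
  {A : ValuationSubring Qbar} {N₀ N : ℕ} [NeZero N₀] [NeZero N]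

/-- **The half bound on the Betti part** from the half bound on the reduced classes. -/
theorem two_mul_finrank_redKerK_inf_lgcVm_le (hO : Function.Injective (algebraMap O K))
    (hd : IsChiPartData p q M χ lam)
    (hres : ∀ u, IsLocalRing.residue O ((χ u : Oˣ) : O) = 1)
    (hp : (p : O) ∈ IsLocalRing.maximalIdeal O) (hpq : p ≠ q)
    (hC₀ : ConjStable (Gamma0 (q * M)) N₀) (hC : ConjStable (lgcGroup q M) N)
    (hA : A.LiesOverPrime q)
    (hhalf₀ : 2 * Module.finrank (kk O)
        ↥((redKerRes hC₀ hA (p := p) (kk O)).comap (lgcRedV hd hres).subtype) ≤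
      Module.finrank (kk O) (lgcRedV hd hres)) :
    2 * Module.finrank K ↥(redKerK (O := O) hC (fun n => muVal (p ^ n)) hA K ⊓ lgcVm K hd) ≤
      Module.finrank K (lgcVm K hd) := by
  obtain ⟨hfree, hfin⟩ := lgcLoc_free hd
  have := finiteDimensional_lgcRedV hd hres
  obtain ⟨ϖ, hϖ⟩ := IsDiscreteValuationRing.exists_irreducible O
  obtain ⟨l, hl, hl1, hne⟩ := hd.nonEisenstein
  have hrank : Module.finrank (kk O) (lgcRedV hd hres) ≤ Module.finrank K ↥(Submodule.span K
      (Set.range fun a => latK O K (lgcGroup q M) (lgcIota hd a))) :=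
    (finrank_lgcRedV_le hd hres).trans (finrank_lgcVm hO hd).ge
  exact two_mul_finrank_redKerK_inf_span_le hC hC₀ hA hO hpq.symm hp lgcGroup_le_gamma0
    (lgcIota hd) (lgcRedV hd hres).subtype hϖ (lgcRedG hd hres)
    (fun a ha => eq_smul_of_lgcRedG_eq_zero hd hres hϖ ha) (residue_lgcIota hd hres)
    (heckeSystem (q * M) l) ((l : ℕ) + 1) (lgcRedT0 hd hres l ((l : ℕ) + 1))
    (lgcRedT0_injective hd hres l hl _ (by exact_mod_cast hne)) (coe_lgcRedT0 hd hres l _)
    (fun _ h => lgcRed_normHom_sub_eq_zero_pow_one hA hC₀ hC hpq hl1 h) hhalf₀ hrank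

/-- The same for a system, at the standard levels. -/
theorem IsLgcSystem.two_mul_finrank_redKerK_inf_lgcVm_le
    {x : bettiH1 (Gamma0 (q * M)) (nebenChar (lgcChiK q M K χ)) K} {ρ : GaloisRepAdic O}
    (h : IsLgcSystem p q M χ K lam x ρ) (hO : Function.Injective (algebraMap O K)) (hpq : p ≠ q)
    (hA : A.LiesOverPrime q)
    (hhalf₀ : 2 * Module.finrank (kk O)
        ↥((redKerRes (conjStable_gamma0 (q * M)) hA (p := p) (kk O)).comap
          (lgcRedV h.chiPartData h.residue_chi).subtype) ≤
      Module.finrank (kk O) (lgcRedV h.chiPartData h.residue_chi)) :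
    2 * Module.finrank K ↥(redKerK (O := O) (conjStable_lgcGroup q M)
        (fun n => muVal (p ^ n)) hA K ⊓ lgcVm K h.chiPartData) ≤
      Module.finrank K (lgcVm K h.chiPartData) :=
  FermatLib.MLT.LGC.two_mul_finrank_redKerK_inf_lgcVm_le hO h.chiPartData h.residue_chi
    h.mem_maximal hpq (conjStable_gamma0 (q * M)) (conjStable_lgcGroup q M) hA hhalf₀

end FermatLib.MLT.LGC

end
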