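import Fermat.Agent.MLT.LGC.LatticeGamma0
import Fermat.Agent.MLT.LGC.HalfEPartHoms
import Fermat.Agent.MLT.LGC.Closure
import Fermat.Agent.Galois.AttachCyclotomic

/-!
# The trace operators on the cuspidal lattice of `Γ₀(L)` lie in the Hecke algebra

With the cyclotomic character `e`, `g + e g • g⁻¹` lies in the span of the Hecke algebra: it does
at good Frobenius elements, so everywhere by density.
-/

set_option autoImplicit false
set_option linter.unusedSectionVars false
set_option linter.style.haveILetI false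

noncomputable section

open CongruenceSubgroup ModularCurve
open scoped MatrixGroups

namespace FermatLib.MLT.LGC.Half

open FermatLib.Modular FermatLib.Galois.DS

local notation "Qbar" => AlgebraicClosure ℚ
local notation "Γℚ" => (AlgebraicClosure ℚ ≃ₐ[ℚ] AlgebraicClosure ℚ)

variable {O : Type} [CommRing O] [IsDomain O] [IsDiscreteValuationRing O]
  [IsAdicComplete (IsLocalRing.maximalIdeal O) O] [Finite (IsLocalRing.ResidueField O)]
  [CharZero O] {p : ℕ} [Fact p.Prime]

/-- The cyclotomic character with values in `O`. -/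
theorem exists_cycloHom (hp : (p : O) ∈ IsLocalRing.maximalIdeal O) :
    ∃ e : Γℚ →* O,
      (∀ l : ℕ, l.Prime → l ≠ p → ∀ P : ValuationSubring Qbar, P.LiesOverPrime l →
        ∀ σ : Γℚ, P.IsFrobeniusAt σ l → e σ = (l : O)) ∧
      ∀ n : ℕ, ∃ H : Subgroup Γℚ, IsOpen (H : Set Γℚ) ∧
        ∀ h ∈ H, e h - 1 ∈ IsLocalRing.maximalIdeal O ^ n := by
  obtain ⟨ι, hι⟩ := FermatLib.Galois.Attach.exists_padicIntHom O hp
  refine ⟨ι.toMonoidHom.comp (FermatLib.Galois.Attach.cycloChar p), fun l hl hlp P hP σ hσ => ?_,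
    fun n => ?_⟩
  · rw [MonoidHom.comp_apply, FermatLib.Galois.Attach.cycloChar_frobenius p hl hlp hP hσ]
    exact map_natCast ι l
  · obtain ⟨E, hE, hfix⟩ := FermatLib.Galois.Attach.exists_finite_level_cycloChar p n
    haveI := hE
    refine ⟨E.fixingSubgroup, IntermediateField.fixingSubgroup_isOpen E, fun h hh => ?_⟩
    show ι (FermatLib.Galois.Attach.cycloChar p h) - 1 ∈ _
    rw [← map_one ι, ← map_sub]
    refine hι n _ ?_
    rw [map_sub, hfix h ((IntermediateField.mem_fixingSubgroup_iff E h).mp hh), map_one, sub_self]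

variable (hp : (p : O) ∈ IsLocalRing.maximalIdeal O) {L N₀ : ℕ} [NeZero L] [NeZero N₀]
  (hC : ConjStable (Gamma0 L) N₀)

variable (O L) in
/-- The span of the Hecke algebra on the cuspidal lattice. -/
def heckeSpan : Subalgebra O (Module.End O (cuspidalHoms O (Gamma0 L) O)) :=
  (Submodule.span O (Set.range (heckeCuspAct L O O))).toSubalgebra
    (Submodule.subset_span ⟨1, map_one _⟩) (fun x y hx hy => by
      have h := Submodule.mul_mem_mul hx hy
      rw [Submodule.span_mul_span] at h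
      refine Submodule.span_mono ?_ h
      rintro _ ⟨_, ⟨s, rfl⟩, _, ⟨t, rfl⟩, rfl⟩
      exact ⟨s * t, map_mul _ s t⟩)

/-- **The trace operators lie in the span of the Hecke algebra.** -/
theorem galCuspO_add_smul_inv_mem (e : Γℚ →* O)
    (hfr : ∀ l : ℕ, l.Prime → l ≠ p → ∀ P : ValuationSubring Qbar, P.LiesOverPrime l →
      ∀ σ : Γℚ, P.IsFrobeniusAt σ l → e σ = (l : O))
    (hlev : ∀ n : ℕ, ∃ H : Subgroup Γℚ, IsOpen (H : Set Γℚ) ∧
      ∀ h ∈ H, e h - 1 ∈ IsLocalRing.maximalIdeal O ^ n) (g : Γℚ) :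
    galCuspO hC hp g + e g • galCuspO hC hp g⁻¹ ∈
      Submodule.span O (Set.range (heckeCuspAct L O O)) := by
  classical
  haveI : Module.Free O (cuspidalHoms O (Gamma0 L) O) :=
    Module.Free.of_equiv (cuspidalHomsEquiv L O O).symm
  obtain ⟨ϖ, hϖ⟩ := IsDiscreteValuationRing.exists_irreducible O
  have hmax : IsLocalRing.maximalIdeal O = Ideal.span {ϖ} := hϖ.maximalIdeal_eq
  obtain ⟨c, hc⟩ : ϖ ∣ (p : O) := Ideal.mem_span_singleton.mp (hmax ▸ hp)
  haveI : Module.Finite O (Module.End O (cuspidalHoms O (Gamma0 L) O)) :=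
    Module.Finite.linearMap ..
  refine Submodule.mem_toSubalgebra.mp (traceOp_mem (B := Module.End O (cuspidalHoms O (Gamma0 L) O)) (ϖ := ϖ) (hmax ▸ Ideal.mem_span_singleton_self ϖ) (galCuspO hC hp) e
    (fun n => ?_) (heckeSpan O L) (L * p).primeFactors (fun l hl hlS P hP σ hσ => ?_) g :)
  · obtain ⟨H₁, hH₁, h1⟩ := galCuspO_level_isOpen hp hC n
    obtain ⟨H₂, hH₂, h2⟩ := hlev n
    refine ⟨H₁ ⊓ H₂, IsOpen.inter hH₁ hH₂, fun h hh => ⟨?_, ?_⟩⟩
    · have h3 := h2 h hh.2
      rw [hmax, Ideal.span_singleton_pow, Ideal.mem_span_singleton] at h3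
      exact h3
    · obtain ⟨b, hb⟩ := h1 h hh.1
      exact ⟨c ^ n • b, by rw [hb, smul_smul, ← mul_pow, ← hc]⟩
  · have hlL : ¬ l ∣ L * p := fun h => hlS
      (Nat.mem_primeFactors.mpr ⟨hl, h, mul_ne_zero (NeZero.ne L) (Fact.out : p.Prime).ne_zero⟩)
    have hlp : l ≠ p := fun h => hlL (h ▸ dvd_mul_left l L)
    refine Submodule.mem_toSubalgebra.mpr ?_
    show galCuspO hC hp σ + e σ • galCuspO hC hp σ⁻¹ ∈ _
    rw [hfr l hl hlp P hP σ hσ, galCuspO_frobenius hp hC ⟨l, hl⟩ hlL hP hσ]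
    exact Submodule.subset_span ⟨_, heckeCuspAct_heckeFormsGen L O O ⟨l, hl⟩⟩

/-- The same over a field. -/
theorem galCuspK_add_smul_inv_mem {K : Type} [Field K] [CharZero K] [Algebra O K] (g : Γℚ) {c : O}
    (h : galCuspO hC hp g + c • galCuspO hC hp g⁻¹ ∈
      Submodule.span O (Set.range (heckeCuspAct L O O))) :
    galCuspK hC hp K g + algebraMap O K c • galCuspK hC hp K g⁻¹ ∈
      Submodule.span K (Set.range (heckeCuspAct L K K)) := by
  obtain ⟨f, hf, hf'⟩ := exists_mem_span_coeffIncl (K := K) h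
  have he : galCuspK hC hp K g + algebraMap O K c • galCuspK hC hp K g⁻¹ = f := by
    refine LinearMap.ext_on_range (span_range_coeffIncl (O := O)) fun x => ?_
    refine Eq.trans ?_ (hf' x)
    show galCuspK hC hp K g (coeffIncl O K L x) +
        algebraMap O K c • galCuspK hC hp K g⁻¹ (coeffIncl O K L x) =
      coeffIncl O K L (galCuspO hC hp g x + c • galCuspO hC hp g⁻¹ x)
    rw [map_add (coeffIncl O K L), map_smul (coeffIncl O K L), coeffIncl_galCuspO,
      coeffIncl_galCuspO, algebraMap_smul]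
  rwa [he]

end FermatLib.MLT.LGC.Half

end
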