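import Fermat.Prelude.Def_ModularCurve_LaurentCoeff
import Mathlib.RingTheory.RootsOfUnity.PrimitiveRoots
import Mathlib.Data.ZMod.Units

/-!
# Twisting Laurent series by roots of unity

`x(t) ↦ ∏ u, x(ζ ^ u t) ^ e u` and its behaviour under automorphisms of the coefficients.
-/

set_option autoImplicit false

noncomputable section

open ModularCurve

namespace FermatLib.MLT.LGC

variable {K K' : Type*} [Field K] [Field K']

theorem support_scaled (ζ : Kˣ) (x : LaurentSeries K) :
    (Function.support fun k : ℤ => ((ζ ^ k : Kˣ) : K) * x.coeff k) = x.support := by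
  ext k
  rw [Function.mem_support, HahnSeries.mem_support, mul_ne_zero_iff]
  exact and_iff_right (Units.ne_zero _)

/-- The substitution `t ↦ ζ t`. -/
def qTwist (ζ : Kˣ) : LaurentSeries K →+* LaurentSeries K where
  toFun x := ⟨fun k => ((ζ ^ k : Kˣ) : K) * x.coeff k, (support_scaled ζ x).symm ▸ x.isPWO_support⟩
  map_one' := by
    ext k
    rcases eq_or_ne k 0 with rfl | hk
    · simp
    · simp [HahnSeries.coeff_one, hk]
  map_zero' := by
    ext k
    simp
  map_add' x y := by
    ext k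
    simp [mul_add]
  map_mul' x y := by
    ext k
    simp only [HahnSeries.coeff_mul]
    rw [Finset.mul_sum]
    refine Finset.sum_congr ?_ fun ij hij => ?_
    · ext ij
      simp only [Finset.mem_antidiagonal, HahnSeries.mem_support, ne_eq, mul_eq_zero,
        Units.ne_zero, false_or]
    · obtain ⟨-, -, hk⟩ := Finset.mem_antidiagonal.mp hij
      rw [← hk, zpow_add, Units.val_mul]
      ring

@[simp]
theorem qTwist_coeff (ζ : Kˣ) (x : LaurentSeries K) (k : ℤ) :
    (qTwist ζ x).coeff k = ((ζ ^ k : Kˣ) : K) * x.coeff k := rfl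

theorem qTwist_C (ζ : Kˣ) (c : K) : qTwist ζ (HahnSeries.C c) = HahnSeries.C c := by
  ext k
  rcases eq_or_ne k 0 with rfl | hk
  · simp
  · simp [HahnSeries.C_apply, HahnSeries.coeff_single_of_ne hk]

theorem coeffMap_qTwist (σ : K →+* K') (ζ : Kˣ) (x : LaurentSeries K) :
    coeffMap σ (qTwist ζ x) = qTwist (Units.map σ.toMonoidHom ζ) (coeffMap σ x) := by
  ext k
  rw [coeffMap_coeff, qTwist_coeff, qTwist_coeff, coeffMap_coeff, map_mul, ← map_zpow]
  rfl

variable {q : ℕ} [NeZero q]

/-- `x ↦ ∏ u, x(ζ ^ u t) ^ e u`. -/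
def twistMul (ζ : Kˣ) (e : (ZMod q)ˣ → ℕ) (x : LaurentSeries K) : LaurentSeries K :=
  ∏ u : (ZMod q)ˣ, qTwist (ζ ^ (u : ZMod q).val) x ^ e u

theorem twistMul_mul (ζ : Kˣ) (e : (ZMod q)ˣ → ℕ) (x y : LaurentSeries K) :
    twistMul ζ e (x * y) = twistMul ζ e x * twistMul ζ e y := by
  simp only [twistMul, map_mul, mul_pow, Finset.prod_mul_distrib]

end FermatLib.MLT.LGC
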