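import Fermat.Agent.MLT.LGC.Hull
import Fermat.Agent.MLT.LGC.TwistSeries
import Fermat.Agent.Igusa.QSeriesFrobenius
import Fermat.Prelude.Def_EllipticCurve_FrobeniusTrace

/-!
# The norm from `q^(1/q)` and Frobenius on normalised residues

If `g (t ^ q) = ∏ u < q, f (ζ ^ u t)` then the normalised residue of `g` is that of the conjugate
of `f` by any Frobenius element at the place.
-/

set_option autoImplicit false
set_option linter.style.haveILetI false

noncomputable section

open ModularCurve AlgebraicCurve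

namespace FermatLib.MLT.LGC

open FermatLib.Igusa.Mono

local notation "Qbar" => AlgebraicClosure ℚ

attribute [local instance 100000] monoLaurentModule monoLaurentSMul

section Twist

variable {L : Type*} [Field L] [CharZero L]

omit [CharZero L] in
theorem qTwist_algebraMap_const (z : Lˣ) (c : L) :
    qTwist z (algebraMap L (LaurentSeries L) c) = algebraMap L (LaurentSeries L) c := by
  rw [algebraMap_laurentSeries_eq_single, ← HahnSeries.C_apply, qTwist_C]

end Twist

variable {q : ℕ} [Fact q.Prime] (A : ValuationSubring Qbar)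

/-- The norm `∏ u < q, x (ζ ^ u t)`. -/
def twistNorm (q : ℕ) (ζ : Qbarˣ) (x : LaurentSeries Qbar) : LaurentSeries Qbar :=
  ∏ u ∈ Finset.range q, qTwist (ζ ^ u) x

omit [Fact q.Prime] in
theorem twistNorm_mul (ζ : Qbarˣ) (x y : LaurentSeries Qbar) :
    twistNorm q ζ (x * y) = twistNorm q ζ x * twistNorm q ζ y := by
  simp only [twistNorm, map_mul, Finset.prod_mul_distrib]

theorem twistNorm_smul (ζ : Qbarˣ) (c : Qbar) (x : LaurentSeries Qbar) :
    twistNorm q ζ (c • x) = c ^ q • twistNorm q ζ x := by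
  simp only [twistNorm, Algebra.smul_def, map_mul, qTwist_algebraMap_const,
    Finset.prod_mul_distrib, Finset.prod_const, Finset.card_range, map_pow]

theorem exists_series_twistNorm (hA : A.LiesOverPrime q) {ζ : Qbarˣ}
    (hζ : IsPrimitiveRoot (ζ : Qbar) q) (y : LaurentSeries A)
    (F : AlgebraicClosure ℚ ≃ₐ[ℚ] AlgebraicClosure ℚ) (hF : A.IsFrobeniusAt F q) :
    ∃ (Y : LaurentSeries A) (y' : LaurentSeries A),
      twistNorm q ζ (coeffMap A.subtype y) = qExpand Qbar q (coeffMap A.subtype Y) ∧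
      coeffMap A.subtype y' = coeffMap (F : Qbar →+* Qbar) (coeffMap A.subtype y) ∧
      coeffMap (IsLocalRing.residue A) Y = coeffMap (IsLocalRing.residue A) y' ∧
      (coeffMap (IsLocalRing.residue A) y' = 0 → coeffMap (IsLocalRing.residue A) y = 0) := by
  classical
  have hqne : q ≠ 0 := (Fact.out : q.Prime).ne_zero
  have hζA : (ζ : Qbar) ∈ A := by
    rcases A.mem_or_inv_mem (ζ : Qbar) with h | h
    · exact h
    · rw [show (ζ : Qbar) = ((ζ : Qbar)⁻¹) ^ (q - 1) by
        rw [inv_pow]
        refine eq_inv_of_mul_eq_one_left ?_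
        rw [← pow_succ', Nat.sub_add_cancel (Nat.one_le_iff_ne_zero.mpr hqne), hζ.pow_eq_one]]
      exact pow_mem h _
  have hzA : (⟨(ζ : Qbar), hζA⟩ : A) ^ q = 1 := Subtype.ext hζ.pow_eq_one
  set z : Aˣ := (IsUnit.of_pow_eq_one hzA hqne).unit with hz
  have hzv : ((z : A) : Qbar) = ζ := rfl
  haveI : CharP (IsLocalRing.ResidueField A) q := by
    obtain ⟨p, hp⟩ := CharP.exists (IsLocalRing.ResidueField A)
    rcases (Nat.dvd_prime Fact.out).mp
      ((CharP.cast_eq_zero_iff _ p q).mp (natCast_residue_eq_zero q A hA)) with rfl | rfl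
    · exact absurd rfl (CharP.char_ne_one (IsLocalRing.ResidueField A) 1)
    · exact hp
  have hz1 : IsLocalRing.residue A (z : A) = 1 := by
    refine frobenius_inj (IsLocalRing.ResidueField A) q ?_
    rw [frobenius_def, frobenius_def, ← map_pow, one_pow]
    rw [show (z : A) ^ q = 1 from hzA, map_one]
  set P : LaurentSeries A := ∏ u ∈ Finset.range q, Igusa.qTwist (z ^ u) y with hP
  have hval : coeffMap A.subtype P = twistNorm q ζ (coeffMap A.subtype y) := by
    rw [hP, twistNorm, map_prod]
    refine Finset.prod_congr rfl fun u _ => ?_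
    ext k
    rw [coeffMap_coeff, Igusa.qTwist_coeff, qTwist_coeff, map_mul, coeffMap_coeff]
    congr 1
    show A.subtype (((z ^ u) ^ k : Aˣ) : A) = (((ζ ^ u) ^ k : Qbarˣ) : Qbar)
    have h : Units.map (A.subtype : A →* Qbar) z = ζ := Units.ext hzv
    rw [← h, ← map_pow, ← map_zpow]
    rfl
  -- invariance under `t ↦ ζ t`
  have hinv : qTwist ζ (coeffMap A.subtype P) = coeffMap A.subtype P := by
    rw [hval, twistNorm, map_prod]
    have hcomp : ∀ (u : ℕ) (x : LaurentSeries Qbar),
        qTwist ζ (qTwist (ζ ^ u) x) = qTwist (ζ ^ (u + 1)) x := fun u x => by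
      ext k
      simp only [qTwist_coeff]
      rw [← mul_assoc, ← Units.val_mul, ← mul_zpow, pow_succ']
    simp only [hcomp]
    obtain ⟨q', rfl⟩ := Nat.exists_eq_succ_of_ne_zero hqne
    rw [Finset.prod_range_succ, Finset.prod_range_succ' (fun u => qTwist (ζ ^ u) _)]
    congr 1
    rw [show ζ ^ (q' + 1) = 1 from Units.ext (by simpa using hζ.pow_eq_one), pow_zero]
  have hsupp : ∀ k : ℤ, ¬ (q : ℤ) ∣ k → P.coeff k = 0 := by
    intro k hk
    have h := congrArg (fun x : LaurentSeries Qbar => x.coeff k) hinv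
    simp only [qTwist_coeff, coeffMap_coeff] at h
    have hne : ((ζ ^ k : Qbarˣ) : Qbar) ≠ 1 := by
      rw [Units.val_zpow_eq_zpow_val]
      exact fun h1 => hk ((hζ.zpow_eq_one_iff_dvd k).mp h1)
    refine Subtype.ext ?_
    by_contra h0
    exact hne (mul_right_cancel₀ (b := A.subtype (P.coeff k)) h0 (by rw [one_mul]; exact h))
  have hbdd : BddBelow (Function.support fun k : ℤ => P.coeff ((q : ℤ) * k)) :=
    ⟨min 0 P.order, fun k hk => by
      by_contra hlt
      rw [not_le, lt_min_iff] at hlt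
      refine hk (HahnSeries.coeff_eq_zero_of_lt_order ?_)
      have hn : (1 : ℤ) ≤ q := by exact_mod_cast Nat.one_le_iff_ne_zero.mpr hqne
      nlinarith [hlt.1, hlt.2]⟩
  set Y : LaurentSeries A := HahnSeries.ofSuppBddBelow _ hbdd
  have hY : qExpand A q Y = P := by
    ext k
    by_cases hd : (q : ℤ) ∣ k
    · obtain ⟨k', rfl⟩ := hd
      rw [qExpand_coeff_mul]
      rfl
    · rw [qExpand_coeff_of_not_dvd q _ hd, hsupp k hd]
  obtain ⟨hFd, hFres⟩ := hF
  set s : A →+* A :=
    (MulSemiringAction.toRingEquiv (A.decompositionSubgroup ℚ) A ⟨F, hFd⟩).toRingHom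
  have hs : ∀ a : A, IsLocalRing.residue A (s a) = IsLocalRing.residue A a ^ q := fun a => by
    rw [← hFres (IsLocalRing.residue A a)]
    rfl
  refine ⟨Y, coeffMap s y, ?_, ?_, ?_, fun h0 => ?_⟩
  · rw [← hval, ← hY, coeffMap_qExpand]
  · rw [coeffMap_coeffMap, coeffMap_coeffMap]
    rfl
  · have hy' : coeffMap (IsLocalRing.residue A) (coeffMap s y) =
        coeffMap (frobenius (IsLocalRing.ResidueField A) q)
          (coeffMap (IsLocalRing.residue A) y) := by
      rw [coeffMap_coeffMap, coeffMap_coeffMap]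
      exact coeffMap_congr (RingHom.ext fun a => by simpa [frobenius_def] using hs a) y
    refine qExpand_injective q ?_
    rw [hy', ← Igusa.pow_char_eq_qExpand, ← coeffMap_qExpand, hY, hP, map_prod,
      Finset.prod_eq_pow_card (b := coeffMap (IsLocalRing.residue A) y), Finset.card_range]
    intro u _
    rw [Igusa.coeffMap_qTwist, show Units.map (IsLocalRing.residue A).toMonoidHom (z ^ u) = 1 from
      Units.ext (by
        show IsLocalRing.residue A ((z : A) ^ u) = 1
        rw [map_pow, hz1, one_pow]), Igusa.qTwist_one]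
  · ext k
    have h1 := congrArg (fun w : LaurentSeries (IsLocalRing.ResidueField A) => w.coeff k) h0
    simp only [coeffMap_coeff, hs, HahnSeries.coeff_zero] at h1 ⊢
    exact pow_eq_zero_iff hqne |>.mp h1

variable (hA : A.LiesOverPrime q) (E : IntermediateField Qbar (LaurentSeries Qbar))

/-- **The norm reduces to Frobenius.** -/
theorem redUnit_eq_of_qExpand_eq_twistNorm {n : ℕ} (hn : n ≠ 0) {ζ : Qbarˣ}
    (hζ : IsPrimitiveRoot (ζ : Qbar) q) {F : AlgebraicClosure ℚ ≃ₐ[ℚ] AlgebraicClosure ℚ}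
    (hF : A.IsFrobeniusAt F q) {f g : seriesHull Qbar}
    (hg : qExpand Qbar q (g : LaurentSeries Qbar) = twistNorm q ζ (f : LaurentSeries Qbar)) :
    redUnit A hA E n g = redUnit A hA E n ⟨coeffMap (F : Qbar →+* Qbar) (f : LaurentSeries Qbar),
      coeffMap_mem_seriesHull _ f.2⟩ := by
  set f' : seriesHull Qbar := ⟨coeffMap (F : Qbar →+* Qbar) (f : LaurentSeries Qbar),
      coeffMap_mem_seriesHull _ f.2⟩
  have hq : q.Prime := Fact.out
  rcases eq_or_ne f 0 with hf | hf
  · have hg0 : g = 0 := Subtype.ext (qExpand_injective q (by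
      rw [hg, hf, ZeroMemClass.coe_zero, map_zero, twistNorm]
      exact Finset.prod_eq_zero (Finset.mem_range.mpr hq.pos) (map_zero _)))
    have hf0 : f' = 0 := Subtype.ext (by simp [f', hf])
    rw [hg0, hf0]
  have hf' : f' ≠ 0 := fun h0 => hf (Subtype.ext ((coeffMap (F : Qbar →+* Qbar)).injective
    ((congrArg Subtype.val h0).trans (map_zero _).symm)))
  have hg0 : g ≠ 0 := fun h0 => hf (by
    rw [h0, ZeroMemClass.coe_zero, map_zero, eq_comm, twistNorm, Finset.prod_eq_zero_iff] at hg
    obtain ⟨u, -, hu⟩ := hg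
    exact Subtype.ext ((map_eq_zero _).mp hu))
  obtain ⟨c, -, h, hu⟩ := exists_hull_scale A hA hf
  obtain ⟨y, z, hyz⟩ := h
  obtain ⟨Y, y', hY, hy', hYy, hy0⟩ := exists_series_twistNorm A hA hζ y F hF
  obtain ⟨Z, z', hZ, hz', hZz, hz0⟩ := exists_series_twistNorm A hA hζ z F hF
  have hyz1 : IsRatio A (IsLocalRing.residue A) (seriesHull Qbar).val (c ^ q • g) Y Z := by
    refine ⟨fun h0 => hyz.red_ne (hz0 (hZz ▸ h0)), qExpand_injective q ?_⟩
    rw [map_mul, ← hY, ← hZ, ← hyz.eq, twistNorm_mul]
    congr 1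
    show qExpand Qbar q (c ^ q • (g : LaurentSeries Qbar)) =
      twistNorm q ζ (c • (f : LaurentSeries Qbar))
    rw [twistNorm_smul, ← hg, Algebra.smul_def, Algebra.smul_def, map_mul]
    congr 1
    rw [algebraMap_laurentSeries_eq_single, qExpand_single, mul_zero]
  have hyz2 : IsRatio A (IsLocalRing.residue A) (seriesHull Qbar).val (F c • f') y' z' := by
    refine ⟨fun h0 => hyz.red_ne (hz0 h0), ?_⟩
    rw [hy', hz', ← hyz.eq, map_mul]
    congr 1
    simp only [f', Algebra.smul_def, map_mul, AlgHom.commutes,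
      algebraMap_laurentSeries_eq_single, coeffMap_single, IntermediateField.coe_val]
    rfl
  have h1 : c ^ q • g ∈ (hullSheet q A hA).W ∧ (hullSheet q A hA).rd (c ^ q • g) = _ :=
    seriesSheet_rd (residue_eq_zero_iff_not_isUnit A) hq
      (natCast_residue_eq_zero q A hA) exists_intSpan_fraction hyz1
  have h2 : F c • f' ∈ (hullSheet q A hA).W ∧ (hullSheet q A hA).rd (F c • f') = _ :=
    seriesSheet_rd (residue_eq_zero_iff_not_isUnit A) hq
      (natCast_residue_eq_zero q A hA) exists_intSpan_fraction hyz2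
  have hrd : (hullSheet q A hA).rd (c ^ q • g) = (hullSheet q A hA).rd (F c • f') :=
    h1.2.trans (by rw [hYy, hZz]; exact h2.2.symm)
  rw [Sheet.rd_of_mem h1.1, Sheet.rd_of_mem h2.1] at hrd
  set a : hullW q A hA := ⟨_, h1.1⟩
  set b : hullW q A hA := ⟨_, h2.1⟩
  have hab : (hullSheet q A hA).red a = (hullSheet q A hA).red b := hrd
  have hres : IsLocalRing.residue (hullW q A hA) a = IsLocalRing.residue (hullW q A hA) b := by
    rw [← sub_eq_zero, ← map_sub, IsLocalRing.residue_eq_zero_iff, IsLocalRing.mem_maximalIdeal,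
      mem_nonunits_iff]
    intro hunit
    refine (hunit.map (hullSheet q A hA).red).ne_zero ?_
    exact (map_sub _ _ _).trans (sub_eq_zero.mpr hab)
  have hyne : coeffMap (IsLocalRing.residue A) y ≠ 0 := by
    have h3 := seriesSheet_rd (residue_eq_zero_iff_not_isUnit A) hq
      (natCast_residue_eq_zero q A hA) exists_intSpan_fraction hyz
    intro h0
    rw [h0, zero_div, Sheet.rd_of_mem h3.1] at h3
    exact (hu.map (hullSheet q A hA).red).ne_zero h3.2
  have hub : IsUnit b := by
    refine (hullSheet q A hA).isUnit_of_red_ne b ?_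
    have e : (hullSheet q A hA).red b = _ := (Sheet.rd_of_mem h2.1).symm.trans h2.2
    rw [e, div_ne_zero_iff]
    exact ⟨fun h0 => hyne (hy0 h0), fun h0 => hyz.red_ne (hz0 h0)⟩
  have hua : IsUnit a := by
    rw [← IsLocalRing.notMem_maximalIdeal, ← IsLocalRing.residue_eq_zero_iff, hres,
      IsLocalRing.residue_eq_zero_iff, IsLocalRing.notMem_maximalIdeal]
    exact hub
  rw [redUnit_eq A hA E hn hg0 hua.unit (congrArg Subtype.val hua.unit_spec),
    redUnit_eq A hA E hn hf' hub.unit (congrArg Subtype.val hub.unit_spec)]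
  exact congrArg Additive.ofMul (congrArg QuotientGroup.mk (Units.ext hres))

end FermatLib.MLT.LGC

end
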