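import Fermat.Prelude.Def_ModularCurve_PeriodMap
import Mathlib.GroupTheory.Finiteness
import Mathlib.LinearAlgebra.FreeModule.PID
import Mathlib.LinearAlgebra.LinearIndependent.BaseChange
import Mathlib.LinearAlgebra.Dimension.Free
import Mathlib.RingTheory.Finiteness.Defs

/-!
# A dual basis for parabolic homomorphisms with torsion-free values

For a finitely generated `Γ` the parabolic homomorphisms to a torsion-free group `A` are `A ^ r`,
naturally in `A`, by evaluation at fixed elements of `Γ`.
-/

set_option autoImplicit false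
set_option linter.unusedSectionVars false

noncomputable section

open ModularCurve
open scoped MatrixGroups

namespace FermatLib.MLT.LGC

section Maps

variable {R : Type*} [Semiring R] {S : Type*} [Semiring S] {Γ : Subgroup SL(2, ℤ)}
  {A B C : Type*} [AddCommGroup A] [AddCommGroup B] [AddCommGroup C] [Module R A] [Module S B]

/-- Composition with a map of values. -/
def parPush (g : A →+ B) : Period.parabolicHoms R Γ A →+ Period.parabolicHoms S Γ B where
  toFun φ := ⟨g.comp φ.1, Period.mem_parabolicHoms_iff.mpr fun γ hγ => by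
    rw [AddMonoidHom.comp_apply, Period.mem_parabolicHoms_iff.mp φ.2 γ hγ, map_zero]⟩
  map_zero' := Subtype.ext (AddMonoidHom.ext fun _ => map_zero g)
  map_add' _ _ := Subtype.ext (AddMonoidHom.ext fun _ => map_add g _ _)

end Maps

section Eval

variable (Γ : Subgroup SL(2, ℤ))

/-- Evaluation at integral parabolic homomorphisms. -/
def parEval : Additive Γ →+ (Period.parabolicHoms ℤ Γ ℤ → ℤ) where
  toFun g φ := φ.1 g
  map_zero' := funext fun φ => map_zero φ.1
  map_add' x y := funext fun φ => map_add φ.1 x y

theorem parEval_parabolic {γ : Γ}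
    (h : ((γ : SL(2, ℤ)) : Matrix (Fin 2) (Fin 2) ℤ).trace ^ 2 = 4) :
    parEval Γ (Additive.ofMul γ) = 0 :=
  funext fun φ => Period.mem_parabolicHoms_iff.mp φ.2 γ h

variable [Group.FG Γ]

theorem finite_parEval_range : Module.Finite ℤ (parEval Γ).range :=
  Module.Finite.iff_addGroup_fg.mpr inferInstance

theorem free_parEval_range : Module.Free ℤ (parEval Γ).range :=
  have := finite_parEval_range Γ
  inferInstance

/-- The rank of the parabolic homomorphisms of `Γ` with torsion-free values. -/
def parRank : ℕ := Module.finrank ℤ (parEval Γ).range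

/-- A basis of the image of evaluation. -/
def parRangeBasis : Module.Basis (Fin (parRank Γ)) ℤ (parEval Γ).range :=
  have := finite_parEval_range Γ
  have := free_parEval_range Γ
  Module.finBasis ℤ _

/-- The elements at which one evaluates. -/
def parElt (i : Fin (parRank Γ)) : Γ :=
  Additive.toMul ((parEval Γ).rangeRestrict_surjective (parRangeBasis Γ i)).choose

theorem rangeRestrict_parElt (i : Fin (parRank Γ)) :
    (parEval Γ).rangeRestrict (Additive.ofMul (parElt Γ i)) = parRangeBasis Γ i :=
  ((parEval Γ).rangeRestrict_surjective (parRangeBasis Γ i)).choose_spec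

/-- The integral parabolic homomorphisms dual to `parElt`. -/
def parDual (i : Fin (parRank Γ)) : Additive Γ →+ ℤ :=
  ((parRangeBasis Γ).coord i).toAddMonoidHom.comp (parEval Γ).rangeRestrict

theorem parDual_parabolic (i : Fin (parRank Γ)) : Period.IsParabolicHom Γ (parDual Γ i) :=
  fun γ hγ => by
    have h0 : (parEval Γ).rangeRestrict (Additive.ofMul γ) = 0 :=
      Subtype.ext (parEval_parabolic Γ hγ)
    simp [parDual, h0]

theorem parDual_parElt (i j : Fin (parRank Γ)) :
    parDual Γ i (Additive.ofMul (parElt Γ j)) = if i = j then 1 else 0 := by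
  simp [parDual, rangeRestrict_parElt, Finsupp.single_apply, eq_comm]

variable {Γ} {A : Type*} [AddCommGroup A] [IsAddTorsionFree A]

/-- A parabolic homomorphism with torsion-free values kills what every integral one kills. -/
theorem apply_eq_zero_of_parEval_eq_zero {φ : Additive Γ →+ A} (hφ : Period.IsParabolicHom Γ φ)
    {g : Additive Γ} (hg : parEval Γ g = 0) : φ g = 0 := by
  have : Module.Finite ℤ φ.range := Module.Finite.iff_addGroup_fg.mpr inferInstance
  set b := Module.Free.chooseBasis ℤ φ.range
  suffices h : φ.rangeRestrict g = 0 from congrArg Subtype.val h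
  refine b.ext_elem fun i => ?_
  rw [map_zero, Finsupp.zero_apply]
  let ψ : Period.parabolicHoms ℤ Γ ℤ := ⟨(b.coord i).toAddMonoidHom.comp φ.rangeRestrict,
    Period.mem_parabolicHoms_iff.mpr fun γ hγ => by
      have h0 : φ.rangeRestrict (Additive.ofMul γ) = 0 := Subtype.ext (hφ γ hγ)
      simp [h0]⟩
  exact congrFun hg ψ

/-- A parabolic homomorphism is expanded in its values at `parElt`. -/
theorem eq_sum_parDual {φ : Additive Γ →+ A} (hφ : Period.IsParabolicHom Γ φ) (g : Additive Γ) :
    φ g = ∑ i, parDual Γ i g • φ (Additive.ofMul (parElt Γ i)) := by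
  let Φ : Additive Γ →+ (Period.parabolicHoms ℤ Γ ℤ → ℤ) × A := (parEval Γ).prod φ
  have hmem : Φ g - ∑ i, parDual Γ i g • Φ (Additive.ofMul (parElt Γ i)) ∈ Φ.range :=
    sub_mem (show Φ g ∈ Φ.range from ⟨g, rfl⟩)
      (sum_mem fun i _ => zsmul_mem (show Φ _ ∈ Φ.range from ⟨_, rfl⟩) _)
  obtain ⟨x, hx⟩ := hmem
  have hrep := congrArg Subtype.val
    ((parRangeBasis Γ).sum_repr ((parEval Γ).rangeRestrict g))
  have h1 : parEval Γ g = ∑ i, parDual Γ i g • parEval Γ (Additive.ofMul (parElt Γ i)) := by
    rw [AddSubgroup.val_finsetSum] at hrep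
    refine hrep.symm.trans (Finset.sum_congr rfl fun i _ => ?_)
    rw [AddSubgroup.coe_zsmul, ← rangeRestrict_parElt]
    rfl
  have hx0 : parEval Γ x = 0 := by
    have := congrArg Prod.fst hx
    simp only [Φ, AddMonoidHom.prod_apply, Prod.fst_sub, Prod.fst_sum, Prod.smul_fst] at this
    rw [this, ← h1, sub_self]
  have h2 := congrArg Prod.snd hx
  simp only [Φ, AddMonoidHom.prod_apply, Prod.snd_sub, Prod.snd_sum, Prod.smul_snd] at h2
  rw [apply_eq_zero_of_parEval_eq_zero hφ hx0] at h2
  exact sub_eq_zero.mp h2.symm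

variable (Γ) (R : Type*) [Semiring R] (A) [Module R A]

/-- `Hom_par(Γ, A) ≅ A ^ r` for torsion-free `A`. -/
def parEquiv : Period.parabolicHoms R Γ A ≃ₗ[R] (Fin (parRank Γ) → A) where
  toFun φ i := φ.1 (Additive.ofMul (parElt Γ i))
  map_add' _ _ := rfl
  map_smul' _ _ := rfl
  invFun v := ⟨∑ i, (zmultiplesHom A (v i)).comp (parDual Γ i), by
    rw [Period.mem_parabolicHoms_iff]
    intro γ hγ
    rw [AddMonoidHom.finsetSum_apply]
    refine Finset.sum_eq_zero fun i _ => ?_
    rw [AddMonoidHom.comp_apply, parDual_parabolic Γ i γ hγ, map_zero]⟩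
  left_inv φ := by
    refine Subtype.ext (AddMonoidHom.ext fun g => ?_)
    simp only [AddMonoidHom.finsetSum_apply, AddMonoidHom.comp_apply, zmultiplesHom_apply]
    exact (eq_sum_parDual (Period.mem_parabolicHoms_iff.mp φ.2) g).symm
  right_inv v := by
    funext i
    simp [AddMonoidHom.finsetSum_apply, parDual_parElt]

theorem parEquiv_apply (φ : Period.parabolicHoms R Γ A) (i : Fin (parRank Γ)) :
    parEquiv Γ A R φ i = φ.1 (Additive.ofMul (parElt Γ i)) := rfl

end Eval

section Extend

variable {O : Type*} [CommRing O] [IsDomain O] [CharZero O] {K : Type*} [Field K] [CharZero K]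
  [Algebra O K] {Γ Γ' : Subgroup SL(2, ℤ)}

variable (O K Γ) in
/-- The lattice of parabolic homomorphisms with values in `O` inside those with values in `K`. -/
def latK : Period.parabolicHoms O Γ O →ₛₗ[algebraMap O K] Period.parabolicHoms K Γ K where
  toFun := parPush (algebraMap O K).toAddMonoidHom
  map_add' := map_add _
  map_smul' c φ := Subtype.ext (AddMonoidHom.ext fun γ => map_mul (algebraMap O K) c (φ.1 γ))

theorem latK_apply (φ : Period.parabolicHoms O Γ O) (γ : Additive Γ) :
    (latK O K Γ φ).1 γ = algebraMap O K (φ.1 γ) := rfl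

theorem latK_injective (hO : Function.Injective (algebraMap O K)) :
    Function.Injective (latK O K Γ) := fun _ _ h =>
  Subtype.ext (AddMonoidHom.ext fun γ => hO (DFunLike.congr_fun (congrArg Subtype.val h) γ))

variable [Group.FG Γ] [Group.FG Γ']

variable (Γ O) in
/-- The basis of the lattice dual to `parElt`. -/
def latBasis : Module.Basis (Fin (parRank Γ)) O (Period.parabolicHoms O Γ O) :=
  Module.Basis.ofEquivFun (parEquiv Γ O O)

theorem latK_latBasis (i : Fin (parRank Γ)) :
    latK O K Γ (latBasis O Γ i) = latBasis K Γ i := by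
  classical
  refine (parEquiv Γ K K).injective (funext fun j => ?_)
  simp only [latBasis, Module.Basis.coe_ofEquivFun, parEquiv_apply, latK_apply]
  rw [← parEquiv_apply Γ O O, LinearEquiv.apply_symm_apply, ← parEquiv_apply Γ K K,
    LinearEquiv.apply_symm_apply]
  rcases eq_or_ne j i with rfl | h
  · simp
  · simp [h]

/-- The lattice spans. -/
theorem span_range_latK : Submodule.span K (Set.range (latK O K Γ)) = ⊤ := by
  refine top_le_iff.mp ((latBasis K Γ).span_eq.ge.trans (Submodule.span_mono ?_))
  rintro _ ⟨i, rfl⟩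
  exact ⟨_, latK_latBasis i⟩

/-- Linear maps on the spaces agree if they agree on the lattices. -/
theorem ext_latK {V : Type*} [AddCommGroup V] [Module K V]
    {T T' : Period.parabolicHoms K Γ K →ₗ[K] V}
    (h : ∀ x, T (latK O K Γ x) = T' (latK O K Γ x)) : T = T' :=
  LinearMap.ext_on span_range_latK (by rintro _ ⟨x, rfl⟩; exact h x)

variable (K) in
/-- The extension of a map of lattices. -/
def latExt (T : Period.parabolicHoms O Γ O →ₗ[O] Period.parabolicHoms O Γ' O) :
    Period.parabolicHoms K Γ K →ₗ[K] Period.parabolicHoms K Γ' K :=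
  (latBasis K Γ).constr K fun i => latK O K Γ' (T (latBasis O Γ i))

omit [Group.FG Γ'] in
theorem latExt_latK (T : Period.parabolicHoms O Γ O →ₗ[O] Period.parabolicHoms O Γ' O)
    (x : Period.parabolicHoms O Γ O) : latExt K T (latK O K Γ x) = latK O K Γ' (T x) := by
  have h : (latExt K T).comp (latK O K Γ) = (latK O K Γ').comp T :=
    (latBasis O Γ).ext fun i => by
      rw [LinearMap.comp_apply, LinearMap.comp_apply, latK_latBasis, latExt, Module.Basis.constr_basis]
  exact LinearMap.congr_fun h x

end Extend

end FermatLib.MLT.LGC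

end
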