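import Fermat.Agent.MLT.LGC.LatticeTransfer
import Fermat.Agent.MLT.LGC.TwistLgcGal
import Fermat.Agent.MLT.LGC.HalfGalois
import Fermat.Agent.Modular.HeckeParabolic
import Fermat.Agent.Modular.LevelRaising.Maps
import Fermat.Agent.Modular.Kummer.Conjugation

/-!
# Galois on the lattice of parabolic homomorphisms of `Γ₀(N)`

* `galO_complexConj`, `galK_complexConj`: complex conjugation is minus the involution;
* `galO_frobenius`: `σ + l σ⁻¹ = T l` at a Frobenius element over a good `l`;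
* `galK_degTransfer`, `coe_parTransfer_degSystem`: corestriction `Γ₀(N q) → Γ₀(N)`;
* `galO_level_isOpen`: modulo `pⁿ` the action factors through a finite quotient;
* the same on cuspidal homomorphisms (`galCuspO`, `galCuspK`).
-/

set_option autoImplicit false
set_option linter.unusedSectionVars false

noncomputable section

open UpperHalfPlane hiding I
open CongruenceSubgroup ModularCurve AlgebraicCurve
open scoped MatrixGroups Manifold

namespace FermatLib.MLT.LGC

open FermatLib.Modular FermatLib.Modular.Kummer FermatLib.Modular.Corr FermatLib.Galois.DS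

local notation "Γℚ" => (AlgebraicClosure ℚ ≃ₐ[ℚ] AlgebraicClosure ℚ)
local notation "Qbar" => AlgebraicClosure ℚ
local notation "M2Z" => Matrix (Fin 2) (Fin 2) ℤ

/-- `Γ₀(L)` is stable at every level `20 L'`, `L ∣ L'`. -/
theorem conjStable_gamma0_of_dvd {L L' : ℕ} [NeZero L'] (h : L ∣ L') :
    ConjStable (Gamma0 L) (20 * L') where
  gamma1_le γ hγ := by
    rw [Gamma1_mem] at hγ
    rw [Gamma0_mem]
    simpa using congrArg (ZMod.castHom (h.trans (dvd_mul_left L' 20)) (ZMod L)) hγ.2.2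
  neg_one_mem := by simp [Gamma0_mem]
  base := Or.inl (dvd_mul_of_dvd_left (by norm_num) L')
  five_le := by have := NeZero.pos L'; omega
  conj_mem s _ γ γ' hc hγ := by
    rw [Gamma0_mem] at hγ ⊢
    have := congrArg (ZMod.castHom (h.trans (dvd_mul_left L' 20)) (ZMod L)) hc.2.2.1
    rwa [map_mul, map_intCast, map_intCast, map_intCast, hγ, mul_zero] at this

variable {O : Type} [CommRing O] [IsDomain O] [IsDiscreteValuationRing O]
  [IsAdicComplete (IsLocalRing.maximalIdeal O) O] [Finite (IsLocalRing.ResidueField O)]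
  [CharZero O] {p : ℕ} [Fact p.Prime] (hp : (p : O) ∈ IsLocalRing.maximalIdeal O)
  {K : Type} [Field K] [CharZero K] [Algebra O K]
include hp

section Lattice

variable {Γ : Subgroup SL(2, ℤ)} {M : ℕ} [NeZero M] (hC : ConjStable Γ M)

/-- **Modulo `pⁿ` the action factors through a finite quotient.** -/
theorem galO_level_isOpen (n : ℕ) : ∃ H : Subgroup Γℚ, IsOpen (H : Set Γℚ) ∧
    ∀ h ∈ H, ∃ b : Module.End O (Period.parabolicHoms O Γ O),
      galO hC hp h - 1 = (p : O) ^ n • b := by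
  haveI := fg_of_conjStable hC
  obtain ⟨L, hL, hfix⟩ := galO_finiteLevel hC hp n
  haveI := hL
  refine ⟨L.fixingSubgroup, IntermediateField.fixingSubgroup_isOpen L, fun h hh => ?_⟩
  choose y hy using fun i => hfix h ((IntermediateField.mem_fixingSubgroup_iff L h).mp hh)
    (latBasis O Γ i)
  refine ⟨(latBasis O Γ).constr O y, (latBasis O Γ).ext fun i => ?_⟩
  rw [LinearMap.sub_apply, Module.End.one_apply, hy, LinearMap.smul_apply,
    Module.Basis.constr_basis, Nat.cast_pow]

end Lattice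

section Gamma0

variable {N : ℕ} [NeZero N] {M : ℕ} [NeZero M] (hC : ConjStable (Gamma0 N) M)
include hC

omit hp in
/-- Complex conjugation on restricted classes of level `N`. -/
theorem rootRep_complexConj_resRoot {n : ℕ} [NeZero n]
    (φ : cuspidalHoms ℤ (Gamma0 N) (muC n)) (γ : Gamma0 N) :
    (rootRep hC n complexConjugation (resRoot le_rfl φ)).1 (Additive.ofMul γ) =
      -φ.1 (Additive.ofMul (Period.jConjGamma0 N γ)) := by
  obtain ⟨y, rfl⟩ := (kummerEquiv N n).surjective φ
  rw [rootRep_resRoot hC le_rfl, resRoot_apply]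
  exact kummerEquiv_complexConj y γ

/-- **Complex conjugation is minus the involution.** -/
theorem galO_complexConj (x : Period.parabolicHoms O (Gamma0 N) O) :
    galO hC hp complexConjugation x = -involParOp O O N x := by
  refine galO_eq hC hp _ fun n f => ?_
  let φ : cuspidalHoms ℤ (Gamma0 N) (muC (p ^ n)) :=
    ⟨((muVal (p ^ n)).toAddMonoidHom.comp f).comp x.1,
      (isCuspidalHom_of_isParabolicHom (Period.mem_parabolicHoms_iff.mp x.2)).comp _⟩
  have hφ : valRoot f x = resRoot le_rfl φ :=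
    Subtype.ext (AddMonoidHom.ext fun γ => rfl)
  refine Subtype.ext (AddMonoidHom.ext fun γ => ?_)
  refine Eq.trans (congrArg (fun z => (rootRep hC (p ^ n) complexConjugation z).1 γ) hφ) ?_
  refine (rootRep_complexConj_resRoot hC φ γ.toMul).trans ?_
  rw [valRoot_apply]
  show -(muVal (p ^ n) (f (x.1 (Additive.ofMul (Period.jConjGamma0 N γ.toMul))))) =
    muVal (p ^ n) (f (-(x.1 (Additive.ofMul (Period.jConjGamma0 N γ.toMul)))))
  rw [map_neg, map_neg]

/-- Complex conjugation over `K`. -/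
theorem galK_complexConj (y : Period.parabolicHoms K (Gamma0 N) K) :
    galK K hC hp complexConjugation y = -involParOp K K N y := by
  refine LinearMap.congr_fun (galK_eq_of_latK hC hp (T := -involParOp K K N) fun x => ?_) y
  rw [galO_complexConj hp hC, LinearMap.neg_apply, map_neg]
  exact congrArg Neg.neg (Subtype.ext (AddMonoidHom.ext fun γ => rfl))

/-- **The relation at good Frobenius elements.** -/
theorem galO_frobenius (l : Nat.Primes) (hl : ¬ (l : ℕ) ∣ N * p) {P : ValuationSubring Qbar}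
    (hP : P.LiesOverPrime l) {σ : Γℚ} (hσ : P.IsFrobeniusAt σ l)
    (x : Period.parabolicHoms O (Gamma0 N) O) :
    galO hC hp σ x + ((l : ℕ) : O) • galO hC hp σ⁻¹ x = heckeParOp O O N l x := by
  have hcancel : ∀ z, galO hC hp σ⁻¹ (galO hC hp σ z) = z := fun z => by
    rw [← Module.End.mul_apply, ← map_mul, inv_mul_cancel, map_one, Module.End.one_apply]
  let y : cuspidalHoms O (Gamma0 N) O :=
    ⟨x.1, isCuspidalHom_of_isParabolicHom (Period.mem_parabolicHoms_iff.mp x.2)⟩
  have h1 : resCusp (le_refl (Gamma0 N)) y = x := Subtype.ext (AddMonoidHom.ext fun γ => rfl)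
  have h2 : resCusp (le_refl (Gamma0 N)) (cuspHeckeLin l y) = heckeParOp O O N l x :=
    Subtype.ext (AddMonoidHom.ext fun γ => rfl)
  have h := gal_frobenius_resCusp (le_refl (Gamma0 N)) (isRootGalois_galO hC hp)
    (muSeparates_of_finite_residueField hp) l hl hP hσ y
  rw [h1, h2] at h
  have h3 := congrArg (galO hC hp σ⁻¹) h
  rw [map_add, map_sub, map_smul, hcancel, hcancel, map_zero] at h3
  exact sub_eq_zero.mp (by rw [← h3]; abel)

/-- Complex conjugation on cuspidal homomorphisms. -/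
theorem galCuspK_complexConj (φ : cuspidalHoms K (Gamma0 N) K) :
    Half.galCuspK hC hp K complexConjugation φ = -involCuspOp K K N φ := by
  rw [Half.galCuspK_apply, galK_complexConj hp hC]
  exact Subtype.ext rfl

/-- The relation at good Frobenius elements on the cuspidal lattice. -/
theorem galCuspO_frobenius (l : Nat.Primes) (hl : ¬ (l : ℕ) ∣ N * p)
    {P : ValuationSubring Qbar} (hP : P.LiesOverPrime l) {σ : Γℚ} (hσ : P.IsFrobeniusAt σ l) :
    Half.galCuspO hC hp σ + ((l : ℕ) : O) • Half.galCuspO hC hp σ⁻¹ = heckeCuspOp O O N l :=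
  LinearMap.ext fun φ => Subtype.ext (congrArg Subtype.val
    (galO_frobenius hp hC l hl hP hσ ((Half.parCuspEquiv O).symm φ)) :)

/-- Modulo `pⁿ` the action on the cuspidal lattice factors through a finite quotient. -/
theorem galCuspO_level_isOpen (n : ℕ) : ∃ H : Subgroup Γℚ, IsOpen (H : Set Γℚ) ∧
    ∀ h ∈ H, ∃ b : Module.End O (cuspidalHoms O (Gamma0 N) O),
      Half.galCuspO hC hp h - 1 = (p : O) ^ n • b := by
  obtain ⟨H, hH, hb⟩ := galO_level_isOpen hp hC n
  refine ⟨H, hH, fun h hh => ?_⟩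
  obtain ⟨b, hb⟩ := hb h hh
  refine ⟨(Half.parCuspEquiv O).conjAlgEquiv O b, ?_⟩
  exact LinearMap.ext fun φ => Subtype.ext
    (congrArg Subtype.val (LinearMap.congr_fun hb ((Half.parCuspEquiv O).symm φ)) :)

end Gamma0

section Degeneracy

open Degeneracy

variable (N q : ℕ) [NeZero N] [NeZero q]

attribute [local instance] cosetFintype

omit hp in
theorem out_inv_mul (γ : SL(2, ℤ)) (i : SL(2, ℤ) ⧸ Gamma0 (N * q)) :
    i.out⁻¹ * γ = Residue.cosetElt (Gamma0 (N * q)) γ (γ⁻¹ • i) * ((γ⁻¹ • i).out)⁻¹ := by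
  simp only [Residue.cosetElt, smul_inv_smul]
  group

omit hp in
/-- The cosets of `Γ₀(N q)` in `Γ₀(N)` as a coset system. -/
def degSystem : CosetSystem (Gamma0 N) (Gamma0 (N * q))
    {i : SL(2, ℤ) ⧸ Gamma0 (N * q) // i ∈ Residue.cosetsIn (Gamma0 (N * q)) (Gamma0 N)} where
  rep i := ((i.1.out⁻¹ : SL(2, ℤ)) : M2Z)
  det_ne_zero i := by rw [Matrix.SpecialLinearGroup.det_coe]; exact one_ne_zero
  eq_of_mul_rep i j h hh e := by
    have hm : h ∈ Gamma0 (N * q) := hh.elim id fun hn => by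
      simpa [Gamma0_mem] using hn
    rw [← Matrix.SpecialLinearGroup.coe_mul] at e
    have e' : h * i.1.out⁻¹ = j.1.out⁻¹ := Subtype.ext e
    refine Subtype.ext ?_
    rw [← QuotientGroup.out_eq' i.1, ← QuotientGroup.out_eq' j.1, QuotientGroup.eq]
    have : i.1.out⁻¹ * j.1.out = h⁻¹ := by
      rw [← inv_inv j.1.out, ← e']
      group
    rw [this]
    exact Subgroup.inv_mem _ hm
  exists_mul_eq i γ :=
    ⟨⟨(γ : SL(2, ℤ))⁻¹ • i.1, (Residue.smul_mem_cosetsIn (Gamma0_mul_le_left N q)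
        (Subgroup.inv_mem _ γ.2)).mpr i.2⟩,
      ⟨Residue.cosetElt (Gamma0 (N * q)) (γ : SL(2, ℤ)) ((γ : SL(2, ℤ))⁻¹ • i.1),
        Residue.cosetElt_mem _ _ _⟩, by
      rw [← Matrix.SpecialLinearGroup.coe_mul, ← Matrix.SpecialLinearGroup.coe_mul,
        out_inv_mul N q]⟩

omit hp in
theorem degSystem_cover (x : SL(2, ℤ)) (hx : x ∈ Gamma0 N) :
    ∃ i : {i : SL(2, ℤ) ⧸ Gamma0 (N * q) //
      i ∈ Residue.cosetsIn (Gamma0 (N * q)) (Gamma0 N)},
      x * (i.1.out⁻¹)⁻¹ ∈ Gamma0 (N * q) := by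
  refine ⟨⟨(x⁻¹ : SL(2, ℤ)), (Residue.mk_mem_cosetsIn (Gamma0_mul_le_left N q)).mpr
    (Subgroup.inv_mem _ hx)⟩, ?_⟩
  have h := QuotientGroup.eq.mp
    (QuotientGroup.out_eq' ((x⁻¹ : SL(2, ℤ)) : SL(2, ℤ) ⧸ Gamma0 (N * q))).symm
  simpa using h

/-- The transfer along `degSystem` is `degCores`. -/
theorem coe_parTransfer_degSystem {R : Type*} [CommRing R] {A : Type*} [AddCommGroup A]
    [Module R A] (φ : Period.parabolicHoms R (Gamma0 (N * q)) A) :
    (parTransfer (degSystem N q) R A φ).1 = degCores N q R A φ.1 := by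
  classical
  refine AddMonoidHom.ext fun γ => ?_
  obtain ⟨γ, rfl⟩ := Additive.ofMul.surjective γ
  rw [parTransfer_apply, degCores_apply, Residue.coresHom,
    ← Finset.sum_coe_sort (Residue.cosetsIn (Gamma0 (N * q)) (Gamma0 N))]
  refine Finset.sum_equiv (Equiv.ofBijective _ ((degSystem N q).next_bijective γ)) (by simp)
    fun i _ => ?_
  have h := (degSystem N q).next_elt_eq_of_eq (γ := γ) (i := i)
    (h := ⟨Residue.cosetElt (Gamma0 (N * q)) (γ : SL(2, ℤ)) ((γ : SL(2, ℤ))⁻¹ • i.1),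
      Residue.cosetElt_mem _ _ _⟩)
    (j := ⟨(γ : SL(2, ℤ))⁻¹ • i.1, (Residue.smul_mem_cosetsIn (Gamma0_mul_le_left N q)
      (Subgroup.inv_mem _ γ.2)).mpr i.2⟩) (by
      show ((i.1.out⁻¹ : SL(2, ℤ)) : M2Z) * _ = _ * (((_ : SL(2, ℤ))⁻¹ : SL(2, ℤ)) : M2Z)
      rw [← Matrix.SpecialLinearGroup.coe_mul, ← Matrix.SpecialLinearGroup.coe_mul,
        out_inv_mul N q])
  rw [Equiv.ofBijective_apply, h.1, h.2, extFun_of_mem _ (Residue.cosetElt_mem _ _ _)]

variable {M₁ M₂ : ℕ} [NeZero M₁] [NeZero M₂] (hC₁ : ConjStable (Gamma0 (N * q)) M₁)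
  (hC₂ : ConjStable (Gamma0 N) M₂)

/-- Galois commutes with corestriction over `K`. -/
theorem galK_degTransfer (σ : Γℚ) (y : Period.parabolicHoms K (Gamma0 (N * q)) K) :
    galK K hC₂ hp σ (parTransfer (degSystem N q) K K y) =
      parTransfer (degSystem N q) K K (galK K hC₁ hp σ y) :=
  haveI : NeZero (N * q) := ⟨mul_ne_zero (NeZero.ne N) (NeZero.ne q)⟩
  galK_parTransfer (degSystem N q) hp (conjStable_gamma0_of_dvd (dvd_refl (N * q)))
    (conjStable_gamma0_of_dvd (dvd_mul_right N q)) hC₁ hC₂ (fun i => i.1.out⁻¹) (fun _ => rfl)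
    (fun i => Subgroup.inv_mem _ (Residue.mem_cosetsIn.mp i.2))
    (degSystem_cover N q) σ y

/-- **Galois commutes with restriction after corestriction.** -/
theorem commute_galCuspK_res_cores [NeZero (N * q)] [Fact (Nat.Coprime q N)] (σ : Γℚ) :
    Commute (Half.galCuspK hC₁ hp K σ)
      (LevelRaising.cuspRes N q K ∘ₗ LevelRaising.cuspCores N q K) := by
  refine LinearMap.ext fun φ => Subtype.ext ?_
  set x := (Half.parCuspEquiv K).symm φ
  have hx : ∀ y : Period.parabolicHoms K (Gamma0 (N * q)) K,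
      (parRes K K (Gamma0_mul_le_left N q) (parTransfer (degSystem N q) K K y)).1 =
        degRes N q K K (degCores N q K K y.1) := fun y => by
    rw [← coe_parTransfer_degSystem hp]
    rfl
  have h := congrArg Subtype.val
    (galK_parRes (conjStable_gamma0_of_dvd (L := N) (L' := N) dvd_rfl) hC₁ hp
      (Gamma0_mul_le_left N q) σ (parTransfer (degSystem N q) K K x))
  rw [galK_degTransfer hp N q hC₁ (conjStable_gamma0_of_dvd dvd_rfl), hx] at h
  rw [Module.End.mul_apply, Module.End.mul_apply, LinearMap.comp_apply, LinearMap.comp_apply,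
    Half.galCuspK_apply]
  simp only [LevelRaising.coe_cuspRes, LevelRaising.coe_cuspCores, Half.coe_parCuspEquiv]
  rw [Half.galCuspK_apply, Half.coe_parCuspEquiv, ← h]
  refine congrArg (fun z => ((galK K hC₁ hp σ) z).1) (Subtype.ext ?_)
  rw [Half.coe_parCuspEquiv_symm, hx]
  rfl

end Degeneracy

end FermatLib.MLT.LGC

end
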