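import Fermat.Agent.MLT.LGC.TwistShift
import Fermat.Agent.Igusa.MonoNormSeries
import Fermat.Agent.Modular.JScale

/-!
# Transfer of root classes along coset systems

If an `n`-th root of `g` transforms by `φ` on `Γ`, then an `n`-th root of `∏ i, g (α i τ) ^ e i`
transforms by the transfer of `φ` along the coset system `(α i)` with weights `e`.  This covers
Hecke operators, degeneracy maps, diamonds and twists.  The expansions at `∞` of the products for
`T l` and `U q` are norm series.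
-/

set_option autoImplicit false

noncomputable section

open UpperHalfPlane hiding I
open CongruenceSubgroup ModularCurve Filter
open scoped MatrixGroups Manifold ModularForm

namespace FermatLib.MLT.LGC

open FermatLib.Modular FermatLib.Modular.Corr

local notation "M2Z" => Matrix (Fin 2) (Fin 2) ℤ
local notation "Δ" => ModularForm.discriminant

/-- `τ ↦ g (α τ)`. -/
def matFn (α : M2Z) (g : ℍ → ℂ) : ℍ → ℂ := fun τ => g (glOfInt α • τ)

theorem mdifferentiable_matFn {α : M2Z} (hα : 0 < α.det) {g : ℍ → ℂ} (hg : MDiff g) :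
    MDiff (matFn α g) :=
  hg.comp (UpperHalfPlane.mdifferentiable_smul (det_glOfInt_pos hα))

theorem matFn_ne_zero {α : M2Z} {g : ℍ → ℂ} (hg : g ≠ 0) : matFn α g ≠ 0 := by
  obtain ⟨τ, hτ⟩ := Function.ne_iff.mp hg
  refine Function.ne_iff.mpr ⟨(glOfInt α)⁻¹ • τ, ?_⟩
  rwa [matFn, smul_inv_smul]

/-- A translate of a weakly holomorphic function is holomorphic and meromorphic at all cusps. -/
theorem matFn_mem_weakMod_bot {Γ : Subgroup SL(2, ℤ)} {α : M2Z} (hα : 0 < α.det) {g : ℍ → ℂ}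
    (hg : g ∈ weakMod Γ) : matFn α g ∈ weakMod (⊥ : Subgroup SL(2, ℤ)) := by
  refine ⟨mdifferentiable_matFn hα hg.1, fun γ hγ τ => ?_, fun A => ?_⟩
  · rw [Subgroup.mem_bot.mp hγ, one_smul]
  have hM : 0 < (α * (A : M2Z)).det := by
    rw [Matrix.det_mul, Matrix.SpecialLinearGroup.det_coe, mul_one]
    exact hα
  obtain ⟨B, U, hMU, hU0, hU⟩ := exists_upperTriangular _ hM
  obtain ⟨m, hm⟩ := hg.2.2 B
  have hUd : (0 : ℤ) < U 0 0 * U 1 1 := by
    have := Matrix.det_fin_two U
    rw [hU0, mul_zero, sub_zero] at this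
    rw [← this]; exact hU
  have hd : (0 : ℝ) < (U 0 0 : ℝ) / (U 1 1 : ℝ) := by
    have h2 : (0 : ℝ) < (U 0 0 : ℝ) * (U 1 1 : ℝ) := by exact_mod_cast hUd
    rcases pos_and_pos_or_neg_and_neg_of_mul_pos h2 with ⟨ha, hb⟩ | ⟨ha, hb⟩
    · exact div_pos ha hb
    · exact div_pos_of_neg_of_neg ha hb
  have h11 : (U 1 1 : ℂ) ≠ 0 := by exact_mod_cast (mul_ne_zero_iff.mp hUd.ne').2
  refine ⟨⌈(U 0 0 : ℝ) / (U 1 1 : ℝ)⌉₊ * m, ?_⟩
  have h := isBoundedAtImInfty_comp_triangular (b := (U 0 1 : ℝ) / (U 1 1 : ℝ)) hm hd one_pos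
    (k := ⌈(U 0 0 : ℝ) / (U 1 1 : ℝ)⌉₊) (by simpa using Nat.le_ceil _)
  rwa [show (fun τ => matFn α g (A • τ)) = fun τ => g (B • (ModularForm.upperTriangularGL
      ((U 0 0 : ℝ) / (U 1 1 : ℝ)) ((U 0 1 : ℝ) / (U 1 1 : ℝ)) 1 (mul_pos hd one_pos).ne' • τ))
    from funext fun τ => ?_]
  rw [matFn, sl_smul_eq_glOfInt A, sl_smul_eq_glOfInt B, ← mul_smul,
    ← glOfInt_mul hα.ne' (det_coe_ne_zero _), hMU,
    glOfInt_mul (det_coe_ne_zero _) hU.ne', mul_smul]
  congr 2
  refine UpperHalfPlane.ext ?_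
  rw [UpperHalfPlane.coe_smul_of_det_pos (det_glOfInt_pos hU),
    coe_upperTriangularGL_smul hd one_pos]
  simp [num, denom, val_glOfInt hU.ne', hU0]
  field_simp

section Transfer

variable {G' G : Subgroup SL(2, ℤ)} {ι : Type} [Fintype ι] (D : CosetSystem G' G ι) (e : ι → ℕ)

/-- `∏ i, g (α i τ) ^ e i`. -/
def transferFn (g : ℍ → ℂ) : ℍ → ℂ := ∏ i, matFn (D.rep i) g ^ e i

theorem transferFn_apply (g : ℍ → ℂ) (τ : ℍ) :
    transferFn D e g τ = ∏ i, g (glOfInt (D.rep i) • τ) ^ e i := by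
  simp [transferFn, matFn]

omit [Fintype ι] in
theorem rep_smul_smul (hdet : ∀ i, 0 < (D.rep i).det) (γ : G') (i : ι) (τ : ℍ) :
    glOfInt (D.rep i) • (γ : SL(2, ℤ)) • τ =
      (D.elt γ i : SL(2, ℤ)) • glOfInt (D.rep (D.next γ i)) • τ := by
  rw [sl_smul_eq_glOfInt (γ : SL(2, ℤ)), sl_smul_eq_glOfInt (D.elt γ i : SL(2, ℤ)), ← mul_smul,
    ← mul_smul, ← glOfInt_mul (hdet i).ne' (det_coe_ne_zero _),
    ← glOfInt_mul (det_coe_ne_zero _) (hdet _).ne', D.rep_mul]

variable (hdet : ∀ i, 0 < (D.rep i).det) (he : ∀ γ i, e (D.next γ i) = e i)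

include he in
theorem prod_next_pow {M : Type*} [CommMonoid M] (γ : G') (f : ι → M) :
    ∏ i, f (D.next γ i) ^ e i = ∏ i, f i ^ e i := by
  refine Eq.trans (Finset.prod_congr rfl fun i _ => ?_)
    (Equiv.prod_comp (Equiv.ofBijective _ (D.next_bijective γ)) (fun i => f i ^ e i))
  show f (D.next γ i) ^ e i = f (D.next γ i) ^ e (D.next γ i)
  rw [he]

include hdet he in
/-- The product over a coset system of a function of level `G` has level `G'`. -/
theorem transferFn_mem {g : ℍ → ℂ} (hg : g ∈ weakMod G) : transferFn D e g ∈ weakMod G' := by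
  have h : transferFn D e g ∈ weakMod (⊥ : Subgroup SL(2, ℤ)) :=
    prod_mem fun i _ => pow_mem (matFn_mem_weakMod_bot (hdet i) hg) (e i)
  refine ⟨h.1, fun γ hγ τ => ?_, h.2.2⟩
  rw [transferFn_apply, transferFn_apply]
  refine Eq.trans (Finset.prod_congr rfl fun i _ => congrArg (· ^ e i) ?_)
    (prod_next_pow D e he ⟨γ, hγ⟩ (fun i => g (glOfInt (D.rep i) • τ)))
  rw [rep_smul_smul D hdet ⟨γ, hγ⟩ i τ]
  exact hg.2.1 _ (D.elt ⟨γ, hγ⟩ i).2 _

include hdet in
theorem transferFn_ne_zero {g : ℍ → ℂ} (hg : MDiff g) (hg0 : g ≠ 0) :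
    transferFn D e g ≠ 0 := by
  have key : ∀ (f : ℍ → ℂ), MDiff f → f ≠ 0 → ∀ m : ℕ, MDiff (f ^ m) ∧ f ^ m ≠ 0 := by
    intro f hf hf0 m
    induction m with
    | zero => rw [pow_zero]; exact ⟨mdifferentiable_const, one_ne_zero⟩
    | succ m ih =>
      rw [pow_succ]
      exact ⟨ih.1.mul hf, fun h0 =>
        ((UpperHalfPlane.mul_eq_zero_iff ih.1 hf).mp h0).elim ih.2 hf0⟩
  suffices ∀ s : Finset ι, MDiff (∏ i ∈ s, matFn (D.rep i) g ^ e i) ∧
      (∏ i ∈ s, matFn (D.rep i) g ^ e i) ≠ 0 from (this _).2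
  classical
  intro s
  induction s using Finset.induction with
  | empty => rw [Finset.prod_empty]; exact ⟨mdifferentiable_const, one_ne_zero⟩
  | @insert a s ha ih =>
    obtain ⟨h1, h2⟩ := key _ (mdifferentiable_matFn (hdet a) hg) (matFn_ne_zero hg0) (e a)
    rw [Finset.prod_insert ha]
    exact ⟨h1.mul ih.1, fun h0 => ((UpperHalfPlane.mul_eq_zero_iff h1 ih.1).mp h0).elim h2 ih.2⟩

omit [Fintype ι] in
theorem next_pow_eq (γ : G') (m : ℕ) (i : ι) : D.next (γ ^ m) i = (D.next γ)^[m] i := by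
  induction m with
  | zero => rw [pow_zero, D.next_one, Function.iterate_zero_apply]
  | succ m ih => rw [pow_succ, (D.next_elt_mul _ _ _).1, ih, Function.iterate_succ_apply']

omit [Fintype ι] in
theorem elt_one_eq (i : ι) : D.elt 1 i = 1 :=
  (D.next_elt_eq_of_eq (γ := 1) (h := 1) (i := i) (j := i) (by simp)).2

omit [Fintype ι] in
theorem map_elt_pow_eq {A : Type*} [AddCommGroup A] (φ : Additive G →+ A) (γ : G') (m : ℕ)
    (i : ι) : φ (Additive.ofMul (D.elt (γ ^ m) i)) =
      ∑ t ∈ Finset.range m, φ (Additive.ofMul (D.elt γ ((D.next γ)^[t] i))) := by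
  induction m with
  | zero => rw [pow_zero, elt_one_eq, ofMul_one, map_zero, Finset.range_zero, Finset.sum_empty]
  | succ m ih =>
    rw [pow_succ, (D.next_elt_mul _ _ _).2, ofMul_mul, map_add, ih, next_pow_eq,
      Finset.sum_range_succ]

omit [Fintype ι] in
theorem trace_elt_of_fixed {γ : G'} {i : ι} (hi : D.next γ i = i) :
    ((D.elt γ i : SL(2, ℤ)) : M2Z).trace = ((γ : SL(2, ℤ)) : M2Z).trace := by
  have e := D.rep_mul γ i
  rw [hi] at e
  have e' := congrArg (fun X => (X * (D.rep i).adjugate).trace) e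
  simp only [Matrix.mul_assoc, Matrix.mul_adjugate, Matrix.mul_smul, mul_one] at e'
  rw [Matrix.trace_mul_comm, Matrix.mul_assoc, Matrix.adjugate_mul, Matrix.mul_smul, mul_one,
    Matrix.trace_smul, Matrix.trace_smul] at e'
  exact (smul_right_injective ℤ (D.det_ne_zero i) e').symm

theorem trace_pow_sq_eq_four {γ : SL(2, ℤ)} (h : (γ : M2Z).trace ^ 2 = 4) (m : ℕ) :
    ((γ ^ m : SL(2, ℤ)) : M2Z).trace ^ 2 = 4 := by
  have hch : (γ : M2Z) * (γ : M2Z) = (γ : M2Z).trace • (γ : M2Z) - 1 := by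
    have hdet := Matrix.SpecialLinearGroup.det_coe γ
    rw [Matrix.det_fin_two] at hdet
    rw [Matrix.eta_fin_two (γ : M2Z), Matrix.one_fin_two, Matrix.trace_fin_two_of,
      Matrix.mul_fin_two, Matrix.smul_of]
    ext a b
    fin_cases a <;> fin_cases b <;> (simp; linarith)
  have ht : (γ : M2Z).trace = 2 ∨ (γ : M2Z).trace = -2 :=
    sq_eq_sq_iff_eq_or_eq_neg.mp (by rw [h]; norm_num)
  have key : ∀ m : ℕ, ((γ ^ m : SL(2, ℤ)) : M2Z).trace = 2 * ((γ : M2Z).trace / 2) ^ m ∧
      ((γ ^ (m + 1) : SL(2, ℤ)) : M2Z).trace = 2 * ((γ : M2Z).trace / 2) ^ (m + 1) := by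
    intro m
    induction m with
    | zero =>
      constructor
      · simp [Matrix.trace_fin_two]
      · rw [zero_add, pow_one, pow_one]
        rcases ht with h' | h' <;> rw [h'] <;> norm_num
    | succ m ih =>
      refine ⟨ih.2, ?_⟩
      have h2 : ((γ ^ (m + 2) : SL(2, ℤ)) : M2Z) =
          (γ : M2Z).trace • ((γ ^ (m + 1) : SL(2, ℤ)) : M2Z) - ((γ ^ m : SL(2, ℤ)) : M2Z) := by
        simp only [pow_succ, Matrix.SpecialLinearGroup.coe_mul, Matrix.mul_assoc, hch,
          Matrix.mul_sub, Matrix.mul_smul, mul_one]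
      rw [h2, Matrix.trace_sub, Matrix.trace_smul, ih.1, ih.2, smul_eq_mul]
      rcases ht with h' | h' <;> rw [h'] <;> norm_num [pow_succ] <;> ring
  rw [(key m).1, mul_pow, ← pow_mul]
  rcases ht with h' | h' <;> rw [h'] <;> norm_num [pow_mul']

variable {n : ℕ}

include he in
theorem sum_elt_add (φ : Additive G →+ Additive (rootsOfUnity n ℂ)) (γ δ : G') :
    ∑ i, e i • φ (Additive.ofMul (D.elt (γ * δ) i)) =
      ∑ i, e i • φ (Additive.ofMul (D.elt γ i)) + ∑ i, e i • φ (Additive.ofMul (D.elt δ i)) := by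
  simp only [(D.next_elt_mul _ _ _).2, ofMul_mul, map_add, smul_add, Finset.sum_add_distrib]
  congr 1
  refine Eq.trans (Finset.sum_congr rfl fun i _ => ?_)
    (Equiv.sum_comp (Equiv.ofBijective _ (D.next_bijective γ))
      (fun i => e i • φ (Additive.ofMul (D.elt δ i))))
  show e i • _ = e (D.next γ i) • φ (Additive.ofMul (D.elt δ (D.next γ i)))
  rw [he]

include he in
/-- A weighted transfer kills parabolic elements. -/
theorem sum_elt_parabolic (φ : RootHom G n) (γ : G')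
    (hγ : ((γ : SL(2, ℤ)) : M2Z).trace ^ 2 = 4) :
    ∑ i, e i • φ.1 (Additive.ofMul (D.elt γ i)) = 0 := by
  classical
  refine sum_eq_zero_of_forall_cycle (D.next γ) (D.next_bijective γ).1 _
    (fun i m _ hfix => ?_) Finset.univ fun i _ => Finset.mem_univ _
  have hconst : ∀ t, e ((D.next γ)^[t] i) = e i := fun t => by rw [← next_pow_eq, he]
  simp only [hconst, ← Finset.smul_sum, ← map_elt_pow_eq]
  rw [φ.2 _ ?_, smul_zero]
  rw [trace_elt_of_fixed D (by rw [next_pow_eq]; exact hfix), SubmonoidClass.coe_pow]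
  exact trace_pow_sq_eq_four hγ m

/-- The weighted transfer of homomorphisms. -/
def rootTransfer (he : ∀ γ i, e (D.next γ i) = e i) : RootHom G n →ₗ[ℤ] RootHom G' n where
  toFun φ := ⟨AddMonoidHom.mk' (fun γ => ∑ i, e i • φ.1 (Additive.ofMul (D.elt (Additive.toMul γ) i)))
      (fun γ δ => sum_elt_add D e he φ.1 _ _),
    fun γ hγ => sum_elt_parabolic D e he φ γ hγ⟩
  map_add' φ ψ := Subtype.ext (AddMonoidHom.ext fun γ => by
    simp [smul_add, Finset.sum_add_distrib])
  map_smul' c φ := Subtype.ext (AddMonoidHom.ext fun γ => by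
    simp [Finset.smul_sum, smul_comm c])

theorem rootTransfer_apply (φ : RootHom G n) (γ : G') :
    (rootTransfer D e he φ).1 (Additive.ofMul γ) =
      ∑ i, e i • φ.1 (Additive.ofMul (D.elt γ i)) := rfl

theorem rootChar_rootTransfer (φ : RootHom G n) (γ : G') :
    rootChar (rootTransfer D e he φ).1 γ = ∏ i, rootChar φ.1 (D.elt γ i) ^ e i := by
  show ((Additive.toMul ((rootTransfer D e he φ).1 (Additive.ofMul γ)) : rootsOfUnity n ℂ) : ℂˣ) = _
  rw [rootTransfer_apply, toMul_sum, SubmonoidClass.coe_finsetProd]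
  exact Finset.prod_congr rfl fun i _ => by rw [toMul_nsmul, SubmonoidClass.coe_pow]; rfl

include hdet in
/-- **The class of the product over a coset system is the transfer of the class.** -/
theorem IsRootClass.transfer {g : ℍ → ℂ} {φ : RootHom G n} (h : IsRootClass G n g φ.1) :
    IsRootClass G' n (transferFn D e g) (rootTransfer D e he φ).1 := by
  obtain ⟨hg, hg0, r, hr, hrφ, hrn⟩ := h
  refine ⟨transferFn_mem D e hdet he hg, transferFn_ne_zero D e hdet hg.1 hg0,
    transferFn D e r, ?_, fun γ τ => ?_, fun τ => ?_⟩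
  · clear hrn hrφ hg0 hg
    classical
    rw [transferFn]
    induction (Finset.univ : Finset ι) using Finset.induction with
    | empty => rw [Finset.prod_empty]; exact mdifferentiable_const
    | @insert a s ha ih =>
      rw [Finset.prod_insert ha]
      refine MDifferentiable.mul ?_ ih
      induction e a with
      | zero => rw [pow_zero]; exact mdifferentiable_const
      | succ m ihm => rw [pow_succ]; exact ihm.mul (mdifferentiable_matFn (hdet a) hr)
  · rw [transferFn_apply, transferFn_apply, rootChar_rootTransfer, Units.coe_prod,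
      ← prod_next_pow D e he γ (fun i => r (glOfInt (D.rep i) • τ)), ← Finset.prod_mul_distrib]
    refine Finset.prod_congr rfl fun i _ => ?_
    rw [rep_smul_smul D hdet γ i τ, hrφ, mul_pow, Units.val_pow_eq_pow_val]
  · rw [transferFn_apply, transferFn_apply, ← Finset.prod_pow]
    refine Finset.prod_congr rfl fun i _ => ?_
    rw [← pow_mul, mul_comm, pow_mul, hrn]

end Transfer

/-! ### Expansions -/

theorem prod_mem_qMero {κ : Type*} (s : Finset κ) {f : κ → ℍ → ℂ} (hf : ∀ i ∈ s, f i ∈ qMero) :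
    (∏ i ∈ s, f i) ∈ qMero ∧ qExpL (∏ i ∈ s, f i) = ∏ i ∈ s, qExpL (f i) := by
  classical
  induction s using Finset.induction with
  | empty => rw [Finset.prod_empty, Finset.prod_empty]; exact ⟨one_mem _, qExpL_one⟩
  | @insert a s ha ih =>
    obtain ⟨h1, h2⟩ := ih fun i hi => hf i (Finset.mem_insert_of_mem hi)
    have h0 := hf a (Finset.mem_insert_self a s)
    rw [Finset.prod_insert ha, Finset.prod_insert ha, qExpL_mul h0 h1, h2]
    exact ⟨mul_mem h0 h1, rfl⟩

end FermatLib.MLT.LGC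

end
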