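import Fermat.Agent.MLT.LGC.LatticeGalois
import Fermat.Agent.MLT.LGC.TransferClass

/-!
# Galois and the transfer between groups

For `Γ` of finite index in `Γ'`, both stable under conjugation of expansions, the transfer of
classes along a system of cosets inside `SL(2, ℤ)` commutes with the Galois action, hence so does
the transfer of parabolic homomorphisms.  The action does not depend on the level used to define
it.
-/

set_option autoImplicit false
set_option linter.unusedSectionVars false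

noncomputable section

open UpperHalfPlane hiding I
open CongruenceSubgroup ModularCurve
open scoped MatrixGroups Manifold

namespace FermatLib.MLT.LGC

open FermatLib.Modular FermatLib.Modular.Corr FermatLib.Galois.DS

local notation "Γℚ" => (AlgebraicClosure ℚ ≃ₐ[ℚ] AlgebraicClosure ℚ)
local notation "M2Z" => Matrix (Fin 2) (Fin 2) ℤ

section Level

variable {Γ : Subgroup SL(2, ℤ)} {M M₂ : ℕ} [NeZero M] [NeZero M₂] (hC : ConjStable Γ M)
  (hC₂ : ConjStable Γ M₂) {n : ℕ} [NeZero n]

/-- The action does not depend on the level. -/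
theorem galRoot_congr_level (σ : ℂ ≃+* ℂ) (φ : RootHom Γ n) :
    galRoot hC σ φ = galRoot hC₂ σ φ := by
  obtain ⟨a, ha, -⟩ := exists_isRootClass_bounded hC.neg_one_mem φ
  obtain ⟨a', ha', hca⟩ := exists_isConjSeries hC σ ha.mem
  exact galRoot_eq hC ha hca (ha.galRoot hC₂ ha' hca)

theorem rootRep_congr_level : rootRep hC n = rootRep hC₂ n :=
  MonoidHom.ext fun σ => AddMonoidHom.ext fun φ => galRoot_congr_level hC hC₂ (qbarExt σ) φ

variable {O : Type} [CommRing O] [IsDomain O] [IsDiscreteValuationRing O]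
  [IsAdicComplete (IsLocalRing.maximalIdeal O) O] [Finite (IsLocalRing.ResidueField O)]
  [CharZero O] {p : ℕ} [Fact p.Prime] (hp : (p : O) ∈ IsLocalRing.maximalIdeal O)
  {K : Type} [Field K] [CharZero K] [Algebra O K]

theorem galO_congr_level : galO hC hp = galO hC₂ hp :=
  MonoidHom.ext fun σ => LinearMap.ext fun x => galO_eq hC hp σ fun n f => by
    rw [valRoot_galO, rootRep_congr_level hC hC₂]

end Level

section Series

variable {Γ Γ' : Subgroup SL(2, ℤ)} {M : ℕ} [NeZero M] (hC : ConjStable Γ M)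
  (hC' : ConjStable Γ' M) {ι : Type} [Fintype ι] (D : CosetSystem Γ' Γ ι) (α : ι → SL(2, ℤ))
  (hrep : ∀ i, D.rep i = (α i : M2Z)) (hα : ∀ i, α i ∈ Γ')
  (hcover : ∀ x ∈ Γ', ∃ i, x * (α i)⁻¹ ∈ Γ)

include hrep hα hcover hC hC' in
/-- **Products over cosets commute with conjugation of expansions.** -/
theorem IsConjSeries.transfer {σ : ℂ ≃+* ℂ} {g g' : ℍ → ℂ} (hg : g ∈ weakMod Γ)
    (hg' : g' ∈ weakMod Γ) (hc : IsConjSeries σ g g') :
    IsConjSeries σ (transferFn D (fun _ => 1) g) (transferFn D (fun _ => 1) g') := by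
  classical
  obtain ⟨b, hb, B, hbM, -⟩ := exists_baseData hC.base
  obtain ⟨s, hs, hu⟩ := exists_conj_exponent (M := M) (σ : ℂ →+* ℂ)
  obtain ⟨t, ht⟩ := ZMod.intCast_surjective (↑hu.unit⁻¹ : ZMod M)
  have hst : (s : ZMod M) * t = 1 := by rw [ht]; exact hu.mul_val_inv
  have hut : IsUnit (t : ZMod M) := IsUnit.of_mul_eq_one (s : ZMod M) (by rw [mul_comm, hst])
  choose α' hα' using fun i => exists_isConjMat hu (α i)
  have hα'm : ∀ i, α' i ∈ Γ' := fun i => hC'.conj_mem s hu _ _ (hα' i) (hα i)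
  choose π hπ using fun i => hcover (α' i) (hα'm i)
  have hsurj : Function.Surjective π := fun j => by
    obtain ⟨x, hx⟩ := exists_isConjMat hut (α j)
    obtain ⟨i, hi⟩ := hcover x (hC'.conj_mem t hut _ _ hx (hα j))
    obtain ⟨δ', hδ'⟩ := exists_isConjMat hu (x * (α i)⁻¹)
    have hxj : IsConjMat M s x (α j) := by
      obtain ⟨x0, x1, x2, x3⟩ := hx
      refine ⟨x0.symm, ?_, ?_, x3.symm⟩
      · rw [← x1, ← mul_assoc, hst, one_mul]
      · rw [x2, ← mul_assoc, hst, one_mul]
    have h1 : IsConjMat M s (α i) (δ'⁻¹ * α j) := by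
      have h := isConjMat_mul (isConjMat_inv hδ') hxj
      rwa [mul_inv_rev, inv_inv, inv_mul_cancel_right] at h
    have h2 := isConjMat_mul (hα' i) (isConjMat_inv h1)
    rw [mul_inv_cancel] at h2
    have hg1 : α' i * (δ'⁻¹ * α j)⁻¹ ∈ Γ := by
      refine hC.gamma1_le ((Gamma1_mem _ _).mpr ?_)
      obtain ⟨e0, -, e2, e3⟩ := h2
      refine ⟨?_, ?_, ?_⟩
      · rw [e0]; simp
      · rw [e3]; simp
      · rw [e2]; simp
    have hd := hC.conj_mem s hu _ _ hδ' hi
    have hj : α' i * (α j)⁻¹ ∈ Γ := by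
      have := Γ.mul_mem hg1 (Γ.inv_mem hd)
      rwa [mul_inv_rev, inv_inv, mul_assoc, mul_inv_cancel_right] at this
    refine ⟨i, D.eq_of_mul_rep (π i) j ((α j) * (α (π i))⁻¹) (Or.inl ?_) ?_⟩
    · have := Γ.mul_mem (Γ.inv_mem hj) (hπ i)
      rwa [mul_inv_rev, inv_inv, mul_assoc, ← mul_assoc (α' i)⁻¹, inv_mul_cancel, one_mul] at this
    · rw [hrep, hrep, ← Matrix.SpecialLinearGroup.coe_mul, inv_mul_cancel_right]
  have hbij : Function.Bijective π := Finite.surjective_iff_bijective.mp hsurj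
  set G : modRing M := toLevel hC ⟨g, hg⟩
  set G' : modRing M := toLevel hC ⟨g', hg'⟩
  have hGG : IsConjFn M σ G G' := hc
  have hall := conjAll_of_isConjFn B hbM (by have := hC.five_le; omega) hs hu hGG
  have hexp : ∀ F : weakMod Γ, qExpand ℂ M (qExpL (transferFn D (fun _ => 1) F)) =
      ∏ i, cuspExp M (α i) (toLevel hC F) := fun F => by
    have hdet : ∀ i, 0 < (D.rep i).det := fun i => by
      rw [hrep, Matrix.SpecialLinearGroup.det_coe]; exact one_pos
    have hP : transferFn D (fun _ => 1) (F : ℍ → ℂ) ∈ qMero :=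
      weakMod_le_qMero' hC' (transferFn_mem D _ hdet (fun _ _ => rfl) F.2)
    rw [← qExpL_comp_diag hP M]
    simp only [cuspExp_apply]
    rw [← (prod_mem_qMero (Finset.univ : Finset ι)
      (f := fun i => Galois.DS.cuspFun M (α i) ((toLevel hC F : modRing M) : ℍ → ℂ))
      fun i _ => cuspFun_mem_qMero M (α i) (toLevel hC F).2).2]
    refine congrArg qExpL (funext fun τ => ?_)
    rw [transferFn_apply, Finset.prod_apply]
    refine Finset.prod_congr rfl fun i _ => ?_
    rw [pow_one, hrep, ← sl_smul_eq_glOfInt]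
    rfl
  show qExpL (transferFn D (fun _ => 1) g') = coeffMap (σ : ℂ →+* ℂ) _
  refine qExpand_injective M ?_
  rw [← coeffMap_qExpand (σ : ℂ →+* ℂ) M, hexp ⟨g, hg⟩, hexp ⟨g', hg'⟩, map_prod,
    ← Equiv.prod_comp (Equiv.ofBijective π hbij)
      (fun i => coeffMap (σ : ℂ →+* ℂ) (cuspExp M (α i) (toLevel hC ⟨g, hg⟩)))]
  refine Finset.prod_congr rfl fun i _ => ?_
  rw [show cuspExp M (α i) (toLevel hC ⟨g', hg'⟩) =
    coeffMap (σ : ℂ →+* ℂ) (cuspExp M (α' i) G) from hall (α i) (α' i) (hα' i)]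
  refine congrArg _ (cuspExp_eq_of_forall_apply_eq M fun τ => ?_)
  show g (α' i • τ) = g (α (π i) • τ)
  have h := hg.2.1 _ (hπ i) (α (π i) • τ)
  rwa [← mul_smul, inv_mul_cancel_right] at h

variable {n : ℕ} [NeZero n]

include hrep hα hcover in
/-- **The transfer of classes commutes with Galois.** -/
theorem rootRep_transfer (σ : Γℚ) (φ : RootHom Γ n) :
    rootRep hC' n σ (rootTransfer D (fun _ => 1) (fun _ _ => rfl) φ) =
      rootTransfer D (fun _ => 1) (fun _ _ => rfl) (rootRep hC n σ φ) := by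
  have hdet : ∀ i, 0 < (D.rep i).det := fun i => by
    rw [hrep, Matrix.SpecialLinearGroup.det_coe]; exact one_pos
  obtain ⟨a, ha, -⟩ := exists_isRootClass_bounded hC.neg_one_mem φ
  obtain ⟨a', ha', hca⟩ := exists_isConjSeries hC (qbarExt σ) ha.mem
  exact galRoot_eq hC' (ha.transfer D _ hdet (fun _ _ => rfl))
    (IsConjSeries.transfer hC hC' D α hrep hα hcover ha.mem ha' hca)
    ((ha.galRoot hC ha' hca).transfer D _ hdet (fun _ _ => rfl))

end Series

section Lattice

variable {G' G : Subgroup SL(2, ℤ)} {ι : Type} [Fintype ι] (D : CosetSystem G' G ι)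
  (R : Type*) [Semiring R] (A : Type*) [AddCommGroup A] [Module R A]

theorem sum_elt_parabolic_one (φ : Period.parabolicHoms R G A) (γ : G')
    (hγ : ((γ : SL(2, ℤ)) : M2Z).trace ^ 2 = 4) :
    ∑ i, φ.1 (Additive.ofMul (D.elt γ i)) = 0 := by
  classical
  refine sum_eq_zero_of_forall_cycle (D.next γ) (D.next_bijective γ).1 _
    (fun i m _ hfix => ?_) Finset.univ fun i _ => Finset.mem_univ _
  rw [← map_elt_pow_eq, φ.2 _ ?_]
  rw [trace_elt_of_fixed D (by rw [next_pow_eq]; exact hfix), SubmonoidClass.coe_pow]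
  exact trace_pow_sq_eq_four hγ m

/-- The transfer of parabolic homomorphisms. -/
def parTransfer : Period.parabolicHoms R G A →ₗ[R] Period.parabolicHoms R G' A where
  toFun φ := ⟨AddMonoidHom.mk'
      (fun γ => ∑ i, φ.1 (Additive.ofMul (D.elt (Additive.toMul γ) i)))
      fun γ δ => by
        simp only [toMul_add, (D.next_elt_mul _ _ _).2, ofMul_mul, map_add,
          Finset.sum_add_distrib]
        congr 1
        exact Equiv.sum_comp (Equiv.ofBijective _ (D.next_bijective (Additive.toMul γ)))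
          (fun i => φ.1 (Additive.ofMul (D.elt (Additive.toMul δ) i))),
    Period.mem_parabolicHoms_iff.mpr fun γ hγ => sum_elt_parabolic_one D R A φ γ hγ⟩
  map_add' φ ψ := Subtype.ext (AddMonoidHom.ext fun γ => by simp [Finset.sum_add_distrib])
  map_smul' c φ := Subtype.ext (AddMonoidHom.ext fun γ => by simp [Finset.smul_sum])

theorem parTransfer_apply (φ : Period.parabolicHoms R G A) (γ : G') :
    (parTransfer D R A φ).1 (Additive.ofMul γ) = ∑ i, φ.1 (Additive.ofMul (D.elt γ i)) := rfl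

variable {R A} {m : ℕ} [NeZero m] (f : A →+ ZMod m)

theorem valRoot_parTransfer (φ : Period.parabolicHoms R G A) :
    valRoot f (parTransfer D R A φ) =
      rootTransfer D (fun _ => 1) (fun _ _ => rfl) (valRoot f φ) := by
  refine Subtype.ext (AddMonoidHom.ext fun γ => ?_)
  obtain ⟨γ, rfl⟩ := Additive.ofMul.surjective γ
  rw [rootTransfer_apply, valRoot_apply, parTransfer_apply, map_sum, map_sum]
  exact Finset.sum_congr rfl fun i _ => by rw [one_smul, valRoot_apply]

variable {O : Type} [CommRing O] [IsDomain O] [IsDiscreteValuationRing O]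
  [IsAdicComplete (IsLocalRing.maximalIdeal O) O] [Finite (IsLocalRing.ResidueField O)]
  [CharZero O] {p : ℕ} [Fact p.Prime] (hp : (p : O) ∈ IsLocalRing.maximalIdeal O)
  {K : Type} [Field K] [CharZero K] [Algebra O K]
  {M M₁ M₂ : ℕ} [NeZero M] [NeZero M₁] [NeZero M₂] (hC : ConjStable G M) (hC' : ConjStable G' M)
  (hC₁ : ConjStable G M₁) (hC₂ : ConjStable G' M₂)
  (α : ι → SL(2, ℤ)) (hrep : ∀ i, D.rep i = (α i : M2Z)) (hα : ∀ i, α i ∈ G')
  (hcover : ∀ x ∈ G', ∃ i, x * (α i)⁻¹ ∈ G)

include hp hC hC' hrep hα hcover in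
/-- **The transfer commutes with Galois on the lattices.** -/
theorem galO_parTransfer (σ : Γℚ) (x : Period.parabolicHoms O G O) :
    galO hC₂ hp σ (parTransfer D O O x) = parTransfer D O O (galO hC₁ hp σ x) := by
  rw [galO_congr_level hC₂ hC' hp, galO_congr_level hC₁ hC hp]
  exact galO_natural hC hp hC' (fun n => (rootTransfer D (fun _ => 1) (fun _ _ => rfl) :
      RootHom G (p ^ n) →ₗ[ℤ] RootHom G' (p ^ n)).toAddMonoidHom)
    (fun n => (rootTransfer D (fun _ => 1) (fun _ _ => rfl) :
      RootHom G (p ^ n) →ₗ[ℤ] RootHom G' (p ^ n)).toAddMonoidHom)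
    (fun _ f x => valRoot_parTransfer D f x) (fun _ f x => valRoot_parTransfer D f x)
    (fun _ φ => rootRep_transfer hC hC' D α hrep hα hcover σ φ) x

omit hC hC' in
theorem parTransfer_latK (x : Period.parabolicHoms O G O) :
    parTransfer D K K (latK O K G x) = latK O K G' (parTransfer D O O x) := by
  refine Subtype.ext (AddMonoidHom.ext fun γ => ?_)
  obtain ⟨γ, rfl⟩ := Additive.ofMul.surjective γ
  rw [parTransfer_apply, latK_apply, parTransfer_apply, map_sum]
  rfl

include hp hC hC' hrep hα hcover in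
/-- The transfer commutes with Galois over `K`. -/
theorem galK_parTransfer (σ : Γℚ) (y : Period.parabolicHoms K G K) :
    galK K hC₂ hp σ (parTransfer D K K y) = parTransfer D K K (galK K hC₁ hp σ y) :=
  galK_natural hC₁ hp hC₂ (T := parTransfer D O O) (U := parTransfer D O O) (parTransfer_latK D)
    (parTransfer_latK D) (galO_parTransfer D hp hC hC' hC₁ hC₂ α hrep hα hcover σ) y

end Lattice

end FermatLib.MLT.LGC

end
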