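import Fermat.Agent.MLT.LGC.StableBuild

/-!
# The Galois action on the homomorphisms of `lgcGroup q M`

It commutes with `T l` at good primes and with `U q`, preserves the eigenspace of a character of
level `q M`, and `τ - 1` for `τ` in inertia at `q` and `F - U q` for a Frobenius element map into
the kernel of the reduction.
-/

set_option autoImplicit false
set_option linter.unusedSectionVars false

noncomputable section

open CongruenceSubgroup ModularCurve ModularCurve.Period
open scoped MatrixGroups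

namespace FermatLib.MLT.LGC

open FermatLib.Modular FermatLib.Galois.DS

local notation "Qbar" => AlgebraicClosure ℚ
local notation "Γℚ" => (AlgebraicClosure ℚ ≃ₐ[ℚ] AlgebraicClosure ℚ)

variable {O : Type} [CommRing O] [IsDomain O] [IsDiscreteValuationRing O]
  [IsAdicComplete (IsLocalRing.maximalIdeal O) O] [Finite (IsLocalRing.ResidueField O)]
  [CharZero O] {p q M : ℕ} [Fact p.Prime] [Fact q.Prime] [NeZero M]
  {K : Type} [Field K] [IsAlgClosed K] [CharZero K] [Algebra O K]
  (hp : (p : O) ∈ IsLocalRing.maximalIdeal O)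

include hp

/-- The action commutes with `T l` at good primes. -/
theorem commute_galK_lgcParOp (σ : Γℚ) (l : Nat.Primes) (hl : l ∈ goodPrimes q M p) :
    Commute (galK K (conjStable_lgcGroup q M) hp σ) (lgcParOp q M K K l) := by
  rw [lgcParOp_eq_tSystemH K l (coprime_of_mem_goodPrimes hl)]
  exact LinearMap.ext fun y => galK_lgcT hp l _ σ y

/-- The action commutes with `U q`. -/
theorem commute_galK_lgcParOp_q (σ : Γℚ) :
    Commute (galK K (conjStable_lgcGroup q M) hp σ) (lgcParOp q M K K ⟨q, Fact.out⟩) := by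
  rw [lgcParOp_eq_uSystemH K (⟨q, Fact.out⟩ : Nat.Primes)
    (dvd_mul_of_dvd_left (dvd_pow_self q two_ne_zero) M)]
  exact LinearMap.ext fun y => galK_lgcU hp σ y

/-- The action of `g ∈ Γ₀(q M)` against that of its twist. -/
theorem galK_parConj_twist {σ : Γℚ} {s : ℤ}
    (hs : (qbarExt σ : ℂ →+* ℂ) (Igusa.zetaU (20 * (q ^ 2 * M))) =
      Igusa.zetaU (20 * (q ^ 2 * M)) ^ s)
    (hu : IsUnit (s : ZMod (20 * (q ^ 2 * M)))) {γ γ' : SL(2, ℤ)}
    (h : IsConjMat (20 * (q ^ 2 * M)) s γ γ') (hγ : γ ∈ Gamma0 (q * M))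
    (hγ' : γ' ∈ Gamma0 (q * M)) (y : parabolicHoms K (lgcGroup q M) K) :
    galK K (conjStable_lgcGroup q M) hp σ (parConj K K (fun _ hx => conj_mem_lgcGroup hγ' hx) y) =
      parConj K K (fun _ hx => conj_mem_lgcGroup hγ hx)
        (galK K (conjStable_lgcGroup q M) hp σ y) :=
  galK_natural (conjStable_lgcGroup q M) hp (conjStable_lgcGroup q M)
    (T := parConj O O fun _ hx => conj_mem_lgcGroup hγ' hx)
    (U := parConj O O fun _ hx => conj_mem_lgcGroup hγ hx) (fun _ => rfl) (fun _ => rfl)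
    (fun x => galO_natural (conjStable_lgcGroup q M) hp (conjStable_lgcGroup q M)
      (fun _ => conjRoot fun _ hx => conj_mem_lgcGroup hγ' hx)
      (fun _ => conjRoot fun _ hx => conj_mem_lgcGroup hγ hx)
      (fun _ f x => valRoot_parConj f _ x) (fun _ f x => valRoot_parConj f _ x)
      (fun _ φ => galRoot_conjRoot (conjStable_lgcGroup q M) hs hu h _ _ φ) x) y

/-- **The action preserves the eigenspace of a character of level `q M`.** -/
theorem isChiEigen_galK {χ : (ZMod (q * M))ˣ →* Kˣ} (σ : Γℚ)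
    {v : parabolicHoms K (lgcGroup q M) K} (hv : IsChiEigen χ (lgcGroup q M) v.1) :
    IsChiEigen χ (lgcGroup q M) (galK K (conjStable_lgcGroup q M) hp σ v).1 := by
  intro g x y e
  have hd : q * M ∣ 20 * (q ^ 2 * M) := ⟨20 * q, by ring⟩
  obtain ⟨s, hs, hu⟩ := exists_conj_exponent (M := 20 * (q ^ 2 * M)) (qbarExt σ : ℂ →+* ℂ)
  obtain ⟨g', hg⟩ := exists_isConjMat hu (g : SL(2, ℤ))
  have hg' : g' ∈ Gamma0 (q * M) := by
    rw [Gamma0_mem]
    have := congrArg (ZMod.castHom hd (ZMod (q * M))) hg.2.2.1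
    rwa [map_mul, map_intCast, map_intCast, map_intCast, Gamma0_mem.mp g.2, mul_zero] at this
  have hχ : nebenChar χ ⟨g', hg'⟩ = nebenChar χ g := by
    rw [nebenChar, MonoidHom.comp_apply, MonoidHom.comp_apply,
      show gamma0UnitsHom (q * M) ⟨g', hg'⟩ = gamma0UnitsHom (q * M) g from Units.ext (by
        simpa [coe_gamma0UnitsHom] using congrArg (ZMod.castHom hd (ZMod (q * M))) hg.2.2.2)]
  have h1 : parConj K K (fun _ hx => conj_mem_lgcGroup hg' hx) v = (nebenChar χ g : K) • v := by
    refine Subtype.ext (AddMonoidHom.ext fun δ => ?_)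
    obtain ⟨δ, rfl⟩ := Additive.ofMul.surjective δ
    show v.1 (Additive.ofMul (normConj _ δ)) = (nebenChar χ g : K) • v.1 (Additive.ofMul δ)
    rw [← hχ]
    exact hv ⟨g', hg'⟩ δ _ rfl
  have h2 := galK_parConj_twist hp hs hu hg g.2 hg' v
  rw [h1, map_smul] at h2
  have h3 := congrArg (fun w : parabolicHoms K (lgcGroup q M) K => w.1 (Additive.ofMul x)) h2
  rw [show y = normConj (fun _ hx => conj_mem_lgcGroup g.2 hx) x from Subtype.ext e]
  exact h3.symm

variable {A : ValuationSubring Qbar} (hA : A.LiesOverPrime q)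

/-- `τ - 1` maps into the kernel of the reduction. -/
theorem galK_sub_self_mem_lgcKer {τ : Γℚ} (hτ : τ ∈ A.inertiaSubgroupIn ℚ)
    (v : parabolicHoms K (lgcGroup q M) K) :
    galK K (conjStable_lgcGroup q M) hp τ v - v ∈
      redKerK (O := O) (conjStable_lgcGroup q M) (lgcMu p) hA K :=
  galK_sub_self_mem_redKerK _ _ hA (span_range_redLatticeIncl (conjStable_lgcGroup q M)) hτ
    (galO (conjStable_lgcGroup q M) hp τ) (pushRoot_galO (conjStable_lgcGroup q M) hp τ) _
    (fun x => by rw [← latK_eq_redLatticeIncl, ← latK_eq_redLatticeIncl, galK_latK]) v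

/-- `F - U q` maps into the kernel of the reduction. -/
theorem galK_sub_lgcParOp_mem_lgcKer {F : Γℚ} (hF : A.IsFrobeniusAt F q)
    (v : parabolicHoms K (lgcGroup q M) K) :
    galK K (conjStable_lgcGroup q M) hp F v - lgcParOp q M K K ⟨q, Fact.out⟩ v ∈
      redKerK (O := O) (conjStable_lgcGroup q M) (lgcMu p) hA K := by
  rw [lgcParOp_eq_uSystemH K (⟨q, Fact.out⟩ : Nat.Primes)
    (dvd_mul_of_dvd_left (dvd_pow_self q two_ne_zero) M)]
  exact galK_sub_parNormOp_mem_redKerK _ _ hA
    (span_range_redLatticeIncl (conjStable_lgcGroup q M)) hF _ (Equiv.refl _) (fun _ => rfl)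
    (galO (conjStable_lgcGroup q M) hp F) (pushRoot_galO (conjStable_lgcGroup q M) hp F) _
    (fun x => by rw [← latK_eq_redLatticeIncl, ← latK_eq_redLatticeIncl, galK_latK]) v

end FermatLib.MLT.LGC

end
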