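import Fermat.Agent.MLT.LGC.PackageExists

/-!
# Local-global compatibility at `q` for a character of conductor `q`

`q ∤ M`, `χ = ψ²` a nontrivial character modulo `q` of `p`-power order, `lam` a system of good
Hecke eigenvalues in `H¹(Γ₀(q M), χ)` which is not Eisenstein modulo the maximal ideal, and `ρ`
the representation with the matching characteristic polynomials at good Frobenius elements.  On
inertia at `q` the characteristic polynomial is `(X - 1) (X - χ)`, and the eigenvalue of `U q` is a
root of the characteristic polynomial of Frobenius.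
-/

set_option autoImplicit false

noncomputable section

open CongruenceSubgroup Polynomial FermatLib.Galois
open scoped MatrixGroups

namespace FermatLib.MLT.LGC

local notation "Qbar" => AlgebraicClosure ℚ
local notation "Γℚ" => (AlgebraicClosure ℚ ≃ₐ[ℚ] AlgebraicClosure ℚ)

variable {O : Type} [CommRing O]

variable [IsDomain O] [IsDiscreteValuationRing O] [IsAdicComplete (IsLocalRing.maximalIdeal O) O]
  [Finite (IsLocalRing.ResidueField O)] [CharZero O]
  {p q M : ℕ} [Fact p.Prime] [Fact q.Prime] [NeZero M] {χ : (ZMod q)ˣ →* Oˣ}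
  {K : Type} [Field K] [IsAlgClosed K] [CharZero K] [Algebra O K]
  {lam : Nat.Primes → O}
  {x : bettiH1 (Gamma0 (q * M))
    (nebenChar ((Units.map (algebraMap O K).toMonoidHom).comp
      (χ.comp (ZMod.unitsMap (dvd_mul_right q M))))) K}
  {ρ : GaloisRepAdic O}

/-- **The characteristic polynomial on inertia at `q`.** -/
theorem charpoly_inertia (hO : Function.Injective (algebraMap O K)) (hqp : q ≠ p)
    (h : IsLgcSystem p q M χ K lam x ρ) {A : ValuationSubring Qbar} (hA : A.LiesOverPrime q)
    {τ : Γℚ} (hτ : τ ∈ A.inertiaSubgroupIn ℚ) {u : (ZMod q)ˣ}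
    (hu : ∀ ζ : Qbar, ζ ^ q = 1 → τ ζ = ζ ^ (u : ZMod q).val) :
    LinearMap.charpoly (ρ.ρ τ) = (X - 1) * (X - C (χ u : O)) := by
  obtain ⟨F, hF⟩ := Basic.exists_isFrobeniusAt Fact.out A hA
  obtain ⟨u₀, ⟨P⟩, -⟩ := exists_lgcPackage hO hqp h hA hF
  have := (charpoly_at_q_of_package hO hqp h.mem_maximal h.ne_one h.residual_irreducible
    h.charpoly_frob hA hF P).1 τ hτ
  rwa [modCycloChar_eq_of_apply hu] at this

/-- **`U q` and Frobenius.** The eigenvalue of `U q` is a root of the characteristic polynomial
of any Frobenius element at `q`. -/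
theorem eval_charpoly_U (hO : Function.Injective (algebraMap O K)) (hqp : q ≠ p)
    (h : IsLgcSystem p q M χ K lam x ρ) {A : ValuationSubring Qbar} (hA : A.LiesOverPrime q)
    {F : Γℚ} (hF : A.IsFrobeniusAt F q) {u : K}
    (hU : bettiHeckeOp (q * M) K ((Units.map (algebraMap O K).toMonoidHom).comp
      (χ.comp (ZMod.unitsMap (dvd_mul_right q M)))) ⟨q, Fact.out⟩ x = u • x) :
    ((LinearMap.charpoly (ρ.ρ F)).map (algebraMap O K)).eval u = 0 := by
  obtain ⟨u₀, -, hP⟩ := exists_lgcPackage hO hqp h hA hF
  obtain ⟨P⟩ := hP u hU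
  exact (charpoly_at_q_of_package hO hqp h.mem_maximal h.ne_one h.residual_irreducible
    h.charpoly_frob hA hF P).2

end FermatLib.MLT.LGC

end
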