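import Fermat.Agent.MLT.LGC.AssemblyCount
import Fermat.Agent.Galois.FrobeniusElement

/-!
# Inputs of the assembly from inertia and from the Frobenius polynomials
-/

set_option autoImplicit false

noncomputable section

open Polynomial FermatLib.Galois IsLocalRing

namespace FermatLib.MLT.LGC

local notation "Qbar" => AlgebraicClosure ℚ
local notation "Γℚ" => (AlgebraicClosure ℚ ≃ₐ[ℚ] AlgebraicClosure ℚ)

variable {O : Type} [CommRing O] [IsDomain O] [IsDiscreteValuationRing O] {q : ℕ} [Fact q.Prime]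

/-- A nontrivial character is nontrivial on inertia at `q`. -/
theorem exists_inertia_ne_one {χ : (ZMod q)ˣ →* Oˣ} (hχ : χ ≠ 1) {A : ValuationSubring Qbar}
    (hA : A.LiesOverPrime q) :
    ∃ τ ∈ A.inertiaSubgroupIn ℚ, χ (modCycloChar q τ) ≠ 1 := by
  obtain ⟨u, hu⟩ : ∃ u, χ u ≠ 1 := by
    by_contra h
    push Not at h
    exact hχ (MonoidHom.ext fun u => by simpa using h u)
  obtain ⟨τ, hτ, rfl⟩ := exists_inertia_cycloChar_eq hA u
  exact ⟨τ, hτ, by rwa [modCycloChar_eq_cycloChar q]⟩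

/-- The exponent of `τ` on the `q`-th roots of unity is its cyclotomic character. -/
theorem modCycloChar_eq_of_apply {τ : Γℚ} {u : (ZMod q)ˣ}
    (hu : ∀ ζ : Qbar, ζ ^ q = 1 → τ ζ = ζ ^ (u : ZMod q).val) : modCycloChar q τ = u := by
  obtain ⟨ζ, hζ⟩ := HasEnoughRootsOfUnity.exists_primitiveRoot Qbar q
  have h1 := (apply_eq_pow_modCycloChar q τ hζ.pow_eq_one).symm.trans (hu ζ hζ.pow_eq_one)
  exact Units.ext (ZMod.val_injective q (hζ.pow_inj (ZMod.val_lt _) (ZMod.val_lt _) h1))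

/-- Trace and determinant from the characteristic polynomial. -/
theorem trace_det_of_charpoly (ρ : GaloisRepAdic O) {σ : Γℚ} {t d : O}
    (h : LinearMap.charpoly (ρ.ρ σ) = X ^ 2 - C t * X + C d) :
    LinearMap.trace O ρ.V (ρ.ρ σ) = t ∧ LinearMap.det (ρ.ρ σ) = d := by
  rw [charpoly_eq_of_rank_two] at h
  have h0 := congrArg (fun f : O[X] => f.coeff 0) h
  have h1 := congrArg (fun f : O[X] => f.coeff 1) h
  simp [Polynomial.coeff_X_pow] at h0 h1
  exact ⟨h1, h0⟩

/-- Conjugation by a Frobenius element preserves inertia. -/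
theorem conj_mem_inertia_of_isFrobeniusAt {A : ValuationSubring Qbar} {F τ : Γℚ}
    (hF : A.IsFrobeniusAt F q) (hτ : τ ∈ A.inertiaSubgroupIn ℚ) :
    F * τ * F⁻¹ ∈ A.inertiaSubgroupIn ℚ :=
  conj_mem_inertia_of_mem_decomposition hF.mem_decompositionSubgroup hτ

end FermatLib.MLT.LGC

end
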