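import Fermat.Agent.MLT.LGC.MainInputs
import Fermat.Agent.MLT.LGC.System
import Fermat.Agent.MLT.LGC.Red
import Fermat.Agent.Basic.FrobeniusExists

/-!
# The data of the count at `q`

The lattice with Galois and Hecke actions attached to a system `lam` at a place `A` above `q` and a
Frobenius element `F`, with the half dimensional subspace containing the images of inertia and
of `F - U`.
-/

set_option autoImplicit false
set_option linter.style.haveILetI false

noncomputable section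

open Polynomial CongruenceSubgroup FermatLib.Galois IsLocalRing
open scoped MatrixGroups

namespace FermatLib.MLT.LGC

local notation "Qbar" => AlgebraicClosure ℚ
local notation "Γℚ" => (AlgebraicClosure ℚ ≃ₐ[ℚ] AlgebraicClosure ℚ)

variable {O : Type} [CommRing O] [IsDomain O] [IsDiscreteValuationRing O]

/-- The inputs of the count, independent of the representation. -/
structure LgcPackage (p q M : ℕ) [Fact q.Prime] (χ : (ZMod q)ˣ →* Oˣ) (K : Type) [Field K]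
    [Algebra O K] (lam : Nat.Primes → O) (A : ValuationSubring Qbar) (F : Γℚ) (u : K) where
  V : Type
  [addCommGroupV : AddCommGroup V]
  [moduleV : Module K V]
  [finiteV : FiniteDimensional K V]
  [moduleOV : Module O V]
  [towerV : IsScalarTower O K V]
  Λ : Type
  [addCommGroupΛ : AddCommGroup Λ]
  [moduleΛ : Module O Λ]
  [finiteΛ : Module.Finite O Λ]
  R : Type
  [commRingR : CommRing R]
  [localR : IsLocalRing R]
  [algebraR : Algebra O R]
  [finiteR : Module.Finite O R]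
  ι : Λ →ₗ[O] V
  span_range : Submodule.span K (Set.range ι) = ⊤
  ρΛ : Γℚ →* Module.End O Λ
  ρV : Γℚ →* Module.End K V
  ρ_comp : ∀ g a, ι (ρΛ g a) = ρV g (ι a)
  continuous : ∀ n : ℕ, ∃ L : IntermediateField ℚ Qbar, FiniteDimensional ℚ L ∧
    ∀ σ : Γℚ, (∀ x ∈ L, σ x = x) → ∃ b : Module.End O Λ, ρΛ σ - 1 = (p : O) ^ n • b
  actΛ : R →ₐ[O] Module.End O Λ
  commute : ∀ r g, Commute (actΛ r) (ρΛ g)
  act : R →ₐ[O] Module.End K V
  act_comp : ∀ r a, ι (actΛ r a) = act r (ι a)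
  point : R →ₐ[O] O
  T : Nat.Primes → R
  point_T : ∀ l ∈ goodPrimes q M p, point (T l) = lam l
  frobenius : ∀ l : Nat.Primes, l ∈ goodPrimes q M p → ∀ hlq : Nat.Coprime (l : ℕ) q,
    ∀ P : ValuationSubring Qbar, P.LiesOverPrime l → ∀ σ : Γℚ, P.IsFrobeniusAt σ l →
      ρΛ σ + ((χ (ZMod.unitOfCoprime (l : ℕ) hlq) : O) * (l : O)) • ρΛ σ⁻¹ = actΛ (T l)
  vec : V
  vec_ne_zero : vec ≠ 0
  act_vec : ∀ r, act r vec = algebraMap O K (point r) • vec
  U : Module.End K V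
  U_commute : ∀ g, Commute U (ρV g)
  U_vec : U vec = u • vec
  Kr : Submodule K V
  inertia_mem : ∀ τ ∈ A.inertiaSubgroupIn ℚ, ∀ y, ρV τ y - y ∈ Kr
  frob_mem : ∀ y, ρV F y - U y ∈ Kr
  half : 2 * Module.finrank K Kr ≤ Module.finrank K V

variable {p q M : ℕ} [Fact p.Prime] [Fact q.Prime] [NeZero M] {χ : (ZMod q)ˣ →* Oˣ}
  {K : Type} [Field K] [IsAlgClosed K] [CharZero K] [Algebra O K]
  {lam : Nat.Primes → O} {ρ : GaloisRepAdic O}

/-- **The characteristic polynomials at `q` from the data.** -/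
theorem charpoly_at_q_of_package (hO : Function.Injective (algebraMap O K)) (hqp : q ≠ p)
    (hp : (p : O) ∈ maximalIdeal O) (hχ : χ ≠ 1) (hirr : ρ.residual.IsAbsolutelyIrreducible)
    (hchar : ∀ l : Nat.Primes, l ∈ goodPrimes q M p → ∀ hlq : Nat.Coprime (l : ℕ) q,
      ∀ P : ValuationSubring Qbar, P.LiesOverPrime l → ∀ σ : Γℚ, P.IsFrobeniusAt σ l →
        LinearMap.charpoly (ρ.ρ σ) = X ^ 2 - C (lam l) * X +
          C ((χ (ZMod.unitOfCoprime (l : ℕ) hlq) : O) * (l : O)))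
    {A : ValuationSubring Qbar} (hA : A.LiesOverPrime q) {F : Γℚ} (hF : A.IsFrobeniusAt F q)
    {u : K} (P : LgcPackage p q M χ K lam A F u) :
    (∀ τ ∈ A.inertiaSubgroupIn ℚ, LinearMap.charpoly (ρ.ρ τ) =
      (X - 1) * (X - C (χ (modCycloChar q τ) : O))) ∧
      ((LinearMap.charpoly (ρ.ρ F)).map (algebraMap O K)).eval u = 0 := by
  classical
  letI := P.addCommGroupV
  letI := P.moduleV
  letI := P.finiteV
  letI := P.moduleOV
  letI := P.towerV
  letI := P.addCommGroupΛ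
  letI := P.moduleΛ
  letI := P.finiteΛ
  letI := P.commRingR
  letI := P.localR
  letI := P.algebraR
  letI := P.finiteR
  obtain ⟨τ₀, hτ₀, hne⟩ := exists_inertia_ne_one hχ hA
  have hN : q * M * p ≠ 0 :=
    mul_ne_zero (mul_ne_zero (NeZero.ne q) (NeZero.ne M)) (Fact.out : p.Prime).ne_zero
  have hgood : ∀ ℓ : ℕ, ∀ hℓ : ℓ.Prime, ℓ ∉ (q * M * p).primeFactors →
      (⟨ℓ, hℓ⟩ : Nat.Primes) ∈ goodPrimes q M p := fun ℓ hℓ h hd =>
    h (Nat.mem_primeFactors.mpr ⟨hℓ, hd, hN⟩)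
  let T : ℕ → P.R := fun ℓ => if hℓ : ℓ.Prime then P.T ⟨ℓ, hℓ⟩ else 0
  refine charpoly_at_q_of_lattice χ hO hp hqp ρ hirr (q * M * p).primeFactors ?_ P.ι P.span_range
    P.ρΛ P.ρV P.ρ_comp P.continuous P.actΛ P.commute P.act P.act_comp P.point T ?_
    P.vec_ne_zero P.act_vec P.U P.U_commute P.U_vec hA hF hτ₀ hne
    (conj_mem_inertia_of_isFrobeniusAt hF hτ₀) P.inertia_mem P.frob_mem P.half
  · intro ℓ hℓ hℓS hlq P' hP' σ hσ
    exact (trace_det_of_charpoly ρ (hchar ⟨ℓ, hℓ⟩ (hgood ℓ hℓ hℓS) hlq P' hP' σ hσ)).2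
  · intro ℓ hℓ hℓS A' hA' σ hσ
    have hmem := hgood ℓ hℓ hℓS
    have hlq : Nat.Coprime ℓ q := (Nat.coprime_primes hℓ Fact.out).mpr fun h =>
      hmem (h ▸ (dvd_mul_right q M).mul_right p)
    obtain ⟨htr, hd⟩ := trace_det_of_charpoly ρ (hchar ⟨ℓ, hℓ⟩ hmem hlq A' hA' σ hσ)
    refine ⟨?_, ?_⟩
    · simp only [T, dif_pos hℓ]
      rw [← P.frobenius ⟨ℓ, hℓ⟩ hmem hlq A' hA' σ hσ]
      show _ + LinearMap.det (ρ.ρ σ) • _ = _
      rw [hd]
    · simp only [T, dif_pos hℓ]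
      rw [htr, P.point_T ⟨ℓ, hℓ⟩ hmem]

end FermatLib.MLT.LGC

end
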