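import Fermat.Agent.MLT.LGC.PackageHalf
import Fermat.Agent.MLT.LGC.HalfResidual

/-!
# Existence of the data of the count
-/

set_option autoImplicit false

noncomputable section

open CongruenceSubgroup
open scoped MatrixGroups

namespace FermatLib.MLT.LGC

local notation "Qbar" => AlgebraicClosure ℚ
local notation "Γℚ" => (AlgebraicClosure ℚ ≃ₐ[ℚ] AlgebraicClosure ℚ)

variable {O : Type} [CommRing O] [IsDomain O] [IsDiscreteValuationRing O]
  [IsAdicComplete (IsLocalRing.maximalIdeal O) O] [Finite (IsLocalRing.ResidueField O)] [CharZero O]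
  {p q M : ℕ} [Fact p.Prime] [Fact q.Prime] [NeZero M] {χ : (ZMod q)ˣ →* Oˣ}
  {K : Type} [Field K] [IsAlgClosed K] [CharZero K] [Algebra O K]
  {lam : Nat.Primes → O}
  {x : bettiH1 (Gamma0 (q * M))
    (nebenChar ((Units.map (algebraMap O K).toMonoidHom).comp
      (χ.comp (ZMod.unitsMap (dvd_mul_right q M))))) K}
  {ρ : GaloisRepAdic O}

/-- **The data of the count exist.** -/
theorem exists_lgcPackage (hO : Function.Injective (algebraMap O K)) (hqp : q ≠ p)
    (h : IsLgcSystem p q M χ K lam x ρ) {A : ValuationSubring Qbar} (hA : A.LiesOverPrime q)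
    {F : Γℚ} (hF : A.IsFrobeniusAt F q) :
    ∃ u₀ : K, Nonempty (LgcPackage p q M χ K lam A F u₀) ∧
      ∀ u : K, bettiHeckeOp (q * M) K ((Units.map (algebraMap O K).toMonoidHom).comp
        (χ.comp (ZMod.unitsMap (dvd_mul_right q M)))) ⟨q, Fact.out⟩ x = u • x →
        Nonempty (LgcPackage p q M χ K lam A F u) := by
  haveI : NeZero p := ⟨(Fact.out : p.Prime).ne_zero⟩
  exact exists_lgcPackage_of_half hO hqp h hA hF (Half.two_mul_finrank_redKerRes_comap_lgcRedV_le
    h.chiPartData h.residue_chi h.mem_maximal hqp h.not_dvd hA (conjStable_gamma0 (q * M)))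

end FermatLib.MLT.LGC

end
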