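import Fermat.Agent.MLT.LGC.PackageLgc
import Fermat.Agent.MLT.LGC.LgcGalK
import Fermat.Agent.MLT.LGC.ChiFrobenius
import Fermat.Agent.MLT.LGC.HalfStable

/-!
# The data of the count from the half bound on the reduced classes
-/

set_option autoImplicit false
set_option linter.unusedSectionVars false

noncomputable section

open CongruenceSubgroup ModularCurve.Period
open scoped MatrixGroups

namespace FermatLib.MLT.LGC

open FermatLib.Modular

local notation "Qbar" => AlgebraicClosure ℚ
local notation "Γℚ" => (AlgebraicClosure ℚ ≃ₐ[ℚ] AlgebraicClosure ℚ)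
local notation "kk" => IsLocalRing.ResidueField

variable {O : Type} [CommRing O] [IsDomain O] [IsDiscreteValuationRing O]
  [IsAdicComplete (IsLocalRing.maximalIdeal O) O] [Finite (IsLocalRing.ResidueField O)] [CharZero O]
  {p q M : ℕ} [Fact p.Prime] [Fact q.Prime] [NeZero M] {χ : (ZMod q)ˣ →* Oˣ}
  {K : Type} [Field K] [IsAlgClosed K] [CharZero K] [Algebra O K]
  {lam : Nat.Primes → O}

/-- **The data of the count from the half bound on the reduced classes.** -/
theorem exists_lgcPackage_of_half (hO : Function.Injective (algebraMap O K)) (hqp : q ≠ p)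
    {x : bettiH1 (Gamma0 (q * M)) (nebenChar (lgcChiK q M K χ)) K} {ρ : GaloisRepAdic O}
    (h : IsLgcSystem p q M χ K lam x ρ) {A : ValuationSubring Qbar} (hA : A.LiesOverPrime q)
    {F : Γℚ} (hF : A.IsFrobeniusAt F q)
    (hhalf₀ : 2 * Module.finrank (kk O)
        ↥((redKerRes (conjStable_gamma0 (q * M)) hA (p := p) (kk O)).comap
          (lgcRedV h.chiPartData h.residue_chi).subtype) ≤
      Module.finrank (kk O) (lgcRedV h.chiPartData h.residue_chi)) :
    ∃ u₀ : K, Nonempty (LgcPackage p q M χ K lam A F u₀) ∧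
      ∀ u : K, bettiHeckeOp (q * M) K (lgcChiK q M K χ) ⟨q, Fact.out⟩ x = u • x →
        Nonempty (LgcPackage p q M χ K lam A F u) := by
  have hhalf := h.two_mul_finrank_redKerK_inf_lgcVm_le hO hqp.symm hA hhalf₀
  have hfrob : ∀ l : Nat.Primes, l ∈ goodPrimes q M p → ∀ hlq : Nat.Coprime (l : ℕ) q,
      ∀ P : ValuationSubring Qbar, P.LiesOverPrime l → ∀ σ : Γℚ, P.IsFrobeniusAt σ l →
        ∀ v ∈ lgcVm K h.chiPartData,
          galK K (conjStable_lgcGroup q M) h.mem_maximal σ v +
            algebraMap O K ((χ (ZMod.unitOfCoprime (l : ℕ) hlq) : O) * (l : O)) •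
              galK K (conjStable_lgcGroup q M) h.mem_maximal σ⁻¹ v = lgcParOp q M K K l v := by
    intro l hl hlq P hP σ hσ v hv
    rw [algebraMap_smul]
    exact galK_frobenius_lgcVm h.mem_maximal h.not_dvd h.ne_one h.exists_sqrt h.chiPartData
      l hl hlq hP hσ hv
  have hcT := fun (σ : Γℚ) (l : Nat.Primes) (hl : l ∈ goodPrimes q M p) =>
    commute_galK_lgcParOp (K := K) h.mem_maximal σ l hl
  have heig := fun (σ : Γℚ) (v : parabolicHoms K (lgcGroup q M) K)
    (hv : IsChiEigen (lgcChiK q M K χ) (lgcGroup q M) v.1) =>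
    isChiEigen_galK h.mem_maximal σ hv
  have hcU := fun (σ : Γℚ) (v : parabolicHoms K (lgcGroup q M) K)
      (_ : v ∈ lgcVm K h.chiPartData) =>
    (LinearMap.congr_fun (commute_galK_lgcParOp_q (K := K) (q := q) (M := M) h.mem_maximal σ).eq v).symm
  have hKI := fun (τ : Γℚ) (hτ : τ ∈ A.inertiaSubgroupIn ℚ) (v : parabolicHoms K (lgcGroup q M) K)
      (_ : v ∈ lgcVm K h.chiPartData) =>
    galK_sub_self_mem_lgcKer (q := q) (M := M) h.mem_maximal hA hτ v
  have hKF := fun (v : parabolicHoms K (lgcGroup q M) K) (_ : v ∈ lgcVm K h.chiPartData) =>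
    galK_sub_lgcParOp_mem_lgcKer (q := q) (M := M) h.mem_maximal hA hF v
  refine nonempty_lgcPackage_of_galois hO h.mem_maximal h hcT heig hcU hfrob _ hKI hKF ?_
  exact hhalf

end FermatLib.MLT.LGC

end
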