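import Fermat.Agent.MLT.LGC.Package
import Fermat.Agent.MLT.LGC.ChiPart
import Fermat.Agent.MLT.LGC.LatticeGalois

/-!
# The data of the count on the Betti part

From the properties of the Galois action on the parabolic homomorphisms of `lgcGroup q M` (it
commutes with the good Hecke operators and with `U q`, preserves the eigenspace of `χ`, satisfies
the relation at Frobenius elements) and a subspace of half the dimension containing the images of
inertia and of `F - U q`, the data of the count.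
-/

set_option autoImplicit false
set_option linter.style.haveILetI false

noncomputable section

open CongruenceSubgroup ModularCurve.Period
open scoped MatrixGroups

namespace FermatLib.MLT.LGC

local notation "Qbar" => AlgebraicClosure ℚ
local notation "Γℚ" => (AlgebraicClosure ℚ ≃ₐ[ℚ] AlgebraicClosure ℚ)

section Abstract

variable {O : Type} [CommRing O] [IsDomain O] [IsDiscreteValuationRing O] [CharZero O]
  {p q M : ℕ} [Fact p.Prime] [Fact q.Prime] {χ : (ZMod q)ˣ →* Oˣ}
  {K : Type} [Field K] [IsAlgClosed K] [Algebra O K] {lam : Nat.Primes → O}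
  {W : Type} [AddCommGroup W] [Module K W] [Module O W] [IsScalarTower O K W]
  {L : Type} [AddCommGroup L] [Module O L] [Module.Finite O L]
  {R : Type} [CommRing R] [IsLocalRing R] [Algebra O R] [Module.Finite O R]

/-- The data of the count from a stable subspace of a lattice with Galois action. -/
theorem nonempty_lgcPackage_of_subspace (hO : Function.Injective (algebraMap O K))
    (incl : L →ₗ[O] W) (hincl : Function.Injective incl) (gO : Γℚ →* Module.End O L)
    (gK : Γℚ →* Module.End K W) (hg : ∀ σ a, incl (gO σ a) = gK σ (incl a))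
    (hcont : ∀ n : ℕ, ∃ E : IntermediateField ℚ Qbar, FiniteDimensional ℚ E ∧
      ∀ σ : Γℚ, (∀ y ∈ E, σ y = y) → ∀ a : L, ∃ b : L, gO σ a - a = (p : O) ^ n • b)
    (Vm : Submodule K W) [FiniteDimensional K Vm]
    (hspan : Vm ≤ Submodule.span K (incl '' {a | incl a ∈ Vm}))
    (hstab : ∀ σ, ∀ v ∈ Vm, gK σ v ∈ Vm)
    (act : R →ₐ[O] Module.End K Vm)
    (hlat : ∀ r (a : L) (ha : incl a ∈ Vm), ∃ b : L, (act r ⟨incl a, ha⟩ : W) = incl b)
    (hcomm : ∀ σ r, Commute (act r) ((gK σ).restrict (hstab σ)))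
    (point : R →ₐ[O] O) (T : Nat.Primes → R)
    (hT : ∀ l ∈ goodPrimes q M p, point (T l) = lam l)
    {A : ValuationSubring Qbar} {F : Γℚ}
    (hfrob : ∀ l : Nat.Primes, l ∈ goodPrimes q M p → ∀ hlq : Nat.Coprime (l : ℕ) q,
      ∀ P : ValuationSubring Qbar, P.LiesOverPrime l → ∀ σ : Γℚ, P.IsFrobeniusAt σ l →
        ∀ v : Vm, gK σ v + algebraMap O K ((χ (ZMod.unitOfCoprime (l : ℕ) hlq) : O) * (l : O)) •
          gK σ⁻¹ v = (act (T l) v : W))
    (U : Module.End K Vm) (hUgal : ∀ σ, Commute U ((gK σ).restrict (hstab σ)))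
    (hUact : ∀ r, Commute (act r) U)
    (Kr : Submodule K W) (hKI : ∀ τ ∈ A.inertiaSubgroupIn ℚ, ∀ v : Vm, gK τ v - v ∈ Kr)
    (hKF : ∀ v : Vm, gK F v - (U v : W) ∈ Kr)
    (hhalf : 2 * Module.finrank K ↥(Kr ⊓ Vm) ≤ Module.finrank K Vm)
    (v₀ : Vm) (hv0 : v₀ ≠ 0) (hact : ∀ r, act r v₀ = algebraMap O K (point r) • v₀) :
    (∃ u₀ : K, Nonempty (LgcPackage p q M χ K lam A F u₀)) ∧
      ∀ u : K, U v₀ = u • v₀ → Nonempty (LgcPackage p q M χ K lam A F u) := by
  classical
  let Λ : Submodule O L := (Vm.restrictScalars O).comap incl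
  let ι : Λ →ₗ[O] Vm := (incl.comp Λ.subtype).codRestrict (Vm.restrictScalars O) fun a => a.2
  have hιinj : Function.Injective ι := fun a b hab =>
    Subtype.ext (hincl (congrArg Subtype.val hab))
  have hspanι : Submodule.span K (Set.range ι) = ⊤ := by
    refine Submodule.map_injective_of_injective Vm.injective_subtype ?_
    rw [Submodule.map_span, Submodule.map_subtype_top, ← Set.range_comp]
    refine le_antisymm ?_ (hspan.trans (Submodule.span_mono ?_))
    · refine Submodule.span_le.mpr ?_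
      rintro _ ⟨a, rfl⟩
      exact a.2
    · rintro _ ⟨a, ha, rfl⟩
      exact ⟨⟨a, ha⟩, rfl⟩
  haveI : Module.Finite O Λ := Module.Finite.iff_fg.mpr (IsNoetherian.noetherian Λ)
  let ρΛ : Γℚ →* Module.End O Λ :=
    { toFun := fun σ => (gO σ).restrict fun a ha => by
        show incl (gO σ a) ∈ Vm
        rw [hg]
        exact hstab σ _ ha
      map_one' := LinearMap.ext fun a => Subtype.ext (by
        show gO 1 a = a
        rw [map_one]; rfl)
      map_mul' := fun σ τ => LinearMap.ext fun a => Subtype.ext (by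
        show gO (σ * τ) a = gO σ (gO τ a)
        rw [map_mul]; rfl) }
  let ρV : Γℚ →* Module.End K Vm :=
    { toFun := fun σ => (gK σ).restrict (hstab σ)
      map_one' := LinearMap.ext fun a => Subtype.ext (by
        show gK 1 a.1 = a.1
        rw [map_one]; rfl)
      map_mul' := fun σ τ => LinearMap.ext fun a => Subtype.ext (by
        show gK (σ * τ) a.1 = gK σ (gK τ a.1)
        rw [map_mul]; rfl) }
  have hρι : ∀ σ a, ι (ρΛ σ a) = ρV σ (ι a) := fun σ a => Subtype.ext (hg σ a)
  have hfinΛ : ∀ n : ℕ, ∃ E : IntermediateField ℚ Qbar, FiniteDimensional ℚ E ∧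
      ∀ σ : Γℚ, (∀ y ∈ E, σ y = y) → ∃ b : Module.End O Λ, ρΛ σ - 1 = (p : O) ^ n • b := by
    intro n
    obtain ⟨E, hE, hE'⟩ := hcont n
    refine ⟨E, hE, fun σ hσ => ?_⟩
    have hpn : (p : O) ^ n ≠ 0 := pow_ne_zero _ (Nat.cast_ne_zero.mpr (Fact.out : p.Prime).ne_zero)
    have hpK : algebraMap O K ((p : O) ^ n) ≠ 0 := fun h0 => hpn (hO (h0.trans (map_zero _).symm))
    have hex : ∀ a : Λ, ∃ b : Λ, ρΛ σ a - a = (p : O) ^ n • b := by
      intro a
      obtain ⟨y, hy⟩ := hE' σ hσ a.1
      refine ⟨⟨y, ?_⟩, Subtype.ext hy⟩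
      show incl y ∈ Vm
      have h1 : incl ((p : O) ^ n • y) ∈ Vm := by
        rw [← hy, map_sub, hg]
        exact sub_mem (hstab σ _ a.2) a.2
      rw [map_smul, ← algebraMap_smul K] at h1
      exact (Submodule.smul_mem_iff _ hpK).mp h1
    choose b hb using hex
    have huniq : ∀ x y : Λ, (p : O) ^ n • x = (p : O) ^ n • y → x = y := fun x y hxy =>
      hιinj (smul_right_injective Vm hpK (by
        show algebraMap O K ((p : O) ^ n) • ι x = algebraMap O K ((p : O) ^ n) • ι y
        rw [algebraMap_smul, algebraMap_smul, ← map_smul, ← map_smul, hxy]))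
    refine ⟨⟨⟨b, fun a a' => huniq _ _ ?_⟩, fun c a => huniq _ _ ?_⟩, LinearMap.ext hb⟩
    · rw [smul_add, ← hb, ← hb, ← hb, map_add]
      abel
    · rw [RingHom.id_apply, smul_comm _ c, ← hb, ← hb, map_smul, smul_sub]
  have hpres : ∀ (r : R) (a : Λ), ∃ b : Λ, ι b = act r (ι a) := fun r a => by
    obtain ⟨b, hb⟩ := hlat r a.1 a.2
    exact ⟨⟨b, by show incl b ∈ Vm; rw [← hb]; exact Subtype.prop _⟩, Subtype.ext hb.symm⟩
  choose fΛ hfΛ using hpres
  let fe : R → Module.End O Λ := fun r =>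
    { toFun := fΛ r
      map_add' := fun a b => hιinj (by rw [map_add, hfΛ, hfΛ, hfΛ, map_add, map_add])
      map_smul' := fun c a => hιinj (by
        rw [RingHom.id_apply, map_smul, hfΛ, hfΛ, map_smul, LinearMap.map_smul_of_tower]) }
  have hfe : ∀ r a, ι (fe r a) = act r (ι a) := hfΛ
  let actΛ : R →ₐ[O] Module.End O Λ :=
    { toFun := fe
      map_one' := LinearMap.ext fun a => hιinj (by
        rw [hfe, map_one, Module.End.one_apply, Module.End.one_apply])
      map_mul' := fun r s => LinearMap.ext fun a => hιinj (by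
        rw [hfe, Module.End.mul_apply, hfe, hfe, map_mul, Module.End.mul_apply])
      map_zero' := LinearMap.ext fun a => hιinj (by
        rw [hfe, map_zero, LinearMap.zero_apply, LinearMap.zero_apply, map_zero])
      map_add' := fun r s => LinearMap.ext fun a => hιinj (by
        rw [hfe, LinearMap.add_apply, map_add ι, hfe, hfe, map_add, LinearMap.add_apply])
      commutes' := fun c => LinearMap.ext fun a => hιinj (by
        rw [hfe, AlgHom.commutes, Module.algebraMap_end_apply, Module.algebraMap_end_apply,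
          map_smul]) }
  have hcommΛ : ∀ r σ, Commute (actΛ r) (ρΛ σ) := fun r σ => LinearMap.ext fun a => hιinj <| by
    show ι (fe r (ρΛ σ a)) = ι (ρΛ σ (fe r a))
    rw [hfe, hρι, hρι, hfe]
    exact LinearMap.congr_fun (hcomm σ r).eq _
  have key : ∀ (v : Vm) (u : K), v ≠ 0 →
      (∀ r, act r v = algebraMap O K (point r) • v) → U v = u • v →
      Nonempty (LgcPackage p q M χ K lam A F u) := fun v u hvne hv hu => ⟨
    { V := Vm
      Λ := Λ
      R := R
      ι := ι
      span_range := hspanι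
      ρΛ := ρΛ
      ρV := ρV
      ρ_comp := hρι
      continuous := hfinΛ
      actΛ := actΛ
      commute := hcommΛ
      act := act
      act_comp := hfe
      point := point
      T := T
      point_T := hT
      frobenius := fun l hl hlq P hP σ hσ => LinearMap.ext fun a => hιinj <| by
        rw [LinearMap.add_apply, LinearMap.smul_apply, map_add, map_smul, hρι, hρι]
        refine (Subtype.ext ?_).trans (hfe _ a).symm
        rw [← hfrob l hl hlq P hP σ hσ (ι a), algebraMap_smul]
        rfl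
      vec := v
      vec_ne_zero := hvne
      act_vec := hv
      U := U
      U_commute := hUgal
      U_vec := hu
      Kr := Kr.comap Vm.subtype
      inertia_mem := fun τ hτ w => hKI τ hτ w
      frob_mem := fun w => hKF w
      half := by
        rw [← Submodule.finrank_map_subtype_eq Vm (Kr.comap Vm.subtype),
          Submodule.map_comap_subtype, inf_comm]
        exact hhalf }⟩
  let E : Submodule K Vm := ⨅ r, LinearMap.ker (act r - algebraMap O K (point r) • 1)
  have hE : ∀ v : Vm, v ∈ E ↔ ∀ r, act r v = algebraMap O K (point r) • v := fun v => by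
    simp only [E, Submodule.mem_iInf, LinearMap.mem_ker, LinearMap.sub_apply,
      LinearMap.smul_apply, Module.End.one_apply, sub_eq_zero]
  haveI : Nontrivial E := ⟨⟨⟨v₀, (hE _).mpr hact⟩, 0, fun h0 => hv0 (congrArg Subtype.val h0)⟩⟩
  have hUE : ∀ v ∈ E, U v ∈ E := by
    intro v hv
    rw [hE] at hv ⊢
    intro r
    rw [← Module.End.mul_apply, (hUact r).eq, Module.End.mul_apply, hv r, map_smul]
  obtain ⟨u₁, hu₁⟩ := Module.End.exists_eigenvalue (U.restrict hUE)
  obtain ⟨v, hv, hvne⟩ := hu₁.exists_hasEigenvector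
  exact ⟨⟨u₁, key v.1 u₁ (fun h0 => hvne (Subtype.ext h0)) ((hE _).mp v.2)
    (congrArg Subtype.val (Module.End.mem_eigenspace_iff.mp hv))⟩, fun u hu =>
      key v₀ u hv0 hact hu⟩

end Abstract

variable {O : Type} [CommRing O] [IsDomain O] [IsDiscreteValuationRing O]
  [IsAdicComplete (IsLocalRing.maximalIdeal O) O] [Finite (IsLocalRing.ResidueField O)] [CharZero O]
  {p q M : ℕ} [Fact p.Prime] [Fact q.Prime] [NeZero M] {χ : (ZMod q)ˣ →* Oˣ}
  {K : Type} [Field K] [IsAlgClosed K] [CharZero K] [Algebra O K]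
  {lam : Nat.Primes → O}

/-- **The data of the count on the Betti part.** -/
theorem nonempty_lgcPackage_of_galois (hO : Function.Injective (algebraMap O K))
    (hp : (p : O) ∈ IsLocalRing.maximalIdeal O)
    {x : bettiH1 (Gamma0 (q * M)) (nebenChar (lgcChiK q M K χ)) K} {ρ : GaloisRepAdic O}
    (h : IsLgcSystem p q M χ K lam x ρ) {A : ValuationSubring Qbar} {F : Γℚ}
    (hcommT : ∀ σ, ∀ l ∈ goodPrimes q M p,
      Commute (galK K (conjStable_lgcGroup q M) hp σ) (lgcParOp q M K K l))
    (heig : ∀ σ, ∀ v : parabolicHoms K (lgcGroup q M) K,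
      IsChiEigen (lgcChiK q M K χ) (lgcGroup q M) v.1 →
        IsChiEigen (lgcChiK q M K χ) (lgcGroup q M) (galK K (conjStable_lgcGroup q M) hp σ v).1)
    (hcommU : ∀ σ, ∀ v ∈ lgcVm K h.chiPartData,
      lgcParOp q M K K ⟨q, Fact.out⟩ (galK K (conjStable_lgcGroup q M) hp σ v) =
        galK K (conjStable_lgcGroup q M) hp σ (lgcParOp q M K K ⟨q, Fact.out⟩ v))
    (hfrob : ∀ l : Nat.Primes, l ∈ goodPrimes q M p → ∀ hlq : Nat.Coprime (l : ℕ) q,
      ∀ P : ValuationSubring Qbar, P.LiesOverPrime l → ∀ σ : Γℚ, P.IsFrobeniusAt σ l →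
        ∀ v ∈ lgcVm K h.chiPartData,
          galK K (conjStable_lgcGroup q M) hp σ v +
            algebraMap O K ((χ (ZMod.unitOfCoprime (l : ℕ) hlq) : O) * (l : O)) •
              galK K (conjStable_lgcGroup q M) hp σ⁻¹ v = lgcParOp q M K K l v)
    (Kr : Submodule K (parabolicHoms K (lgcGroup q M) K))
    (hKI : ∀ τ ∈ A.inertiaSubgroupIn ℚ, ∀ v ∈ lgcVm K h.chiPartData,
      galK K (conjStable_lgcGroup q M) hp τ v - v ∈ Kr)
    (hKF : ∀ v ∈ lgcVm K h.chiPartData,
      galK K (conjStable_lgcGroup q M) hp F v - lgcParOp q M K K ⟨q, Fact.out⟩ v ∈ Kr)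
    (hhalf : 2 * Module.finrank K ↥(Kr ⊓ lgcVm K h.chiPartData) ≤
      Module.finrank K (lgcVm K h.chiPartData)) :
    ∃ u₀ : K, Nonempty (LgcPackage p q M χ K lam A F u₀) ∧
      ∀ u : K, bettiHeckeOp (q * M) K (lgcChiK q M K χ) ⟨q, Fact.out⟩ x = u • x →
        Nonempty (LgcPackage p q M χ K lam A F u) := by
  classical
  haveI : Fact (1 < q) := ⟨(Fact.out : q.Prime).one_lt⟩
  set hd := h.chiPartData
  have hC := conjStable_lgcGroup q M
  haveI := fg_of_conjStable hC
  haveI := finiteDimensional_lgcVm hO hd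
  haveI : Module.Finite O (parabolicHoms O (lgcGroup q M) O) := finite_parLattice hC hp
  obtain ⟨hfree, hfin⟩ := lgcLoc_free hd
  obtain ⟨v₀, -, hv0, hTv, hUv, χ₀, hχ₀, hact₀⟩ := exists_lgcVector hO hd h
  -- nontriviality and the algebra
  haveI hnt : Nontrivial (LgcLoc p q M χ lam) := by
    by_contra hc
    rw [not_nontrivial_iff_subsingleton] at hc
    refine hv0 ?_
    have h0 : ∀ w : lgcVm K hd, w = 0 := by
      have hbot : lgcVm K hd = ⊥ := by
        refine Submodule.span_eq_bot.mpr ?_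
        rintro _ ⟨a, rfl⟩
        rw [Subsingleton.elim a 0, map_zero]
      exact fun w => Subtype.ext ((Submodule.mem_bot K).mp (hbot ▸ w.2))
    exact h0 v₀
  haveI : IsLocalRing (lgcHecke p q M χ lam) :=
    bettiResHecke_isLocalRing _ _ _ (sysTheta_maximal lam)
  haveI : Module.Finite O (lgcHecke p q M χ lam) :=
    bettiResHecke_finite _ _ _ (sysTheta_maximal lam)
  have hrange : ∀ r, ∃ c : O, algebraMap O K c = χ₀ r := by
    intro r
    have hr : r ∈ Algebra.adjoin O (Set.range
        (bettiResGen (lgcChi q M χ) (goodPrimes q M p) (sysTheta lam))) := by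
      rw [adjoin_bettiResGen]
      trivial
    induction hr using Algebra.adjoin_induction with
    | mem y hy =>
      obtain ⟨l, rfl⟩ := hy
      exact ⟨lam l, (hχ₀ l).symm⟩
    | algebraMap d => exact ⟨d, (χ₀.commutes d).symm⟩
    | add y z _ _ hy hz =>
      obtain ⟨a, ha⟩ := hy
      obtain ⟨b, hb⟩ := hz
      exact ⟨a + b, by rw [map_add, map_add, ha, hb]⟩
    | mul y z _ _ hy hz =>
      obtain ⟨a, ha⟩ := hy
      obtain ⟨b, hb⟩ := hz
      exact ⟨a * b, by rw [map_mul, map_mul, ha, hb]⟩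
  choose pt hpt using hrange
  let point : lgcHecke p q M χ lam →ₐ[O] O :=
    { toFun := pt
      map_one' := hO (by rw [hpt, map_one, map_one])
      map_mul' := fun a b => hO (by rw [hpt, map_mul, map_mul, hpt, hpt])
      map_zero' := hO (by rw [hpt, map_zero, map_zero])
      map_add' := fun a b => hO (by rw [hpt, map_add, map_add, hpt, hpt])
      commutes' := fun c => hO (by rw [hpt, AlgHom.commutes]; rfl) }
  -- the lattice
  have hincl : ∀ a, (lgcIncl q M K) a = latK O K (lgcGroup q M) a := fun a => rfl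
  have hstab : ∀ σ, ∀ v ∈ lgcVm K hd, galK K hC hp σ v ∈ lgcVm K hd := fun σ v hv =>
    lgcVm_stable hO hd (galK K hC hp σ) (hcommT σ) (heig σ) hv
  have hcont : ∀ n : ℕ, ∃ E : IntermediateField ℚ Qbar, FiniteDimensional ℚ E ∧
      ∀ σ : Γℚ, (∀ y ∈ E, σ y = y) → ∀ a : parabolicHoms O (lgcGroup q M) O,
        ∃ b, galO hC hp σ a - a = (p : O) ^ n • b := fun n => by
    obtain ⟨E, hE, hE'⟩ := galO_finiteLevel hC hp n
    refine ⟨E, hE, fun σ hσ a => ?_⟩
    obtain ⟨y, hy⟩ := hE' σ hσ a
    exact ⟨y, by rw [hy, Nat.cast_pow]⟩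
  have hpres : ∀ (r : lgcHecke p q M χ lam) (a : parabolicHoms O (lgcGroup q M) O)
      (ha : lgcIncl q M K a ∈ lgcVm K hd),
      ∃ b : parabolicHoms O (lgcGroup q M) O, (lgcAct hO hd r ⟨lgcIncl q M K a, ha⟩ : parabolicHoms K (lgcGroup q M) K) =
        lgcIncl q M K b := by
    intro r
    have hr : r ∈ Algebra.adjoin O (Set.range
        (bettiResGen (lgcChi q M χ) (goodPrimes q M p) (sysTheta lam))) := by
      rw [adjoin_bettiResGen]
      trivial
    induction hr using Algebra.adjoin_induction with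
    | mem y hy =>
      obtain ⟨l, rfl⟩ := hy
      intro a ha
      refine ⟨lgcParOp q M O O l a, ?_⟩
      rw [lgcAct_gen, coe_lgcVmOp]
      exact lgcParOp_lgcIncl K l a
    | algebraMap d =>
      intro a ha
      refine ⟨d • a, ?_⟩
      rw [AlgHom.commutes, Module.algebraMap_end_apply, map_smul]
      rfl
    | add y z _ _ hy hz =>
      intro a ha
      obtain ⟨b, hb⟩ := hy a ha
      obtain ⟨c, hc⟩ := hz a ha
      exact ⟨b + c, by rw [map_add, LinearMap.add_apply, Submodule.coe_add, hb, hc, map_add]⟩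
    | mul y z _ _ hy hz =>
      intro a ha
      obtain ⟨b, hb⟩ := hz a ha
      have hbmem : lgcIncl q M K b ∈ lgcVm K hd := hb ▸ Subtype.prop _
      obtain ⟨c, hc⟩ := hy b hbmem
      refine ⟨c, ?_⟩
      rw [map_mul, Module.End.mul_apply, show lgcAct hO hd z ⟨lgcIncl q M K a, ha⟩ =
        ⟨lgcIncl q M K b, hbmem⟩ from Subtype.ext hb, hc]
  have hspan : lgcVm K hd ≤ Submodule.span K (lgcIncl q M K '' {a : parabolicHoms O (lgcGroup q M) O | lgcIncl q M K a ∈ lgcVm K hd}) := by
    refine Submodule.span_mono ?_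
    rintro _ ⟨a, rfl⟩
    exact ⟨lgcIota hd a, lgcIotaK_mem hd a, rfl⟩
  have hact : ∀ r, lgcAct hO hd r v₀ = algebraMap O K (point r) • v₀ := fun r => by
    rw [show algebraMap O K (point r) = χ₀ r from hpt r]
    exact hact₀ r
  obtain ⟨⟨u₀, hu₀⟩, hu⟩ := nonempty_lgcPackage_of_subspace (p := p) (q := q) (M := M) (χ := χ)
    (lam := lam) (A := A) (F := F) hO (lgcIncl q M K)
    (fun a b hab => latK_injective hO hab) (galO hC hp) (galK K hC hp)
    (fun σ a => (galK_latK hC hp σ a).symm) hcont (lgcVm K hd) hspan hstab (lgcAct hO hd) hpres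
    (fun σ r => commute_lgcAct_restrict hO hd (galK K hC hp σ) (hcommT σ) (hstab σ) r) point
    (fun l => if hl : l ∈ goodPrimes q M p then
      bettiResGen (lgcChi q M χ) (goodPrimes q M p) (sysTheta lam) ⟨l, hl⟩ else 0)
    (fun l hl => hO (by rw [dif_pos hl]; exact (hpt _).trans (hχ₀ ⟨l, hl⟩)))
    (fun l hl hlq P hP σ hσ v => by
      rw [dif_pos hl, lgcAct_gen, coe_lgcVmOp]
      exact hfrob l hl hlq P hP σ hσ _ v.2)
    (lgcVmOp K hd ⟨q, Fact.out⟩)
    (fun σ => LinearMap.ext fun w => Subtype.ext (hcommU σ _ w.2))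
    (fun r => commute_lgcAct_lgcVmOp hO hd r _)
    Kr (fun τ hτ v => hKI τ hτ _ v.2) (fun v => hKF _ v.2) hhalf v₀ hv0 hact
  exact ⟨u₀, hu₀, fun u hux => hu u (hUv _ _ hux)⟩

end FermatLib.MLT.LGC

end
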