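import Fermat.Agent.MLT.LGC.DictionaryRoot
import Fermat.Agent.Modular.Kummer.KummerBar
import Fermat.Agent.Modular.FieldForms
import Fermat.Agent.Modular.CorrFacts
import Fermat.Agent.Igusa.RRField

/-!
# Root classes on `Γ₀(N)` as torsion classes of `J₀(N)`

If an `n`-th root of a weakly modular function with algebraic expansion `x` transforms by a
cuspidal `φ`, the divisor of `x` is `n D` and `mk D` has Kummer class `φ`.
-/

set_option autoImplicit false
set_option linter.style.haveILetI false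

noncomputable section

open UpperHalfPlane hiding I
open CongruenceSubgroup ModularCurve AlgebraicCurve
open scoped MatrixGroups Manifold

local notation "Δ" => ModularForm.discriminant
local notation "Qbar" => AlgebraicClosure ℚ

namespace FermatLib.MLT.LGC

open FermatLib.Modular FermatLib.Modular.Kummer

attribute [local instance] FermatLib.Curve.qbarAlgebraComplex

variable {N : ℕ} [NeZero N]

/-- Powers of forms with character. -/
theorem isTwisted_pow {χ : Gamma0 N →* ℂˣ} {k : ℤ} {r : ℍ → ℂ} (h : IsTwisted χ k r) :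
    ∀ m : ℕ, IsTwisted (χ ^ m) ((m : ℤ) * k) (r ^ m)
  | 0 => by
    have h0 := (isTwisted_discriminant_pow N 0).congr_char (χ' := χ ^ 0) fun γ => by simp
    rw [pow_zero] at h0
    rw [pow_zero r]
    exact h0.cast_weight (by simp)
  | m + 1 => by
    simp only [pow_succ]
    refine (((isTwisted_pow h m).mul h).congr_char fun γ => ?_).cast_weight ?_
    · rw [MonoidHom.mul_apply, MonoidHom.pow_apply, MonoidHom.pow_apply, pow_succ]
    · push_cast
      ring

variable {n : ℕ} [NeZero n]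

/-- A function whose `n`-th root transforms by the Kummer character of `D` differs from the
function of `D` by the `n`-th power of a function. -/
theorem exists_eq_mul_pow_of_isKummerChar {φ : Additive (Gamma0 N) →+ muC n} {g : ℍ → ℂ}
    (hg : IsRootClass (Gamma0 N) n g φ) (G : cxField N) (hG : (G : LaurentSeries ℂ) = qExpL g)
    {D : Divisor ℂ (cxField N)} (hD : IsKummerChar n D (toChar φ)) :
    G ≠ 0 ∧ ∃ K : cxField N, K ≠ 0 ∧ ∀ v, v.ord G = (n : ℤ) * (D v - v.ord K) := by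
  obtain ⟨hgW, hg0, h, hh, hht, hhn⟩ := hg
  obtain ⟨k, A, B, f, r, hA, hB, hAB, hfD, tr, hrn⟩ := hD
  obtain ⟨m, hm⟩ := exists_forall_isBounded_mul_pow (⟨g, hgW⟩ : weakMod (Gamma0 N))
  have hn : n ≠ 0 := NeZero.ne n
  have hle : m ≤ n * m := Nat.le_mul_of_pos_left _ (NeZero.pos n)
  have tH : IsTwisted (toChar φ) ((12 * m : ℕ) : ℤ) (h * (Δ : ℍ → ℂ) ^ m) := by
    refine ⟨hh.mul (isTwisted_discriminant_pow N m).mdiff, fun γ => ?_, fun X => ?_⟩
    · rw [mul_discriminant_pow_slash]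
      funext τ
      simp only [Pi.mul_apply, Pi.smul_apply, Pi.pow_apply, smul_eq_mul]
      rw [hht γ τ, mul_assoc]
      rfl
    · rw [mul_discriminant_pow_slash]
      refine isBoundedAtImInfty_of_pow hn ?_
      refine (hm (n * m) hle X).congr' (Filter.Eventually.of_forall fun τ => ?_)
        Filter.EventuallyEq.rfl
      simp only [Pi.mul_apply, Pi.pow_apply, mul_pow, hhn, ← pow_mul, mul_comm m n]
  have hn1 : n - 1 + 1 = n := Nat.sub_add_cancel (NeZero.pos n)
  have hχ : ∀ γ, (toChar φ * toChar φ ^ (n - 1)) γ = 1 := fun γ => by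
    rw [MonoidHom.mul_apply, MonoidHom.pow_apply, ← pow_succ', hn1, toChar_pow_eq_one]
  have tS := tr.mul (isTwisted_pow tH (n - 1))
  have tB2 : IsTwisted (1 : Gamma0 N →* ℂˣ) (k + ((n - 1 : ℕ) : ℤ) * ((12 * m : ℕ) : ℤ))
      (⇑B * (Δ : ℍ → ℂ) ^ ((n - 1) * m)) :=
    ((IsTwisted.of_modularForm B).mul_trivial
      (isTwisted_discriminant_pow N ((n - 1) * m))).cast_weight (by push_cast; ring)
  set S := r * (h * (Δ : ℍ → ℂ) ^ m) ^ (n - 1) with hS
  set T := ⇑B * (Δ : ℍ → ℂ) ^ ((n - 1) * m) with hT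
  have hSc := tS.isCuspFn_one hχ
  have hTc := tB2.isCuspFn_one fun _ => rfl
  have hT0 : T ≠ 0 := by
    obtain ⟨τ, hτ⟩ := Function.ne_iff.mp (modularForm_coe_ne_zero hB)
    exact Function.ne_iff.mpr
      ⟨τ, mul_ne_zero hτ (pow_ne_zero _ (ModularForm.discriminant_ne_zero τ))⟩
  have hfun : S ^ n * ⇑B = ⇑A * g ^ (n - 1) * T ^ n := by
    funext τ
    have h1 := congrFun hrn τ
    simp only [Pi.mul_apply, Pi.pow_apply] at h1
    simp only [hS, hT, Pi.mul_apply, Pi.pow_apply, mul_pow, h1, ← pow_mul]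
    rw [show (h τ) ^ ((n - 1) * n) = (g τ) ^ (n - 1) by
      rw [mul_comm, pow_mul, hhn],
      show m * (n - 1) * n = (n - 1) * m * n by ring,
      show (B τ) ^ n = (B τ) ^ (n - 1) * B τ by rw [← pow_succ, hn1]]
    ring
  have hgM : g ∈ qMero := weakMod_Gamma0_le_qMero N hgW
  have hAM := isCuspFn_one_mem_qMero (isCuspFn_one A)
  have hBM := isCuspFn_one_mem_qMero (isCuspFn_one B)
  have hSM := isCuspFn_one_mem_qMero hSc
  have hTM := isCuspFn_one_mem_qMero hTc
  have hpow : ∀ {F : ℍ → ℂ}, F ∈ qMero → ∀ i : ℕ, qExpL (F ^ i) = qExpL F ^ i := by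
    intro F hF i
    induction i with
    | zero => rw [pow_zero, pow_zero, qExpL_one]
    | succ i ih => rw [pow_succ, pow_succ, qExpL_mul (pow_mem hF i) hF, ih]
  have hser := congrArg qExpL hfun
  rw [qExpL_mul (pow_mem hSM n) hBM, qExpL_mul (mul_mem hAM (pow_mem hgM _)) (pow_mem hTM n),
    qExpL_mul hAM (pow_mem hgM _), hpow hSM, hpow hTM, hpow hgM, qExpL_eq_qL hSc,
    qExpL_eq_qL hTc, qExpL_eq_qL (isCuspFn_one A), qExpL_eq_qL (isCuspFn_one B), ← hG,
    ← hAB] at hser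
  have hT' : qL T ≠ 0 := fun h0 => hT0 ((qL_eq_zero_iff hTc).mp h0)
  have hG0 : G ≠ 0 := fun h0 => hg0 (by
    have h1 : qExpL g = qExpL (0 : ℍ → ℂ) := by
      rw [← hG, h0, qExpL_zero]; rfl
    exact congrArg Subtype.val (qExpLHom_injective (a₁ := ⟨g, hgM⟩) (a₂ := 0) h1))
  set K₀ : cxField N := ⟨qL S / qL T, by
    have hdiv := (cxDictionary N).div_mem _ (tS.toModularForm hχ) (tB2.toModularForm fun _ => rfl)
    simpa only [IsTwisted.coe_toModularForm] using hdiv⟩ with hK₀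
  have hK : K₀ ^ n = f * G ^ (n - 1) := by
    refine Subtype.ext (mul_right_cancel₀ (mul_ne_zero (qL_ne_zero hB) (pow_ne_zero n hT')) ?_)
    show (qL S / qL T) ^ n * (qL ⇑B * qL T ^ n) =
      (f : LaurentSeries ℂ) * (G : LaurentSeries ℂ) ^ (n - 1) * (qL ⇑B * qL T ^ n)
    rw [div_pow, mul_comm (qL ⇑B) (qL T ^ n), ← mul_assoc, div_mul_cancel₀ _ (pow_ne_zero n hT'),
      hser]
    ring
  have hf0 : f ≠ 0 := ne_zero_of_eq hA hAB
  have hK0 : K₀ ≠ 0 := fun h0 => by
    rw [h0, zero_pow hn] at hK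
    exact mul_ne_zero hf0 (pow_ne_zero _ hG0) hK.symm
  refine ⟨hG0, K₀ / G, div_ne_zero hK0 hG0, fun v => ?_⟩
  have h2 := congrArg v.ord hK
  rw [FermatLib.Igusa.ord_pow, v.ord_mul hf0 (pow_ne_zero _ hG0), hfD,
    FermatLib.Igusa.ord_pow] at h2
  rw [div_eq_mul_inv, v.ord_mul hK0 (inv_ne_zero hG0), v.ord_inv]
  have h3 : ((n - 1 : ℕ) : ℤ) = (n : ℤ) - 1 := by
    rw [Nat.cast_sub (NeZero.pos n)]; simp
  rw [h3] at h2
  linear_combination h2

/-- **Root classes are Kummer classes.** -/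
theorem exists_divisor_of_isRootClass {φ : cuspidalHoms ℤ (Gamma0 N) (muC n)} {g : ℍ → ℂ}
    (hg : IsRootClass (Gamma0 N) n g φ.1) (x : modularFunctionFieldBar N)
    (hx : coeffMap complexEmbedding.toRingHom (x : LaurentSeries Qbar) = qExpL g) :
    x ≠ 0 ∧ ∃ D : Divisor.degZero (K := Qbar) (F := modularFunctionFieldBar N),
      (∀ v, (n : ℤ) * (D : Divisor Qbar (modularFunctionFieldBar N)) v = v.ord x) ∧
        Pic0.mk D = (((kummerEquiv N n).symm φ :
          Pic0.torsion Qbar (modularFunctionFieldBar N) n) : JZero N) := by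
  classical
  set t := (kummerEquiv N n).symm φ with ht
  obtain ⟨Dc, hDc⟩ := Pic0.mk_surjective ((barTorsionMap N n t : Pic0 ℂ (cxField N)))
  have hK : IsKummerChar n (Dc : Divisor ℂ (cxField N)) (toChar φ.1) := by
    have h := isKummerChar_kummerCx (barTorsionMap N n t) hDc
    rwa [← kummerEquiv_apply, ht, AddEquiv.apply_symm_apply] at h
  obtain ⟨hG0, K, hK0, hord⟩ := exists_eq_mul_pow_of_isKummerChar hg
    (Curve.barToComplex N x) (by rw [Curve.coe_barToComplex]; exact hx) hK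
  have hx0 : x ≠ 0 := fun h0 => hG0 (by rw [h0, map_zero])
  haveI := (Corr.curveFacts Qbar).hasPrincipalDivisors N
  obtain ⟨E, hE, hE0⟩ := HasPrincipalDivisors.exists_divisor (K := Qbar) x hx0
  have hdvd : ∀ v, (n : ℤ) ∣ E v := fun v => by
    rw [hE, ← (constExtBar N).ord_placeExt v x]
    exact ⟨_, hord _⟩
  set D₀ : Divisor Qbar (modularFunctionFieldBar N) :=
    E.mapRange (fun e : ℤ => e / (n : ℤ)) (Int.zero_ediv _) with hD₀
  have hD₀v : ∀ v, (n : ℤ) * D₀ v = v.ord x := fun v => by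
    rw [hD₀, Finsupp.mapRange_apply, Int.mul_ediv_cancel' (hdvd v), hE]
  have hnD : (n : ℤ) • D₀ = E := Finsupp.ext fun v => by
    rw [Finsupp.smul_apply, smul_eq_mul, hD₀v, hE]
  have hdeg : D₀ ∈ Divisor.degZero (K := Qbar) (F := modularFunctionFieldBar N) := by
    rw [Divisor.mem_degZero]
    have h := congrArg Divisor.degree hnD
    rw [map_zsmul, hE0, smul_eq_mul, mul_eq_zero] at h
    exact h.resolve_left (by exact_mod_cast NeZero.ne n)
  refine ⟨hx0, ⟨D₀, hdeg⟩, hD₀v, ?_⟩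
  have htor : Pic0.mk ⟨D₀, hdeg⟩ ∈ Pic0.torsion Qbar (modularFunctionFieldBar N) n := by
    rw [Pic0.mem_torsion, show (n : ℤ) • Pic0.mk ⟨D₀, hdeg⟩ = Pic0.mk ((n : ℤ) • ⟨D₀, hdeg⟩)
      from rfl]
    refine (QuotientAddGroup.eq_zero_iff _).mpr (AddSubgroup.mem_addSubgroupOf.mpr ⟨x, hx0, ?_⟩)
    intro v
    show ((n : ℤ) • D₀) v = v.ord x
    rw [hnD, hE]
  suffices h : (⟨_, htor⟩ : Pic0.torsion Qbar (modularFunctionFieldBar N) n) = t from
    congrArg Subtype.val h
  refine (barTorsionMap_bijective N n).1 (Subtype.ext ?_)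
  rw [coe_barTorsionMap, ← hDc]
  show (constExtBar N).pic0Map (Pic0.mk ⟨D₀, hdeg⟩) = _
  rw [Curve.IsConstantExtension.pic0Map_mk]
  refine QuotientAddGroup.eq.mpr (AddSubgroup.mem_addSubgroupOf.mpr ⟨K, hK0, fun w => ?_⟩)
  rw [AddSubgroup.coe_add, AddSubgroup.coe_neg, Finsupp.add_apply, Finsupp.neg_apply,
    Curve.IsConstantExtension.coe_degZeroExt]
  refine mul_left_cancel₀ (show (n : ℤ) ≠ 0 by exact_mod_cast NeZero.ne n) ?_
  have h1 : (n : ℤ) * (constExtBar N).divisorExt D₀ w = w.ord (Curve.barToComplex N x) := by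
    have h2 : (constExtBar N).divisorExt E w = (n : ℤ) * (constExtBar N).divisorExt D₀ w := by
      rw [← hnD, map_zsmul, Finsupp.smul_apply, smul_eq_mul]
    rw [← h2, (constExtBar N).divisorExt_apply_eq_ord hE w]
  linear_combination (-1 : ℤ) * h1 - hord w

end FermatLib.MLT.LGC

end
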