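import Fermat.Agent.MLT.LGC.Red
import Fermat.Agent.MLT.LGC.TransferClass

/-!
# The kernel of the reduction of classes

The kernel of `lgcRed` contains the images of `τ - 1` for `τ` in inertia and of `F - U q` for a
Frobenius element `F`, and is respected by restriction and by lowering the order of the roots.
-/

set_option autoImplicit false

noncomputable section

open UpperHalfPlane hiding I
open CongruenceSubgroup ModularCurve
open scoped MatrixGroups Manifold

namespace FermatLib.MLT.LGC

open FermatLib.Modular FermatLib.Galois.DS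
open FermatLib.Igusa.Mono (monoLaurentModule monoLaurentSMul)

local notation "Qbar" => AlgebraicClosure ℚ
local notation "Γℚ" => (AlgebraicClosure ℚ ≃ₐ[ℚ] AlgebraicClosure ℚ)

attribute [local instance 100000] monoLaurentModule monoLaurentSMul

variable {q : ℕ} [Fact q.Prime] {A : ValuationSubring Qbar}

variable {Γ Γ' : Subgroup SL(2, ℤ)} {M M' : ℕ} [NeZero M] [NeZero M'] (hC : ConjStable Γ M)
  {n : ℕ} [NeZero n] (hA : A.LiesOverPrime q)

/-- `τ - 1` maps into the kernel. -/
theorem lgcRed_rootRep_sub_self {σ : Γℚ} (hσ : σ ∈ A.inertiaSubgroupIn ℚ) (φ : RootHom Γ n) :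
    lgcRed n hC A hA (rootRep hC n σ φ - φ) = 0 := by
  rw [map_sub, lgcRed_rootRep_of_mem_inertia hC A hA hσ]
  exact sub_self (G := UnitsModPow A hA (classField Γ) n) _

end FermatLib.MLT.LGC

end
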