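import Mathlib.LinearAlgebra.Finsupp.LinearCombination
import Fermat.Agent.Igusa.MonoSeriesSheet
import Fermat.Agent.Galois.DS.BaseData
import Fermat.Agent.Galois.DS.ConjUnits
import Fermat.Agent.Modular.Kummer.CoeffDescent
import Fermat.Prelude.Def_GaloisRep_ComplexConjugation

/-!
# The hull of the series with integer coefficients

`seriesHull L` is the field generated over `L` by the Laurent series with integer coefficients.
Every modular function of level `Γ₁(M)` (`M` divisible by `4` or by `5`) has its expansion at `∞`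
in `seriesHull ℂ`, and series with algebraic coefficients in `seriesHull ℂ` lie in
`seriesHull ℚ̄`.
-/

set_option autoImplicit false

noncomputable section

open Function ModularCurve CongruenceSubgroup
open scoped MatrixGroups

namespace FermatLib.MLT.LGC

open FermatLib.Igusa FermatLib.Galois.DS
open FermatLib.Igusa.Mono (intSeries monoLaurentModule monoLaurentSMul)

attribute [local instance 100000] monoLaurentModule monoLaurentSMul

section General

variable (L : Type*) [Field L] [CharZero L]

/-- The field generated by the series with integer coefficients. -/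
def seriesHull : IntermediateField L (LaurentSeries L) := IntermediateField.adjoin L (intSeries L)

variable {L}

omit [CharZero L] in
theorem intSpan_le_seriesHull {y : LaurentSeries L} (hy : y ∈ Mono.intSpan L) :
    y ∈ seriesHull L :=
  IntermediateField.algebra_adjoin_le_adjoin L _ hy

omit [CharZero L] in
theorem exists_div_intSpan {y : LaurentSeries L} (hy : y ∈ seriesHull L) :
    ∃ a ∈ Mono.intSpan L, ∃ b ∈ Mono.intSpan L, y = a / b := by
  obtain ⟨a, ha, b, hb, rfl⟩ := IntermediateField.mem_adjoin_iff_div.mp hy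
  exact ⟨a, ha, b, hb, rfl⟩

omit [CharZero L] in
theorem coeff_finsetSum' {ι : Type*} (s : Finset ι) (f : ι → LaurentSeries L) (i : ℤ) :
    (∑ j ∈ s, f j).coeff i = ∑ j ∈ s, (f j).coeff i := by
  rw [HahnSeries.coeff_sum]

/-- A series whose coefficients lie in a finitely generated subgroup is a combination of series
with integer coefficients. -/
theorem mem_intSpan_of_coeff_mem {ι : Type*} [Fintype ι] (c : ι → L) {y : LaurentSeries L}
    (hy : ∀ i, y.coeff i ∈ Submodule.span ℤ (Set.range c)) : y ∈ Mono.intSpan L := by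
  classical
  have h : ∀ i, ∃ f : ι → ℤ, ∑ j, f j • c j = y.coeff i ∧ (y.coeff i = 0 → f = 0) := by
    intro i
    rcases eq_or_ne (y.coeff i) 0 with h0 | h0
    · exact ⟨0, by simp [h0], fun _ => rfl⟩
    · obtain ⟨f, hf⟩ := (Submodule.mem_span_range_iff_exists_fun ℤ).mp (hy i)
      exact ⟨f, hf, fun h => absurd h h0⟩
  choose f hf hf0 using h
  have hpwo : ∀ j, (Function.support fun i => f i j).IsPWO := fun j =>
    y.isPWO_support.mono fun i hi h0 => hi (by simp [hf0 i h0])
  let z : ι → LaurentSeries ℤ := fun j => ⟨fun i => f i j, hpwo j⟩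
  have : y = ∑ j, algebraMap L (LaurentSeries L) (c j) * coeffMap (Int.castRingHom L) (z j) := by
    ext i
    rw [coeff_finsetSum', ← hf i]
    refine Finset.sum_congr rfl fun j _ => ?_
    rw [algebraMap_laurentSeries_eq_single, HahnSeries.coeff_single_zero_mul, coeffMap_coeff,
      zsmul_eq_mul, mul_comm]
    rfl
  rw [this]
  exact sum_mem fun j _ =>
    mul_mem (Subalgebra.algebraMap_mem _ _) (Mono.coeffMap_mem_intSpan (z j))

variable (M : ℕ) [NeZero M]

/-- Keep the coefficients of exponent divisible by `M`. -/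
def decimate : LaurentSeries L →ₗ[L] LaurentSeries L where
  toFun y := ⟨fun j => y.coeff ((M : ℤ) * j), by
    have hM : (0 : ℤ) < M := by exact_mod_cast NeZero.pos M
    have hmono : StrictMono fun j : ℤ => (M : ℤ) * j := fun a b hab => by
      simpa using mul_lt_mul_of_pos_left hab hM
    have h1 : BddBelow (Function.support fun j => y.coeff ((M : ℤ) * j)) := by
      refine ⟨min y.order 0, fun j hj => ?_⟩
      have h : y.order ≤ (M : ℤ) * j := HahnSeries.order_le_of_coeff_ne_zero hj
      rcases le_or_gt 0 j with hj0 | hj0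
      · exact (min_le_right _ _).trans hj0
      · exact (min_le_left _ _).trans (h.trans (by nlinarith))
    exact Set.IsWF.isPWO h1.wellFoundedOn_lt⟩
  map_add' x y := by ext; simp
  map_smul' c y := by ext; simp [Mono.monoSeries_smul_coeff]

omit [CharZero L] in
@[simp]
theorem decimate_coeff (y : LaurentSeries L) (j : ℤ) :
    (decimate M y).coeff j = y.coeff ((M : ℤ) * j) := rfl

omit [CharZero L] in
theorem decimate_qExpand_mul (g y : LaurentSeries L) :
    decimate M (qExpand L M g * y) = g * decimate M y := by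
  classical
  ext j
  rw [decimate_coeff]
  have h1 : (qExpand L M g).support ⊆ (fun i : ℤ => (M : ℤ) * i) '' g.support := by
    intro i hi
    by_cases hd : (M : ℤ) ∣ i
    · obtain ⟨k, rfl⟩ := hd
      refine ⟨k, ?_, rfl⟩
      rw [HahnSeries.mem_support, qExpand_coeff_mul] at hi
      exact hi
    · exact absurd (qExpand_coeff_of_not_dvd M g hd) hi
  rw [HahnSeries.coeff_mul, HahnSeries.coeff_mul]
  have hM : (M : ℤ) ≠ 0 := by exact_mod_cast NeZero.ne M
  symm
  refine Finset.sum_bij_ne_zero (fun ij _ _ => ((M : ℤ) * ij.1, (M : ℤ) * ij.2)) ?_ ?_ ?_ ?_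
  · intro ij h hne
    rw [Finset.mem_antidiagonal] at h ⊢
    refine ⟨?_, ?_, ?_⟩
    · rw [HahnSeries.mem_support, qExpand_coeff_mul]; exact left_ne_zero_of_mul hne
    · rw [HahnSeries.mem_support]; exact right_ne_zero_of_mul hne
    · rw [← mul_add, h.2.2]
  · intro a _ _ b _ _ hab
    simp only [Prod.mk.injEq, mul_eq_mul_left_iff, hM, or_false] at hab
    exact Prod.ext hab.1 hab.2
  · intro ij h hne
    rw [Finset.mem_antidiagonal] at h
    obtain ⟨k, hk, hk'⟩ := h1 h.1
    dsimp only at hk'
    refine ⟨(k, j - k), ?_, ?_, ?_⟩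
    · rw [Finset.mem_antidiagonal]
      refine ⟨hk, ?_, by ring⟩
      rw [HahnSeries.mem_support, decimate_coeff, mul_sub, hk', ← h.2.2, add_sub_cancel_left]
      exact h.2.1
    · simp only [decimate_coeff, mul_sub, hk', ← h.2.2, add_sub_cancel_left]
      rw [← hk', qExpand_coeff_mul] at hne
      exact hne
    · simp only [mul_sub, hk', ← h.2.2, add_sub_cancel_left]
  · intro ij h hne
    simp [qExpand_coeff_mul]

theorem decimate_mem_intSpan {y : LaurentSeries L} (hy : y ∈ Mono.intSpan L) :
    decimate M y ∈ Mono.intSpan L := by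
  rw [Mono.mem_intSpan_iff] at hy ⊢
  have h : decimate M y ∈ (Submodule.span L (intSeries L)).map
      (decimate M : LaurentSeries L →ₗ[L] LaurentSeries L) := ⟨y, hy, rfl⟩
  rw [Submodule.map_span] at h
  refine Submodule.span_mono ?_ h
  rintro _ ⟨_, ⟨z, rfl⟩, rfl⟩
  refine ⟨⟨fun j => z.coeff ((M : ℤ) * j),
    (decimate M (coeffMap (Int.castRingHom L) z)).isPWO_support.mono fun j hj h0 => hj ?_⟩, ?_⟩
  · have : ((z.coeff ((M : ℤ) * j) : ℤ) : L) = 0 := by simpa using h0
    exact_mod_cast this
  · ext j
    simp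

/-- `u ↦ t` on series in `u ^ M` lying in the hull. -/
theorem mem_seriesHull_of_qExpand {x : LaurentSeries L} (hx : qExpand L M x ∈ seriesHull L) :
    x ∈ seriesHull L := by
  obtain ⟨a, ha, b, hb, hab⟩ := exists_div_intSpan hx
  rcases eq_or_ne b 0 with rfl | hb0
  · rw [div_zero, ← map_zero (qExpand L M)] at hab
    rw [qExpand_injective (R := L) M hab]
    exact zero_mem _
  obtain ⟨i, hi⟩ : ∃ i, b.coeff i ≠ 0 := by
    by_contra! h
    exact hb0 (HahnSeries.ext (funext h))
  set s : LaurentSeries L := HahnSeries.single (-i) 1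
  have hs : s ∈ Mono.intSpan L := by
    have : s = coeffMap (Int.castRingHom L) (HahnSeries.single (-i) 1) := by
      rw [coeffMap_single, map_one]
    rw [this]
    exact Mono.coeffMap_mem_intSpan _
  have hne : decimate M (s * b) ≠ 0 := fun h => hi (by
    have h0 := congrArg (fun z : LaurentSeries L => z.coeff 0) h
    simp only [decimate_coeff, mul_zero, HahnSeries.coeff_zero, s, HahnSeries.coeff_single_mul,
      sub_neg_eq_add, zero_add, one_mul] at h0
    exact h0)
  have heq : x * decimate M (s * b) = decimate M (s * a) := by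
    rw [← decimate_qExpand_mul, ← mul_assoc, mul_comm (qExpand L M x) s, mul_assoc, hab,
      div_mul_cancel₀ a hb0]
  rw [← eq_div_iff hne] at heq
  rw [heq]
  exact div_mem (intSpan_le_seriesHull (decimate_mem_intSpan M (mul_mem hs ha)))
    (intSpan_le_seriesHull (decimate_mem_intSpan M (mul_mem hs hb)))

end General

section Cx

variable {M : ℕ} [NeZero M]

/-- The expansions of division values have coefficients in a finitely generated group. -/
theorem torsionSeries_mem_intSpan (a b : ℤ × ℤ) : torsionSeries M a b ∈ Mono.intSpan ℂ := by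
  classical
  let exc : ℤ × ℤ → ℂ := fun c => ((zetaUnit M ^ c.2 : ℂˣ) : ℂ) *
    Ring.inverse (((1 : ℂ) - ((zetaUnit M ^ c.2 : ℂˣ) : ℂ)) ^ 2)
  let gen : Fin M ⊕ Bool → ℂ := Sum.elim (fun i => zetaU M ^ (i : ℕ))
    (fun t => cond t (exc a) (exc b))
  refine mem_intSpan_of_coeff_mem gen fun i => ?_
  set Λ := Submodule.span ℤ (Set.range gen)
  have hpow : ∀ e : ℤ, ((zetaUnit M ^ e : ℂˣ) : ℂ) ∈ Λ := by
    intro e
    have hlt : (e % M).toNat < M := by
      have h1 := Int.emod_lt_of_pos e (show (0 : ℤ) < M by exact_mod_cast NeZero.pos M)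
      have h2 := Int.emod_nonneg e (show (M : ℤ) ≠ 0 by exact_mod_cast NeZero.ne M)
      omega
    refine Submodule.subset_span ⟨Sum.inl ⟨(e % M).toNat, hlt⟩, ?_⟩
    simp only [gen, Sum.elim_inl, Units.val_zpow_eq_zpow_val, zetaUnit, Units.val_mk0]
    conv_rhs => rw [← Int.emod_add_mul_ediv e M, zpow_add₀ (zetaU_ne_zero M), zpow_mul,
      show zetaU M ^ (M : ℤ) = 1 by rw [zpow_natCast, (isPrimitiveRoot_zetaU M).pow_eq_one],
      one_zpow, mul_one]
    rw [← zpow_natCast, Int.toNat_of_nonneg
      (Int.emod_nonneg e (show (M : ℤ) ≠ 0 by exact_mod_cast NeZero.ne M))]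
  have hrow : ∀ c : ℤ × ℤ, exc c ∈ Λ → ∀ p, rowCoeff M (zetaUnit M) c p ∈ Λ := by
    intro c hc p
    unfold rowCoeff
    split_ifs
    · exact hc
    · exact zero_mem _
    · rw [← nsmul_eq_mul]
      exact nsmul_mem (hpow _) _
  have hexa : exc a ∈ Λ := Submodule.subset_span ⟨Sum.inr true, rfl⟩
  have hexb : exc b ∈ Λ := Submodule.subset_span ⟨Sum.inr false, rfl⟩
  rw [torsionSeries, HahnSeries.coeff_single_mul, one_mul, sub_zero]
  rcases le_or_gt 0 i with hi | hi
  · lift i to ℕ using hi
    rw [HahnSeries.ofPowerSeries_apply_coeff, map_sub, rowSeries, rowSeries, PowerSeries.coeff_mk,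
      PowerSeries.coeff_mk]
    exact sub_mem (sum_mem fun p _ => hrow a hexa p) (sum_mem fun p _ => hrow b hexb p)
  · rw [ofPowerSeries_coeff_of_neg _ hi]
    exact zero_mem _

theorem exists_hasExp_prodFun_mem_hull {L : List IdxPair}
    (hL : ∀ p ∈ L, IsUnitPair M p.1 p.2) :
    ∃ F : LaurentSeries ℂ, HasExp M (prodFun M L) F ∧ F ∈ seriesHull ℂ := by
  induction L with
  | nil =>
    exact ⟨1, HasExp.one.congr fun τ => by simp [prodFun], one_mem _⟩
  | cons p L ih =>
    obtain ⟨G, hG, hG'⟩ := ih fun q hq => hL q (List.mem_cons_of_mem _ hq)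
    have hp := hL p List.mem_cons_self
    exact ⟨torsionSeries M p.1 p.2 * G,
      ((hasExp_torsionSeries hp.1 hp.2.1).mul hG).congr fun τ => by simp [prodFun],
      mul_mem (intSpan_le_seriesHull (torsionSeries_mem_intSpan _ _)) hG'⟩

theorem cuspExp_unitFn_mem_hull (u : UnitQuot M) (hu : u.IsInvariant (Gamma1 M)) :
    cuspExp M 1 (unitFn M u hu) ∈ seriesHull ℂ := by
  obtain ⟨N, hN, hN'⟩ := exists_hasExp_prodFun_mem_hull u.num_isUnitPair
  obtain ⟨E, hE, hE'⟩ := exists_hasExp_prodFun_mem_hull u.den_isUnitPair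
  have hne := prodFun_ne_zero M u.den_isUnitPair
  rw [cuspExp_eq_of_hasExp M (F := N * E⁻¹) ((hN.mul (hE.inv hne)).congr fun τ => by
    rw [coe_unitFn, one_smul, UnitQuot.toFun, div_eq_mul_inv, Pi.mul_apply])]
  exact mul_mem hN' (inv_mem hE')

theorem cuspExp_mem_hull {m : ℕ} [NeZero m] (D : BaseData m) (hmM : m ∣ M) (hM : 1 < M)
    (G : modRing M) : cuspExp M 1 G ∈ seriesHull ℂ := by
  classical
  have hcst : ∀ c : ℂ, cuspExp M 1 (cst M (RingHom.id ℂ) c) ∈ seriesHull ℂ := fun c => by
    rw [cuspExp_cst, RingHom.id_apply, ← algebraMap_laurentSeries_eq_single]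
    exact (seriesHull ℂ).algebraMap_mem c
  have hx : cuspExp M 1 (xEl D hmM hM) ∈ seriesHull ℂ := by
    by_cases hsame : SameUpToSign M (0, 1) (ePair M m).1
    · have h0 : xEl D hmM hM = 0 := Subtype.ext (funext fun τ => by
        show xVec M m (0, 1) τ = 0
        rw [xVec, torsionDiff_congr hsame (b' := (ePair M m).1) (Or.inl ⟨by simp, by simp⟩)]
        simp [torsionDiff])
      rw [h0, map_zero]
      exact zero_mem _
    · let u : UnitQuot M :=
        { num := [((0, 1), (ePair M m).1)]
          den := [ePair M m]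
          length_eq := rfl
          num_isUnitPair := by
            intro p hp; rw [List.mem_singleton] at hp; subst hp
            exact ⟨by simpa [FermatLib.Galois.DS.vecMulSL_one] using not_sameUpToSign_row_zero hM 1,
              (ePair_isUnitPair D hmM).1, hsame⟩
          den_isUnitPair := by
            intro p hp; rw [List.mem_singleton] at hp; subst hp
            exact ePair_isUnitPair D hmM }
      have hinv : u.IsInvariant (Gamma1 M) := fun γ hγ => by
        obtain ⟨h1, h2⟩ := vclass_ePair hmM (Gamma1_le_Gamma1_of_dvd M hmM hγ)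
        have h3 : vclass M (vecMulSL (0, 1) γ) = vclass M (0, 1) := by
          rw [vclass_eq_iff]
          rw [Gamma1_mem] at hγ
          refine Or.inl ?_
          simp only [vecMulSL, ← ZMod.intCast_zmod_eq_zero_iff_dvd]
          push_cast
          simp [hγ.2.1, hγ.2.2]
        simp [u, pclasses, pclass, pairMulSL, h1, h2, h3]
      rw [show xEl D hmM hM = unitFn M u hinv from Subtype.ext (funext fun τ => by
        show xVec M m (0, 1) τ = u.toFun τ
        simp [u, UnitQuot.toFun, prodFun, xVec])]
      exact cuspExp_unitFn_mem_hull u hinv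
  have hB := cuspExp_unitFn_mem_hull (D.unit hmM D.main) (D.unit_invariant_M hmM D.main)
  obtain ⟨q, hq, hG, -⟩ := exists_interp (φ := RingHom.id ℂ) D hmM hM (isLevelCoeff_id M)
    (mem_intSub_id M G)
  choose P k hP using fun i => exists_eq_eval_mul (isLevelCoeff_id M) D hmM (hq i)
  rw [hG, map_sum]
  refine sum_mem fun i _ => ?_
  rw [map_mul, map_pow]
  refine mul_mem ?_ (pow_mem hx _)
  rw [hP i, map_mul, map_pow, map_prod, Polynomial.eval₂_eq_sum_range, map_sum]
  refine mul_mem (sum_mem fun j _ => ?_) (pow_mem (prod_mem fun l _ => ?_) _)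
  · rw [map_mul, map_pow]
    exact mul_mem (hcst _) (pow_mem hB _)
  · exact cuspExp_unitFn_mem_hull (D.unit hmM l).flip
      (fun γ hγ => (D.unit_invariant_M hmM l γ hγ).symm)

/-- **Expansions of modular functions lie in the hull of the integral series.** -/
theorem qExp1_mem_seriesHull (hM : 4 ∣ M ∨ 5 ∣ M) (hM5 : 5 ≤ M) (G : modRing M) :
    qExp1 M G ∈ seriesHull ℂ := by
  refine mem_seriesHull_of_qExpand M ?_
  rw [← cuspExp_one_eq]
  rcases hM with h | h
  · exact cuspExp_mem_hull baseDataFour h (by omega) G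
  · exact cuspExp_mem_hull baseDataFive h (by omega) G

/-- Series with algebraic coefficients in the hull over `ℂ` lie in the hull over `ℚ̄`. -/
theorem mem_seriesHull_of_coeffMap {y : LaurentSeries (AlgebraicClosure ℚ)}
    (hy : coeffMap complexEmbedding.toRingHom y ∈ seriesHull ℂ) :
    y ∈ seriesHull (AlgebraicClosure ℚ) := by
  let : Algebra (AlgebraicClosure ℚ) ℂ := complexEmbedding.toRingHom.toAlgebra
  refine Modular.Kummer.mem_adjoin_of_coeffMap_mem_adjoin (K := ℂ) _ ?_
  have : ⇑(coeffMap (algebraMap (AlgebraicClosure ℚ) ℂ)) '' intSeries (AlgebraicClosure ℚ)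
      = intSeries ℂ := by
    rw [intSeries, intSeries, ← Set.range_comp]
    congr 1
    funext z
    rw [Function.comp_apply, coeffMap_coeffMap]
    exact coeffMap_congr (RingHom.ext_int _ _) z
  rw [this]
  exact hy

end Cx

end FermatLib.MLT.LGC

end
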