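import Fermat.Agent.MLT.LGC.CountTotal
import Fermat.Agent.MLT.LGC.CountMatrix
import Fermat.Agent.Galois.AttachQuadratic
import Mathlib.LinearAlgebra.Eigenspace.Zero

/-!
# The shape of a component from the half count

`ρ g + e g • ρ g⁻¹` is a scalar `a g` up to a nilpotent operator commuting with the representation,
and no character `ψ` has `a g = ψ g + e g / ψ g`.  Then an eigenvalue `r` with `e g ≠ r²` occupies
at most half of the space.  With a subspace of at most half of the total dimension containing the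
images of `ρ τ - 1` and `ρ F - U`, every component has `a τ = 1 + e τ` and the eigenvalues of `U`
on exact eigenvectors are roots of `X² - a F X + e F`.
-/

set_option autoImplicit false

noncomputable section

open Module LinearMap Polynomial

namespace FermatLib.MLT.LGCShape

variable {E G : Type*} [Field E] [Group G]
  {W : Type*} [AddCommGroup W] [Module E W]

/-- The defect of the relation `g + e g • g⁻¹ = a g`. -/
def defect (ρ : G →* Module.End E W) (e : G →* E) (a : G → E) (g : G) : Module.End E W :=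
  ρ g + e g • ρ g⁻¹ - a g • 1

/-- The relation holds up to commuting nilpotents. -/
structure IsSystem (ρ : G →* Module.End E W) (e : G →* E) (a : G → E) : Prop where
  nilpotent : ∀ g, IsNilpotent (defect ρ e a g)
  commute : ∀ g h, Commute (defect ρ e a g) (ρ h)

/-- No character splits the relation. -/
def NoSplit (e : G →* E) (a : G → E) : Prop :=
  ∀ ψ : G →* E, ∃ g, a g ≠ ψ g + e g * ψ g⁻¹

variable {ρ : G →* Module.End E W} {e : G →* E} {a : G → E}

theorem defect_apply (g : G) (x : W) :
    defect ρ e a g x = ρ g x + e g • ρ g⁻¹ x - a g • x := rfl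

/-- The action on an invariant subspace. -/
def restrictHom (ρ : G →* Module.End E W) (U : Submodule E W) (hU : ∀ g, ∀ x ∈ U, ρ g x ∈ U) :
    G →* Module.End E U where
  toFun g := (ρ g).restrict (hU g)
  map_one' := LinearMap.ext fun x => Subtype.ext (by simp)
  map_mul' g h := LinearMap.ext fun x => Subtype.ext (by simp [map_mul])

@[simp]
theorem coe_restrictHom (ρ : G →* Module.End E W) (U : Submodule E W)
    (hU : ∀ g, ∀ x ∈ U, ρ g x ∈ U) (g : G) (x : U) :
    (restrictHom ρ U hU g x : W) = ρ g x := rfl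

/-- The action on a quotient. -/
def quotientHom (ρ : G →* Module.End E W) (U : Submodule E W) (hU : ∀ g, ∀ x ∈ U, ρ g x ∈ U) :
    G →* Module.End E (W ⧸ U) where
  toFun g := U.mapQ U (ρ g) fun x hx => hU g x hx
  map_one' := Submodule.linearMap_qext _ (LinearMap.ext fun x => by simp)
  map_mul' g h := Submodule.linearMap_qext _ (LinearMap.ext fun x => by simp [map_mul])

@[simp]
theorem quotientHom_mk (ρ : G →* Module.End E W) (U : Submodule E W)
    (hU : ∀ g, ∀ x ∈ U, ρ g x ∈ U) (g : G) (x : W) :
    quotientHom ρ U hU g (Submodule.Quotient.mk x) = Submodule.Quotient.mk (ρ g x) := rfl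

theorem IsSystem.restrict (h : IsSystem ρ e a) (U : Submodule E W)
    (hU : ∀ g, ∀ x ∈ U, ρ g x ∈ U) : IsSystem (restrictHom ρ U hU) e a := by
  have hd : ∀ g (x : U), (defect (restrictHom ρ U hU) e a g x : W) = defect ρ e a g x :=
    fun g x => by simp [defect_apply]
  refine ⟨fun g => ?_, fun g k => LinearMap.ext fun x => Subtype.ext ?_⟩
  · obtain ⟨n, hn⟩ := h.nilpotent g
    refine ⟨n, LinearMap.ext fun x => Subtype.ext ?_⟩
    have hpow : ∀ (m : ℕ) (x : U),
        (((defect (restrictHom ρ U hU) e a g) ^ m) x : W) = ((defect ρ e a g) ^ m) x := by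
      intro m
      induction m with
      | zero => simp
      | succ m ih => intro x; rw [pow_succ, pow_succ, Module.End.mul_apply, Module.End.mul_apply,
          ih, hd]
    rw [hpow, hn]
    rfl
  · simpa [hd] using LinearMap.congr_fun (h.commute g k).eq x.1

theorem IsSystem.quotient (h : IsSystem ρ e a) (U : Submodule E W)
    (hU : ∀ g, ∀ x ∈ U, ρ g x ∈ U) : IsSystem (quotientHom ρ U hU) e a := by
  have hd : ∀ g (x : W), defect (quotientHom ρ U hU) e a g (Submodule.Quotient.mk x) =
      Submodule.Quotient.mk (defect ρ e a g x) := fun g x => by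
    simp [defect_apply]
  refine ⟨fun g => ?_, fun g k => Submodule.linearMap_qext _ (LinearMap.ext fun x => ?_)⟩
  · obtain ⟨n, hn⟩ := h.nilpotent g
    refine ⟨n, Submodule.linearMap_qext _ (LinearMap.ext fun x => ?_)⟩
    have hpow : ∀ (m : ℕ) (x : W),
        ((defect (quotientHom ρ U hU) e a g) ^ m) (Submodule.Quotient.mk x) =
          Submodule.Quotient.mk (((defect ρ e a g) ^ m) x) := by
      intro m
      induction m with
      | zero => simp
      | succ m ih => intro x; rw [pow_succ, pow_succ, Module.End.mul_apply, Module.End.mul_apply,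
          hd, ih]
    show ((defect (quotientHom ρ U hU) e a g) ^ n) (Submodule.Quotient.mk x) = _
    rw [hpow, hn]
    rfl
  · show defect (quotientHom ρ U hU) e a g (quotientHom ρ U hU k (Submodule.Quotient.mk x)) =
      quotientHom ρ U hU k (defect (quotientHom ρ U hU) e a g (Submodule.Quotient.mk x))
    rw [quotientHom_mk, hd, hd, quotientHom_mk]
    exact congrArg Submodule.Quotient.mk (LinearMap.congr_fun (h.commute g k).eq x)

/-- An eigenvalue of `ρ g` is a root of `X² - a g X + e g`. -/
theorem IsSystem.eigen_root (h : IsSystem ρ e a) {g : G} {r : E} {x : W} (hx : x ≠ 0)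
    (hgx : ρ g x = r • x) : r ^ 2 - a g * r + e g = 0 := by
  have hinv : ρ g⁻¹ (ρ g x) = x := by
    rw [← Module.End.mul_apply, ← map_mul, inv_mul_cancel, map_one, Module.End.one_apply]
  have hr : r ≠ 0 := fun h0 => hx (by rw [← hinv, hgx, h0, zero_smul, map_zero])
  have hinv' : ρ g⁻¹ x = r⁻¹ • x := by
    rw [hgx, map_smul] at hinv
    conv_rhs => rw [← hinv]
    rw [inv_smul_smul₀ hr]
  set c := r + e g * r⁻¹ - a g with hc
  have hN : defect ρ e a g x = c • x := by
    rw [defect_apply, hgx, hinv', smul_smul, hc, sub_smul, add_smul]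
  obtain ⟨n, hn⟩ := h.nilpotent g
  have hpow : ∀ m : ℕ, ((defect ρ e a g) ^ m) x = c ^ m • x := by
    intro m
    induction m with
    | zero => simp
    | succ m ih => rw [pow_succ, Module.End.mul_apply, hN, map_smul, ih, smul_smul, ← pow_succ']
  have hc0 : c = 0 := by
    have h1 := hpow n
    rw [hn, LinearMap.zero_apply, eq_comm, smul_eq_zero] at h1
    exact pow_eq_zero_iff'.mp (h1.resolve_right hx) |>.1
  have h2 : r * c = 0 := by rw [hc0, mul_zero]
  rw [hc] at h2
  field_simp at h2
  linear_combination h2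

variable [IsAlgClosed E]

/-- An eigenvalue `r` with `e g ≠ r²` occupies at most half. -/
theorem two_mul_finrank_maxGenEigenspace_le :
    ∀ (W : Type*) [AddCommGroup W] [Module E W] [FiniteDimensional E W]
      (ρ : G →* Module.End E W), IsSystem ρ e a → NoSplit e a →
    ∀ (g : G) (r : E), e g ≠ r ^ 2 →
      2 * finrank E ((ρ g).maxGenEigenspace r) ≤ finrank E W := by
  intro W _ _ _
  induction hn : finrank E W using Nat.strong_induction_on generalizing W with
  | _ n ih =>
  subst hn
  intro ρ hsys hsplit g r hr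
  rcases subsingleton_or_nontrivial W with hW | hW
  · rw [Submodule.eq_bot_of_subsingleton (p := (ρ g).maxGenEigenspace r), finrank_bot]
    omega
  -- a minimal invariant subspace
  obtain ⟨U, ⟨hU0, hUinv⟩, hUmin⟩ := IsArtinian.set_has_minimal
    {U : Submodule E W | U ≠ ⊥ ∧ ∀ g, ∀ x ∈ U, ρ g x ∈ U}
    ⟨⊤, top_ne_bot, fun g x _ => Submodule.mem_top⟩
  have hirr : ∀ V : Submodule E U, Galois.Attach.IsInvariantSubspace (restrictHom ρ U hUinv) V →
      V = ⊥ ∨ V = ⊤ := by
    intro V hV
    refine or_iff_not_imp_left.mpr fun hV0 => ?_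
    have hle : V.map U.subtype ≤ U := Submodule.map_subtype_le U V
    have hne : V.map U.subtype ≠ ⊥ := fun h0 => hV0
      (Submodule.map_injective_of_injective U.injective_subtype (h0.trans (Submodule.map_bot _).symm))
    have heq : V.map U.subtype = U := by
      by_contra hlt
      refine hUmin _ ⟨hne, ?_⟩ (lt_of_le_of_ne hle hlt)
      rintro k _ ⟨y, hy, rfl⟩
      exact ⟨_, hV k y hy, rfl⟩
    exact Submodule.map_injective_of_injective U.injective_subtype
      (heq.trans (Submodule.map_subtype_top U).symm)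
  set σ := restrictHom ρ U hUinv with hσ
  have hsys' := hsys.restrict U hUinv
  have hU0' : Nontrivial U := Submodule.nontrivial_iff_ne_bot.mpr hU0
  -- the defect vanishes on `U`
  have hdef : ∀ k, defect σ e a k = 0 := by
    intro k
    rcases hirr (LinearMap.ker (defect σ e a k)) (fun l x hx => by
      rw [LinearMap.mem_ker] at hx ⊢
      rw [← Module.End.mul_apply, (hsys'.commute k l).eq, Module.End.mul_apply, hx, map_zero])
      with h | h
    · obtain ⟨m, hm⟩ := hsys'.nilpotent k
      have hinj : Function.Injective ((defect σ e a k) ^ m) := by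
        rw [Module.End.coe_pow]
        exact (LinearMap.ker_eq_bot.mp h).iterate m
      rw [hm] at hinj
      obtain ⟨x, hx⟩ := exists_ne (0 : U)
      exact absurd (@hinj x 0 rfl) hx
    · exact LinearMap.ker_eq_top.mp h
  have hrel : Galois.Attach.HasTraceRelation σ e a := fun k => sub_eq_zero.mp (hdef k)
  -- no characters
  have htwo : 2 ≤ finrank E U := by
    by_contra hlt
    have h1 : finrank E U = 1 := by
      have : 0 < finrank E U := Module.finrank_pos
      omega
    obtain ⟨v, hv, hspan⟩ := finrank_eq_one_iff'.mp h1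
    choose ψ hψ using fun k => hspan (σ k v)
    have hψ1 : ∀ {c c' : E}, c • v = c' • v → c = c' := fun hcc => smul_left_injective E hv hcc
    let ψ' : G →* E :=
      { toFun := ψ
        map_one' := hψ1 (by rw [hψ, map_one, Module.End.one_apply, one_smul])
        map_mul' := fun k l => hψ1 (by
          rw [hψ, map_mul, Module.End.mul_apply, ← hψ l, map_smul, ← hψ k, smul_smul, mul_comm]) }
    obtain ⟨k, hk⟩ := hsplit ψ'
    refine hk (hψ1 ?_).symm
    show (ψ k + e k * ψ k⁻¹) • v = a k • v
    rw [add_smul, mul_smul, hψ, hψ]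
    exact LinearMap.congr_fun (hrel k) v
  obtain ⟨hdim, hchar⟩ := Galois.Attach.finrank_le_two_and_charpoly hrel hirr htwo
  -- on `U` the eigenvalue has multiplicity at most one
  have hUr : finrank E ((σ g).maxGenEigenspace r) ≤ 1 := by
    rw [LinearMap.finrank_maxGenEigenspace_eq]
    by_contra hlt
    push Not at hlt
    have hdvd : (X - C r) ^ 2 ∣ (σ g).charpoly :=
      (pow_dvd_pow _ hlt).trans (Polynomial.pow_rootMultiplicity_dvd _ _)
    rw [hchar] at hdvd
    have heq : X ^ 2 - C (a g) * X + C (e g) = (X - C r) ^ 2 := by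
      refine (Polynomial.eq_of_monic_of_associated (by monicity!) (by monicity!) ?_).symm
      refine associated_of_dvd_of_natDegree_le hdvd
        (fun h0 => ?_) (le_of_eq ?_)
      · have := congrArg (fun f : E[X] => f.coeff 2) h0
        simp at this
      · rw [natDegree_pow, natDegree_X_sub_C]
        compute_degree!
    have := congrArg (fun f : E[X] => f.eval 0) heq
    simp at this
    exact hr this
  -- assemble
  have hlt : finrank E (W ⧸ U) < finrank E W := by
    have := U.finrank_quotient_add_finrank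
    omega
  have hq := ih _ hlt (W ⧸ U) rfl (quotientHom ρ U hUinv) (hsys.quotient U hUinv) hsplit g r hr
  set V := (ρ g).maxGenEigenspace r
  have h1 : finrank E V ≤ finrank E ((σ g).maxGenEigenspace r) +
      finrank E ((quotientHom ρ U hUinv g).maxGenEigenspace r) := by
    let f : V →ₗ[E] W ⧸ U := U.mkQ.comp V.subtype
    rw [← LinearMap.finrank_range_add_finrank_ker f, add_comm]
    refine add_le_add ?_ (Submodule.finrank_mono ?_)
    · let i : LinearMap.ker f →ₗ[E] (σ g).maxGenEigenspace r :=
        { toFun := fun x => ⟨⟨x.1.1, (Submodule.Quotient.mk_eq_zero U).mp x.2⟩, by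
            obtain ⟨k, hk⟩ := (Module.End.mem_maxGenEigenspace _ _ _).mp x.1.2
            refine (Module.End.mem_maxGenEigenspace _ _ _).mpr ⟨k, Subtype.ext ?_⟩
            rw [ZeroMemClass.coe_zero, ← hk]
            clear hk
            suffices h : ∀ (k : ℕ) (y : U),
                ((((σ g) - r • 1) ^ k) y : W) = (((ρ g) - r • 1) ^ k) y.1 from h _ _
            intro k
            induction k with
            | zero => simp
            | succ k ihk =>
              intro y
              rw [pow_succ, pow_succ, Module.End.mul_apply, Module.End.mul_apply, ihk]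
              simp [σ]⟩
          map_add' := fun _ _ => rfl
          map_smul' := fun _ _ => rfl }
      exact LinearMap.finrank_le_finrank_of_injective (f := i) fun x y h =>
        Subtype.ext (Subtype.ext (congrArg (fun z => ((z : (σ g).maxGenEigenspace r) : U).1) h))
    · rintro _ ⟨x, rfl⟩
      obtain ⟨k, hk⟩ := (Module.End.mem_maxGenEigenspace _ _ _).mp x.2
      refine (Module.End.mem_maxGenEigenspace _ _ _).mpr ⟨k, ?_⟩
      suffices h : ∀ (k : ℕ) (y : W), (((quotientHom ρ U hUinv g) - r • 1) ^ k)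
          (Submodule.Quotient.mk y) = Submodule.Quotient.mk ((((ρ g) - r • 1) ^ k) y) by
        show (((quotientHom ρ U hUinv g) - r • 1) ^ k) (Submodule.Quotient.mk x.1) = 0
        rw [h, hk, Submodule.Quotient.mk_zero]
      intro k
      induction k with
      | zero => simp
      | succ k ihk =>
        intro y
        rw [pow_succ, pow_succ, Module.End.mul_apply, Module.End.mul_apply, ← ihk]
        simp
  have := U.finrank_quotient_add_finrank
  omega

section Half

variable [FiniteDimensional E W] {Wc : Submodule E W} {τ : G}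

theorem finrank_range_restrict_le (hW : ∀ g, ∀ x ∈ Wc, ρ g x ∈ Wc) {K : Submodule E W} (g : G)
    (hK : ∀ x, ρ g x - x ∈ K) :
    finrank E (LinearMap.range (restrictHom ρ Wc hW g - 1)) ≤ finrank E ↥(K ⊓ Wc) := by
  rw [← Submodule.finrank_map_subtype_eq Wc]
  refine Submodule.finrank_mono ?_
  rintro _ ⟨_, ⟨x, rfl⟩, rfl⟩
  exact ⟨by simpa using hK x.1, ((restrictHom ρ Wc hW g - 1) x).2⟩

/-- The image of `ρ τ - 1` is at least half of a component when `e τ ≠ 1`. -/
theorem finrank_le_two_mul_inf (hW : ∀ g, ∀ x ∈ Wc, ρ g x ∈ Wc)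
    (hsys : IsSystem (restrictHom ρ Wc hW) e a) (hsplit : NoSplit e a) (hτ : e τ ≠ 1)
    {K : Submodule E W} (hK : ∀ x, ρ τ x - x ∈ K) :
    finrank E Wc ≤ 2 * finrank E ↥(K ⊓ Wc) := by
  have h := two_mul_finrank_maxGenEigenspace_le Wc (restrictHom ρ Wc hW) hsys hsplit τ 1
    (by rwa [one_pow])
  have hker : LinearMap.ker (restrictHom ρ Wc hW τ - 1) ≤
      (restrictHom ρ Wc hW τ).maxGenEigenspace 1 := fun x hx =>
    (Module.End.mem_maxGenEigenspace _ _ _).mpr ⟨1, by simpa using hx⟩
  have := LinearMap.finrank_range_add_finrank_ker (restrictHom ρ Wc hW τ - 1)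
  have := Submodule.finrank_mono hker
  have := finrank_range_restrict_le hW τ hK
  omega

/-- At most half forces the eigenvalue `1`. -/
theorem eq_one_add_of_half (hW : ∀ g, ∀ x ∈ Wc, ρ g x ∈ Wc)
    (hsys : IsSystem (restrictHom ρ Wc hW) e a) (hne : Wc ≠ ⊥) {K : Submodule E W}
    (hup : 2 * finrank E ↥(K ⊓ Wc) ≤ finrank E Wc) {g : G} (hK : ∀ x, ρ g x - x ∈ K) :
    a g = 1 + e g := by
  by_contra ha
  have hinj : LinearMap.ker (restrictHom ρ Wc hW g - 1) = ⊥ := by
    refine (Submodule.eq_bot_iff _).mpr fun x hx => by_contra fun hx0 => ha ?_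
    have h := hsys.eigen_root hx0 (g := g) (r := 1) (by
      rw [one_smul, ← sub_eq_zero]; exact hx)
    linear_combination -h
  have h1 := LinearMap.finrank_range_add_finrank_ker (restrictHom ρ Wc hW g - 1)
  rw [hinj, finrank_bot, add_zero] at h1
  have := finrank_range_restrict_le hW g hK
  have : 0 < finrank E Wc := Nat.pos_of_ne_zero fun h0 => hne (Submodule.finrank_eq_zero.mp h0)
  omega

omit [IsAlgClosed E] in
/-- An operator whose generalised kernel is at most half and whose image is at most half is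
injective on its image. -/
theorem disjoint_ker_range {V : Type*} [AddCommGroup V] [Module E V] [FiniteDimensional E V]
    (f : Module.End E V) (hker : 2 * finrank E (f.maxGenEigenspace 0) ≤ finrank E V)
    (hrange : 2 * finrank E (LinearMap.range f) ≤ finrank E V) {x : V}
    (hx : x ∈ LinearMap.range f) (hfx : f x = 0) : x = 0 := by
  have hle : LinearMap.range (f * f) ≤ LinearMap.range f := LinearMap.range_comp_le_range f f
  have hk : LinearMap.ker (f * f) ≤ f.maxGenEigenspace 0 := fun y hy =>
    (Module.End.mem_maxGenEigenspace _ _ _).mpr ⟨2, by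
      rw [zero_smul, sub_zero, pow_two]; exact hy⟩
  have h1 := LinearMap.finrank_range_add_finrank_ker (f * f)
  have h2 := Submodule.finrank_mono hk
  have heq : LinearMap.range (f * f) = LinearMap.range f :=
    Submodule.eq_of_le_of_finrank_le hle (by omega)
  let g : LinearMap.range f →ₗ[E] LinearMap.range f :=
    f.restrict fun y _ => LinearMap.mem_range_self f y
  have hsurj : Function.Surjective g := by
    rintro ⟨y, hy⟩
    rw [← heq] at hy
    obtain ⟨z, hz⟩ := hy
    exact ⟨⟨f z, LinearMap.mem_range_self f z⟩, Subtype.ext hz⟩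
  have hinj : Function.Injective g := LinearMap.injective_iff_surjective.mpr hsurj
  exact congrArg Subtype.val (@hinj ⟨x, hx⟩ 0 (Subtype.ext (by simp [g, hfx])))

/-- On a component with exactly half inside `K`, the image of `ρ τ - 1` is all of `K` there and
is stable under `ρ F` when conjugation by `F` keeps inertia. -/
theorem apply_mem_of_mem_half (hW : ∀ g, ∀ x ∈ Wc, ρ g x ∈ Wc)
    (hsys : IsSystem (restrictHom ρ Wc hW) e a) (hsplit : NoSplit e a) (hτ : e τ ≠ 1)
    {K : Submodule E W} (hK : ∀ x, ρ τ x - x ∈ K)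
    (hup : 2 * finrank E ↥(K ⊓ Wc) ≤ finrank E Wc) {x : W} (hx : x ∈ K ⊓ Wc) :
    ∃ y ∈ Wc, ρ τ y - y = x := by
  have h := two_mul_finrank_maxGenEigenspace_le Wc (restrictHom ρ Wc hW) hsys hsplit τ 1
    (by rwa [one_pow])
  have hker : LinearMap.ker (restrictHom ρ Wc hW τ - 1) ≤
      (restrictHom ρ Wc hW τ).maxGenEigenspace 1 := fun x hx =>
    (Module.End.mem_maxGenEigenspace _ _ _).mpr ⟨1, by simpa using hx⟩
  have h1 := LinearMap.finrank_range_add_finrank_ker (restrictHom ρ Wc hW τ - 1)
  have h2 := Submodule.finrank_mono hker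
  have hle : (LinearMap.range (restrictHom ρ Wc hW τ - 1)).map Wc.subtype ≤ K ⊓ Wc := by
    rintro _ ⟨_, ⟨z, rfl⟩, rfl⟩
    exact ⟨by simpa using hK z.1, ((restrictHom ρ Wc hW τ - 1) z).2⟩
  have heq := Submodule.eq_of_le_of_finrank_le hle (by
    rw [Submodule.finrank_map_subtype_eq]; omega)
  rw [← heq] at hx
  obtain ⟨_, ⟨z, rfl⟩, rfl⟩ := hx
  exact ⟨z.1, z.2, by simp⟩

/-- **The eigenvalues of `U` on exact eigenvectors are roots of `X² - a F X + e F`.** -/
theorem eval_eq_zero_of_half [CharZero E] (hW : ∀ g, ∀ x ∈ Wc, ρ g x ∈ Wc)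
    (hsys : IsSystem (restrictHom ρ Wc hW) e a) (hsplit : NoSplit e a) (hτ : e τ ≠ 1)
    {K : Submodule E W} (hK : ∀ x, ρ τ x - x ∈ K)
    (hup : 2 * finrank E ↥(K ⊓ Wc) ≤ finrank E Wc)
    {F : G} (hconj : ∀ x, ρ (F * τ * F⁻¹) x - x ∈ K)
    {U : Module.End E W} (hU : ∀ g, Commute U (ρ g)) (hKF : ∀ x, ρ F x - U x ∈ K)
    (A : G →* Matrix (Fin 2) (Fin 2) E) (hspan : Submodule.span E (Set.range A) = ⊤)
    (htr : ∀ g, (A g).trace = a g) (hdet : ∀ g, (A g).det = e g)
    {W₀ : Submodule E W} (hW₀ : W₀ ≤ Wc) (hW₀ρ : ∀ g, ∀ x ∈ W₀, ρ g x ∈ W₀)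
    (hexact : ∀ g, ∀ x ∈ W₀, ρ g (ρ g x) - a g • ρ g x + e g • x = 0)
    {u : E} {x : W} (hx : x ∈ W₀) (hx0 : x ≠ 0) (hux : U x = u • x) :
    u ^ 2 - a F * u + e F = 0 := by
  set Eu : Submodule E W := W₀ ⊓ LinearMap.ker (U - u • 1) with hEu
  have hmem : ∀ {y}, y ∈ Eu → U y = u • y := fun {y} hy => by
    simpa [sub_eq_zero] using hy.2
  have hEuρ : ∀ g, ∀ y ∈ Eu, ρ g y ∈ Eu := fun g y hy => ⟨hW₀ρ g y hy.1, by
    show (U - u • 1) (ρ g y) = 0
    rw [LinearMap.sub_apply, LinearMap.smul_apply, Module.End.one_apply, ← Module.End.mul_apply,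
      (hU g).eq, Module.End.mul_apply, hmem hy, map_smul, sub_self]⟩
  have hxEu : x ∈ Eu := ⟨hx, by simp [hux]⟩
  -- `ρ F` stabilises `K ⊓ Wc`
  have hFK : ∀ y ∈ K ⊓ Wc, ρ F y ∈ K := by
    intro y hy
    obtain ⟨z, -, rfl⟩ := apply_mem_of_mem_half hW hsys hsplit hτ hK hup hy
    have h := hconj (ρ F z)
    rw [← Module.End.mul_apply, ← map_mul, inv_mul_cancel_right, map_mul, Module.End.mul_apply,
      ← map_sub] at h
    exact h
  by_contra hne
  -- `Eu` lies in `K`
  have hEK : ∀ y ∈ Eu, y ∈ K := by
    intro y hy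
    have h1 : ρ F y - u • y ∈ K := by simpa [hmem hy] using hKF y
    have hk : ρ F y - u • y ∈ K ⊓ Wc :=
      ⟨h1, sub_mem (hW F y (hW₀ hy.1)) (Wc.smul_mem u (hW₀ hy.1))⟩
    have h2 := hFK _ hk
    rw [map_sub, map_smul] at h2
    have h3 : (u ^ 2 - a F * u + e F) • y ∈ K := by
      have hz := hexact F y hy.1
      have : (u ^ 2 - a F * u + e F) • y =
          -((ρ F (ρ F y) - u • ρ F y) + (u - a F) • (ρ F y - u • y)) +
            (ρ F (ρ F y) - a F • ρ F y + e F • y) := by module
      rw [this, hz, add_zero]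
      exact K.neg_mem (K.add_mem h2 (K.smul_mem _ h1))
    exact (K.smul_mem_iff hne).mp h3
  -- `ρ τ` is the scalar `e τ` on `Eu`
  have haτ := eq_one_add_of_half hW hsys (fun h0 => hx0 (by simpa [h0] using hW₀ hx)) hup hK
  have hscal : ∀ y ∈ Eu, ρ τ y = e τ • y := by
    intro y hy
    have hz := hexact τ y hy.1
    rw [haτ] at hz
    have hyW : ρ τ y - e τ • y ∈ K ⊓ Wc :=
      ⟨K.sub_mem (by simpa using K.add_mem (hK y) (hEK y hy)) (K.smul_mem _ (hEK y hy)),
        sub_mem (hW τ y (hW₀ hy.1)) (Wc.smul_mem _ (hW₀ hy.1))⟩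
    obtain ⟨z, hzW, hzeq⟩ := apply_mem_of_mem_half hW hsys hsplit hτ hK hup hyW
    have hfix : ρ τ (ρ τ y - e τ • y) - (ρ τ y - e τ • y) = 0 := by
      rw [map_sub, map_smul, ← hz]
      module
    have hgen : (restrictHom ρ Wc hW τ - 1).maxGenEigenspace 0 =
        (restrictHom ρ Wc hW τ).maxGenEigenspace 1 := by
      ext v
      simp [Module.End.mem_maxGenEigenspace]
    have hkerle : 2 * finrank E ((restrictHom ρ Wc hW τ - 1).maxGenEigenspace 0) ≤
        finrank E Wc := by
      rw [hgen]
      exact two_mul_finrank_maxGenEigenspace_le Wc (restrictHom ρ Wc hW) hsys hsplit τ 1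
        (by rwa [one_pow])
    have hrle := finrank_range_restrict_le hW τ hK
    have hrange : (⟨_, hyW.2⟩ : Wc) ∈ LinearMap.range (restrictHom ρ Wc hW τ - 1) :=
      ⟨⟨z, hzW⟩, Subtype.ext (by simpa using hzeq)⟩
    have h := disjoint_ker_range (restrictHom ρ Wc hW τ - 1) hkerle (by omega) hrange
      (Subtype.ext (by simpa using hfix))
    exact sub_eq_zero.mp (congrArg Subtype.val h)
  -- so `A τ` is a scalar
  have hquad : ∀ g, restrictHom ρ Eu hEuρ g * restrictHom ρ Eu hEuρ g -
      (A g).trace • restrictHom ρ Eu hEuρ g + (A g).det • (1 : Module.End E Eu) = 0 :=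
    fun g => LinearMap.ext fun y => Subtype.ext (by simpa [htr, hdet] using hexact g y.1 y.2.1)
  obtain ⟨φ, hφ⟩ := LGCCount.exists_matrixHom (two_ne_zero : (2 : E) ≠ 0)
    (restrictHom ρ Eu hEuρ) A hspan hquad
  have : Nontrivial Eu := ⟨⟨x, hxEu⟩, 0, fun h0 => hx0 (congrArg Subtype.val h0)⟩
  have hzero : A τ - e τ • 1 = 0 := LGCCount.eq_zero_of_map_eq_zero φ (by
    rw [map_sub, map_smul, map_one, hφ]
    exact LinearMap.ext fun y => Subtype.ext (by simp [hscal y.1 y.2]))
  have htτ := htr τ
  rw [sub_eq_zero.mp hzero, haτ] at htτ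
  apply hτ
  simp at htτ
  linear_combination htτ

end Half

end FermatLib.MLT.LGCShape

end
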