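import Fermat.Agent.MLT.LGC.Package
import Fermat.Agent.MLT.LGC.LatticeGalois
import Fermat.Agent.MLT.LGC.RedKernel
import Fermat.Agent.MLT.LGC.Ops
import Fermat.Agent.MLT.LGC.ChiPartOps

/-!
# The data of the count from a Hecke module mapping to the lattice

`A₀` is a module over the Hecke polynomials, finite over `O`, on which the good polynomials not
killed by the residual character act invertibly, and `ι₀` maps it to the lattice of parabolic
homomorphisms of `lgcGroup q M`, compatibly with `T l` at good primes and with `U q`.  The span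
`Vm` of its image is a stable subspace as in `LgcStable`; the operators of the good primes on the
whole space need not commute, so Hecke polynomials act through words.
-/

set_option autoImplicit false
set_option linter.unusedSectionVars false
set_option linter.style.haveILetI false

noncomputable section

open CongruenceSubgroup ModularCurve ModularCurve.Period
open scoped MatrixGroups

namespace FermatLib.MLT.LGC

open FermatLib.Modular FermatLib.Galois.DS

local notation "Qbar" => AlgebraicClosure ℚ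
local notation "Γℚ" => (AlgebraicClosure ℚ ≃ₐ[ℚ] AlgebraicClosure ℚ)

/-! ### Operators and Galois -/

section Commute

variable {Γ : Subgroup SL(2, ℤ)} {N : ℕ} [NeZero N] {O : Type} [CommRing O] [IsDomain O]
  [IsDiscreteValuationRing O] [IsAdicComplete (IsLocalRing.maximalIdeal O) O]
  [Finite (IsLocalRing.ResidueField O)] [CharZero O] {p : ℕ} [Fact p.Prime]
  {K : Type} [Field K] [CharZero K] [Algebra O K]
  (hC : ConjStable Γ N) (hp : (p : O) ∈ IsLocalRing.maximalIdeal O)

theorem latK_eq_redLatticeIncl (x : parabolicHoms O Γ O) :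
    latK O K Γ x = redLatticeIncl Γ O K x :=
  Subtype.ext (AddMonoidHom.ext fun _ => rfl)

include hC in
theorem span_range_redLatticeIncl :
    Submodule.span K (Set.range (redLatticeIncl Γ O K)) = ⊤ := by
  have := fg_of_conjStable hC
  rw [← span_range_latK (O := O) (K := K) (Γ := Γ)]
  exact congrArg _ (congrArg Set.range (funext fun x => (latK_eq_redLatticeIncl x).symm))

theorem valRoot_parNormOp_lattice {ι : Type} [Fintype ι] (D : HeckeSystem Γ ι) (n : ℕ)
    (f : O →+ ZMod (p ^ n)) (x : parabolicHoms O Γ O) :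
    valRoot f (parNormOp D O x) = normHom D (valRoot f x) :=
  pushRoot_parNormOp (fun k => muVal (p ^ k)) D f x

include hC hp in
/-- An operator commuting with `rootRep` at every level commutes with `galK`. -/
theorem galK_parNormOp {ι : Type} [Fintype ι] (D : HeckeSystem Γ ι)
    (h : ∀ (n : ℕ) (σ : Γℚ) (φ : RootHom Γ (p ^ n)),
      rootRep hC (p ^ n) σ (normHom D φ) = normHom D (rootRep hC (p ^ n) σ φ))
    (σ : Γℚ) (y : parabolicHoms K Γ K) :
    galK K hC hp σ (parNormOp D K y) = parNormOp D K (galK K hC hp σ y) :=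
  galK_natural hC hp hC (T := parNormOp D O) (U := parNormOp D O)
    (fun x => by rw [latK_eq_redLatticeIncl, latK_eq_redLatticeIncl, parNormOp_redLatticeIncl])
    (fun x => by rw [latK_eq_redLatticeIncl, latK_eq_redLatticeIncl, parNormOp_redLatticeIncl])
    (fun x => galO_natural hC hp hC (fun _ => (normHom D).toAddMonoidHom)
      (fun _ => (normHom D).toAddMonoidHom) (fun n f x => valRoot_parNormOp_lattice D n f x)
      (fun n f x => valRoot_parNormOp_lattice D n f x) (fun n φ => h n σ φ) x) y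

end Commute

/-! ### Hecke polynomials through words -/

/-! ### The operators of `lgcGroup` -/

variable (q M : ℕ) [Fact q.Prime]

/-- `T l` on `lgcGroup q M`. -/
abbrev lgcT (l : Nat.Primes) (h : Nat.Coprime (l : ℕ) (q ^ 2 * M)) :
    HeckeSystem (lgcGroup q M) (Option (Fin (l : ℕ))) :=
  tSystemH (lgcQuot q M) l.2 h

/-- `U q` on `lgcGroup q M`. -/
abbrev lgcU : HeckeSystem (lgcGroup q M) (Fin q) :=
  uSystemH (lgcQuot q M) Fact.out (dvd_mul_of_dvd_left (dvd_pow_self q two_ne_zero) M)

variable {q M}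

theorem coprime_of_mem_goodPrimes {p : ℕ} {l : Nat.Primes} (hl : l ∈ goodPrimes q M p) :
    Nat.Coprime (l : ℕ) (q ^ 2 * M) := by
  refine Nat.Coprime.mul_right (Nat.Coprime.pow_right 2 ?_) ?_
  · exact l.2.coprime_iff_not_dvd.mpr fun h => hl ((h.mul_right M).mul_right p)
  · exact l.2.coprime_iff_not_dvd.mpr fun h => hl ((h.mul_left q).mul_right p)

/-- The values `μ_{pⁿ}`. -/
abbrev lgcMu (p : ℕ) [Fact p.Prime] (n : ℕ) : ZMod (p ^ n) ≃+ Additive (rootsOfUnity (p ^ n) ℂ) :=
  muVal (p ^ n)

theorem pushRoot_lgcMu {O : Type} [CommRing O] {Γ : Subgroup SL(2, ℤ)} {p : ℕ} [Fact p.Prime]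
    {n : ℕ} (f : O →+ ZMod (p ^ n)) (x : parabolicHoms O Γ O) :
    pushRoot (lgcMu p) f x = valRoot f x :=
  Subtype.ext (AddMonoidHom.ext fun _ => rfl)

theorem pushRoot_galO {O : Type} [CommRing O] [IsDomain O] [IsDiscreteValuationRing O]
    [IsAdicComplete (IsLocalRing.maximalIdeal O) O] [Finite (IsLocalRing.ResidueField O)]
    [CharZero O] {Γ : Subgroup SL(2, ℤ)} {N : ℕ} [NeZero N] {p : ℕ} [Fact p.Prime]
    (hC : ConjStable Γ N) (hp : (p : O) ∈ IsLocalRing.maximalIdeal O) (σ : Γℚ) (n : ℕ)
    (f : O →+ ZMod (p ^ n)) (x : parabolicHoms O Γ O) :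
    pushRoot (lgcMu p) f (galO hC hp σ x) = rootRep hC (p ^ n) σ (pushRoot (lgcMu p) f x) := by
  rw [pushRoot_lgcMu, pushRoot_lgcMu]
  exact valRoot_galO hC hp σ x n f

variable [NeZero M] {O : Type} [CommRing O] [IsDomain O] [IsDiscreteValuationRing O]
  [IsAdicComplete (IsLocalRing.maximalIdeal O) O] [Finite (IsLocalRing.ResidueField O)]
  [CharZero O] {p : ℕ} [Fact p.Prime] {χ : (ZMod q)ˣ →* Oˣ}
  {K : Type} [Field K] [IsAlgClosed K] [CharZero K] [Algebra O K] {lam : Nat.Primes → O}

theorem galK_lgcT (hp : (p : O) ∈ IsLocalRing.maximalIdeal O) (l : Nat.Primes)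
    (h : Nat.Coprime (l : ℕ) (q ^ 2 * M)) (σ : Γℚ) (y : parabolicHoms K (lgcGroup q M) K) :
    galK K (conjStable_lgcGroup q M) hp σ (parNormOp (lgcT q M l h) K y) =
      parNormOp (lgcT q M l h) K (galK K (conjStable_lgcGroup q M) hp σ y) :=
  galK_parNormOp _ hp _ (fun _ σ φ => rootRep_normHom_tSystemH (δ := lgcQuot q M)
    (conjStable_lgcGroup q M) (dvd_mul_left _ 20) l.2 h σ φ) σ y

theorem galK_lgcU (hp : (p : O) ∈ IsLocalRing.maximalIdeal O) (σ : Γℚ)
    (y : parabolicHoms K (lgcGroup q M) K) :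
    galK K (conjStable_lgcGroup q M) hp σ (parNormOp (lgcU q M) K y) =
      parNormOp (lgcU q M) K (galK K (conjStable_lgcGroup q M) hp σ y) :=
  galK_parNormOp _ hp _ (fun _ σ φ => rootRep_normHom_uSystemH (δ := lgcQuot q M)
    (conjStable_lgcGroup q M) _ _ σ φ) σ y

end FermatLib.MLT.LGC

end
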