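import Fermat.Agent.MLT.LGC.TwistFrobenius
import Fermat.Agent.Modular.TwistSystemOp

/-!
# The relation at good Frobenius elements for restricted cocycles

If `χ ψ² = 1` on `Γ₀(L q)` and `x`, `tx` are the restrictions to `Γ` of a cocycle for `χ` on
`Γ₀(L)` and of its image under `T l`, then `gal σ x + ψ(l)⁻² l • gal σ⁻¹ x = tx` at a Frobenius
element `σ` over `l`.
-/

set_option autoImplicit false
set_option linter.style.haveILetI false

noncomputable section

open CongruenceSubgroup ModularCurve ModularCurve.Period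
open scoped MatrixGroups

namespace FermatLib.MLT.LGC

open FermatLib.Modular

local notation "M2Z" => Matrix (Fin 2) (Fin 2) ℤ
local notation "Qbar" => AlgebraicClosure ℚ
local notation "Γℚ" => (AlgebraicClosure ℚ ≃ₐ[ℚ] AlgebraicClosure ℚ)

variable {O : Type} [CommRing O]

/-- A cocycle for a character equal to one, as a homomorphism. -/
def trivialHom {N : ℕ} {η : (ZMod N)ˣ →* Oˣ} (hη : η = 1)
    (d : bettiCocycles (Gamma0 N) (nebenChar η) O) : Additive (Gamma0 N) →+ O :=
  AddMonoidHom.mk' (fun γ => (d : Gamma0 N → O) (Additive.toMul γ)) fun γ δ => by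
    rw [toMul_add, bettiCocycles.map_mul, show nebenChar η (Additive.toMul γ) = 1 by
      subst hη; rfl, Units.val_one, one_smul]

theorem trivialHom_apply {N : ℕ} {η : (ZMod N)ˣ →* Oˣ} (hη : η = 1)
    (d : bettiCocycles (Gamma0 N) (nebenChar η) O) (γ : Gamma0 N) :
    trivialHom hη d (Additive.ofMul γ) = (d : Gamma0 N → O) γ := rfl

theorem heckeHomOp_trivialHom {N : ℕ} {η : (ZMod N)ˣ →* Oˣ} (hη : η = 1)
    (d : bettiCocycles (Gamma0 N) (nebenChar η) O) (l : Nat.Primes) :
    heckeHomOp N O O l (trivialHom hη d) = trivialHom hη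
      ((bettiHeckeSystem N l).transferCocycles O (isWeight_heckeWeight η l) d) := by
  refine AddMonoidHom.ext fun γ => ?_
  obtain ⟨γ, rfl⟩ := Additive.ofMul.surjective γ
  rw [heckeHomOp_apply, trivialHom_apply, CosetSystem.transferCocycles_apply]
  refine Finset.sum_congr rfl fun x _ => ?_
  rw [show heckeWeight η l x = 1 by simp [heckeWeight, hη], one_smul,
    ((bettiHeckeSystem N l).next_elt_eq_of_eq (i := x) ((heckeSystem N l).rep_mul γ x)).2]
  rfl

/-- A class for the trivial character determines its homomorphism. -/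
theorem trivialHom_eq_of_mk_eq {N : ℕ} {η : (ZMod N)ˣ →* Oˣ} (hη : η = 1)
    {d d' : bettiCocycles (Gamma0 N) (nebenChar η) O}
    (h : (Submodule.Quotient.mk d : bettiH1 (Gamma0 N) (nebenChar η) O) =
      Submodule.Quotient.mk d') : trivialHom hη d = trivialHom hη d' := by
  obtain ⟨v, hv⟩ := mem_bettiBoundaries.1 ((Submodule.Quotient.eq _).1 h)
  refine AddMonoidHom.ext fun γ => ?_
  have h1 := hv (Additive.toMul γ)
  rw [show nebenChar η (Additive.toMul γ) = 1 by subst hη; rfl, Units.val_one, one_smul, sub_self,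
    Submodule.coe_sub, Pi.sub_apply] at h1
  exact sub_eq_zero.1 h1.symm

variable {Γ : Subgroup SL(2, ℤ)} {Lc : ℕ} [NeZero Lc] {hC : ConjStable Γ Lc} {p : ℕ} [NeZero p]
  {L q : ℕ} [NeZero L] [NeZero q] (hqL : q ∣ L) (χ : (ZMod L)ˣ →* Oˣ) (ψ : (ZMod q)ˣ →* Oˣ)
  (hs : ShiftStable Γ q) (hG : Γ ≤ Gamma0 (L * q))

omit [NeZero L] [NeZero q] in
include hG in
theorem le_gamma0_left : Γ ≤ Gamma0 L := fun γ hγ => by
  have h := hG hγ
  rw [Gamma0_mem, ZMod.intCast_zmod_eq_zero_iff_dvd] at h ⊢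
  exact dvd_trans ⟨(q : ℤ), by push_cast; ring⟩ h

omit [NeZero L] in
/-- On `Γ` the twist of a restricted cocycle is the restricted transfer. -/
theorem twistLin_restrict {x : parabolicHoms O Γ O} (c : bettiCocycles (Gamma0 L) (nebenChar χ) O)
    (hx : ∀ γ : Γ, x.1 (Additive.ofMul γ) =
      (c : Gamma0 L → O) (Subgroup.inclusion (le_gamma0_left (q := q) hG) γ)) (γ : Γ) :
    (twistLin hs ψ x).1 (Additive.ofMul γ) =
      ((Twist.twistSystem L q hqL).transferCocycles O (Twist.isWeight_twistWeight L q hqL χ ψ) c :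
        Gamma0 (L * q) → O) (Subgroup.inclusion hG γ) := by
  rw [twistLin_apply, CosetSystem.transferCocycles_apply]
  refine Finset.sum_congr rfl fun u _ => ?_
  rw [hx, Twist.twistWeight, smul_eq_mul, smul_eq_mul,
    ((Twist.twistSystem L q hqL).next_elt_eq_of_eq (γ := Subgroup.inclusion hG γ) (i := u) (j := u)
      (h := Subgroup.inclusion (le_gamma0_left (q := q) hG) (shiftConj hs ((u : ZMod q).val : ℤ) γ))
      (shiftConj_spec hs ((u : ZMod q).val : ℤ) γ).symm).2]

variable [Γ.FiniteIndex] [CharZero O] [NoZeroDivisors O]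

include hqL in
/-- **The relation at good Frobenius elements, on restricted cocycles.** -/
theorem gal_add_gal_inv_eq_of_cocycle {gal : Γℚ →* Module.End O (parabolicHoms O Γ O)}
    (hgal : IsRootGalois hC p gal) (hsep : MuSeparates p O) (hT : ModularGroup.T ∈ Γ)
    (hψ : Twist.twistChar L q χ ψ = 1) (l : Nat.Primes) (hl : ¬ (l : ℕ) ∣ L * q * p)
    (hlq : Nat.Coprime (l : ℕ) q) {P : ValuationSubring Qbar} (hP : P.LiesOverPrime l) {σ : Γℚ}
    (hσ : P.IsFrobeniusAt σ l) {W : Submodule O (parabolicHoms O Γ O)}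
    (hW : ∀ g : Γℚ, ∀ z ∈ W, gal g z ∈ W) (hinj : ∀ z ∈ W, twistLin hs ψ z = 0 → z = 0)
    (c : bettiCocycles (Gamma0 L) (nebenChar χ) O) {x tx : parabolicHoms O Γ O} (hxW : x ∈ W)
    (htW : tx ∈ W)
    (hx : ∀ γ : Γ, x.1 (Additive.ofMul γ) =
      (c : Gamma0 L → O) (Subgroup.inclusion (le_gamma0_left (q := q) hG) γ))
    (htx : ∀ γ : Γ, tx.1 (Additive.ofMul γ) =
      ((bettiHeckeSystem L l).transferCocycles O (isWeight_heckeWeight χ l) c : Gamma0 L → O)
        (Subgroup.inclusion (le_gamma0_left (q := q) hG) γ)) :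
    gal σ x + ((((ψ (ZMod.unitOfCoprime (l : ℕ) hlq))⁻¹ : Oˣ) : O) ^ 2 * ((l : ℕ) : O)) •
      gal σ⁻¹ x = tx := by
  set d := (Twist.twistSystem L q hqL).transferCocycles O (Twist.isWeight_twistWeight L q hqL χ ψ) c
  set tc := (bettiHeckeSystem L l).transferCocycles O (isWeight_heckeWeight χ l) c
  set d' := (Twist.twistSystem L q hqL).transferCocycles O
    (Twist.isWeight_twistWeight L q hqL χ ψ) tc
  have hres : (trivialHom hψ d).comp (MonoidHom.toAdditive (Subgroup.inclusion hG)) =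
      (twistLin hs ψ x).1 := AddMonoidHom.ext fun γ => (twistLin_restrict hqL χ ψ hs hG c hx _).symm
  refine gal_add_gal_inv_eq hG hgal hsep hs hT ψ l hl hlq hP hσ hW hinj hxW htW
    ⟨trivialHom hψ d, mem_cuspidalHoms_of_parabolic hG (hres ▸ (twistLin hs ψ x).2)⟩
    (Subtype.ext hres.symm) (Subtype.ext (AddMonoidHom.ext fun γ => ?_))
  obtain ⟨γ, rfl⟩ := Additive.ofMul.surjective γ
  have hlq' : ¬ (l : ℕ) ∣ q := fun h => hl (dvd_mul_of_dvd_left (dvd_mul_of_dvd_right h L) p)
  have h1 := Twist.bettiHeckeOp_bettiTwist (V := O) hqL χ ψ l hlq' (Submodule.Quotient.mk c)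
  rw [bettiHeckeOp, bettiHeckeOp, Twist.bettiTwist, CosetSystem.transfer_mk,
    CosetSystem.transfer_mk, CosetSystem.transfer_mk, CosetSystem.transfer_mk,
    ← Submodule.Quotient.mk_smul] at h1
  have h2 := DFunLike.congr_fun (trivialHom_eq_of_mk_eq hψ h1)
    (Additive.ofMul (Subgroup.inclusion hG γ))
  rw [← heckeHomOp_trivialHom, trivialHom_apply] at h2
  show ((ψ (ZMod.unitOfCoprime (l : ℕ) hlq) : Oˣ) : O) • (twistLin hs ψ tx).1 (Additive.ofMul γ) =
    heckeHomOp (L * q) O O l (trivialHom hψ d) (Additive.ofMul (Subgroup.inclusion hG γ))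
  rw [h2, twistLin_restrict hqL χ ψ hs hG tc htx γ]
  rfl

end FermatLib.MLT.LGC

end
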