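import Fermat.Agent.Modular.CorrAtkinLehner

/-!
# The good Hecke operators commute with the Fricke conjugation
-/

set_option autoImplicit false

noncomputable section

open CongruenceSubgroup
open scoped MatrixGroups

namespace FermatLib.MLT.LGC

open FermatLib.Modular FermatLib.Modular.Corr

local notation "M2Z" => Matrix (Fin 2) (Fin 2) ℤ

variable {N : ℕ} [NeZero N] (p : Nat.Primes)

omit [NeZero N] in
/-- `w diag w` up to the scalar `-N`. -/
theorem exists_fricke_rep (hp : ¬ (p : ℕ) ∣ N) (x : HeckeIdx N p) :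
    ∃ (y : HeckeIdx N p) (h : Gamma0 N),
      wMat N * heckeRepInt p x.1 * wMat N =
        (-(N : ℤ)) • (((h : SL(2, ℤ)) : M2Z) * heckeRepInt p y.1) := by
  set R := heckeRepInt p x.1 with hR
  have h10 : R 1 0 = 0 := heckeRepInt_one_zero _ _
  obtain ⟨y, h, hy⟩ := exists_eq_mul_rep (N := N) p.2
    !![R 1 1, 0; -((N : ℤ) * R 0 1), R 0 0]
    (by
      have hd := det_heckeRepInt p x.1
      rw [← hR, Matrix.det_fin_two, h10] at hd
      rw [Matrix.det_fin_two_of]
      linear_combination hd)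
    (by simp) (fun h => absurd h hp)
  refine ⟨y, h, ?_⟩
  rw [← hy]
  conv_lhs => rw [Matrix.eta_fin_two R, h10]
  ext i j
  fin_cases i <;> fin_cases j <;>
    simp [wMat, Matrix.mul_apply, Fin.sum_univ_two] <;> ring

/-- **`T p` commutes with the Fricke conjugation for `p ∤ N`.** -/
theorem heckeHomOp_comp_conjW (hp : ¬ (p : ℕ) ∣ N) {A : Type} [AddCommGroup A]
    (φ : Additive (Gamma0 N) →+ A) :
    heckeHomOp N ℤ A p (φ.comp (MonoidHom.toAdditive (conjW N))) =
      (heckeHomOp N ℤ A p φ).comp (MonoidHom.toAdditive (conjW N)) := by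
  classical
  have : NeZero (p : ℕ) := ⟨p.2.ne_zero⟩
  choose π h hπ using exists_fricke_rep p hp
  set D := heckeSystem N p
  have hN : (-(N : ℤ)) ≠ 0 := neg_ne_zero.mpr (Int.natCast_ne_zero.mpr (NeZero.ne N))
  have hW : (wMat N).det ≠ 0 := (det_wMat_pos N).ne'
  have hcancel : ∀ A B : M2Z, wMat N * A = wMat N * B → A = B := fun A B e => by
    have e' := congrArg (fun X => (wMat N).adjugate * X) e
    simp only [← Matrix.mul_assoc, Matrix.adjugate_mul, Matrix.smul_mul, Matrix.one_mul] at e'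
    exact smul_right_injective _ hW e'
  have hinj : Function.Injective π := fun x y e => by
    have e1 : wMat N * heckeRepInt p x.1 * wMat N =
        (((h x * (h y)⁻¹ : Gamma0 N) : SL(2, ℤ)) : M2Z) * (wMat N * heckeRepInt p y.1 * wMat N) := by
      rw [hπ x, hπ y, e, Matrix.mul_smul, ← Matrix.mul_assoc, ← Matrix.SpecialLinearGroup.coe_mul,
        ← Subgroup.coe_mul, inv_mul_cancel_right]
    have e2 := wMat_mul_conjW N (conjW N (h x * (h y)⁻¹))
    rw [conjW_conjW] at e2
    rw [← Matrix.mul_assoc, ← Matrix.mul_assoc, ← e2] at e1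
    have e3 := matMul_right_cancel hW e1
    rw [Matrix.mul_assoc] at e3
    exact (D.eq_of_mul_rep y x _ (hcancel _ _ e3).symm).symm
  have hbij : Function.Bijective π := Finite.injective_iff_bijective.mp hinj
  refine AddMonoidHom.ext fun g => ?_
  obtain ⟨γ, rfl⟩ := Additive.ofMul.surjective g
  show heckeHomOp N ℤ A p (φ.comp (MonoidHom.toAdditive (conjW N))) (Additive.ofMul γ) =
    heckeHomOp N ℤ A p φ (Additive.ofMul (conjW N γ))
  rw [← conjW_conjW N γ]
  generalize conjW N γ = δ
  rw [conjW_conjW, heckeHomOp_apply, heckeHomOp_apply]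
  show ∑ x, φ (Additive.ofMul (conjW N (D.elt (conjW N δ) x))) =
    ∑ x, φ (Additive.ofMul (D.elt δ x))
  have key : ∀ x, D.elt δ (π x) =
      (h x)⁻¹ * conjW N (D.elt (conjW N δ) x) * h (D.next (conjW N δ) x) ∧
      D.next δ (π x) = π (D.next (conjW N δ) x) := by
    intro x
    set x' := D.next (conjW N δ) x
    set E := D.elt (conjW N δ) x
    have e1 : heckeRepInt p x.1 * ((conjW N δ : SL(2, ℤ)) : M2Z) =
        ((E : SL(2, ℤ)) : M2Z) * heckeRepInt p x'.1 := D.rep_mul (conjW N δ) x
    have e2 : wMat N * heckeRepInt p x.1 * wMat N * ((δ : SL(2, ℤ)) : M2Z) =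
        ((conjW N E : SL(2, ℤ)) : M2Z) * (wMat N * heckeRepInt p x'.1 * wMat N) := by
      rw [Matrix.mul_assoc, wMat_mul_conjW N δ, ← Matrix.mul_assoc, Matrix.mul_assoc (wMat N), e1,
        ← Matrix.mul_assoc, wMat_mul_conjW N E]
      simp only [Matrix.mul_assoc]
    rw [hπ, hπ, Matrix.smul_mul, Matrix.mul_smul] at e2
    have e3 := smul_right_injective _ hN e2
    have := D.next_elt_eq_of_eq (γ := δ) (i := π x) (j := π x')
      (h := (h x)⁻¹ * conjW N E * h x') (by
        show heckeRepInt p (π x).1 * _ = _ * heckeRepInt p (π x').1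
        simp only [Subgroup.coe_mul, Matrix.SpecialLinearGroup.coe_mul, Matrix.mul_assoc] at e3 ⊢
        rw [← e3, ← Matrix.mul_assoc, ← Matrix.SpecialLinearGroup.coe_mul, ← Subgroup.coe_mul,
          inv_mul_cancel, Subgroup.coe_one, Matrix.SpecialLinearGroup.coe_one, Matrix.one_mul])
    exact ⟨this.2, this.1⟩
  rw [← hbij.sum_comp (fun y => φ (Additive.ofMul (D.elt δ y)))]
  simp only [(key _).1, ofMul_mul, ofMul_inv, map_add, map_neg, Finset.sum_add_distrib,
    Finset.sum_neg_distrib]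
  rw [(D.next_bijective (conjW N δ)).sum_comp fun z => φ (Additive.ofMul (h z))]
  abel

end FermatLib.MLT.LGC

end
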