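import Fermat.Agent.MLT.LGC.TwistGalois
import Fermat.Agent.Galois.CyclotomicFrobenius
import Fermat.Agent.MLT.BettiTransfer
import Fermat.Agent.Modular.SL2Conj

/-!
# The relation at good Frobenius elements from the twist

`gal` is an action of Galois on parabolic homomorphisms `Γ → O` compatible with the one on root
classes.  If `x` twisted by `ψ` extends to a cuspidal homomorphism of level `N` and `T x` to
`ψ(l)⁻¹` times its image under `T l`, then `gal σ x + ψ(l)⁻² l • gal σ⁻¹ x = T x` at a Frobenius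
element `σ` over `l`.
-/

set_option autoImplicit false
set_option linter.style.haveILetI false

noncomputable section

open CongruenceSubgroup ModularCurve ModularCurve.Period
open scoped MatrixGroups

namespace FermatLib.MLT.LGC

open FermatLib.Modular FermatLib.Modular.Kummer FermatLib.Galois

local notation "Qbar" => AlgebraicClosure ℚ
local notation "Γℚ" => (AlgebraicClosure ℚ ≃ₐ[ℚ] AlgebraicClosure ℚ)

variable {Γ : Subgroup SL(2, ℤ)} {L : ℕ} [NeZero L] (hC : ConjStable Γ L) (p : ℕ) [NeZero p]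
  {O : Type} [CommRing O]

/-- A parabolic homomorphism composed with an additive map to `μₘ`. -/
def compRoot {m : ℕ} (f : O →+ muC m) : parabolicHoms O Γ O →+ RootHom Γ m where
  toFun x := ⟨f.comp x.1, fun γ hγ => by
    show f (x.1 (Additive.ofMul γ)) = 0
    rw [x.2 γ hγ, map_zero]⟩
  map_zero' := Subtype.ext (AddMonoidHom.ext fun _ => map_zero f)
  map_add' _ _ := Subtype.ext (AddMonoidHom.ext fun _ => map_add f _ _)

theorem compRoot_apply {m : ℕ} (f : O →+ muC m) (x : parabolicHoms O Γ O) (γ : Γ) :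
    (compRoot f x).1 (Additive.ofMul γ) = f (x.1 (Additive.ofMul γ)) := rfl

/-- Galois acts compatibly with the action on root classes. -/
def IsRootGalois (gal : Γℚ →* Module.End O (parabolicHoms O Γ O)) : Prop :=
  ∀ (k : ℕ) (f : O →+ muC (p ^ k)) (σ : Γℚ) (x : parabolicHoms O Γ O),
    compRoot f (gal σ x) = rootRep hC (p ^ k) σ (compRoot f x)

variable (O) in
/-- Additive maps to `μ_{p^k}` separate `O`. -/
def MuSeparates : Prop :=
  ∀ a : O, (∀ (k : ℕ) (f : O →+ muC (p ^ k)), f a = 0) → a = 0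

theorem eq_of_forall_compRoot {p : ℕ} (hsep : MuSeparates p O) {x y : parabolicHoms O Γ O}
    (h : ∀ (k : ℕ) (f : O →+ muC (p ^ k)), compRoot f x = compRoot f y) : x = y := by
  refine Subtype.ext (AddMonoidHom.ext fun γ => ?_)
  obtain ⟨γ, rfl⟩ := Additive.ofMul.surjective γ
  rw [← sub_eq_zero]
  refine hsep _ fun k f => ?_
  rw [map_sub, ← compRoot_apply, ← compRoot_apply, h k f, sub_self]

/-! ### Translates and the twist -/

section Shift

variable {q : ℕ} [NeZero q] (hs : ShiftStable Γ q)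

/-- The translate of a parabolic homomorphism. -/
def shiftLin (k : ℤ) : parabolicHoms O Γ O →ₗ[O] parabolicHoms O Γ O where
  toFun x := ⟨x.1.comp (MonoidHom.toAdditive (shiftConj hs k)), fun γ hγ => by
    show x.1 (Additive.ofMul (shiftConj hs k γ)) = 0
    exact x.2 _ (by rw [trace_shiftConj]; exact hγ)⟩
  map_add' _ _ := Subtype.ext (AddMonoidHom.ext fun _ => rfl)
  map_smul' _ _ := Subtype.ext (AddMonoidHom.ext fun _ => rfl)

theorem compRoot_shiftLin {m : ℕ} (f : O →+ muC m) (k : ℤ) (x : parabolicHoms O Γ O) :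
    compRoot f (shiftLin hs k x) = shiftHom hs k (compRoot f x) := rfl

/-- `∑ u, ψ u⁻¹ • (translate by u)`. -/
def twistLin (ψ : (ZMod q)ˣ →* Oˣ) : parabolicHoms O Γ O →ₗ[O] parabolicHoms O Γ O :=
  ∑ u : (ZMod q)ˣ, (((ψ u)⁻¹ : Oˣ) : O) • shiftLin hs ((u : ZMod q).val : ℤ)

theorem twistLin_apply (ψ : (ZMod q)ˣ →* Oˣ) (x : parabolicHoms O Γ O) (γ : Γ) :
    (twistLin hs ψ x).1 (Additive.ofMul γ) = ∑ u : (ZMod q)ˣ, (((ψ u)⁻¹ : Oˣ) : O) •
      x.1 (Additive.ofMul (shiftConj hs ((u : ZMod q).val : ℤ) γ)) := by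
  rw [twistLin, LinearMap.sum_apply, Submodule.coe_sum, AddMonoidHom.finsetSum_apply]
  rfl

variable {hC p} {gal : Γℚ →* Module.End O (parabolicHoms O Γ O)}

theorem gal_shiftLin (hgal : IsRootGalois hC p gal) (hsep : MuSeparates p O)
    (hT : ModularGroup.T ∈ Γ) {σ : Γℚ} (c u : (ZMod q)ˣ)
    (hc : ∀ ζ : Qbar, ζ ^ q = 1 → σ ζ = ζ ^ (c : ZMod q).val) (x : parabolicHoms O Γ O) :
    gal σ (shiftLin hs ((u : ZMod q).val : ℤ) x) =
      shiftLin hs (((c * u : (ZMod q)ˣ) : ZMod q).val : ℤ) (gal σ x) := by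
  refine eq_of_forall_compRoot hsep fun k f => ?_
  rw [hgal, compRoot_shiftLin, compRoot_shiftLin, hgal, rootRep_shiftHom hC hs hc]
  refine shiftHom_congr hs hT ?_ _
  push_cast
  rw [ZMod.natCast_zmod_val, ZMod.natCast_zmod_val, ZMod.natCast_zmod_val]

/-- **Galois and the twist.** -/
theorem gal_twistLin (hgal : IsRootGalois hC p gal) (hsep : MuSeparates p O)
    (hT : ModularGroup.T ∈ Γ) (ψ : (ZMod q)ˣ →* Oˣ) {σ : Γℚ} (c : (ZMod q)ˣ)
    (hc : ∀ ζ : Qbar, ζ ^ q = 1 → σ ζ = ζ ^ (c : ZMod q).val) (x : parabolicHoms O Γ O) :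
    gal σ (twistLin hs ψ x) = (ψ c : O) • twistLin hs ψ (gal σ x) := by
  rw [twistLin, LinearMap.sum_apply, LinearMap.sum_apply, map_sum, Finset.smul_sum]
  refine Fintype.sum_equiv (Equiv.mulLeft c) _ _ fun u => ?_
  rw [Equiv.coe_mulLeft, LinearMap.smul_apply, LinearMap.smul_apply, map_smul,
    gal_shiftLin hs hgal hsep hT c u hc, smul_smul, map_mul, mul_inv, ← Units.val_mul,
    mul_inv_cancel_left]

end Shift

/-! ### Classes of level `N` -/

section Level

variable {N : ℕ} [NeZero N] (hG : Γ ≤ Gamma0 N)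

/-- Restriction of cuspidal homomorphisms of level `N`. -/
def resCusp : cuspidalHoms O (Gamma0 N) O →ₗ[O] parabolicHoms O Γ O where
  toFun y := ⟨y.1.comp (MonoidHom.toAdditive (Subgroup.inclusion hG)), fun γ hγ => by
    show y.1 (Additive.ofMul (Subgroup.inclusion hG γ)) = 0
    exact y.2 _ hγ.le⟩
  map_add' _ _ := Subtype.ext (AddMonoidHom.ext fun _ => rfl)
  map_smul' _ _ := Subtype.ext (AddMonoidHom.ext fun _ => rfl)

/-- The Hecke operator on cuspidal homomorphisms with values in `O`. -/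
def cuspHeckeLin (l : Nat.Primes) :
    cuspidalHoms O (Gamma0 N) O →ₗ[O] cuspidalHoms O (Gamma0 N) O :=
  (heckeHomOp N O O l).restrict fun _ h =>
    haveI : NeZero (l : ℕ) := ⟨l.2.ne_zero⟩
    op_mem_cuspidalHoms (R := O) _ h

variable {hC p} {gal : Γℚ →* Module.End O (parabolicHoms O Γ O)}

/-- **The Eichler–Shimura relation on restricted classes.** -/
theorem gal_frobenius_resCusp (hgal : IsRootGalois hC p gal) (hsep : MuSeparates p O)
    (l : Nat.Primes) (hl : ¬ (l : ℕ) ∣ N * p) {P : ValuationSubring Qbar}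
    (hP : P.LiesOverPrime l) {σ : Γℚ} (hσ : P.IsFrobeniusAt σ l)
    (y : cuspidalHoms O (Gamma0 N) O) :
    gal σ (gal σ (resCusp hG y)) - gal σ (resCusp hG (cuspHeckeLin l y)) +
      ((l : ℕ) : O) • resCusp hG y = 0 := by
  refine eq_of_forall_compRoot hsep fun k f => ?_
  let yf : cuspidalHoms ℤ (Gamma0 N) (muC (p ^ k)) := ⟨f.comp y.1, fun γ hγ => by
    show f (y.1 (Additive.ofMul γ)) = 0
    rw [y.2 γ hγ, map_zero]⟩
  have h1 : compRoot f (resCusp hG y) = resRoot hG yf := rfl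
  have h2 : compRoot f (resCusp hG (cuspHeckeLin l y)) = resRoot hG (cuspHecke l yf) := by
    refine Subtype.ext (AddMonoidHom.ext fun γ => ?_)
    obtain ⟨γ, rfl⟩ := Additive.ofMul.surjective γ
    rw [compRoot_apply, resRoot_apply, coe_cuspHecke]
    show f (heckeHomOp N O O l y.1 (Additive.ofMul (Subgroup.inclusion hG γ))) = _
    rw [heckeHomOp_apply, heckeHomOp_apply, map_sum]
    rfl
  rw [Nat.cast_smul_eq_nsmul O, map_quadComb (compRoot f) (hgal k f σ), h1, h2]
  exact (rootRep_frobenius_resRoot hC hG l hl hP hσ yf).trans (compRoot f).map_zero.symm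

omit [NeZero N] in
/-- A homomorphism of level `N` which is parabolic on a subgroup of finite index is cuspidal. -/
theorem mem_cuspidalHoms_of_parabolic [Γ.FiniteIndex] [CharZero O] [NoZeroDivisors O]
    {y : Additive (Gamma0 N) →+ O}
    (hy : y.comp (MonoidHom.toAdditive (Subgroup.inclusion hG)) ∈ parabolicHoms O Γ O) :
    y ∈ cuspidalHoms O (Gamma0 N) O := by
  intro γ hγ
  have key : ∀ m : ℕ, 0 < m → y (Additive.ofMul (γ ^ m)) = 0 → y (Additive.ofMul γ) = 0 :=
    fun m hm h => by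
      rw [ofMul_pow, map_nsmul, nsmul_eq_mul] at h
      exact (mul_eq_zero.mp h).resolve_left (Nat.cast_ne_zero.mpr hm.ne')
  rcases hγ.lt_or_eq with hlt | heq
  · refine key 12 (by norm_num) ?_
    rw [show γ ^ 12 = 1 from Subtype.ext (pow_twelve_eq_one_of_trace_sq_lt_four hlt), ofMul_one,
      map_zero]
  · obtain ⟨m, hm, -, hmem⟩ := Subgroup.exists_pow_mem_of_index_ne_zero
      (Subgroup.FiniteIndex.index_ne_zero (H := Γ)) (γ : SL(2, ℤ))
    refine key m hm ?_
    have h := hy ⟨_, hmem⟩ ((trace_pow_sq (γ : SL(2, ℤ)) hγ m).2 heq)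
    exact h

/-- Undoing a twist on a quadratic relation. -/
theorem add_smul_inv_eq_of_twist {R V : Type*} [CommRing R] [AddCommGroup V] [Module R V]
    (T g g' : Module.End R V) (W : Submodule R V) (hW : ∀ z ∈ W, g z ∈ W)
    (hinj : ∀ z ∈ W, T z = 0 → z = 0) (hg : ∀ z, g' (g z) = z) (s : Rˣ) (m : R)
    (hgt : ∀ z, T (g z) = ((s⁻¹ : Rˣ) : R) • g (T z)) {x tx : V} (hx : x ∈ W) (htx : tx ∈ W)
    (hES : g (g (T x)) - g ((s : R) • T tx) + m • T x = 0) :
    g x + (((s⁻¹ : Rˣ) : R) ^ 2 * m) • g' x = tx := by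
  set t : R := ((s⁻¹ : Rˣ) : R) ^ 2 * m with ht
  have h0 : T (g (g x) - g tx + t • x) = 0 := by
    rw [map_smul] at hES
    rw [map_add, map_sub, map_smul, hgt, hgt, hgt, map_smul]
    have h := congrArg (((s⁻¹ : Rˣ) : R) ^ 2 • ·) hES
    simp only [smul_add, smul_sub, smul_smul, smul_zero, pow_two, mul_assoc, Units.inv_mul,
      mul_one] at h
    simpa only [ht, smul_smul, pow_two, mul_assoc] using h
  have h1 := hinj _ (W.add_mem (W.sub_mem (hW _ (hW _ hx)) (hW _ htx)) (W.smul_mem t hx)) h0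
  have h2 := congrArg g' h1
  rw [map_add, map_sub, map_smul, hg, hg, map_zero, sub_add_eq_add_sub, sub_eq_zero] at h2
  exact h2

/-- **The relation at good Frobenius elements.** -/
theorem gal_add_gal_inv_eq (hgal : IsRootGalois hC p gal) (hsep : MuSeparates p O)
    {q : ℕ} [NeZero q] (hs : ShiftStable Γ q) (hT : ModularGroup.T ∈ Γ)
    (ψ : (ZMod q)ˣ →* Oˣ) (l : Nat.Primes) (hl : ¬ (l : ℕ) ∣ N * p)
    (hlq : Nat.Coprime (l : ℕ) q) {P : ValuationSubring Qbar} (hP : P.LiesOverPrime l) {σ : Γℚ}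
    (hσ : P.IsFrobeniusAt σ l) {W : Submodule O (parabolicHoms O Γ O)}
    (hW : ∀ g : Γℚ, ∀ z ∈ W, gal g z ∈ W) (hinj : ∀ z ∈ W, twistLin hs ψ z = 0 → z = 0)
    {x tx : parabolicHoms O Γ O} (hxW : x ∈ W) (htW : tx ∈ W) (y : cuspidalHoms O (Gamma0 N) O)
    (hy : twistLin hs ψ x = resCusp hG y)
    (hty : (ψ (ZMod.unitOfCoprime (l : ℕ) hlq) : O) • twistLin hs ψ tx =
      resCusp hG (cuspHeckeLin l y)) :
    gal σ x + ((((ψ (ZMod.unitOfCoprime (l : ℕ) hlq))⁻¹ : Oˣ) : O) ^ 2 * ((l : ℕ) : O)) •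
      gal σ⁻¹ x = tx := by
  set u := ZMod.unitOfCoprime (l : ℕ) hlq
  let s : Oˣ := ψ u
  have hlq' : ¬ (l : ℕ) ∣ q := fun h =>
    l.2.not_dvd_one ((hlq : Nat.gcd (l : ℕ) q = 1) ▸ Nat.dvd_gcd dvd_rfl h)
  have hc : ∀ ζ : Qbar, ζ ^ q = 1 → σ ζ = ζ ^ (u : ZMod q).val := fun ζ hζ => by
    rw [apply_eq_pow_modCycloChar q σ hζ, modCycloChar_frobenius l.2 hlq' hP hσ]
    rfl
  have hgt : ∀ z, twistLin hs ψ (gal σ z) = ((s⁻¹ : Oˣ) : O) • gal σ (twistLin hs ψ z) := fun z => by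
    rw [gal_twistLin hs hgal hsep hT ψ u hc, smul_smul, Units.inv_mul, one_smul]
  have hES := gal_frobenius_resCusp hG hgal hsep l hl hP hσ y
  rw [← hy, ← hty] at hES
  exact add_smul_inv_eq_of_twist (twistLin hs ψ) (gal σ) (gal σ⁻¹) W (hW σ) hinj
    (fun z => LinearMap.congr_fun
      ((map_mul gal σ⁻¹ σ).symm.trans ((congrArg gal (inv_mul_cancel σ)).trans gal.map_one)) z)
    s ((l : ℕ) : O) hgt hxW htW hES

end Level

end FermatLib.MLT.LGC

end
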