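import Fermat.Agent.MLT.LGC.DictionaryDefs
import Fermat.Agent.Modular.Kummer.KummerBar
import Fermat.Prelude.Def_ModularCurve_X0ModL

/-!
# The Kummer classes of `J₀(N)[n]` as root classes

If a divisor class has Kummer character `φ`, a weakly modular function `g` on `Γ₀(N)` whose
expansion is the one of the Weil function times an `n`-th power has class `φ`; so automorphisms of
`ℂ` act on these classes as `Gal(ℚ̄/ℚ)` on `J₀(N)[n]`.
-/

set_option autoImplicit false

noncomputable section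

open UpperHalfPlane hiding I
open CongruenceSubgroup ModularCurve ModularCurve.Period AlgebraicCurve
open scoped MatrixGroups Manifold ModularForm

namespace FermatLib.MLT.LGC

open FermatLib.Modular FermatLib.Modular.Kummer

local notation "Δ" => ModularForm.discriminant
local notation "Qbar" => AlgebraicClosure ℚ
local notation "ι₀" => (complexEmbedding : Qbar →+* ℂ)

variable {N : ℕ} [NeZero N] {G : Subgroup SL(2, ℤ)} {n : ℕ}

/-- Restriction of cuspidal classes of level `N`. -/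
def resRoot (hG : G ≤ Gamma0 N) :
    cuspidalHoms ℤ (Gamma0 N) (muC n) →ₗ[ℤ] RootHom G n where
  toFun φ := ⟨φ.1.comp (MonoidHom.toAdditive (Subgroup.inclusion hG)), fun γ hγ => by
    show φ.1 (Additive.ofMul (Subgroup.inclusion hG γ)) = 0
    exact φ.2 _ hγ.le⟩
  map_add' _ _ := Subtype.ext (AddMonoidHom.ext fun _ => rfl)
  map_smul' _ _ := Subtype.ext (AddMonoidHom.ext fun _ => rfl)

omit [NeZero N] in
theorem resRoot_apply (hG : G ≤ Gamma0 N) (φ : cuspidalHoms ℤ (Gamma0 N) (muC n)) (γ : G) :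
    (resRoot hG φ).1 (Additive.ofMul γ) = φ.1 (Additive.ofMul (Subgroup.inclusion hG γ)) := rfl

/-- A weakly modular function whose expansion is a constant times `f w ^ n`, `f` with Kummer
character `φ`, has class `φ`. -/
theorem isRootClass_of_isTwisted (hn : n ≠ 0) (hG : G ≤ Gamma0 N)
    {φ : cuspidalHoms ℤ (Gamma0 N) (muC n)} {k : ℤ} {A B : ModularForm (Gamma0 N) k}
    {r g w : ℍ → ℂ} {f : LaurentSeries ℂ} (hA : A ≠ 0) (hB : B ≠ 0)
    (hAB : f * qL B = qL A) (hr : IsTwisted (toChar φ.1) k r) (hrn : r ^ n = ⇑A * ⇑B ^ (n - 1))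
    (hg : g ∈ weakMod (Gamma0 N)) (hg0 : g ≠ 0) (hw : w ∈ weakMod (Gamma0 N)) {c : ℂ}
    (h : qExpL g = HahnSeries.C c * f * qExpL w ^ n) :
    IsRootClass G n g (resRoot hG φ).1 := by
  have hn1 : n - 1 + 1 = n := Nat.sub_add_cancel (Nat.one_le_iff_ne_zero.mpr hn)
  have hA0 := modularForm_coe_ne_zero hA
  have hB0 := modularForm_coe_ne_zero hB
  have hgd : MDiff g := (mem_weakMod.mp hg).1
  have hwd : MDiff w := (mem_weakMod.mp hw).1
  have hgq := weakMod_Gamma0_le_qMero N hg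
  have hwq := weakMod_Gamma0_le_qMero N hw
  have hAq : (⇑A : ℍ → ℂ) ∈ qMero := isCuspFn_one_mem_qMero (isCuspFn_one A)
  have hBq : (⇑B : ℍ → ℂ) ∈ qMero := isCuspFn_one_mem_qMero (isCuspFn_one B)
  have hgB : g * ⇑B = c • (⇑A * w ^ n) := by
    have hR : c • (⇑A * w ^ n) ∈ qMero := Subalgebra.smul_mem _ (mul_mem hAq (pow_mem hwq n)) c
    have e : qExpL (g * ⇑B) = qExpL (c • (⇑A * w ^ n)) := by
      have hp : ∀ m : ℕ, qExpL (w ^ m) = qExpL w ^ m := fun m =>
        congrArg id (map_pow qExpLHom (⟨w, hwq⟩ : qMero) m)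
      have hc : qExpL (c • (⇑A * w ^ n)) = HahnSeries.C c * qExpL (⇑A * w ^ n) := by
        rw [Algebra.smul_def, qExpL_mul (Subalgebra.algebraMap_mem _ c)
          (mul_mem hAq (pow_mem hwq n)), qExpL_algebraMap, algebraMap_laurentSeries_eq_single,
          HahnSeries.C_apply]
      rw [qExpL_mul hgq hBq, hc, qExpL_mul hAq (pow_mem hwq n), hp, h,
        qExpL_eq_qL (isCuspFn_one A), qExpL_eq_qL (isCuspFn_one B), ← hAB]
      ring
    exact congrArg Subtype.val
      (qExpLHom_injective (a₁ := (⟨_, mul_mem hgq hBq⟩ : qMero)) (a₂ := ⟨_, hR⟩) e)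
  obtain ⟨d, hd⟩ := IsAlgClosed.exists_pow_nat_eq c (Nat.pos_of_ne_zero hn)
  set s : ℍ → ℂ := d • (r * w) with hs
  have hsn : s ^ n = g * ⇑B ^ n := by
    rw [hs, smul_pow, hd, mul_pow, hrn]
    calc c • (⇑A * ⇑B ^ (n - 1) * w ^ n) = (c • (⇑A * w ^ n)) * ⇑B ^ (n - 1) := by
          rw [smul_mul_assoc]; ring_nf
      _ = g * ⇑B ^ n := by rw [← hgB, mul_assoc, ← pow_succ', hn1]
  have hsd : MDiff s := (hr.mdiff.mul hwd).const_smul d
  have hBd : MDiff (⇑B : ℍ → ℂ) := B.holo'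
  have hs0 : s ≠ 0 := fun h0 => by
    rw [h0, zero_pow hn] at hsn
    exact mdiff_mul_ne_zero hgd (hBd.pow n) hg0 (pow_ne_zero_fun hB0 n) hsn.symm
  obtain ⟨h0, hh0, hh0n⟩ := exists_root_uhp hgd hg0 hn fun τ => by
    have e := congrArg (fun F => ordH F τ) hsn
    simp only [ordH_mul hgd (hBd.pow n) hg0 (pow_ne_zero_fun hB0 n), ordH_pow hsd,
      ordH_pow hBd] at e
    exact (Nat.dvd_add_left (dvd_mul_right n _)).mp ⟨_, e.symm⟩
  obtain ⟨ζ, -, hζ⟩ := exists_eq_smul_of_pow_eq hsd (hh0.mul hBd) hn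
    (by rw [hsn, mul_pow, hh0n]) hs0
  refine ⟨weakMod_mono hG hg, hg0, h0, hh0, fun γ τ => ?_, fun τ => congrFun hh0n τ⟩
  set δ : Gamma0 N := Subgroup.inclusion hG γ
  set χ : ℂ := (toChar φ.1 δ : ℂ)
  show h0 ((δ : SL(2, ℤ)) • τ) = χ * h0 τ
  have hsγ : ∀ z : ℍ, s ((δ : SL(2, ℤ)) • z) * denom (δ : SL(2, ℤ)) z ^ (-k) = χ * s z := fun z => by
    have e1 := congrFun (hr.slash δ) z
    rw [ModularForm.SL_slash_apply, Pi.smul_apply, smul_eq_mul] at e1
    simp only [hs, Pi.smul_apply, Pi.mul_apply, smul_eq_mul, (mem_weakMod.mp hw).2.1 _ δ.2 z]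
    linear_combination (d * w z) * e1
  have hBγ : ∀ z : ℍ, B ((δ : SL(2, ℤ)) • z) * denom (δ : SL(2, ℤ)) z ^ (-k) = B z := fun z => by
    have e1 := congrFun ((IsTwisted.of_modularForm B).slash δ) z
    rwa [ModularForm.SL_slash_apply, MonoidHom.one_apply, Units.val_one, one_smul] at e1
  have hzero : ((fun z => h0 ((δ : SL(2, ℤ)) • z)) - χ • h0) * ⇑B = 0 := by
    funext z
    have e1 := congrFun hζ ((δ : SL(2, ℤ)) • z)
    have e2 := congrFun hζ z
    simp only [Pi.mul_apply, Pi.smul_apply, smul_eq_mul, Pi.sub_apply, Pi.zero_apply] at e1 e2 ⊢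
    linear_combination (denom (δ : SL(2, ℤ)) z ^ (-k)) * e1 - χ * e2 + (ζ : ℂ) * hsγ z
      - h0 ((δ : SL(2, ℤ)) • z) * hBγ z
  by_contra hne
  refine mdiff_mul_ne_zero ((mdifferentiable_comp_smul hh0 _).sub (hh0.const_smul χ)) hBd
    (fun h1 => hne ?_) hB0 hzero
  exact sub_eq_zero.mp (congrFun h1 τ)

/-- Multiplying the data of a Kummer character to weight zero. -/
theorem exists_weakMod_fraction {k : ℤ} (A B : ModularForm (Gamma0 N) k) (hA : A ≠ 0)
    (hB : B ≠ 0) (hn : n ≠ 0) {f : LaurentSeries ℂ} (hAB : f * qL B = qL A) :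
    ∃ g w : ℍ → ℂ, g ∈ weakMod (Gamma0 N) ∧ g ≠ 0 ∧ w ∈ weakMod (Gamma0 N) ∧
      qExpL g = f * qExpL w ^ n := by
  have hn1 : n - 1 + 1 = n := Nat.sub_add_cancel (Nat.one_le_iff_ne_zero.mpr hn)
  set m : ℕ := k.natAbs + 1
  set e : ℕ := ((12 * m : ℕ) - k : ℤ).toNat
  have he : (e : ℤ) = (12 * m : ℕ) - k := Int.toNat_of_nonneg (by omega)
  have he3 : 3 ≤ e := by omega
  have hev : Even e := by
    obtain ⟨j, hj⟩ := even_weight hB
    exact ⟨(6 * m - j : ℤ).toNat, by omega⟩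
  have hE0 : (⇑(ModularForm.E he3) : ℍ → ℂ) ≠ 0 :=
    modularForm_coe_ne_zero (EisensteinSeries.E_ne_zero _ hev)
  have tE : IsTwisted (1 : Gamma0 N →* ℂˣ) (e : ℤ) ⇑(ModularForm.E he3) :=
    ⟨(ModularForm.E he3).holo', fun γ => by
      rw [MonoidHom.one_apply, Units.val_one, one_smul, ModularForm.SL_slash]
      exact (ModularForm.E he3).slash_action_eq' _ ⟨γ, rfl⟩,
      fun A => ModularFormClass.bdd_at_infty_slash (ModularForm.E he3) A⟩
  set E : ℍ → ℂ := ⇑(ModularForm.E he3)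
  have tA := IsTwisted.of_modularForm A
  have tB := IsTwisted.of_modularForm B
  have tw : IsTwisted (1 : Gamma0 N →* ℂˣ) ((12 * m : ℕ) : ℤ) (⇑B * E) :=
    (tB.mul_trivial tE).cast_weight (by omega)
  have ta : IsTwisted (1 : Gamma0 N →* ℂˣ) ((12 * m : ℕ) : ℤ) (⇑A * E) :=
    (tA.mul_trivial tE).cast_weight (by omega)
  set w : weakMod (Gamma0 N) := weakOf tw with hwdef
  set a : weakMod (Gamma0 N) := weakOf ta with hadef
  refine ⟨_, _, (a * w ^ (n - 1)).2, fun h0 => ?_, w.2, ?_⟩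
  · have hA0 := modularForm_coe_ne_zero hA
    have hB0 := modularForm_coe_ne_zero hB
    have h1 : (⇑A * E) * (⇑B * E) ^ (n - 1) = 0 := funext fun τ => by
      have h2 := congrFun h0 τ
      simp only [hadef, hwdef, weakOf, Subalgebra.coe_mul, Subalgebra.coe_pow, Pi.mul_apply,
        Pi.pow_apply, div_pow, Pi.zero_apply, div_mul_div_comm, div_eq_zero_iff] at h2
      exact h2.resolve_right (mul_ne_zero (pow_ne_zero _ (ModularForm.discriminant_ne_zero τ))
        (pow_ne_zero _ (pow_ne_zero _ (ModularForm.discriminant_ne_zero τ))))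
    exact mdiff_mul_ne_zero ta.mdiff (tw.mdiff.pow _)
      (mdiff_mul_ne_zero tA.mdiff tE.mdiff hA0 hE0)
      (pow_ne_zero_fun (mdiff_mul_ne_zero tB.mdiff tE.mdiff hB0 hE0) _) h1
  · show qExpWeak N (a * w ^ (n - 1)) = f * qExpWeak N w ^ n
    have hD : qExpDelta ^ m ≠ 0 := pow_ne_zero _ qExpDelta_ne_zero
    have haw : qExpWeak N a = f * qExpWeak N w := by
      refine mul_right_cancel₀ hD ?_
      rw [mul_assoc, hadef, hwdef, qExpWeak_weakOf, qExpWeak_weakOf,
        qL_mul (isCuspFn_one A) (tE.isCuspFn_one fun _ => rfl),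
        qL_mul (isCuspFn_one B) (tE.isCuspFn_one fun _ => rfl), ← hAB, mul_assoc]
    rw [map_mul, map_pow, haw, mul_assoc, ← pow_succ', hn1]

/-- Two functions with the same divisor differ by a constant. -/
theorem exists_C_mul_of_ord_eq {f f' : cxField N} (hf : f ≠ 0) (hf' : f' ≠ 0)
    (h : ∀ v : Place ℂ (cxField N), v.ord f' = v.ord f) :
    ∃ c : ℂ, c ≠ 0 ∧ (f' : LaurentSeries ℂ) = HahnSeries.C c * (f : LaurentSeries ℂ) := by
  obtain ⟨c, hc⟩ := Curve.mem_range_of_isAlgebraic (K := ℂ) (f := f' / f)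
    (Curve.isAlgebraic_of_forall_ord_nonneg fun v => by
      rw [div_eq_mul_inv, v.ord_mul hf' (inv_ne_zero hf), v.ord_inv, h]; omega)
  have hc' : f' = algebraMap ℂ (cxField N) c * f := by
    rw [← Algebra.linearMap_apply, hc, div_mul_cancel₀ _ hf]
  refine ⟨c, fun h0 => hf' (by rw [hc', h0, map_zero, zero_mul]), ?_⟩
  rw [hc']
  show algebraMap ℂ (LaurentSeries ℂ) c * _ = _
  rw [algebraMap_laurentSeries_eq_single, HahnSeries.C_apply]

variable [NeZero n]

attribute [local instance] Curve.qbarAlgebraComplex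
attribute [local instance 2000] SubalgebraClass.toAlgebra

/-- A representative of a torsion class, extended to `ℂ`, has its Kummer character. -/
theorem isKummerChar_divisorExt (x : Pic0.torsion Qbar (modularFunctionFieldBar N) n)
    (E : Divisor.degZero (K := Qbar) (F := modularFunctionFieldBar N))
    (hE : Pic0.mk E = (x : Pic0 Qbar (modularFunctionFieldBar N))) :
    IsKummerChar n ((constExtBar N).divisorExt E : Divisor ℂ (cxField N))
      (toChar (kummerEquiv N n x).1) := by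
  rw [kummerEquiv_apply]
  exact isKummerChar_kummerCx (barTorsionMap N n x) (D := (constExtBar N).degZeroExt E)
    (by rw [coe_barTorsionMap, ← hE, Curve.IsConstantExtension.pic0Map_mk])

omit [NeZero n] in
/-- Extension to `ℂ` of a divisor relation. -/
theorem ord_barToComplex_eq {E : Divisor Qbar (modularFunctionFieldBar N)}
    {h₀ : modularFunctionFieldBar N}
    (h : ∀ v : Place Qbar (modularFunctionFieldBar N), v.ord h₀ = (n : ℤ) * E v)
    (w : Place ℂ (cxField N)) :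
    w.ord (Curve.barToComplex N h₀) = (n : ℤ) * (constExtBar N).divisorExt E w := by
  rw [← (constExtBar N).divisorExt_apply_eq_ord (D := (n : ℤ) • E)
    (fun v => by rw [h v, Finsupp.smul_apply, smul_eq_mul]) w, map_zsmul, Finsupp.smul_apply,
    smul_eq_mul]

omit [NeZero n] [NeZero N] in
/-- A representative of an `n`-torsion class and a function with `n` times that divisor. -/
theorem exists_divisor_of_torsion (y : Pic0.torsion Qbar (modularFunctionFieldBar N) n) :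
    ∃ (D₀ : Divisor.degZero (K := Qbar) (F := modularFunctionFieldBar N))
      (f₀ : modularFunctionFieldBar N),
      Pic0.mk D₀ = (y : Pic0 Qbar (modularFunctionFieldBar N)) ∧ f₀ ≠ 0 ∧
      ∀ v : Place Qbar (modularFunctionFieldBar N),
        v.ord f₀ = (n : ℤ) * (D₀ : Divisor Qbar (modularFunctionFieldBar N)) v := by
  obtain ⟨D₀, hD₀⟩ := Pic0.mk_surjective (y : Pic0 Qbar (modularFunctionFieldBar N))
  have hy := Pic0.mem_torsion.mp y.2
  rw [← hD₀, show (n : ℤ) • Pic0.mk D₀ = Pic0.mk ((n : ℤ) • D₀) from rfl] at hy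
  obtain ⟨f₀, hf₀, hfD⟩ :=
    AddSubgroup.mem_addSubgroupOf.mp ((QuotientAddGroup.eq_zero_iff _).mp hy)
  refine ⟨D₀, f₀, hD₀, hf₀, fun v => ?_⟩
  rw [← hfD v]
  simp

/-- Functions with divisor `n D` for representatives `D` of a torsion class and of its
conjugate, conjugate to each other. -/
theorem exists_kummerData (σ₀ : Qbar ≃ₐ[ℚ] Qbar)
    {σ : ℂ ≃+* ℂ} (hσ : ∀ a, σ (ι₀ a) = ι₀ (σ₀ a))
    (y : Pic0.torsion Qbar (modularFunctionFieldBar N) n) :
    ∃ (D D' : Divisor ℂ (cxField N)) (f f' : cxField N), f ≠ 0 ∧ f' ≠ 0 ∧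
      IsKummerChar n D (toChar (kummerEquiv N n y).1) ∧
      IsKummerChar n D' (toChar (kummerEquiv N n (JZero.torsionGaloisRep N n σ₀ y)).1) ∧
      (∀ v : Place ℂ (cxField N), v.ord f = (n : ℤ) * D v) ∧
      (∀ v : Place ℂ (cxField N), v.ord f' = (n : ℤ) * D' v) ∧
      (f' : LaurentSeries ℂ) = coeffMap (σ : ℂ →+* ℂ) (f : LaurentSeries ℂ) := by
  obtain ⟨D₀, f₀, hD₀, hf₀, h1⟩ := exists_divisor_of_torsion y
  let a := arithmeticGalois (modularFunctionFieldFull N) σ₀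
  let D₀' := SemilinearAut.degZeroSMulHom a D₀
  have hD₀' : Pic0.mk D₀' = ((JZero.torsionGaloisRep N n σ₀ y :
      Pic0.torsion Qbar (modularFunctionFieldBar N) n) :
        Pic0 Qbar (modularFunctionFieldBar N)) := by
    rw [JZero.coe_torsionGaloisRep_apply, galois_smul_pic0_def, ← SemilinearAut.pic0_smul_mk, hD₀]
  have hne : ∀ {x : modularFunctionFieldBar N}, x ≠ 0 → Curve.barToComplex N x ≠ 0 :=
    fun hx h0 => hx ((Curve.barToComplex N).injective (h0.trans (map_zero _).symm))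
  have h2 : ∀ v : Place Qbar (modularFunctionFieldBar N),
      v.ord (a • f₀) = (n : ℤ) * (D₀' : Divisor Qbar (modularFunctionFieldBar N)) v := fun v => by
    rw [SemilinearAut.coe_degZeroSMulHom, SemilinearAut.divisor_smul_apply, ← h1,
      ← SemilinearAut.ord_smul a (a⁻¹ • v) f₀, smul_inv_smul]
  refine ⟨_, _, Curve.barToComplex N f₀, Curve.barToComplex N (a • f₀), hne hf₀,
    hne ((smul_ne_zero_iff_ne a).mpr hf₀), isKummerChar_divisorExt y D₀ hD₀,
    isKummerChar_divisorExt _ D₀' hD₀', ord_barToComplex_eq h1, ord_barToComplex_eq h2, ?_⟩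
  rw [Curve.coe_barToComplex, Curve.coe_barToComplex, coe_arithmeticGalois_smul]
  ext j
  simp only [coeffMap_coeff]
  exact (hσ _).symm

/-- Conjugate root classes from conjugate functions with Kummer characters `φ` and `φ'`. -/
theorem exists_isRootClass_of_conj (hG : G ≤ Gamma0 N) {σ : ℂ ≃+* ℂ}
    (hconj : ∀ g ∈ weakMod (Gamma0 N), ∃ g' ∈ weakMod (Gamma0 N), IsConjSeries σ g g')
    {φ φ' : cuspidalHoms ℤ (Gamma0 N) (muC n)} {D D' : Divisor ℂ (cxField N)} {f f' : cxField N}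
    (hf : f ≠ 0) (hf' : f' ≠ 0) (hK : IsKummerChar n D (toChar φ.1))
    (hK' : IsKummerChar n D' (toChar φ'.1))
    (hD : ∀ v : Place ℂ (cxField N), v.ord f = (n : ℤ) * D v)
    (hD' : ∀ v : Place ℂ (cxField N), v.ord f' = (n : ℤ) * D' v)
    (hff : (f' : LaurentSeries ℂ) = coeffMap (σ : ℂ →+* ℂ) (f : LaurentSeries ℂ)) :
    ∃ g g' : ℍ → ℂ, IsRootClass G n g (resRoot hG φ).1 ∧
      IsRootClass G n g' (resRoot hG φ').1 ∧ IsConjSeries σ g g' := by
  obtain ⟨k, A, B, f₁, r, hA, hB, hAB, hD₁, hr, hrn⟩ := hK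
  obtain ⟨k', A', B', f₁', r', hA', hB', hAB', hD₁', hr', hrn'⟩ := hK'
  obtain ⟨c, hc0, hc⟩ := exists_C_mul_of_ord_eq hf (ne_zero_of_eq hA hAB)
    fun v => by rw [hD₁, hD]
  obtain ⟨c', -, hc'⟩ := exists_C_mul_of_ord_eq (ne_zero_of_eq hA' hAB') hf'
    fun v => by rw [hD', hD₁']
  obtain ⟨g, w, hg, hg0, hw, hgw⟩ := exists_weakMod_fraction A B hA hB (NeZero.ne n) hAB
  obtain ⟨g', hg', hgg⟩ := hconj g hg
  obtain ⟨w', hw', hww⟩ := hconj w hw
  have hgg' : qExpL g' = coeffMap (σ : ℂ →+* ℂ) (qExpL g) := hgg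
  refine ⟨g, g', isRootClass_of_isTwisted (NeZero.ne n) hG hA hB hAB hr hrn hg hg0 hw (c := 1)
    (by rw [map_one, one_mul, hgw]), ?_, hgg⟩
  have hg'0 : g' ≠ 0 := fun h0 => by
    rw [h0, qExpL_zero, eq_comm, map_eq_zero, qExpL_eq_zero_iff (weakMod_Gamma0_le_qMero N hg)]
      at hgg'
    exact hg0 hgg'
  refine isRootClass_of_isTwisted (NeZero.ne n) hG hA' hB' hAB' hr' hrn' hg' hg'0 hw'
    (c := σ c * c') ?_
  have hww' : qExpL w' = coeffMap (σ : ℂ →+* ℂ) (qExpL w) := hww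
  rw [hgg', hgw, map_mul, map_pow, ← hww', hc, map_mul, ← hff, hc', map_mul HahnSeries.C]
  rw [show coeffMap (σ : ℂ →+* ℂ) (HahnSeries.C c) = HahnSeries.C (σ c) by
    ext j
    rcases eq_or_ne j 0 with rfl | hj
    · simp [HahnSeries.C_apply]
    · simp [HahnSeries.C_apply, HahnSeries.coeff_single_of_ne hj]]
  ring

/-- **`Gal(ℚ̄/ℚ)` on `J₀(N)[n]` is conjugation of root classes.** -/
theorem exists_isRootClass_kummerEquiv (hG : G ≤ Gamma0 N) (σ₀ : Qbar ≃ₐ[ℚ] Qbar)
    {σ : ℂ ≃+* ℂ} (hσ : ∀ a, σ (ι₀ a) = ι₀ (σ₀ a))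
    (hconj : ∀ g ∈ weakMod (Gamma0 N), ∃ g' ∈ weakMod (Gamma0 N), IsConjSeries σ g g')
    (y : Pic0.torsion Qbar (modularFunctionFieldBar N) n) :
    ∃ g g' : ℍ → ℂ, IsRootClass G n g (resRoot hG (kummerEquiv N n y)).1 ∧
      IsRootClass G n g' (resRoot hG (kummerEquiv N n (JZero.torsionGaloisRep N n σ₀ y))).1 ∧
      IsConjSeries σ g g' := by
  obtain ⟨D, D', f, f', hf, hf', hK, hK', hD, hD', hff⟩ := exists_kummerData σ₀ hσ y
  exact exists_isRootClass_of_conj hG hconj hf hf' hK hK' hD hD' hff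

end FermatLib.MLT.LGC

end
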