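import Fermat.Agent.MLT.LGC.TwistShift
import Fermat.Agent.MLT.LGC.TwistKummer
import Fermat.Agent.MLT.LGC.TwistFricke
import Fermat.Agent.MLT.LGC.DictionaryRep
import Fermat.Agent.Modular.KummerHecke
import Fermat.Agent.Galois.TransferInputs
import Fermat.Agent.S37
import Fermat.Prelude.Def_ModularCurve_HeckeModule

/-!
# Galois on the classes: translates and the Eichler–Shimura relation

An automorphism acting on `q`-th roots of unity by `c` sends the translate by `k` to the one by
`c k`; classes of level `N` are those of `J₀(N)[n]`, so at good primes they satisfy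
`F ² - T l F + l = 0`.
-/

set_option autoImplicit false
set_option linter.style.haveILetI false

noncomputable section

open CongruenceSubgroup ModularCurve ModularCurve.Period AlgebraicCurve
open scoped MatrixGroups

namespace FermatLib.MLT.LGC

open FermatLib.Modular FermatLib.Modular.Kummer FermatLib.Galois.DS

local notation "Qbar" => AlgebraicClosure ℚ
local notation "Γℚ" => (AlgebraicClosure ℚ ≃ₐ[ℚ] AlgebraicClosure ℚ)
local notation "ι₀" => complexEmbedding

variable {Γ : Subgroup SL(2, ℤ)} {L : ℕ} [NeZero L] (hC : ConjStable Γ L) {n : ℕ} [NeZero n]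

/-- **Galois sends the translate by `k` to the translate by `c k`.** -/
theorem rootRep_shiftHom {q : ℕ} [NeZero q] (hs : ShiftStable Γ q) {σ : Γℚ} {c : ℕ}
    (hc : ∀ ζ : Qbar, ζ ^ q = 1 → σ ζ = ζ ^ c) (k : ℤ) (φ : RootHom Γ n) :
    rootRep hC n σ (shiftHom hs k φ) = shiftHom hs ((c : ℤ) * k) (rootRep hC n σ φ) := by
  obtain ⟨g, hg, -⟩ := exists_isRootClass_algebraic hC φ
  obtain ⟨g', hg', hconj⟩ := exists_isConjSeries hC (qbarExt σ) hg.mem
  have hζ : qbarExt σ ((zetaQ q : ℂˣ) : ℂ) = ((zetaQ q ^ (c : ℤ) : ℂˣ) : ℂ) := by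
    have h1 : ((zetaQ q : ℂˣ) : ℂ) ^ q = 1 := by
      rw [← Units.val_pow_eq_pow_val, zetaQ_pow_self, Units.val_one]
    obtain ⟨b, hb⟩ : ((zetaQ q : ℂˣ) : ℂ) ∈ (ι₀).range := by
      haveI : Algebra.IsAlgebraic ℚ Qbar := AlgebraicClosure.isAlgebraic ℚ
      obtain ⟨z, hz⟩ := HasEnoughRootsOfUnity.exists_primitiveRoot Qbar q
      obtain ⟨i, -, hi⟩ := (hz.map_of_injective (ι₀).injective).eq_pow_of_pow_eq_one h1
      exact ⟨z ^ i, by rw [map_pow]; exact hi⟩
    have hb1 : b ^ q = 1 := (ι₀).injective (by rw [map_pow]; exact hb ▸ (h1.trans (map_one _).symm))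
    rw [← hb]
    show qbarExt σ (ι₀ b) = _
    rw [qbarExt_apply, hc b hb1, map_pow, zpow_natCast, Units.val_pow_eq_pow_val, ← hb]
    rfl
  have hq := weakMod_le_qMero' hC
  rw [rootRep_apply hC (qbarExt_apply σ), rootRep_apply hC (qbarExt_apply σ)]
  exact galRoot_eq hC (hg.shift hs k) (IsConjSeries.shift hζ (hq hg.mem) (hq hg') hconj k)
    ((hg.galRoot hC hg' hconj).shift hs _)

variable {N : ℕ} [NeZero N] (hG : Γ ≤ Gamma0 N)

/-- **Galois on classes of level `N` is the action on `J₀(N)[n]`.** -/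
theorem rootRep_resRoot (σ : Γℚ) (y : Pic0.torsion Qbar (modularFunctionFieldBar N) n) :
    rootRep hC n σ (resRoot hG (kummerEquiv N n y)) =
      resRoot hG (kummerEquiv N n (JZero.torsionGaloisRep N n σ y)) := by
  have h0 : ConjStable (Gamma0 N) (20 * N) :=
    deltaKer_one (L := N) (Δ := Unit) ▸ conjStable_deltaKer _ rfl
  obtain ⟨g, g', hg, hg', hconj⟩ := exists_isRootClass_kummerEquiv hG σ (qbarExt_apply σ)
    (fun g hg => exists_isConjSeries h0 _ hg) y
  rw [rootRep_apply hC (qbarExt_apply σ)]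
  exact galRoot_eq hC hg hconj hg'

/-- The Hecke operator on cuspidal classes. -/
def cuspHecke (l : Nat.Primes) :
    cuspidalHoms ℤ (Gamma0 N) (muC n) →ₗ[ℤ] cuspidalHoms ℤ (Gamma0 N) (muC n) :=
  (heckeHomOp N ℤ (muC n) l).restrict fun _ h =>
    haveI : NeZero (l : ℕ) := ⟨l.2.ne_zero⟩
    op_mem_cuspidalHoms (R := ℤ) _ h

omit [NeZero n] [NeZero N] in
theorem coe_cuspHecke (l : Nat.Primes) (φ : cuspidalHoms ℤ (Gamma0 N) (muC n)) :
    (cuspHecke l φ).1 = heckeHomOp N ℤ (muC n) l φ.1 := rfl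

theorem kummerEquiv_hecke (l : Nat.Primes) (hl : ¬ (l : ℕ) ∣ N)
    (x y : Pic0.torsion Qbar (modularFunctionFieldBar N) n)
    (hy : (y : JZero N) = heckeOperatorBar N l (x : JZero N)) :
    kummerEquiv N n y = cuspHecke l (kummerEquiv N n x) := by
  have h := KummerHecke.heckeKummerEquiv_hecke N n l x y hy
  change KummerHecke.conjWComp (kummerEquiv N n y).1 =
    heckeHomOp N ℤ (muC n) l (KummerHecke.conjWComp (kummerEquiv N n x).1) at h
  rw [show KummerHecke.conjWComp (kummerEquiv N n x).1 =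
    (kummerEquiv N n x).1.comp (MonoidHom.toAdditive (Corr.conjW N)) from rfl,
    heckeHomOp_comp_conjW l hl] at h
  refine Subtype.ext ?_
  rw [coe_cuspHecke, ← KummerHecke.conjWComp_conjWComp (kummerEquiv N n y).1, h]
  exact KummerHecke.conjWComp_conjWComp _

/-- Image of a quadratic combination under an equivariant additive map. -/
theorem map_quadComb {A B : Type*} [AddCommGroup A] [AddCommGroup B] (F : A →+ B) {g : A → A}
    {g' : B → B} (hF : ∀ z, F (g z) = g' (F z)) (m : ℕ) (x z : A) :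
    F (g (g x) - g z + m • x) = g' (g' (F x)) - g' (F z) + m • F x := by
  rw [map_add, map_sub, map_nsmul, hF, hF, hF]

/-- A quadratic relation, mapped by an equivariant additive map. -/
theorem quadComb_eq_zero {A B : Type*} [AddCommGroup A] [AddCommGroup B] (F : A →+ B) {g : A → A}
    {g' : B → B} (hF : ∀ y, F (g y) = g' (F y)) (m : ℕ) {x z : A} {w : B} (hw : F z = w)
    (h : g (g x) - g z + m • x = 0) : g' (g' (F x)) - g' w + m • F x = 0 := by
  rw [← hw, ← map_quadComb F hF, h, map_zero]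

/-- **The Eichler–Shimura relation on classes of level `N`.** -/
theorem rootRep_frobenius_resRoot {p a : ℕ} [NeZero (p ^ a)] (l : Nat.Primes)
    (hl : ¬ (l : ℕ) ∣ N * p) {P : ValuationSubring Qbar} (hP : P.LiesOverPrime l) {σ : Γℚ}
    (hσ : P.IsFrobeniusAt σ l) (φ : cuspidalHoms ℤ (Gamma0 N) (muC (p ^ a))) :
    rootRep hC (p ^ a) σ (rootRep hC (p ^ a) σ (resRoot hG φ)) -
      rootRep hC (p ^ a) σ (resRoot hG (cuspHecke l φ)) + (l : ℕ) • resRoot hG φ = 0 := by
  letI := heckeModuleBar N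
  have hcomm := FermatLib.Modular.heckeOperatorsCommuteBar N
  haveI hsmul := FermatLib.Modular.smulCommClass_heckeModuleBar N
  obtain ⟨x, rfl⟩ := (kummerEquiv N (p ^ a)).surjective φ
  have hx := Pic0.mem_torsion.mp x.2
  have hT : heckeOperatorBar N l (x : JZero N) ∈
      Pic0.torsion Qbar (modularFunctionFieldBar N) (p ^ a) := by
    rw [Pic0.mem_torsion, ← map_zsmul, hx, map_zero]
  let z : Pic0.torsion Qbar (modularFunctionFieldBar N) (p ^ a) := ⟨_, hT⟩
  refine quadComb_eq_zero
    ((resRoot hG).toAddMonoidHom.comp (kummerEquiv N (p ^ a)).toAddMonoidHom)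
    (g := JZero.torsionGaloisRep N (p ^ a) σ) (g' := rootRep hC (p ^ a) σ)
    (fun y => (rootRep_resRoot hC hG σ y).symm) l
    (congrArg (resRoot hG) (kummerEquiv_hecke l (fun h => hl (dvd_mul_of_dvd_left h p)) x z rfl)) ?_
  have key : JZero.torsionGaloisRep N (p ^ a) σ (JZero.torsionGaloisRep N (p ^ a) σ x) -
      JZero.torsionGaloisRep N (p ^ a) σ z + (l : ℕ) • x = 0 := by
    refine Subtype.ext ?_
    have h := (FermatLib.Galois.frobeniusQuadratic_of_specializationExists
      (Fermat.Agent.S37.result N p hcomm hsmul)) l l.2 hl P hP σ hσ (x : JZero N)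
      ⟨a, (natCast_zsmul (x : JZero N) (p ^ a)).symm.trans hx⟩
    rw [(smul_comm σ (heckeGen ⟨(l : ℕ), l.2⟩) (x : JZero N)).symm.trans
      (congrArg (σ • ·) (heckeModuleBar_heckeGen_smul hcomm l (x : JZero N)))] at h
    simpa only [AddSubgroupClass.coe_sub, AddSubgroup.coe_add, AddSubgroup.coe_nsmul,
      JZero.coe_torsionGaloisRep_apply, ZeroMemClass.coe_zero] using h
  exact key

end FermatLib.MLT.LGC

end
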