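import Fermat.Agent.MLT.LGC.TwistBetti
import Fermat.Agent.Modular.TwistSystemInjective
import Fermat.Agent.MLT.LGC.DictionaryNat

/-!
# The twist is injective on homomorphisms with a character

`eigenHoms χ` consists of the parabolic homomorphisms `z` on `Γ` with `z (g γ g⁻¹) = χ g • z γ` for
`g` in `Γ₀(L)`.  It is stable under Galois, and the twist is injective on it: averaged over the
cosets an element is the restriction of a cocycle on `Γ₀(L)`.
-/

set_option autoImplicit false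
set_option linter.style.haveILetI false

noncomputable section

open CongruenceSubgroup ModularCurve ModularCurve.Period
open scoped MatrixGroups

namespace FermatLib.MLT.LGC

open FermatLib.Modular FermatLib.Galois.DS

local notation "M2Z" => Matrix (Fin 2) (Fin 2) ℤ
local notation "Qbar" => AlgebraicClosure ℚ
local notation "Γℚ" => (AlgebraicClosure ℚ ≃ₐ[ℚ] AlgebraicClosure ℚ)

variable {O : Type} [CommRing O] {L : ℕ} {Γ : Subgroup SL(2, ℤ)}
  (hn : ∀ g ∈ Gamma0 L, ∀ x ∈ Γ, g * x * g⁻¹ ∈ Γ) (χ : (ZMod L)ˣ →* Oˣ)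

/-- The parabolic homomorphisms transforming by `χ` under conjugation by `Γ₀(L)`. -/
def eigenHoms : Submodule O (parabolicHoms O Γ O) where
  carrier := {z | ∀ (g : Gamma0 L) (γ : Γ),
    z.1 (Additive.ofMul (normConj (hn g g.2) γ)) = (nebenChar χ g : O) * z.1 (Additive.ofMul γ)}
  zero_mem' _ _ := by simp
  add_mem' {a b} ha hb g γ := by
    simp only [Submodule.coe_add, AddMonoidHom.add_apply, ha g γ, hb g γ, mul_add]
  smul_mem' r a ha g γ := by
    simp only [Submodule.coe_smul, AddMonoidHom.smul_apply, smul_eq_mul, ha g γ]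
    ring

theorem mem_eigenHoms {z : parabolicHoms O Γ O} : z ∈ eigenHoms hn χ ↔ ∀ (g : Gamma0 L) (γ : Γ),
    z.1 (Additive.ofMul (normConj (hn g g.2) γ)) = (nebenChar χ g : O) * z.1 (Additive.ofMul γ) :=
  Iff.rfl

section Galois

variable {M : ℕ} [NeZero M] {hC : ConjStable Γ M} {p : ℕ} [NeZero p]

/-- Conjugation by a normalising element. -/
def conjLin {γ₀ : SL(2, ℤ)} (h₀ : ∀ x ∈ Γ, γ₀ * x * γ₀⁻¹ ∈ Γ) (z : parabolicHoms O Γ O) :
    parabolicHoms O Γ O :=
  ⟨z.1.comp (MonoidHom.toAdditive (normConj h₀)), fun γ hγ => by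
    show z.1 (Additive.ofMul (normConj h₀ γ)) = 0
    refine z.2 _ ?_
    show ((γ₀ : M2Z) * ((γ : SL(2, ℤ)) : M2Z) * ((γ₀⁻¹ : SL(2, ℤ)) : M2Z)).trace ^ 2 = 4
    rw [Matrix.trace_mul_comm, ← Matrix.mul_assoc, ← Matrix.SpecialLinearGroup.coe_mul,
      inv_mul_cancel, Matrix.SpecialLinearGroup.coe_one, Matrix.one_mul]
    exact hγ⟩

theorem compRoot_conjLin {m : ℕ} (f : O →+ Kummer.muC m) {γ₀ : SL(2, ℤ)}
    (h₀ : ∀ x ∈ Γ, γ₀ * x * γ₀⁻¹ ∈ Γ) (z : parabolicHoms O Γ O) :
    compRoot f (conjLin h₀ z) = conjRoot h₀ (compRoot f z) := rfl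

/-- **Galois preserves the homomorphisms with character `χ`.** -/
theorem gal_mem_eigenHoms {gal : Γℚ →* Module.End O (parabolicHoms O Γ O)}
    (hgal : IsRootGalois hC p gal) (hsep : MuSeparates p O) (hLM : L ∣ M) (σ : Γℚ)
    {z : parabolicHoms O Γ O} (hz : z ∈ eigenHoms hn χ) : gal σ z ∈ eigenHoms hn χ := by
  rw [mem_eigenHoms] at hz
  intro g γ
  obtain ⟨s, hs, hu⟩ := exists_conj_exponent (M := M) (qbarExt σ : ℂ →+* ℂ)
  obtain ⟨g', hg⟩ := exists_isConjMat hu (g : SL(2, ℤ))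
  have hg' : g' ∈ Gamma0 L := by
    rw [Gamma0_mem]
    have := congrArg (ZMod.castHom hLM (ZMod L)) hg.2.2.1
    rwa [map_mul, map_intCast, map_intCast, map_intCast, Gamma0_mem.mp g.2, mul_zero] at this
  have hχ : nebenChar χ ⟨g', hg'⟩ = nebenChar χ g := by
    rw [nebenChar, MonoidHom.comp_apply, MonoidHom.comp_apply,
      show gamma0UnitsHom L ⟨g', hg'⟩ = gamma0UnitsHom L g from Units.ext (by
        simpa [coe_gamma0UnitsHom] using congrArg (ZMod.castHom hLM (ZMod L)) hg.2.2.2)]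
  have h1 : conjLin (hn g' hg') z = (nebenChar χ g : O) • z := by
    refine Subtype.ext (AddMonoidHom.ext fun δ => ?_)
    obtain ⟨δ, rfl⟩ := Additive.ofMul.surjective δ
    show z.1 (Additive.ofMul (normConj (hn g' hg') δ)) = (nebenChar χ g : O) • z.1 (Additive.ofMul δ)
    rw [smul_eq_mul, ← hχ]
    exact hz ⟨g', hg'⟩ δ
  have h2 : conjLin (hn g g.2) (gal σ z) = (nebenChar χ g : O) • gal σ z := by
    rw [← map_smul, ← h1]
    refine eq_of_forall_compRoot hsep fun k f => ?_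
    rw [compRoot_conjLin, hgal, hgal, compRoot_conjLin]
    exact (galRoot_conjRoot hC hs hu hg (hn g g.2) (hn g' hg') _).symm
  exact congrArg (fun w : parabolicHoms O Γ O => w.1 (Additive.ofMul γ)) h2

end Galois

section Average

variable [NeZero L]

/-- The cosets of `Γ` in `Γ₀(L)`. -/
abbrev GammaCosets (Γ : Subgroup SL(2, ℤ)) (L : ℕ) : Type :=
  Gamma0 L ⧸ Γ.subgroupOf (Gamma0 L)

/-- The coset system of `Γ` in `Γ₀(L)`. -/
def cosetSystemOf (hneg : (-1 : SL(2, ℤ)) ∈ Γ) :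
    CosetSystem (Gamma0 L) Γ (GammaCosets Γ L) where
  rep x := (((x.out⁻¹ : Gamma0 L) : SL(2, ℤ)) : M2Z)
  det_ne_zero x := by rw [Matrix.SpecialLinearGroup.det_coe]; exact one_ne_zero
  eq_of_mul_rep x y h hh e := by
    have hmem : h ∈ Γ := hh.elim id fun hm => by
      have := Γ.mul_mem hneg hm
      rwa [neg_one_mul, neg_neg] at this
    have e1 : h * ((x.out⁻¹ : Gamma0 L) : SL(2, ℤ)) = ((y.out⁻¹ : Gamma0 L) : SL(2, ℤ)) :=
      Subtype.ext (by rw [Matrix.SpecialLinearGroup.coe_mul]; exact e)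
    rw [← x.out_eq', ← y.out_eq', eq_comm]
    refine QuotientGroup.eq.mpr ?_
    rw [Subgroup.mem_subgroupOf, Subgroup.coe_mul, ← e1, Subgroup.coe_inv, inv_mul_cancel_right]
    exact hmem
  exists_mul_eq x γ := by
    set y : GammaCosets Γ L := ((γ⁻¹ * x.out : Gamma0 L) : GammaCosets Γ L)
    have hmem : x.out⁻¹ * γ * y.out ∈ Γ.subgroupOf (Gamma0 L) := by
      have := QuotientGroup.eq.mp (y.out_eq').symm
      simpa [mul_assoc] using this
    refine ⟨y, ⟨_, hmem⟩, ?_⟩
    rw [← Matrix.SpecialLinearGroup.coe_mul, ← Matrix.SpecialLinearGroup.coe_mul]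
    exact congrArg (fun g : Gamma0 L => ((g : SL(2, ℤ)) : M2Z)) (mul_inv_cancel_right (x.out⁻¹ * γ) y.out).symm

variable {K : Type} [Field K] [Algebra O K]

/-- The character with values in `K`. -/
abbrev charK : (ZMod L)ˣ →* Kˣ := (Units.map (algebraMap O K).toMonoidHom).comp χ

omit [NeZero L] in
theorem isWeight_average (hneg : (-1 : SL(2, ℤ)) ∈ Γ) (hΓ : Γ ≤ Gamma0 L)
    (hχΓ : ∀ γ : Γ, nebenChar χ (Subgroup.inclusion hΓ γ) = 1) :
    (cosetSystemOf hneg).IsWeight (nebenChar (charK (K := K) χ)) (1 : Γ →* Kˣ)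
      (fun x => algebraMap O K ((nebenChar χ x.out : Oˣ) : O)) := by
  intro γ x
  set D := cosetSystemOf (L := L) hneg
  set y := D.next γ x
  have e : x.out⁻¹ * γ = Subgroup.inclusion hΓ (D.elt γ x) * y.out⁻¹ :=
    Subtype.ext (Subtype.ext (by
      rw [Subgroup.coe_mul, Subgroup.coe_mul, Matrix.SpecialLinearGroup.coe_mul,
        Matrix.SpecialLinearGroup.coe_mul]
      exact D.rep_mul γ x))
  have e' := congrArg (nebenChar χ) e
  rw [map_mul, map_mul, hχΓ, one_mul, map_inv, map_inv, inv_mul_eq_iff_eq_mul] at e'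
  show _ * ((1 : Γ →* Kˣ) (D.elt γ x) : K) = algebraMap O K ((nebenChar χ γ : Oˣ) : O) * _
  rw [MonoidHom.one_apply, Units.val_one, mul_one, ← map_mul, ← Units.val_mul, e',
    inv_mul_cancel_right]

end Average

variable [NeZero L] {q : ℕ} [NeZero q] [Fact q.Prime] (hqL : q ∣ L) (hs : ShiftStable Γ q)
  (hG : Γ ≤ Gamma0 (L * q)) {K : Type} [Field K] [CharZero K] [Algebra O K] [Γ.FiniteIndex]
  (ψ : (ZMod q)ˣ →* Oˣ)

include hqL in
/-- **The twist is injective on the homomorphisms with character `χ`.** -/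
theorem twistLin_eq_zero_of_mem_eigenHoms (hO : Function.Injective (algebraMap O K))
    (hneg : (-1 : SL(2, ℤ)) ∈ Γ)
    (hχΓ : ∀ γ : Γ, nebenChar χ (Subgroup.inclusion (le_gamma0_left (q := q) hG) γ) = 1)
    (hψ : ψ ≠ 1) (hψχ : Twist.twistChar L q χ ψ = 1) (hq2 : ¬ q ^ 2 ∣ L)
    (hχ : ∃ (n : ℤ) (t : (ZMod L)ˣ), (t : ZMod L) = n ∧ ((L / q : ℕ) : ℤ) ∣ n - 1 ∧ χ t ≠ 1)
    {z : parabolicHoms O Γ O} (hz : z ∈ eigenHoms hn χ) (h0 : twistLin hs ψ z = 0) : z = 0 := by
  rw [mem_eigenHoms] at hz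
  have hΓ := le_gamma0_left (q := q) hG
  set e : O →+* K := algebraMap O K
  haveI : Finite (GammaCosets Γ L) :=
    Subgroup.finite_quotient_of_finiteIndex (H := Γ.subgroupOf (Gamma0 L))
  letI : Fintype (GammaCosets Γ L) := Fintype.ofFinite _
  set χK := charK (K := K) χ
  set ψK : (ZMod q)ˣ →* Kˣ := (Units.map e.toMonoidHom).comp ψ
  let cz : bettiCocycles Γ (1 : Γ →* Kˣ) K := ⟨fun γ => e (z.1 (Additive.ofMul γ)), fun a b => by
      rw [MonoidHom.one_apply, Units.val_one, one_smul, ← map_add, ← map_add, ← ofMul_mul],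
    fun γ hγ => by
      show e (z.1 (Additive.ofMul γ)) = 0
      have h2 : γ * γ = 1 := Subtype.ext (by rw [Subgroup.coe_mul, hγ, neg_one_mul, neg_neg]; rfl)
      have h3 := congrArg (fun x => e (z.1 (Additive.ofMul x))) h2
      simp only [ofMul_mul, map_add, ofMul_one, map_zero] at h3
      exact add_self_eq_zero.mp h3⟩
  set D := cosetSystemOf (L := L) hneg
  set c := D.transferCocycles K (isWeight_average χ hneg hΓ hχΓ) cz
  set N : K := (Fintype.card (GammaCosets Γ L) : K)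
  have hres : ∀ γ : Γ, (c : Gamma0 L → K) (Subgroup.inclusion hΓ γ) =
      N * e (z.1 (Additive.ofMul γ)) := by
    intro γ
    rw [CosetSystem.transferCocycles_apply]
    have key : ∀ x : GammaCosets Γ L, e ((nebenChar χ x.out : Oˣ) : O) •
        (cz : Γ → K) (D.elt (Subgroup.inclusion hΓ γ) x) = e (z.1 (Additive.ofMul γ)) := by
      intro x
      rw [(D.next_elt_eq_of_eq (γ := Subgroup.inclusion hΓ γ) (i := x) (j := x)
        (h := normConj (hn _ (x.out⁻¹ : Gamma0 L).2) γ) (by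
          simp only [D, cosetSystemOf, Subgroup.coe_inclusion, normConj, MonoidHom.coe_mk,
            OneHom.coe_mk, ← Matrix.SpecialLinearGroup.coe_mul, inv_mul_cancel_right])).2]
      show e _ * e _ = _
      rw [hz x.out⁻¹ γ, ← map_mul, ← mul_assoc, map_inv, Units.mul_inv, one_mul]
    refine (Finset.sum_congr rfl fun x _ => key x).trans ?_
    rw [Finset.sum_const, Finset.card_univ, nsmul_eq_mul]
  let x : parabolicHoms K Γ K := ⟨N • e.toAddMonoidHom.comp z.1, fun γ hγ => by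
    show N • e (z.1 (Additive.ofMul γ)) = 0
    rw [z.2 γ hγ, map_zero, smul_zero]⟩
  have hψK : Twist.twistChar L q χK ψK = 1 := by
    refine MonoidHom.ext fun u => ?_
    have := congrArg (Units.map e.toMonoidHom) (DFunLike.congr_fun hψχ u)
    rw [MonoidHom.one_apply, map_one] at this
    rw [MonoidHom.one_apply, ← this]
    simp [Twist.twistChar, χK, ψK, charK, e]
  set d := (Twist.twistSystem L q hqL).transferCocycles K
    (Twist.isWeight_twistWeight L q hqL χK ψK) c
  have hd : ∀ γ : Γ, trivialHom hψK d (Additive.ofMul (Subgroup.inclusion hG γ)) = 0 := fun γ => by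
    rw [trivialHom_apply, ← twistLin_restrict hqL χK ψK hs hG (x := x) c (fun δ => (hres δ).symm) γ,
      twistLin_apply]
    have := congrArg (fun w : parabolicHoms O Γ O => N * e (w.1 (Additive.ofMul γ))) h0
    simp only [twistLin_apply, Submodule.coe_zero, AddMonoidHom.zero_apply, map_zero, mul_zero,
      map_sum, Finset.mul_sum, smul_eq_mul, map_mul] at this
    rw [← this]
    refine Finset.sum_congr rfl fun u _ => ?_
    simp [x, ψK, e]
    ring
  have hy : trivialHom hψK d = 0 := by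
    refine AddMonoidHom.ext fun a => ?_
    obtain ⟨a, rfl⟩ := Additive.ofMul.surjective a
    obtain ⟨m, hm, -, hmem⟩ := Subgroup.exists_pow_mem_of_index_ne_zero
      (Subgroup.FiniteIndex.index_ne_zero (H := Γ)) (a : SL(2, ℤ))
    have h := hd ⟨_, hmem⟩
    rw [show Subgroup.inclusion hG ⟨_, hmem⟩ = a ^ m from rfl, ofMul_pow, map_nsmul,
      nsmul_eq_mul] at h
    exact (mul_eq_zero.mp h).resolve_left (Nat.cast_ne_zero.mpr hm.ne')
  have htw : Twist.bettiTwist L q K hqL χK ψK (Submodule.Quotient.mk c) = 0 := by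
    rw [Twist.bettiTwist, CosetSystem.transfer_mk, Submodule.Quotient.mk_eq_zero]
    refine mem_bettiBoundaries.2 ⟨0, fun γ => ?_⟩
    rw [smul_zero, sub_zero]
    exact (DFunLike.congr_fun hy (Additive.ofMul γ)).symm
  have hinjU : Function.Injective (Units.map e.toMonoidHom) := fun a b h =>
    Units.ext (hO (congrArg Units.val h))
  have hψK1 : ψK ≠ 1 := fun h => hψ (MonoidHom.ext fun u => hinjU (by
    rw [MonoidHom.one_apply, map_one]
    exact DFunLike.congr_fun h u))
  obtain ⟨n, t, htn, hdvd, hχt⟩ := hχ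
  have hc0 : (Submodule.Quotient.mk c : bettiH1 (Gamma0 L) (nebenChar χK) K) = 0 :=
    Twist.bettiTwist_injective hqL hq2 hψK1
      ⟨n, t, htn, hdvd, fun h => hχt (hinjU (by rw [map_one]; exact h))⟩
      (by rw [htw, map_zero])
  obtain ⟨v, hv⟩ := mem_bettiBoundaries.1 ((Submodule.Quotient.mk_eq_zero _).1 hc0)
  refine Subtype.ext (AddMonoidHom.ext fun γ => hO ?_)
  obtain ⟨γ, rfl⟩ := Additive.ofMul.surjective γ
  have h := hv (Subgroup.inclusion hΓ γ)
  rw [hres, show nebenChar χK (Subgroup.inclusion hΓ γ) = 1 by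
    show Units.map e.toMonoidHom (nebenChar χ (Subgroup.inclusion hΓ γ)) = 1
    rw [hχΓ, map_one], Units.val_one, one_smul, sub_self, eq_comm, mul_eq_zero] at h
  rw [Submodule.coe_zero, AddMonoidHom.zero_apply, map_zero]
  exact h.resolve_left (Nat.cast_ne_zero.mpr Fintype.card_ne_zero)

end FermatLib.MLT.LGC

end
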