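import Fermat.Agent.MLT.LGC.TwistInj
import Fermat.Agent.MLT.LGC.Group
import Mathlib.Analysis.Fourier.FiniteAbelian.PontryaginDuality

/-!
# The relation at good Frobenius elements on `lgcGroup q M`

`x`, `tx` are the restrictions of a cocycle on `Γ₀(q M)` with character `χ` and of its image under
`T l`.  Then `gal σ x + χ(l) l • gal σ⁻¹ x = tx` at a Frobenius element `σ` over `l`.
-/

set_option autoImplicit false
set_option linter.style.haveILetI false

noncomputable section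

open CongruenceSubgroup ModularCurve ModularCurve.Period
open scoped MatrixGroups

namespace FermatLib.MLT.LGC

open FermatLib.Modular FermatLib.Modular.Kummer

local notation "Qbar" => AlgebraicClosure ℚ
local notation "Γℚ" => (AlgebraicClosure ℚ ≃ₐ[ℚ] AlgebraicClosure ℚ)

/-- An additive map to `μ_m` from a character killed by `m`. -/
def charToMu {A : Type} [AddCommGroup A] {m : ℕ} [NeZero m] (hA : ∀ a : A, m • a = 0)
    (ψ : AddChar A ℂ) : A →+ muC m where
  toFun a := Additive.ofMul (rootsOfUnity.mkOfPowEq (ψ a) (by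
    rw [← AddChar.map_nsmul_eq_pow, hA, AddChar.map_zero_eq_one]))
  map_zero' := congrArg Additive.ofMul (Subtype.ext (Units.ext (by simp)))
  map_add' a b := congrArg Additive.ofMul (Subtype.ext (Units.ext (by
    simp [AddChar.map_add_eq_mul])))

/-- Additive maps to `μ_{p^k}` separate a complete coefficient ring. -/
theorem muSeparates_of_finite_residueField {O : Type} [CommRing O] [IsDomain O]
    [IsDiscreteValuationRing O] [Finite (IsLocalRing.ResidueField O)] {p : ℕ} [NeZero p]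
    (hp : (p : O) ∈ IsLocalRing.maximalIdeal O) : MuSeparates p O := by
  intro a ha
  refine Ideal.mem_bot.mp ?_
  rw [← Ideal.iInf_pow_eq_bot_of_isLocalRing _ (IsLocalRing.maximalIdeal.isMaximal O).ne_top,
    Submodule.mem_iInf]
  intro k
  haveI : Finite (O ⧸ IsLocalRing.maximalIdeal O) := ‹Finite (IsLocalRing.ResidueField O)›
  haveI : Finite (O ⧸ IsLocalRing.maximalIdeal O ^ k) :=
    Ideal.finite_quotient_pow (IsNoetherian.noetherian _) k
  haveI : NeZero (p ^ k) := ⟨pow_ne_zero _ (NeZero.ne p)⟩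
  rw [← Ideal.Quotient.eq_zero_iff_mem]
  by_contra h
  obtain ⟨ψ, hψ⟩ := AddChar.exists_apply_ne_zero.mpr h
  have hA : ∀ b : O ⧸ IsLocalRing.maximalIdeal O ^ k, p ^ k • b = 0 := fun b => by
    rw [nsmul_eq_mul, Nat.cast_pow, ← map_natCast (Ideal.Quotient.mk _), ← map_pow,
      Ideal.Quotient.eq_zero_iff_mem.mpr (Ideal.pow_mem_pow hp k), zero_mul]
  have := ha k ((charToMu hA ψ).comp (Ideal.Quotient.mk _).toAddMonoidHom)
  exact hψ (congrArg (fun z : muC (p ^ k) => (((Additive.toMul z : rootsOfUnity _ ℂ) : ℂˣ) : ℂ)) this)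

variable {O : Type} [CommRing O] {q M : ℕ} [Fact q.Prime] [NeZero M]

theorem finiteIndex_lgcGroup : (lgcGroup q M).FiniteIndex :=
  Subgroup.finiteIndex_of_le (conjStable_lgcGroup q M).gamma1_le

omit [Fact q.Prime] [NeZero M] in
theorem shiftStable_lgcGroup : ShiftStable (lgcGroup q M) q := by
  refine shiftStable_deltaKer (L := q ^ 2 * M) ⟨M, by ring⟩ (signedClass q) fun u hu => ?_
  rcases (signedClass_eq_one q).mp hu with rfl | rfl <;> simp

omit [NeZero M] in
theorem nebenChar_inclusion_lgcGroup {χ ψ : (ZMod q)ˣ →* Oˣ} (hχ : ∀ u, ψ u ^ 2 = χ u)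
    (h : lgcGroup q M ≤ Gamma0 (q * M)) (γ : lgcGroup q M) :
    nebenChar (χ.comp (ZMod.unitsMap (dvd_mul_right q M))) (Subgroup.inclusion h γ) = 1 := by
  have hneg : χ (-1) = 1 := by rw [← hχ, ← map_pow, neg_one_sq, map_one]
  rw [nebenChar, MonoidHom.comp_apply, MonoidHom.comp_apply]
  have hval : ((ZMod.unitsMap (dvd_mul_right q M) (gamma0UnitsHom (q * M)
      (Subgroup.inclusion h γ)) : (ZMod q)ˣ) : ZMod q) = (((γ : SL(2, ℤ)) 1 1 : ℤ) : ZMod q) := by
    rw [ZMod.unitsMap_val, coe_gamma0UnitsHom, ZMod.cast_intCast (dvd_mul_right q M)]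
    rfl
  rcases (mem_lgcGroup.mp γ.2).2 with hd | hd
  · rw [show ZMod.unitsMap (dvd_mul_right q M) (gamma0UnitsHom (q * M)
      (Subgroup.inclusion h γ)) = 1 from Units.ext (hval.trans (hd.trans Units.val_one.symm)),
      map_one]
  · rw [show ZMod.unitsMap (dvd_mul_right q M) (gamma0UnitsHom (q * M)
      (Subgroup.inclusion h γ)) = -1 from Units.ext (hval.trans (hd.trans (by simp))), hneg]

/-- A restricted cocycle transforms by the character under conjugation. -/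
theorem mem_eigenHoms_of_restrict {L : ℕ} {Γ : Subgroup SL(2, ℤ)}
    {hn : ∀ g ∈ Gamma0 L, ∀ x ∈ Γ, g * x * g⁻¹ ∈ Γ} {χ : (ZMod L)ˣ →* Oˣ} (hΓ : Γ ≤ Gamma0 L)
    (hχΓ : ∀ γ : Γ, nebenChar χ (Subgroup.inclusion hΓ γ) = 1)
    (c : bettiCocycles (Gamma0 L) (nebenChar χ) O) {x : parabolicHoms O Γ O}
    (hx : ∀ γ : Γ, x.1 (Additive.ofMul γ) = (c : Gamma0 L → O) (Subgroup.inclusion hΓ γ)) :
    x ∈ eigenHoms hn χ := by
  intro g γ
  have h1 : Subgroup.inclusion hΓ (normConj (hn g g.2) γ) =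
      g * Subgroup.inclusion hΓ γ * g⁻¹ := Subtype.ext rfl
  have h2 := bettiCocycles.map_mul c g g⁻¹
  rw [mul_inv_cancel, bettiCocycles.map_one, smul_eq_mul] at h2
  rw [hx, hx, h1, bettiCocycles.map_mul, bettiCocycles.map_mul, map_mul, hχΓ, mul_one, smul_eq_mul,
    smul_eq_mul]
  linear_combination -h2

variable [IsDomain O] [IsDiscreteValuationRing O] [Finite (IsLocalRing.ResidueField O)]
  [CharZero O] {p : ℕ} [Fact p.Prime] {χ : (ZMod q)ˣ →* Oˣ}

/-- **The relation at good Frobenius elements on `lgcGroup q M`.** -/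
theorem gal_add_gal_inv_eq_lgc (hqM : ¬ q ∣ M) (hp : (p : O) ∈ IsLocalRing.maximalIdeal O)
    (hχ : χ ≠ 1) (hsq : ∃ ψ : (ZMod q)ˣ →* Oˣ, ∀ u, ψ u ^ 2 = χ u)
    {gal : Γℚ →* Module.End O (parabolicHoms O (lgcGroup q M) O)}
    (hgal : IsRootGalois (conjStable_lgcGroup q M) p gal) (l : Nat.Primes)
    (hl : ¬ (l : ℕ) ∣ q * M * p) (hlq : Nat.Coprime (l : ℕ) q) {P : ValuationSubring Qbar}
    (hP : P.LiesOverPrime l) {σ : Γℚ} (hσ : P.IsFrobeniusAt σ l)
    (c : bettiCocycles (Gamma0 (q * M)) (nebenChar (χ.comp (ZMod.unitsMap (dvd_mul_right q M)))) O)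
    {x tx : parabolicHoms O (lgcGroup q M) O}
    (hx : ∀ γ : lgcGroup q M, x.1 (Additive.ofMul γ) =
      (c : Gamma0 (q * M) → O) (Subgroup.inclusion lgcGroup_le_gamma0 γ))
    (htx : ∀ γ : lgcGroup q M, tx.1 (Additive.ofMul γ) =
      ((bettiHeckeSystem (q * M) l).transferCocycles O
        (isWeight_heckeWeight (χ.comp (ZMod.unitsMap (dvd_mul_right q M))) l) c :
          Gamma0 (q * M) → O) (Subgroup.inclusion lgcGroup_le_gamma0 γ)) :
    gal σ x + ((χ (ZMod.unitOfCoprime (l : ℕ) hlq) : O) * (l : O)) • gal σ⁻¹ x = tx := by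
  obtain ⟨ψ₀, hψ₀⟩ := hsq
  have hq : q.Prime := Fact.out
  haveI : NeZero (q * M) := ⟨mul_ne_zero hq.ne_zero (NeZero.ne M)⟩
  haveI := finiteIndex_lgcGroup (q := q) (M := M)
  haveI : CharZero (FractionRing O) :=
    charZero_of_injective_algebraMap (IsFractionRing.injective O (FractionRing O))
  let χL : (ZMod (q * M))ˣ →* Oˣ := χ.comp (ZMod.unitsMap (dvd_mul_right q M))
  have hqL : q ∣ q * M := dvd_mul_right q M
  have hG : lgcGroup q M ≤ Gamma0 (q * M * q) := by
    rw [show q * M * q = q ^ 2 * M by ring]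
    exact lgcGroup_le_gamma0_sq
  have hψ1 : ψ₀⁻¹ ≠ 1 := by
    intro h
    refine hχ (MonoidHom.ext fun u => ?_)
    have h' := DFunLike.congr_fun h u
    rw [MonoidHom.inv_apply, MonoidHom.one_apply, inv_eq_one] at h'
    rw [← hψ₀, h', one_pow, MonoidHom.one_apply]
  have hψχ : Twist.twistChar (q * M) q χL ψ₀⁻¹ = 1 := by
    refine MonoidHom.ext fun u => ?_
    rw [Twist.twistChar, MonoidHom.mul_apply, MonoidHom.pow_apply, MonoidHom.one_apply]
    show χ (ZMod.unitsMap hqL (ZMod.unitsMap (dvd_mul_right (q * M) q) u)) *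
      ((ψ₀ (ZMod.unitsMap (dvd_mul_left q (q * M)) u))⁻¹) ^ 2 = 1
    rw [inv_pow, hψ₀, mul_inv_eq_one, ← MonoidHom.comp_apply (ZMod.unitsMap hqL),
      ZMod.unitsMap_comp]
  have hq2 : ¬ q ^ 2 ∣ q * M := fun h =>
    hqM (Nat.dvd_of_mul_dvd_mul_left hq.pos (by rwa [← pow_two]))
  have hχ' : ∃ (n : ℤ) (t : (ZMod (q * M))ˣ),
      (t : ZMod (q * M)) = n ∧ ((q * M / q : ℕ) : ℤ) ∣ n - 1 ∧ χL t ≠ 1 := by
    obtain ⟨u, hu⟩ : ∃ u, χ u ≠ 1 := not_forall.mp fun h => hχ (MonoidHom.ext h)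
    have hco : Nat.Coprime q M := hq.coprime_iff_not_dvd.mpr hqM
    obtain ⟨k, hk1, hk2⟩ := Nat.chineseRemainder hco (u : ZMod q).val 1
    have h1 : ((k : ℕ) : ZMod q) = u := by
      rw [(ZMod.natCast_eq_natCast_iff _ _ _).mpr hk1, ZMod.natCast_zmod_val]
    have hkq : Nat.Coprime k q := (ZMod.isUnit_iff_coprime k q).mp (h1 ▸ u.isUnit)
    have hkM : Nat.Coprime k M := by
      rw [Nat.coprime_iff_gcd_eq_one, hk2.gcd_eq, Nat.gcd_one_left]
    refine ⟨k, ZMod.unitOfCoprime k (hkq.mul_right hkM), by simp, ?_, ?_⟩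
    · rw [Nat.mul_div_cancel_left M hq.pos]
      simpa using Nat.modEq_iff_dvd.mp hk2.symm
    · show χ _ ≠ 1
      rw [show ZMod.unitsMap (dvd_mul_right q M) (ZMod.unitOfCoprime k (hkq.mul_right hkM)) = u from
        Units.ext (by rw [ZMod.unitsMap_val, ZMod.coe_unitOfCoprime,
          ZMod.cast_natCast (dvd_mul_right q M), h1])]
      exact hu
  have hχΓ := nebenChar_inclusion_lgcGroup hψ₀ (lgcGroup_le_gamma0 (q := q) (M := M))
  have hmem : ∀ (d : bettiCocycles (Gamma0 (q * M)) (nebenChar χL) O)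
      {z : parabolicHoms O (lgcGroup q M) O},
      (∀ γ : lgcGroup q M, z.1 (Additive.ofMul γ) =
        (d : Gamma0 (q * M) → O) (Subgroup.inclusion lgcGroup_le_gamma0 γ)) →
      z ∈ eigenHoms (fun _ hg _ hy => conj_mem_lgcGroup hg hy) χL :=
    fun d _ hz => mem_eigenHoms_of_restrict lgcGroup_le_gamma0 hχΓ d hz
  have hsep := muSeparates_of_finite_residueField (p := p) hp
  have key := gal_add_gal_inv_eq_of_cocycle hqL χL ψ₀⁻¹ shiftStable_lgcGroup hG hgal hsep
    modularGroup_T_mem_lgcGroup hψχ l (fun h => hl ?_) hlq hP hσ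
    (fun g _ hz => gal_mem_eigenHoms _ χL hgal hsep ⟨20 * q, by ring⟩ g hz)
    (fun z hz h0 => twistLin_eq_zero_of_mem_eigenHoms _ χL hqL shiftStable_lgcGroup hG (ψ₀⁻¹)
      (K := FractionRing O) (IsFractionRing.injective O _) (conjStable_lgcGroup q M).neg_one_mem
      hχΓ hψ1 hψχ hq2 hχ' hz h0)
    c (hmem c hx) (hmem _ htx) hx htx
  · rwa [show (((ψ₀⁻¹ : (ZMod q)ˣ →* Oˣ) (ZMod.unitOfCoprime (l : ℕ) hlq))⁻¹ : Oˣ) =
      ψ₀ (ZMod.unitOfCoprime (l : ℕ) hlq) by rw [MonoidHom.inv_apply, inv_inv],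
      ← Units.val_pow_eq_pow_val, hψ₀] at key
  · rcases l.2.dvd_mul.mp h with h | h
    · rcases l.2.dvd_mul.mp h with h | h
      · exact h.mul_right p
      · exact (h.mul_right M).mul_right p
    · exact h.mul_left _

end FermatLib.MLT.LGC

end
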